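/-
MW / heights, definitions layer (D3) (helper32): the absolute values of `ℚ`, each with ONE fixed
extension to `Qb = AlgebraicClosure ℚ`.

* `Pla := Option Nat.Primes`, `abv : Pla → AbsoluteValue Qb ℝ`
  (`some p`: the norm of `PadicAlgCl p` along a chosen `ℚ`-embedding `Qb → PadicAlgCl p`;
   `none`: the norm of `ℂ` along the Prelude's `complexEmbedding`);
* `abv_none_rat`, `abv_some_rat` (restriction to `ℚ`: `|·|` and `padicNorm p`);
* `abv_some_add_le` (ultrametric inequality at the finite places);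
* `finite_abv_ne_one` (finite support), `prod_formula` (product formula on `ℚ`).
-/
import Mathlib
import Fermat.Prelude.Def_GaloisRep_ComplexConjugation

set_option autoImplicit false

noncomputable section

namespace Fermat.Agent.MW.Ht.AbsQb

local notation "Qb" => AlgebraicClosure ℚ

local instance isAlgebraicQb_abs : Algebra.IsAlgebraic ℚ Qb := AlgebraicClosure.isAlgebraic ℚ

/-- The places of `ℚ`: `none` is the archimedean one. -/
abbrev Pla : Type := Option Nat.Primes

instance factPrime (p : Nat.Primes) : Fact (p : ℕ).Prime := ⟨p.2⟩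

/-- A chosen `ℚ`-embedding of `Qb` into the algebraic closure of `ℚ_p`. -/
def embP (p : Nat.Primes) : Qb →ₐ[ℚ] PadicAlgCl (p : ℕ) := IsAlgClosed.lift

/-- The absolute values of `ℚ`, each with one fixed extension to `Qb`. -/
def abv : Pla → AbsoluteValue Qb ℝ
  | none => (NormedField.toAbsoluteValue ℂ).comp (f := (complexEmbedding : Qb →+* ℂ))
      (RingHom.injective _)
  | some p => (NormedField.toAbsoluteValue (PadicAlgCl (p : ℕ))).comp
      (f := (embP p : Qb →+* PadicAlgCl (p : ℕ))) (RingHom.injective _)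

theorem abv_none (x : Qb) : abv none x = ‖complexEmbedding x‖ := rfl

theorem abv_some (p : Nat.Primes) (x : Qb) : abv (some p) x = ‖embP p x‖ := rfl

/-- At the archimedean place, `abv` restricts to the usual absolute value on `ℚ`. -/
theorem abv_none_rat (a : ℚ) : abv none (a : Qb) = |(a : ℝ)| := by
  rw [abv_none, map_ratCast, Complex.norm_ratCast]

/-- At the place `p`, `abv` restricts to the `p`-adic norm on `ℚ`. -/
theorem abv_some_rat (p : Nat.Primes) (a : ℚ) :
    abv (some p) (a : Qb) = (padicNorm (p : ℕ) a : ℝ) := by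
  rw [abv_some, map_ratCast]
  have h : ((a : ℚ) : PadicAlgCl (p : ℕ)) = algebraMap ℚ_[(p : ℕ)] (PadicAlgCl (p : ℕ)) (a : ℚ_[(p : ℕ)]) := by
    rw [map_ratCast]
  rw [h, PadicAlgCl.norm_extends, Padic.eq_padicNorm]

/-- The ultrametric inequality at the finite places. -/
theorem abv_some_add_le (p : Nat.Primes) (x y : Qb) :
    abv (some p) (x + y) ≤ max (abv (some p) x) (abv (some p) y) := by
  rw [abv_some, abv_some, abv_some, map_add]
  exact IsUltrametricDist.norm_add_le_max _ _


/-! ### Positivity, units -/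

theorem abv_pos (v : Pla) {a : Qb} (ha : a ≠ 0) : 0 < abv v a := (abv v).pos ha

theorem abv_neg_one (v : Pla) : abv v (-1 : Qb) = 1 := by
  rw [AbsoluteValue.map_neg, AbsoluteValue.map_one]

theorem abv_some_natCast_le_one (p : Nat.Primes) (n : ℕ) : abv (some p) (n : Qb) ≤ 1 := by
  have h := abv_some_rat p (n : ℚ)
  rw [Rat.cast_natCast] at h
  rw [h]
  exact_mod_cast padicNorm.of_nat (p := (p : ℕ)) n

theorem abv_some_intCast_le_one (p : Nat.Primes) (n : ℤ) : abv (some p) (n : Qb) ≤ 1 := by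
  have h := abv_some_rat p (n : ℚ)
  rw [Rat.cast_intCast] at h
  rw [h]
  exact_mod_cast padicNorm.of_int (p := (p : ℕ)) n

theorem abv_some_intCast_eq_one (p : Nat.Primes) {n : ℤ} (h : ¬ ((p : ℕ) : ℤ) ∣ n) :
    abv (some p) (n : Qb) = 1 := by
  have h1 := abv_some_rat p (n : ℚ)
  rw [Rat.cast_intCast] at h1
  rw [h1, (padicNorm.int_eq_one_iff (p := (p : ℕ)) n).mpr h, Rat.cast_one]

/-- Integral elements have absolute value `≤ 1` at every finite place. -/
theorem abv_some_le_one_of_isIntegral (p : Nat.Primes) {x : Qb} (hx : IsIntegral ℤ x) :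
    abv (some p) x ≤ 1 := by
  rw [abv_some]
  have hy : IsIntegral ℤ (embP p x) := hx.map (embP p).toRingHom.toIntAlgHom
  have h1 : IsIntegral (Valued.v : Valuation (PadicAlgCl (p : ℕ)) NNReal).valuationSubring
      (embP p x) := hy.tower_top
  obtain ⟨w, hw⟩ := IsIntegrallyClosed.isIntegral_iff.mp h1
  have h2 : embP p x ∈ (Valued.v : Valuation (PadicAlgCl (p : ℕ)) NNReal).valuationSubring :=
    hw ▸ w.2
  rw [Valuation.mem_valuationSubring_iff] at h2
  exact_mod_cast h2

/-- For a nonzero algebraic number, there is a nonzero integer `c` such that `abv (some p) a ≤ 1`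
for all primes `p ∤ c`. -/
theorem exists_int_abv_le_one (a : Qb) :
    ∃ c : ℤ, c ≠ 0 ∧ ∀ p : Nat.Primes, ¬ ((p : ℕ) : ℤ) ∣ c → abv (some p) a ≤ 1 := by
  have ha : IsAlgebraic ℤ a :=
    (IsFractionRing.isAlgebraic_iff ℤ ℚ Qb).mpr (Algebra.IsAlgebraic.isAlgebraic a)
  obtain ⟨y, hy0, hy⟩ := ha.exists_integral_multiple
  refine ⟨y, hy0, fun p hp => ?_⟩
  have h1 := abv_some_le_one_of_isIntegral p hy
  rw [zsmul_eq_mul, map_mul, abv_some_intCast_eq_one p hp, one_mul] at h1
  exact h1

theorem finite_setOf_primes_dvd {c : ℤ} (hc : c ≠ 0) :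
    {p : Nat.Primes | ((p : ℕ) : ℤ) ∣ c}.Finite := by
  have hfin : {n : ℕ | n ∣ c.natAbs}.Finite := by
    have : {n : ℕ | n ∣ c.natAbs} = ↑(Nat.divisors c.natAbs) := by
      ext n
      simp [Nat.mem_divisors, Int.natAbs_ne_zero.mpr hc]
    rw [this]
    exact Finset.finite_toSet _
  refine (hfin.preimage (f := fun p : Nat.Primes => (p : ℕ))
    (Subtype.val_injective.injOn)).subset ?_
  intro p hp
  exact Int.natCast_dvd.mp hp

/-- **Finite support**: a nonzero algebraic number has absolute value `1` at almost all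
places. -/
theorem finite_abv_ne_one {a : Qb} (ha : a ≠ 0) : {v : Pla | abv v a ≠ 1}.Finite := by
  obtain ⟨c, hc0, hc⟩ := exists_int_abv_le_one a
  obtain ⟨d, hd0, hd⟩ := exists_int_abv_le_one a⁻¹
  have hfin : ({none} ∪ some '' ({p : Nat.Primes | ((p : ℕ) : ℤ) ∣ c} ∪
      {p : Nat.Primes | ((p : ℕ) : ℤ) ∣ d}) : Set Pla).Finite :=
    (Set.finite_singleton _).union
      (((finite_setOf_primes_dvd hc0).union (finite_setOf_primes_dvd hd0)).image _)
  refine hfin.subset ?_
  intro v hv
  rcases v with _ | p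
  · exact Or.inl rfl
  · refine Or.inr ⟨p, ?_, rfl⟩
    by_contra hp
    simp only [Set.mem_union, Set.mem_ofPred_eq, not_or] at hp
    apply hv
    have h1 := hc p hp.1
    have h2 := hd p hp.2
    rw [map_inv₀] at h2
    have hpos := abv_pos (some p) ha
    have h3 : 1 ≤ abv (some p) a := by
      by_contra hlt
      rw [not_le] at hlt
      have := one_lt_inv₀ hpos |>.mpr hlt
      linarith
    exact le_antisymm h1 h3

/-- The logarithms of the absolute values of a nonzero algebraic number have finite support. -/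
theorem hasFiniteSupport_log {a : Qb} (ha : a ≠ 0) :
    Function.HasFiniteSupport fun v : Pla => Real.log (abv v a) := by
  refine (finite_abv_ne_one ha).subset ?_
  intro v hv
  simp only [Function.mem_support] at hv
  intro h1
  apply hv
  show Real.log (abv v a) = 0
  rw [h1, Real.log_one]

/-- `(H1)`: every algebraic number is `v`-integral for almost all `v`. -/
theorem finite_one_lt_abv (a : Qb) : {v : Pla | 1 < abv v a}.Finite := by
  rcases eq_or_ne a 0 with rfl | ha
  · have h : {v : Pla | 1 < abv v (0 : Qb)} = ∅ := by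
      ext v
      simp only [map_zero, Set.mem_empty_iff_false, iff_false]
      intro hv
      exact absurd hv (by norm_num)
    rw [h]
    exact Set.finite_empty
  · exact (finite_abv_ne_one ha).subset fun v hv => (ne_of_gt hv)

/-! ### The product formula on `ℚ` -/

/-- The sum of the local logarithmic absolute values. -/
def logSum (a : Qb) : ℝ := ∑ᶠ v : Pla, Real.log (abv v a)

theorem logSum_mul {a b : Qb} (ha : a ≠ 0) (hb : b ≠ 0) :
    logSum (a * b) = logSum a + logSum b := by
  unfold logSum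
  rw [← finsum_add_distrib (hasFiniteSupport_log ha) (hasFiniteSupport_log hb)]
  refine finsum_congr fun v => ?_
  rw [map_mul, Real.log_mul (abv_pos v ha).ne' (abv_pos v hb).ne']

theorem logSum_one : logSum (1 : Qb) = 0 := by
  unfold logSum
  refine finsum_eq_zero_of_forall_eq_zero fun v => ?_
  rw [map_one, Real.log_one]

theorem logSum_neg (a : Qb) : logSum (-a) = logSum a := by
  unfold logSum
  refine finsum_congr fun v => ?_
  rw [AbsoluteValue.map_neg]

theorem logSum_prime (q : ℕ) (hq : q.Prime) : logSum (q : Qb) = 0 := by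
  classical
  unfold logSum
  have hsupp : Function.support (fun v : Pla => Real.log (abv v (q : Qb))) ⊆
      ↑({none, some ⟨q, hq⟩} : Finset Pla) := by
    intro v hv
    simp only [Function.mem_support] at hv
    simp only [Finset.coe_insert, Finset.coe_singleton, Set.mem_insert_iff,
      Set.mem_singleton_iff]
    rcases v with _ | p
    · exact Or.inl rfl
    · right
      by_contra hne
      apply hv
      have hpq : (p : ℕ) ≠ q := fun h => hne (by
        congr 1
        exact Subtype.ext h)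
      have h1 := abv_some_rat p (q : ℚ)
      rw [Rat.cast_natCast] at h1
      have : Fact q.Prime := ⟨hq⟩
      rw [h1, padicNorm.padicNorm_of_prime_of_ne hpq, Rat.cast_one, Real.log_one]
  rw [finsum_eq_sum_of_support_subset _ hsupp, Finset.sum_pair (by simp)]
  have h0 := abv_none_rat (q : ℚ)
  rw [Rat.cast_natCast] at h0
  have h1 := abv_some_rat ⟨q, hq⟩ (q : ℚ)
  rw [Rat.cast_natCast] at h1
  rw [h0, h1]
  have hq0 : (0 : ℝ) < q := by exact_mod_cast hq.pos
  show Real.log |((q : ℚ) : ℝ)| + Real.log ((padicNorm q (q : ℚ) : ℚ) : ℝ) = 0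
  rw [padicNorm.padicNorm_p hq.one_lt, Rat.cast_natCast, abs_of_pos hq0, Rat.cast_inv,
    Rat.cast_natCast, Real.log_inv, add_neg_cancel]

theorem logSum_natCast (n : ℕ) (hn : n ≠ 0) : logSum (n : Qb) = 0 := by
  induction n using Nat.recOnMul with
  | zero => exact absurd rfl hn
  | one => rw [Nat.cast_one]; exact logSum_one
  | prime p hp => exact logSum_prime p hp
  | mul a b iha ihb =>
    have ha : a ≠ 0 := fun h => hn (by rw [h, zero_mul])
    have hb : b ≠ 0 := fun h => hn (by rw [h, mul_zero])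
    rw [Nat.cast_mul, logSum_mul (Nat.cast_ne_zero.mpr ha) (Nat.cast_ne_zero.mpr hb), iha ha,
      ihb hb, add_zero]

theorem logSum_intCast (n : ℤ) (hn : n ≠ 0) : logSum (n : Qb) = 0 := by
  rcases Int.natAbs_eq n with h | h
  · rw [h, Int.cast_natCast]
    exact logSum_natCast _ (Int.natAbs_ne_zero.mpr hn)
  · rw [h, Int.cast_neg, Int.cast_natCast, logSum_neg]
    exact logSum_natCast _ (Int.natAbs_ne_zero.mpr hn)

/-- **The product formula** on `ℚ`. -/
theorem prod_formula {a : ℚ} (ha : a ≠ 0) : ∑ᶠ v : Pla, Real.log (abv v (a : Qb)) = 0 := by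
  show logSum (a : Qb) = 0
  have hden : (a.den : Qb) ≠ 0 := Nat.cast_ne_zero.mpr a.den_nz
  have haQ : (a : Qb) ≠ 0 := Rat.cast_ne_zero.mpr ha
  have hmul : (a : Qb) * (a.den : Qb) = (a.num : Qb) := by
    have h2 : ((a * (a.den : ℚ) : ℚ) : Qb) = ((a.num : ℚ) : Qb) := by
      rw [Rat.mul_den_eq_num a]
    rw [Rat.cast_mul, Rat.cast_natCast, Rat.cast_intCast] at h2
    exact h2
  have h1 := logSum_mul haQ hden
  rw [hmul, logSum_intCast _ (Rat.num_ne_zero.mpr ha), logSum_natCast _ a.den_nz, add_zero] at h1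
  exact h1.symm


/-! ### The sum of the local `log⁺` -/

/-- `∑_v log⁺ |a|_v` with respect to the fixed extensions. -/
def hplus (a : Qb) : ℝ := ∑ᶠ v : Pla, Real.log (max 1 (abv v a))

theorem logPlus_nonneg (v : Pla) (a : Qb) : 0 ≤ Real.log (max 1 (abv v a)) :=
  Real.log_nonneg (le_max_left _ _)

theorem hasFiniteSupport_logPlus (a : Qb) :
    Function.HasFiniteSupport fun v : Pla => Real.log (max 1 (abv v a)) := by
  refine (finite_one_lt_abv a).subset ?_
  intro v hv
  simp only [Function.mem_support] at hv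
  by_contra h
  apply hv
  have h1 : max 1 (abv v a) = 1 := max_eq_left (not_lt.mp h)
  rw [h1, Real.log_one]

theorem hplus_nonneg (a : Qb) : 0 ≤ hplus a := finsum_nonneg fun v => logPlus_nonneg v a

theorem logPlus_le_hplus (v : Pla) (a : Qb) : Real.log (max 1 (abv v a)) ≤ hplus a :=
  single_le_finsum v (hasFiniteSupport_logPlus a) (fun w => logPlus_nonneg w a)

theorem hplus_zero : hplus (0 : Qb) = 0 := by
  unfold hplus
  refine finsum_eq_zero_of_forall_eq_zero fun v => ?_
  rw [map_zero, max_eq_left zero_le_one, Real.log_one]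

/-! ### Northcott for `ℚ` -/

theorem abs_le_exp_hplus (c : ℚ) : |(c : ℝ)| ≤ Real.exp (hplus (c : Qb)) := by
  have h := logPlus_le_hplus none (c : Qb)
  rw [abv_none_rat] at h
  calc |(c : ℝ)| ≤ max 1 |(c : ℝ)| := le_max_right _ _
    _ = Real.exp (Real.log (max 1 |(c : ℝ)|)) :=
      (Real.exp_log (lt_of_lt_of_le zero_lt_one (le_max_left _ _))).symm
    _ ≤ Real.exp (hplus (c : Qb)) := Real.exp_le_exp.mpr h

theorem rat_mul_den_eq_num (c : ℚ) : (c : Qb) * (c.den : Qb) = (c.num : Qb) := by
  have h2 : ((c * (c.den : ℚ) : ℚ) : Qb) = ((c.num : ℚ) : Qb) := by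
    rw [Rat.mul_den_eq_num c]
  rw [Rat.cast_mul, Rat.cast_natCast, Rat.cast_intCast] at h2
  exact h2

theorem one_le_abv_den_mul (p : Nat.Primes) (c : ℚ) :
    1 ≤ abv (some p) (c.den : Qb) * max 1 (abv (some p) (c : Qb)) := by
  by_cases hp : ((p : ℕ) : ℤ) ∣ (c.den : ℤ)
  · have hnum : ¬ ((p : ℕ) : ℤ) ∣ c.num := by
      intro h
      have h1 : (p : ℕ) ∣ c.num.natAbs := Int.natCast_dvd.mp h
      have h2 : (p : ℕ) ∣ c.den := Int.natCast_dvd_natCast.mp hp
      have h3 := Nat.dvd_gcd h1 h2
      rw [c.reduced] at h3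
      exact p.2.one_lt.ne' (Nat.dvd_one.mp h3)
    have h1 := abv_some_intCast_eq_one p hnum
    rw [← rat_mul_den_eq_num c, map_mul] at h1
    calc (1 : ℝ) = abv (some p) (c.den : Qb) * abv (some p) (c : Qb) := by rw [mul_comm, h1]
      _ ≤ abv (some p) (c.den : Qb) * max 1 (abv (some p) (c : Qb)) :=
        mul_le_mul_of_nonneg_left (le_max_right _ _) ((abv (some p)).nonneg _)
  · have h1 := abv_some_intCast_eq_one p hp
    rw [Int.cast_natCast] at h1
    rw [h1, one_mul]
    exact le_max_left _ _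

theorem den_le_exp_hplus (c : ℚ) : (c.den : ℝ) ≤ Real.exp (hplus (c : Qb)) := by
  have hden : (c.den : Qb) ≠ 0 := Nat.cast_ne_zero.mpr c.den_nz
  have hf := hasFiniteSupport_log hden
  have hg := hasFiniteSupport_logPlus (c : Qb)
  have hsum : ∑ᶠ v : Pla, (Real.log (abv v (c.den : Qb)) + Real.log (max 1 (abv v (c : Qb))))
      = hplus (c : Qb) := by
    rw [finsum_add_distrib hf hg]
    have h := prod_formula (a := (c.den : ℚ)) (Nat.cast_ne_zero.mpr c.den_nz)
    rw [Rat.cast_natCast] at h
    rw [h, zero_add]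
    rfl
  have hnn : ∀ v : Pla,
      0 ≤ Real.log (abv v (c.den : Qb)) + Real.log (max 1 (abv v (c : Qb))) := by
    intro v
    have hpos1 : 0 < abv v (c.den : Qb) := abv_pos v hden
    have hpos2 : (0 : ℝ) < max 1 (abv v (c : Qb)) := lt_of_lt_of_le zero_lt_one (le_max_left _ _)
    rw [← Real.log_mul hpos1.ne' hpos2.ne']
    apply Real.log_nonneg
    rcases v with _ | p
    · have h0 := abv_none_rat (c.den : ℚ)
      rw [Rat.cast_natCast] at h0
      rw [h0]
      have h1 : (1 : ℝ) ≤ |((c.den : ℚ) : ℝ)| := by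
        rw [Rat.cast_natCast, abs_of_nonneg (Nat.cast_nonneg _)]
        exact_mod_cast c.den_pos
      calc (1 : ℝ) = 1 * 1 := (one_mul 1).symm
        _ ≤ |((c.den : ℚ) : ℝ)| * max 1 (abv none (c : Qb)) :=
          mul_le_mul h1 (le_max_left _ _) zero_le_one (abs_nonneg _)
    · exact one_le_abv_den_mul p c
  have hfs : Function.HasFiniteSupport fun v : Pla =>
      Real.log (abv v (c.den : Qb)) + Real.log (max 1 (abv v (c : Qb))) := by
    refine (hf.union hg).subset ?_
    intro v hv
    simp only [Function.mem_support] at hv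
    by_contra hcon
    simp only [Set.mem_union, Function.mem_support, not_or, not_not] at hcon
    exact hv (by rw [hcon.1, hcon.2, add_zero])
  have h1 := single_le_finsum none hfs hnn
  rw [hsum] at h1
  have h0 := abv_none_rat (c.den : ℚ)
  rw [Rat.cast_natCast, Rat.cast_natCast, abs_of_nonneg (Nat.cast_nonneg _)] at h0
  have h2 : Real.log (c.den : ℝ) ≤ hplus (c : Qb) := by
    have h3 : Real.log (c.den : ℝ) ≤
        Real.log (abv none (c.den : Qb)) + Real.log (max 1 (abv none (c : Qb))) := by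
      rw [h0]
      exact le_add_of_nonneg_right (logPlus_nonneg none _)
    exact h3.trans h1
  have hdpos : (0 : ℝ) < c.den := by exact_mod_cast c.den_pos
  calc (c.den : ℝ) = Real.exp (Real.log (c.den : ℝ)) := (Real.exp_log hdpos).symm
    _ ≤ Real.exp (hplus (c : Qb)) := Real.exp_le_exp.mpr h2

/-- **Northcott for `ℚ`** in terms of `abv`. -/
theorem finite_rat_hplus_le (B : ℝ) : {c : ℚ | hplus (c : Qb) ≤ B}.Finite := by
  set N : ℕ := ⌈Real.exp B⌉₊ with hN
  have hfin : ((fun nd : ℤ × ℕ => (nd.1 : ℚ) / (nd.2 : ℚ)) ''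
      (Set.Icc (-((N * N : ℕ) : ℤ)) ((N * N : ℕ) : ℤ) ×ˢ Set.Icc 0 N)).Finite :=
    ((Set.finite_Icc _ _).prod (Set.finite_Icc _ _)).image _
  refine hfin.subset ?_
  intro c hc
  have hc' : hplus (c : Qb) ≤ B := hc
  have hexp : Real.exp (hplus (c : Qb)) ≤ N :=
    (Real.exp_le_exp.mpr hc').trans (Nat.le_ceil _)
  have hden : (c.den : ℝ) ≤ N := (den_le_exp_hplus c).trans hexp
  have habs : |(c : ℝ)| ≤ N := (abs_le_exp_hplus c).trans hexp
  have hden' : c.den ≤ N := by exact_mod_cast hden
  have hdpos : (0 : ℝ) < c.den := by exact_mod_cast c.den_pos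
  have hnum : |(c.num : ℝ)| ≤ (N : ℝ) * N := by
    have h1 : (c : ℝ) = (c.num : ℝ) / (c.den : ℝ) := Rat.cast_def c
    have h2 : |(c.num : ℝ)| = |(c : ℝ)| * (c.den : ℝ) := by
      rw [h1, abs_div, abs_of_pos hdpos, div_mul_cancel₀ _ hdpos.ne']
    rw [h2]
    exact mul_le_mul habs hden hdpos.le (Nat.cast_nonneg _)
  have hnum' : |c.num| ≤ ((N * N : ℕ) : ℤ) := by
    have : ((|c.num| : ℤ) : ℝ) ≤ (((N * N : ℕ) : ℤ) : ℝ) := by
      push_cast
      exact hnum
    exact_mod_cast this
  refine ⟨(c.num, c.den), ⟨?_, ?_⟩, ?_⟩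
  · exact ⟨(abs_le.mp hnum').1, (abs_le.mp hnum').2⟩
  · exact ⟨Nat.zero_le _, hden'⟩
  · exact Rat.num_div_den c

end Fermat.Agent.MW.Ht.AbsQb
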