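/-
MW / Ht / Defs  (helper9) — the SHARED CONCRETE DEFINITIONS of the height side ((D5) of #2951).

`F = modularFunctionFieldBar N` over `Qb`, `Pl N` its places, `pinf N` the cusp `∞`,
`Pt N` the places other than `∞`, `GQ = Gal(Qb/ℚ)` acting on all of them.

* `galPl`, `galPt`, `galDiv` : the Galois action on places / points / effective divisors;
* `toDiv`, `clDiv`, `clFull : (Pt N →₀ ℕ) →+ JZero N` : `D ↦ [D − deg D · ∞]`, equivariant;
* `RatU U` : the `U`-invariant effective divisors (`U ≤ GQ`);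
* for a local datum `L : HtM.LocalHt absFamily (pinf N) t m` (the interface of HT-M,
  `MW/HtM/Interface.lean`, over the family `AbsQb.absFamily` of `MW/Ht/AbsFamilyQb.lean`):
    `gPt L P Q = ∑ᶠ v, −log δ_v(P,Q)`,   `etaPt t m P = (∑ᶠ v, log⁺ |t(P)|_v) / m`,
    `gU L Σ p q = ∑_{s ∈ Σ} gPt L (s p) (s q)`,   `etaU t m Σ p = ∑_{s ∈ Σ} etaPt t m (s p)`
  (`Σ` a finite set of coset representatives of `U` in `GQ`; `ℚ` is the case `Σ = {1}`).
-/
import Mathlib
import Fermat.Agent.MW.Ht.AbsQb
import Fermat.Agent.MW.Ht.AbsFamilyQb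
import Fermat.Agent.MW.HtM.Interface
import Fermat.Agent.MW.HQ.Defs
import Fermat.Agent.Lib.FF.PlaceInf
import Fermat.Agent.ESJ.Jac.FinDimK
import Fermat.Prelude.Def_ModularCurve_ArithmeticGalois

set_option autoImplicit false
set_option linter.unusedSectionVars false

noncomputable section

namespace Fermat.Agent.MW.Ht.Defs

open AlgebraicCurve ModularCurve
open Fermat.Agent.MW Fermat.Agent.MW.Ht.AbsQb Fermat.Agent.MW.HtM

local notation "Qb" => AlgebraicClosure ℚ
local notation "GQ" => (AlgebraicClosure ℚ ≃ₐ[ℚ] AlgebraicClosure ℚ)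

variable (N : ℕ) [NeZero N]

/-- The function field of `X_0(N)` over `Qb`. -/
abbrev FN : Type := ↥(modularFunctionFieldBar N)

/-- Its places. -/
abbrev Pl : Type := Place Qb (FN N)

/-- The cusp `∞`. -/
def pinf : Pl N := Fermat.Agent.Lib.FF.PlaceInf.placeInfL Qb N

/-- The points: places other than `∞`. -/
abbrev Pt : Type := {P : Pl N // P ≠ pinf N}

/-! ### The Galois action -/

/-- The Galois action on places. -/
def galPl (σ : GQ) (P : Pl N) : Pl N := arithmeticGalois (modularFunctionFieldFull N) σ • P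

theorem galPl_one (P : Pl N) : galPl N 1 P = P := by
  unfold galPl
  rw [map_one, one_smul]

theorem galPl_mul (σ τ : GQ) (P : Pl N) : galPl N (σ * τ) P = galPl N σ (galPl N τ P) := by
  unfold galPl
  rw [map_mul, mul_smul]

theorem galPl_pinf (σ : GQ) : galPl N σ (pinf N) = pinf N :=
  Fermat.Agent.Lib.FF.PlaceInf.arithmeticGalois_smul_placeInfL Qb N σ

theorem galPl_injective (σ : GQ) : Function.Injective (galPl N σ) := by
  intro P Q h
  have := congrArg (galPl N σ⁻¹) h
  rwa [← galPl_mul, ← galPl_mul, inv_mul_cancel, galPl_one, galPl_one] at this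

theorem galPl_ne_pinf (σ : GQ) {P : Pl N} (hP : P ≠ pinf N) : galPl N σ P ≠ pinf N := by
  intro h
  rw [← galPl_pinf N σ] at h
  exact hP (galPl_injective N σ h)

/-- The Galois action on points. -/
def galPt (σ : GQ) (p : Pt N) : Pt N := ⟨galPl N σ p.1, galPl_ne_pinf N σ p.2⟩

@[simp] theorem coe_galPt (σ : GQ) (p : Pt N) : (galPt N σ p : Pl N) = galPl N σ p.1 := rfl

theorem galPt_one (p : Pt N) : galPt N 1 p = p := Subtype.ext (galPl_one N p.1)

theorem galPt_mul (σ τ : GQ) (p : Pt N) : galPt N (σ * τ) p = galPt N σ (galPt N τ p) :=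
  Subtype.ext (galPl_mul N σ τ p.1)

theorem galPt_injective (σ : GQ) : Function.Injective (galPt N σ) := by
  intro p q h
  exact Subtype.ext (galPl_injective N σ (congrArg Subtype.val h))

/-- `GQ` acts on the points. -/
instance galAction : MulAction GQ (Pt N) where
  smul σ p := galPt N σ p
  one_smul p := galPt_one N p
  mul_smul σ τ p := galPt_mul N σ τ p

theorem smul_def (σ : GQ) (p : Pt N) : σ • p = galPt N σ p := rfl

/-- The Galois action on effective divisors. -/
def galDiv (σ : GQ) : (Pt N →₀ ℕ) →+ (Pt N →₀ ℕ) :=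
  Finsupp.mapDomain.addMonoidHom (galPt N σ)

theorem galDiv_single (σ : GQ) (p : Pt N) (n : ℕ) :
    galDiv N σ (Finsupp.single p n) = Finsupp.single (galPt N σ p) n := by
  simp [galDiv]

theorem galDiv_apply (σ : GQ) (D : Pt N →₀ ℕ) (p : Pt N) :
    galDiv N σ D (galPt N σ p) = D p :=
  Finsupp.mapDomain_apply (galPt_injective N σ) D p

theorem deg_galDiv (σ : GQ) (D : Pt N →₀ ℕ) : HQ.deg (galDiv N σ D) = HQ.deg D := by
  unfold HQ.deg galDiv
  exact Finsupp.sum_mapDomain_index_addMonoidHom (h := fun _ => AddMonoidHom.id ℕ)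

/-- The `U`-invariant ("`U`-rational") effective divisors. -/
def RatU (U : Subgroup GQ) : AddSubmonoid (Pt N →₀ ℕ) where
  carrier := {D | ∀ σ ∈ U, galDiv N σ D = D}
  zero_mem' := fun σ _ => map_zero _
  add_mem' := fun {D E} hD hE σ hσ => by rw [map_add, hD σ hσ, hE σ hσ]

theorem mem_RatU {U : Subgroup GQ} {D : Pt N →₀ ℕ} :
    D ∈ RatU N U ↔ ∀ σ ∈ U, galDiv N σ D = D := Iff.rfl

/-! ### The class map -/

/-- An effective divisor on the points, as a divisor of the function field. -/
def toDiv : (Pt N →₀ ℕ) →+ Divisor Qb (FN N) :=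
  (Finsupp.mapDomain.addMonoidHom (Subtype.val : Pt N → Pl N)).comp
    (Finsupp.mapRange.addMonoidHom (Nat.castAddMonoidHom ℤ))

theorem toDiv_single (p : Pt N) (n : ℕ) :
    toDiv N (Finsupp.single p n) = Finsupp.single (p : Pl N) (n : ℤ) := by
  simp [toDiv]

theorem deg_eq_one (v : Pl N) : v.deg = 1 :=
  Fermat.Agent.ESJ.Jac.FinDimK.deg_eq_one_FNK Qb N v

theorem degree_toDiv (D : Pt N →₀ ℕ) : Divisor.degree (toDiv N D) = (HQ.deg D : ℤ) := by
  induction D using Finsupp.induction_linear with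
  | zero => simp
  | add D E hD hE => rw [map_add, map_add, hD, hE, HQ.deg_add]; push_cast; rfl
  | single p n =>
    rw [toDiv_single, Divisor.degree_single, deg_eq_one, HQ.deg]
    simp

/-- `D − deg D · ∞` as a divisor of degree zero. -/
def clDiv : (Pt N →₀ ℕ) →+ Divisor.degZero (K := Qb) (F := FN N) where
  toFun D := ⟨toDiv N D - (HQ.deg D : ℤ) • Finsupp.single (pinf N) 1, by
    rw [Divisor.mem_degZero, map_sub, map_zsmul, degree_toDiv, Divisor.degree_single,
      deg_eq_one]
    simp⟩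
  map_zero' := by
    ext1
    simp
  map_add' D E := by
    ext1
    simp only [map_add, HQ.deg_add, Nat.cast_add, add_smul, AddSubgroup.coe_add]
    abel

/-- **The class map** `D ↦ [D − deg D · ∞] ∈ J_0(N)(Qb)`. -/
def clFull : (Pt N →₀ ℕ) →+ JZero N :=
  (QuotientAddGroup.mk' _).comp (clDiv N)

theorem clFull_apply (D : Pt N →₀ ℕ) : clFull N D = Pic0.mk (clDiv N D) := rfl

theorem smul_toDiv (σ : GQ) (D : Pt N →₀ ℕ) :
    arithmeticGalois (modularFunctionFieldFull N) σ • toDiv N D = toDiv N (galDiv N σ D) := by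
  induction D using Finsupp.induction_linear with
  | zero => simp
  | add D E hD hE => rw [map_add, smul_add, hD, hE, map_add, map_add]
  | single p n =>
    rw [toDiv_single, galDiv_single, toDiv_single, SemilinearAut.smul_single]
    rfl

/-- The class map is Galois-equivariant. -/
theorem clFull_galDiv (σ : GQ) (D : Pt N →₀ ℕ) : clFull N (galDiv N σ D) = σ • clFull N D := by
  rw [clFull_apply, clFull_apply, galois_smul_pic0_def]
  show _ = Pic0.mk (SemilinearAut.degZeroSMulHom _ (clDiv N D))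
  congr 1
  apply Subtype.ext
  rw [SemilinearAut.coe_degZeroSMulHom]
  show toDiv N (galDiv N σ D) - (HQ.deg (galDiv N σ D) : ℤ) • Finsupp.single (pinf N) 1
    = arithmeticGalois (modularFunctionFieldFull N) σ •
      (toDiv N D - (HQ.deg D : ℤ) • Finsupp.single (pinf N) 1)
  rw [smul_sub, smul_toDiv, deg_galDiv, smul_comm, SemilinearAut.smul_single]
  congr 3
  exact (galPl_pinf N σ).symm

/-- The class of a `U`-invariant divisor is `U`-invariant. -/
theorem clFull_mem_fixed {U : Subgroup GQ} {D : Pt N →₀ ℕ} (hD : D ∈ RatU N U) (σ : GQ)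
    (hσ : σ ∈ U) : σ • clFull N D = clFull N D := by
  rw [← clFull_galDiv, hD σ hσ]

/-! ### The global heights attached to a local datum -/

variable {N}
variable {t : FN N} {m : ℕ}

/-- The global diagonal height of a pair of places: `∑_v −log δ_v(P, Q)`. -/
def gPt (L : LocalHt absFamily (pinf N) t m) (P Q : Pl N) : ℝ :=
  ∑ᶠ v : Pla, -Real.log (L.δ v P Q)

theorem gPt_symm (L : LocalHt absFamily (pinf N) t m) (P Q : Pl N) : gPt L P Q = gPt L Q P := by
  unfold gPt
  exact finsum_congr fun v => by rw [L.δ_symm]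

theorem neg_log_delta_nonneg (L : LocalHt absFamily (pinf N) t m) (v : Pla) (P Q : Pl N) :
    0 ≤ -Real.log (L.δ v P Q) :=
  neg_nonneg.mpr (Real.log_nonpos (L.δ_nonneg _ _ _) (L.δ_le_one _ _ _))

theorem gPt_nonneg (L : LocalHt absFamily (pinf N) t m) (P Q : Pl N) : 0 ≤ gPt L P Q :=
  finsum_nonneg fun v => neg_log_delta_nonneg L v P Q

/-- The local terms of `gPt` vanish at almost all places. -/
theorem hasFiniteSupport_neg_log_delta (L : LocalHt absFamily (pinf N) t m) {P Q : Pl N}
    (hP : P ≠ pinf N) (hQ : Q ≠ pinf N) (hne : P ≠ Q) :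
    (Function.support fun v : Pla => -Real.log (L.δ v P Q)).Finite := by
  refine (L.δ_eq_one P Q hP hQ hne).subset ?_
  intro v hv h1
  apply hv
  show -Real.log (L.δ v P Q) = 0
  rw [h1, Real.log_one, neg_zero]

/-- `gPt` as a finite sum over any finite set of places containing the exceptional ones. -/
theorem gPt_eq_sum (L : LocalHt absFamily (pinf N) t m) {P Q : Pl N} (T : Finset Pla)
    (hT : ∀ v, L.δ v P Q ≠ 1 → v ∈ T) :
    gPt L P Q = ∑ v ∈ T, -Real.log (L.δ v P Q) := by
  unfold gPt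
  refine finsum_eq_sum_of_support_subset _ ?_
  intro v hv
  refine Finset.mem_coe.mpr (hT v fun h1 => hv ?_)
  show -Real.log (L.δ v P Q) = 0
  rw [h1, Real.log_one, neg_zero]

/-- The global height of a place relative to `∞`: `(∑_v log⁺ |t(P)|_v) / m`. -/
def etaPt (t : FN N) (m : ℕ) (P : Pl N) : ℝ := hplus (pval P t) / m

theorem etaPt_nonneg (t : FN N) (m : ℕ) (P : Pl N) : 0 ≤ etaPt t m P :=
  div_nonneg (hplus_nonneg _) (Nat.cast_nonneg _)

/-- The diagonal height summed over coset representatives `Σ` of `U` in `GQ`. -/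
def gU (L : LocalHt absFamily (pinf N) t m) (S : Finset GQ) (p q : Pt N) : ℝ :=
  ∑ s ∈ S, gPt L (galPl N s p) (galPl N s q)

/-- The height relative to `∞` summed over coset representatives `Σ` of `U` in `GQ`. -/
def etaU (t : FN N) (m : ℕ) (S : Finset GQ) (p : Pt N) : ℝ :=
  ∑ s ∈ S, etaPt t m (galPl N s p)

theorem gU_symm (L : LocalHt absFamily (pinf N) t m) (S : Finset GQ) (p q : Pt N) :
    gU L S p q = gU L S q p :=
  Finset.sum_congr rfl fun s _ => gPt_symm L _ _

theorem gU_nonneg (L : LocalHt absFamily (pinf N) t m) (S : Finset GQ) (p q : Pt N) :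
    0 ≤ gU L S p q :=
  Finset.sum_nonneg fun s _ => gPt_nonneg L _ _

theorem etaU_nonneg (t : FN N) (m : ℕ) (S : Finset GQ) (p : Pt N) : 0 ≤ etaU t m S p :=
  Finset.sum_nonneg fun s _ => etaPt_nonneg t m _

end Fermat.Agent.MW.Ht.Defs
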