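import Mathlib
import Fermat.Agent.Lib.FF.BasePoint
import Fermat.Agent.Lib.FF.ModLRed
import Fermat.Agent.Lib.FF.PlaceInf
import Fermat.Agent.Lib.FF.KMLemmas
import Fermat.Agent.Lib.Descent.Core
import Fermat.Prelude.Def_ModularCurve_ArithmeticGalois

/-!
# MW / HT-Q: the moving lemma over a fixed field (`rep`)

`exists_invariant_rep`: there is `d₀` such that for every subgroup `U` of `G_ℚ`, every class
`x ∈ J₀(N)(ℚ̄)` fixed by `U` and every finite set `S` of places, there is an effective divisor `D`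
of degree `≤ d₀`, invariant under `U`, disjoint from `S ∪ {∞}`, with `[D - deg D · ∞] = x`.

* (A) `exists_rigid_effective`: every class contains `E - deg E · P` with `E ≥ 0` of minimal
  degree; then `E P = 0`, `deg E ≤ g` and `L(E)` consists of constants, so that `E` is the unique
  effective divisor in its linear equivalence class (`eq_of_isPrincipal_sub`).  Hence `E` is
  invariant under every semilinear automorphism fixing `P` and the class.
* (B) `le_span_fixed_L`: an invariant finite-dimensional space of functions is spanned by its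
  invariant elements (echelon form on Laurent coefficients, `Lib.Descent.le_span_fixed`);
  `exists_fixed_notMem`: an invariant element avoiding finitely many proper subspaces.
-/

set_option autoImplicit false

noncomputable section

namespace Fermat.Agent.MW.Ht.Rep

open AlgebraicCurve ModularCurve WithZero
open Fermat.Agent.Lib.FF Fermat.Agent.Lib.FF.BasePoint Fermat.Agent.Lib.FF.PlaceInf

/-! ### (A) rigid effective representatives -/

section General

variable {K F : Type*} [Field K] [Field F] [Algebra K F] {x : F}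

/-- The divisor of a nonzero function. -/
theorem exists_div (h : IsFF1 K F x) {f : F} (hf : f ≠ 0) :
    ∃ Df : Divisor K F, (∀ v : Place K F, Df v = v.ord f) ∧ Divisor.degree Df = 0 :=
  h.hasPrincipalDivisors.exists_divisor f hf

/-- The degree of an effective divisor is nonnegative. -/
theorem degree_nonneg (h : IsFF1 K F x) {E : Divisor K F} (hE : 0 ≤ E) :
    0 ≤ Divisor.degree E := by
  rw [h.degree_eq_sum]
  exact Finset.sum_nonneg fun v _ => Finsupp.le_def.mp hE v

/-- The degree of `n • P`. -/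
theorem degree_zsmul_single (h : IsFF1 K F x) (P : Place K F) (n : ℤ) :
    Divisor.degree (n • (Finsupp.single P (1 : ℤ) : Divisor K F)) = n := by
  rw [map_zsmul, Divisor.degree_single, h.deg_eq_one P]
  simp

/-- Constants lie in `L(E)` for `E ≥ 0`. -/
theorem algebraMap_mem_L {E : Divisor K F} (hE : 0 ≤ E) (c : K) :
    algebraMap K F c ∈ riemannRochSpace E := by
  intro v
  refine (v.adicValuation_algebraMap_le_one c).trans ?_
  rw [← exp_zero, exp_le_exp]
  exact Finsupp.le_def.mp hE v

/-- The set of effective divisors `E` with `E - deg E · P ∼ D₀`. -/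
def EffRep (P : Place K F) (D₀ : Divisor K F) : Set (Divisor K F) :=
  {E | 0 ≤ E ∧
    E - Divisor.degree E • (Finsupp.single P (1 : ℤ) : Divisor K F) - D₀ ∈ Divisor.principal}

/-- Existence of an effective representative of degree `g`. -/
theorem exists_effRep (h : IsFF1 K F x) (P : Place K F) (D₀ : Divisor K F)
    (hD₀ : Divisor.degree D₀ = 0) :
    ∃ E ∈ EffRep P D₀, Divisor.degree E = (genusFF K F : ℤ) := by
  have hdeg : Divisor.degree (D₀ + Finsupp.single P ((genusFF K F : ℕ) : ℤ)) = genusFF K F := by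
    rw [map_add, hD₀, Divisor.degree_single, h.deg_eq_one P]
    simp
  obtain ⟨f, hf, hfD⟩ := h.exists_ne_zero_of_degree_ge _ hdeg.ge
  obtain ⟨Df, hDf, hDf0⟩ := exists_div h hf
  refine ⟨Df + (D₀ + Finsupp.single P ((genusFF K F : ℕ) : ℤ)), ⟨?_, ?_⟩, ?_⟩
  · refine Finsupp.le_def.mpr fun v => ?_
    rw [Finsupp.add_apply, hDf v]
    exact hfD v
  · have hd : Divisor.degree (Df + (D₀ + Finsupp.single P ((genusFF K F : ℕ) : ℤ)))
        = genusFF K F := by rw [map_add, hDf0, hdeg, zero_add]
    rw [hd]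
    have e : Df + (D₀ + Finsupp.single P ((genusFF K F : ℕ) : ℤ))
        - ((genusFF K F : ℕ) : ℤ) • (Finsupp.single P (1 : ℤ) : Divisor K F) - D₀ = Df := by
      rw [Finsupp.smul_single, smul_eq_mul, mul_one]
      abel
    rw [e]
    exact ⟨f, hf, hDf⟩
  · rw [map_add, hDf0, hdeg, zero_add]

/-- An effective representative of minimal degree does not contain the base point. -/
theorem apply_eq_zero_of_min (h : IsFF1 K F x) (P : Place K F) (D₀ : Divisor K F)
    {E : Divisor K F} (hE : E ∈ EffRep P D₀)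
    (hmin : ∀ E' ∈ EffRep P D₀, Divisor.degree E ≤ Divisor.degree E') : E P = 0 := by
  by_contra hne
  have hE0 : 0 ≤ E P := Finsupp.le_def.mp hE.1 P
  have hpos : 1 ≤ E P := by omega
  set E' : Divisor K F := E - Finsupp.single P (1 : ℤ) with hE'
  have hdeg' : Divisor.degree E' = Divisor.degree E - 1 := degree_sub_single h E P
  have hmem : E' ∈ EffRep P D₀ := by
    refine ⟨Finsupp.le_def.mpr fun v => ?_, ?_⟩
    · rw [hE', Finsupp.sub_apply]
      by_cases hv : v = P
      · subst hv
        rw [Finsupp.single_eq_same]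
        simp only [Finsupp.coe_zero, Pi.zero_apply]
        omega
      · rw [Finsupp.single_eq_of_ne hv, sub_zero]
        exact Finsupp.le_def.mp hE.1 v
    · have e : E' - Divisor.degree E' • (Finsupp.single P (1 : ℤ) : Divisor K F) - D₀
          = E - Divisor.degree E • (Finsupp.single P (1 : ℤ) : Divisor K F) - D₀ := by
        rw [hdeg', hE', sub_smul, one_smul]
        abel
      rw [e]
      exact hE.2
  have := hmin E' hmem
  omega

/-- For an effective representative of minimal degree, `L(E)` consists of constants. -/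
theorem const_of_mem_L_of_min (h : IsFF1 K F x) (P : Place K F) (D₀ : Divisor K F)
    {E : Divisor K F} (hE : E ∈ EffRep P D₀)
    (hmin : ∀ E' ∈ EffRep P D₀, Divisor.degree E ≤ Divisor.degree E') {φ : F}
    (hφ : φ ∈ riemannRochSpace E) : ∃ c : K, φ = algebraMap K F c := by
  have hEP : E P = 0 := apply_eq_zero_of_min h P D₀ hE hmin
  have h1 : P.adicValuation φ ≤ 1 := by
    have := hφ P
    rwa [hEP, exp_zero] at this
  obtain ⟨c, hc⟩ := h.resK P ⟨φ, RR.mem_of_val_le_one P h1⟩
  refine ⟨c, ?_⟩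
  by_contra hne
  set ψ : F := φ - algebraMap K F c with hψ
  have hψ0 : ψ ≠ 0 := sub_ne_zero.mpr hne
  have hψL : ψ ∈ riemannRochSpace E :=
    Submodule.sub_mem _ hφ (algebraMap_mem_L hE.1 c)
  have hval := RR.val_le_exp_neg_one_of_mem_maximalIdeal P _ hc
  have hval' : P.adicValuation ψ ≤ exp (-1 : ℤ) := hval
  rw [P.adicValuation_eq_exp_neg_ord hψ0, exp_le_exp] at hval'
  obtain ⟨Dψ, hDψ, hDψ0⟩ := exists_div h hψ0
  have hmem : E + Dψ ∈ EffRep P D₀ := by
    refine ⟨(KMLemmas.mem_L_iff_nonneg hψ0 hDψ).mp hψL, ?_⟩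
    have e : E + Dψ - Divisor.degree (E + Dψ) • (Finsupp.single P (1 : ℤ) : Divisor K F) - D₀
        = (E - Divisor.degree E • (Finsupp.single P (1 : ℤ) : Divisor K F) - D₀) + Dψ := by
      rw [map_add, hDψ0, add_zero]
      abel
    rw [e]
    exact AddSubgroup.add_mem _ hE.2 ⟨ψ, hψ0, hDψ⟩
  have hmin' : ∀ E' ∈ EffRep P D₀, Divisor.degree (E + Dψ) ≤ Divisor.degree E' := by
    intro E' hE'
    rw [map_add, hDψ0, add_zero]
    exact hmin E' hE'
  have h0 := apply_eq_zero_of_min h P D₀ hmem hmin'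
  rw [Finsupp.add_apply, hEP, hDψ P, zero_add] at h0
  omega

/-- **(A)** Every class contains `E - deg E · P` with `E` effective of degree `≤ g`, not containing
`P`, and rigid (`L(E)` consists of constants). -/
theorem exists_rigid_effective (h : IsFF1 K F x) (P : Place K F) (D₀ : Divisor K F)
    (hD₀ : Divisor.degree D₀ = 0) :
    ∃ E : Divisor K F, 0 ≤ E ∧ E P = 0 ∧ Divisor.degree E ≤ (genusFF K F : ℤ) ∧
      E - Divisor.degree E • (Finsupp.single P (1 : ℤ) : Divisor K F) - D₀ ∈ Divisor.principal ∧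
      ∀ φ ∈ riemannRochSpace E, ∃ c : K, φ = algebraMap K F c := by
  classical
  obtain ⟨E₁, hE₁, hE₁d⟩ := exists_effRep h P D₀ hD₀
  have hne : ∃ n : ℕ, ∃ E ∈ EffRep P D₀, Divisor.degree E = (n : ℤ) := ⟨_, E₁, hE₁, hE₁d⟩
  obtain ⟨E, hE, hEd⟩ := Nat.find_spec hne
  have hmin : ∀ E' ∈ EffRep P D₀, Divisor.degree E ≤ Divisor.degree E' := by
    intro E' hE'
    have h0 := degree_nonneg h hE'.1
    have h1 : Nat.find hne ≤ (Divisor.degree E').toNat :=
      Nat.find_min' hne ⟨E', hE', (Int.toNat_of_nonneg h0).symm⟩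
    rw [hEd]
    omega
  refine ⟨E, hE.1, apply_eq_zero_of_min h P D₀ hE hmin, ?_, hE.2,
    fun φ hφ => const_of_mem_L_of_min h P D₀ hE hmin hφ⟩
  rw [← hE₁d]
  exact hmin E₁ hE₁

/-- A rigid divisor is the only effective divisor in its linear equivalence class. -/
theorem eq_of_isPrincipal_sub {E E₂ : Divisor K F}
    (hrig : ∀ φ ∈ riemannRochSpace E, ∃ c : K, φ = algebraMap K F c) (hE₂ : 0 ≤ E₂)
    (hp : E₂ - E ∈ Divisor.principal) : E₂ = E := by
  obtain ⟨φ, hφ0, hφ⟩ := hp
  have hφL : φ ∈ riemannRochSpace E := by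
    intro v
    rw [v.adicValuation_eq_exp_neg_ord hφ0, exp_le_exp, ← hφ v, Finsupp.sub_apply]
    have := Finsupp.le_def.mp hE₂ v
    simp only [Finsupp.coe_zero, Pi.zero_apply] at this
    omega
  obtain ⟨c, rfl⟩ := hrig φ hφL
  have hc : c ≠ 0 := by
    rintro rfl
    exact hφ0 (map_zero _)
  have hord : ∀ v : Place K F, v.ord (algebraMap K F c) = 0 := by
    intro v
    have h1 := v.adicValuation_algebraMap_le_one c
    have h2 := v.adicValuation_algebraMap_le_one c⁻¹
    rw [map_inv₀] at h2
    rw [v.adicValuation_eq_exp_neg_ord hφ0, ← exp_zero, exp_le_exp] at h1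
    rw [v.adicValuation_eq_exp_neg_ord (inv_ne_zero hφ0), v.ord_inv, ← exp_zero, exp_le_exp] at h2
    omega
  ext v
  have := hφ v
  rw [hord v, Finsupp.sub_apply] at this
  omega

/-- `n • P` as a single. -/
theorem zsmul_single_one (P : Place K F) (n : ℤ) :
    n • (Finsupp.single P (1 : ℤ) : Divisor K F) = Finsupp.single P n := by
  rw [Finsupp.smul_single, smul_eq_mul, mul_one]

/-- A rigid effective divisor whose class relative to a fixed base point is fixed by a semilinear
automorphism is itself fixed. -/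
theorem smul_eq_of_rigid (g : SemilinearAut K F) {P : Place K F} (hP : g • P = P)
    {E D₀ : Divisor K F} (hE : 0 ≤ E)
    (hrig : ∀ φ ∈ riemannRochSpace E, ∃ c : K, φ = algebraMap K F c)
    (hcl : E - Divisor.degree E • (Finsupp.single P (1 : ℤ) : Divisor K F) - D₀
      ∈ Divisor.principal)
    (hg : g • D₀ - D₀ ∈ Divisor.principal) : g • E = E := by
  apply eq_of_isPrincipal_sub hrig
  · refine Finsupp.le_def.mpr fun v => ?_
    rw [SemilinearAut.divisor_smul_apply]
    exact Finsupp.le_def.mp hE _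
  · have h1 := SemilinearAut.smul_mem_principal g hcl
    have e : g • E - E
        = g • (E - Divisor.degree E • (Finsupp.single P (1 : ℤ) : Divisor K F) - D₀)
          - (E - Divisor.degree E • (Finsupp.single P (1 : ℤ) : Divisor K F) - D₀)
          + (g • D₀ - D₀) := by
      rw [zsmul_single_one, smul_sub, smul_sub, SemilinearAut.smul_single, hP]
      abel
    rw [e]
    exact AddSubgroup.add_mem _ (AddSubgroup.sub_mem _ h1 hcl) hg

/-- `L(D)` is stable under a semilinear automorphism fixing `D`. -/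
theorem smul_mem_L (g : SemilinearAut K F) {D : Divisor K F} (hD : g • D = D) {f : F}
    (hf : f ∈ riemannRochSpace D) : g • f ∈ riemannRochSpace D := by
  intro v
  rcases eq_or_ne f 0 with rfl | hf0
  · rw [smul_zero, map_zero]
    exact zero_le
  · have hgf : g • f ≠ 0 := by simpa using hf0
    rw [v.adicValuation_eq_exp_neg_ord hgf, exp_le_exp]
    have h1 := SemilinearAut.ord_smul g (g⁻¹ • v) f
    rw [smul_inv_smul] at h1
    have h2 := hf (g⁻¹ • v)
    rw [(g⁻¹ • v).adicValuation_eq_exp_neg_ord hf0, exp_le_exp] at h2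
    have h3 : D (g⁻¹ • v) = D v := by
      rw [← SemilinearAut.divisor_smul_apply, hD]
    omega

/-- The divisor of a function fixed by a semilinear automorphism is fixed. -/
theorem smul_div_eq (g : SemilinearAut K F) {f : F} (hf : g • f = f) {Df : Divisor K F}
    (hDf : ∀ v : Place K F, Df v = v.ord f) : g • Df = Df := by
  ext v
  rw [SemilinearAut.divisor_smul_apply, hDf, hDf]
  have h1 := SemilinearAut.ord_smul g (g⁻¹ • v) f
  rw [smul_inv_smul, hf] at h1
  exact h1.symm

end General

/-! ### (B) invariant elements avoiding finitely many subspaces -/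

/-- An additive subgroup of a vector space over a field of characteristic zero which is contained
in no member of a finite family of subspaces is not contained in their union. -/
theorem exists_mem_forall_notMem {L F : Type*} [Field L] [CharZero L] [AddCommGroup F]
    [Module L F] (V : AddSubgroup F) {ι : Type*} (T : Finset ι) (p : ι → Submodule L F)
    (h : ∀ i ∈ T, ∃ f ∈ V, f ∉ p i) : ∃ f ∈ V, ∀ i ∈ T, f ∉ p i := by
  classical
  by_contra hcon
  push Not at hcon
  let q : ι → Submodule ℤ V := fun i =>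
    AddSubgroup.toIntSubmodule ((p i).toAddSubgroup.comap V.subtype)
  have hcov : ⋃ i ∈ T, (q i : Set V) = Set.univ := by
    refine Set.eq_univ_of_forall fun f => ?_
    obtain ⟨i, hi, hfi⟩ := hcon f.1 f.2
    exact Set.mem_biUnion hi hfi
  obtain ⟨i, hi, hfin⟩ := Submodule.exists_finiteIndex_of_cover hcov
  obtain ⟨f, hfV, hfi⟩ := h i hi
  obtain ⟨n, hn0, -, hn⟩ :=
    AddSubgroup.exists_nsmul_mem_of_index_ne_zero hfin.index_ne_zero (⟨f, hfV⟩ : V)
  have h1 : n • f ∈ p i := hn
  apply hfi
  have h2 : ((n : L))⁻¹ • (n • f) ∈ p i := (p i).smul_mem _ h1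
  rwa [← Nat.cast_smul_eq_nsmul L n f, smul_smul,
    inv_mul_cancel₀ (Nat.cast_ne_zero.mpr hn0.ne'), one_smul] at h2

section Laurent

variable {L : Type*} [Field L] [Algebra ℚ L] (F₀ : IntermediateField ℚ (LaurentSeries ℚ))

/-- The Laurent coefficients as a linear map. -/
def coeffLin : ↥(laurentBaseChange L F₀) →ₗ[L] (ℤ → L) where
  toFun f := fun n => (f : LaurentSeries L).coeff n
  map_add' f g := by
    ext n
    simp
  map_smul' c f := by
    ext n
    show ((c • f : ↥(laurentBaseChange L F₀)) : LaurentSeries L).coeff n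
      = c * (f : LaurentSeries L).coeff n
    rw [IntermediateField.coe_smul, Algebra.smul_def, algebraMap_laurentSeries_eq_single,
      HahnSeries.coeff_single_zero_mul]

theorem coeffLin_apply (f : ↥(laurentBaseChange L F₀)) (n : ℤ) :
    coeffLin F₀ f n = (f : LaurentSeries L).coeff n := rfl

theorem coeffLin_injective : Function.Injective (coeffLin (L := L) F₀) := by
  intro f g h
  apply Subtype.ext
  ext n
  exact congrFun h n

/-- **Galois descent for invariant spaces of functions.** A finite-dimensional space of functions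
stable under a set `U` of Galois automorphisms is spanned by its `U`-invariant elements. -/
theorem le_span_fixed_L (U : Set (L ≃ₐ[ℚ] L)) (W : Submodule L ↥(laurentBaseChange L F₀))
    [FiniteDimensional L W] (hW : ∀ σ ∈ U, ∀ f ∈ W, arithmeticGalois F₀ σ • f ∈ W) :
    W ≤ Submodule.span L {f | f ∈ W ∧ ∀ σ ∈ U, arithmeticGalois F₀ σ • f = f} := by
  set Φ : Set (L →+* L) := {φ | ∃ σ ∈ U, φ = (σ : L →+* L)} with hΦ
  have hstab : ∀ φ ∈ Φ, ∀ y ∈ W.map (coeffLin F₀), (fun i => φ (y i)) ∈ W.map (coeffLin F₀) := by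
    rintro φ ⟨σ, hσ, rfl⟩ y ⟨f, hf, rfl⟩
    refine ⟨arithmeticGalois F₀ σ • f, hW σ hσ f hf, ?_⟩
    ext n
    rw [coeffLin_apply, coe_arithmeticGalois_smul, coeffMap_coeff]
    rfl
  have key := Fermat.Agent.Lib.Descent.le_span_fixed (W.map (coeffLin F₀)) Φ hstab
  intro f hf
  have h1 : coeffLin F₀ f ∈ Submodule.span L
      {y | y ∈ W.map (coeffLin F₀) ∧ ∀ φ ∈ Φ, ∀ i, φ (y i) = y i} :=
    key (Submodule.mem_map_of_mem hf)
  have h2 : Submodule.span L {y | y ∈ W.map (coeffLin F₀) ∧ ∀ φ ∈ Φ, ∀ i, φ (y i) = y i}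
      ≤ (Submodule.span L {f | f ∈ W ∧ ∀ σ ∈ U, arithmeticGalois F₀ σ • f = f}).map
        (coeffLin F₀) := by
    rw [Submodule.span_le]
    rintro y ⟨⟨f', hf', rfl⟩, hfix⟩
    refine Submodule.mem_map_of_mem (Submodule.subset_span ⟨hf', fun σ hσ => ?_⟩)
    apply coeffLin_injective F₀
    ext n
    rw [coeffLin_apply, coe_arithmeticGalois_smul, coeffMap_coeff]
    exact hfix _ ⟨σ, hσ, rfl⟩ n
  obtain ⟨f'', hf'', he⟩ := h2 h1
  rw [← coeffLin_injective F₀ he]
  exact hf''

/-- **(B)** An invariant element of an invariant finite-dimensional space of functions outside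
finitely many subspaces not containing the space. -/
theorem exists_fixed_notMem (U : Set (L ≃ₐ[ℚ] L)) (W : Submodule L ↥(laurentBaseChange L F₀))
    [FiniteDimensional L W] (hW : ∀ σ ∈ U, ∀ f ∈ W, arithmeticGalois F₀ σ • f ∈ W)
    {ι : Type*} (T : Finset ι) (p : ι → Submodule L ↥(laurentBaseChange L F₀))
    (hp : ∀ i ∈ T, ¬ W ≤ p i) :
    ∃ f ∈ W, (∀ σ ∈ U, arithmeticGalois F₀ σ • f = f) ∧ ∀ i ∈ T, f ∉ p i := by
  have : CharZero L := algebraRat.charZero L
  let V : AddSubgroup ↥(laurentBaseChange L F₀) :=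
    { carrier := {f | f ∈ W ∧ ∀ σ ∈ U, arithmeticGalois F₀ σ • f = f}
      add_mem' := fun {a b} ha hb =>
        ⟨W.add_mem ha.1 hb.1, fun σ hσ => by rw [smul_add, ha.2 σ hσ, hb.2 σ hσ]⟩
      zero_mem' := ⟨W.zero_mem, fun σ _ => smul_zero _⟩
      neg_mem' := fun {a} ha => ⟨W.neg_mem ha.1, fun σ hσ => by rw [smul_neg, ha.2 σ hσ]⟩ }
  have hspan := le_span_fixed_L F₀ U W hW
  have hV : ∀ i ∈ T, ∃ f ∈ V, f ∉ p i := by
    intro i hi
    by_contra hcon
    push Not at hcon
    apply hp i hi
    refine hspan.trans ?_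
    rw [Submodule.span_le]
    exact fun f hf => hcon f hf
  obtain ⟨f, hfV, hf⟩ := exists_mem_forall_notMem V T p hV
  exact ⟨f, hfV.1, hfV.2, hf⟩

end Laurent

/-! ### The moving lemma for `J₀(N)` -/

section Modular

variable (N : ℕ) [NeZero N]

set_option maxHeartbeats 1600000 in
/-- **The moving lemma over a fixed field.** There is `d₀` such that for every subgroup `U` of
`G_ℚ`, every `U`-fixed class `x` of `J₀(N)(ℚ̄)` and every finite set `S` of places there is an
effective `U`-invariant divisor `D` of degree `≤ d₀`, not meeting `S ∪ {∞}`, with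
`[D - deg D · ∞] = x`. -/
theorem exists_invariant_rep :
    ∃ d₀ : ℕ, ∀ (U : Subgroup (AlgebraicClosure ℚ ≃ₐ[ℚ] AlgebraicClosure ℚ)) (x : JZero N),
      (∀ σ ∈ U, σ • x = x) →
      ∀ S : Finset (Place (AlgebraicClosure ℚ) ↥(modularFunctionFieldBar N)),
      ∃ (D : Divisor (AlgebraicClosure ℚ) ↥(modularFunctionFieldBar N))
        (hD : D - Divisor.degree D •
          (Finsupp.single (placeInfL (AlgebraicClosure ℚ) N) (1 : ℤ) :
            Divisor (AlgebraicClosure ℚ) ↥(modularFunctionFieldBar N)) ∈ Divisor.degZero),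
        0 ≤ D ∧ (∀ σ ∈ U, arithmeticGalois (modularFunctionFieldFull N) σ • D = D) ∧
        D (placeInfL (AlgebraicClosure ℚ) N) = 0 ∧ (∀ v ∈ S, D v = 0) ∧
        Divisor.degree D ≤ (d₀ : ℤ) ∧
        Pic0.mk ⟨D - Divisor.degree D •
          (Finsupp.single (placeInfL (AlgebraicClosure ℚ) N) (1 : ℤ) :
            Divisor (AlgebraicClosure ℚ) ↥(modularFunctionFieldBar N)), hD⟩ = x := by
  classical
  have hFF := isFF1_xL (AlgebraicClosure ℚ) N
  obtain ⟨c, hc⟩ := exists_NS hFF
  set k : ℕ := (max (c + 1) 0).toNat with hk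
  have hkc : c + 1 ≤ (k : ℤ) := by
    rw [hk, Int.toNat_of_nonneg (le_max_right _ _)]
    exact le_max_left _ _
  refine ⟨genusFF (AlgebraicClosure ℚ) ↥(modularFunctionFieldBar N) + k, fun U x hx S => ?_⟩
  obtain ⟨⟨D₀, hD₀⟩, rfl⟩ := Pic0.mk_surjective x
  have hD₀' : Divisor.degree D₀ = 0 := hD₀
  set pinf := placeInfL (AlgebraicClosure ℚ) N with hpinf
  obtain ⟨E, hE0, hEP, hEdeg, hEcl, hErig⟩ := exists_rigid_effective hFF pinf D₀ hD₀'
  have hpfix : ∀ σ : AlgebraicClosure ℚ ≃ₐ[ℚ] AlgebraicClosure ℚ,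
      arithmeticGalois (modularFunctionFieldFull N) σ • pinf = pinf :=
    fun σ => arithmeticGalois_smul_placeInfL (AlgebraicClosure ℚ) N σ
  -- invariance of `E`
  have hEinv : ∀ σ ∈ U, arithmeticGalois (modularFunctionFieldFull N) σ • E = E := by
    intro σ hσ
    refine smul_eq_of_rigid _ (hpfix σ) hE0 hErig hEcl ?_
    have h1 := hx σ hσ
    rw [galois_smul_pic0_def, SemilinearAut.pic0_smul_mk] at h1
    have h2 := (QuotientAddGroup.eq).mp h1
    have h3 : -(arithmeticGalois (modularFunctionFieldFull N) σ • D₀) + D₀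
        ∈ Divisor.principal := h2
    have h4 := AddSubgroup.neg_mem _ h3
    rwa [neg_add_rev, neg_neg, neg_add_eq_sub] at h4
  set A : Divisor (AlgebraicClosure ℚ) ↥(modularFunctionFieldBar N) :=
    E + Finsupp.single pinf (k : ℤ) with hA
  have hAinv : ∀ σ ∈ U, arithmeticGalois (modularFunctionFieldFull N) σ • A = A := by
    intro σ hσ
    rw [hA, smul_add, hEinv σ hσ, SemilinearAut.smul_single, hpfix σ]
  have hAdeg : Divisor.degree A = Divisor.degree E + k := by
    rw [hA, map_add, Divisor.degree_single, hFF.deg_eq_one]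
    simp
  have hEdeg0 := degree_nonneg hFF hE0
  have hbpf : Bpf A := bpf_of_degree hFF hc (by rw [hAdeg]; omega)
  have : FiniteDimensional (AlgebraicClosure ℚ) (riemannRochSpace A) := hFF.finite_L A
  set T : Finset (Place (AlgebraicClosure ℚ) ↥(modularFunctionFieldBar N)) := insert pinf S
    with hT
  have hproper : ∀ s ∈ T,
      ¬ riemannRochSpace A ≤ riemannRochSpace (A - Finsupp.single s (1 : ℤ)) := by
    intro s _ hle
    obtain ⟨φ, hφ, hφv⟩ := hbpf s
    have := hle hφ s
    rw [hφv, exp_le_exp, Finsupp.sub_apply, Finsupp.single_eq_same] at this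
    omega
  obtain ⟨f, hfA, hffix, hfT⟩ := exists_fixed_notMem (modularFunctionFieldFull N)
    (U : Set (AlgebraicClosure ℚ ≃ₐ[ℚ] AlgebraicClosure ℚ)) (riemannRochSpace A)
    (fun σ hσ f hf => smul_mem_L _ (hAinv σ hσ) hf) T
    (fun s => riemannRochSpace (A - Finsupp.single s (1 : ℤ))) hproper
  have hf0 : f ≠ 0 := by
    rintro rfl
    exact hfT pinf (Finset.mem_insert_self _ _) (Submodule.zero_mem _)
  obtain ⟨Df, hDf, hDf0⟩ := exists_div hFF hf0
  have hD0 : 0 ≤ A + Df := (KMLemmas.mem_L_iff_nonneg hf0 hDf).mp hfA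
  have hDT : ∀ s ∈ T, (A + Df) s = 0 := by
    intro s hs
    have h1 := hfT s hs
    rw [KMLemmas.mem_L_iff_nonneg hf0 hDf] at h1
    by_contra hne
    apply h1
    refine Finsupp.le_def.mpr fun v => ?_
    have h2 := Finsupp.le_def.mp hD0 v
    simp only [Finsupp.coe_zero, Pi.zero_apply, Finsupp.add_apply, Finsupp.sub_apply] at h2 ⊢
    by_cases hv : v = s
    · subst hv
      rw [Finsupp.single_eq_same]
      have h3 : (A + Df) v ≠ 0 := hne
      rw [Finsupp.add_apply] at h3
      omega
    · rw [Finsupp.single_eq_of_ne hv]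
      omega
  have hDdeg : Divisor.degree (A + Df) = Divisor.degree E + k := by
    rw [map_add, hDf0, add_zero, hAdeg]
  have hDinv : ∀ σ ∈ U, arithmeticGalois (modularFunctionFieldFull N) σ • (A + Df) = A + Df :=
    fun σ hσ => by rw [smul_add, hAinv σ hσ, smul_div_eq _ (hffix σ hσ) hDf]
  have hdz : A + Df - Divisor.degree (A + Df) •
      (Finsupp.single pinf (1 : ℤ) :
        Divisor (AlgebraicClosure ℚ) ↥(modularFunctionFieldBar N)) ∈ Divisor.degZero := by
    rw [Divisor.mem_degZero, map_sub, degree_zsmul_single hFF, sub_self]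
  refine ⟨A + Df, hdz, hD0, hDinv, hDT pinf (Finset.mem_insert_self _ _),
    fun v hv => hDT v (Finset.mem_insert_of_mem hv), ?_, ?_⟩
  · rw [hDdeg]
    push_cast
    exact add_le_add_left hEdeg _
  · apply (QuotientAddGroup.eq).mpr
    show -(A + Df - Divisor.degree (A + Df) • (Finsupp.single pinf (1 : ℤ) :
        Divisor (AlgebraicClosure ℚ) ↥(modularFunctionFieldBar N))) + D₀ ∈ Divisor.principal
    have e : -(A + Df - Divisor.degree (A + Df) • (Finsupp.single pinf (1 : ℤ) :
        Divisor (AlgebraicClosure ℚ) ↥(modularFunctionFieldBar N))) + D₀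
        = -((E - Divisor.degree E • (Finsupp.single pinf (1 : ℤ) :
          Divisor (AlgebraicClosure ℚ) ↥(modularFunctionFieldBar N)) - D₀) + Df) := by
      rw [hDdeg, hA, zsmul_single_one, zsmul_single_one, Finsupp.single_add]
      abel
    rw [e]
    exact AddSubgroup.neg_mem _ (AddSubgroup.add_mem _ hEcl ⟨f, hf0, hDf⟩)

end Modular

end Fermat.Agent.MW.Ht.Rep
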