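import Mathlib
import Fermat.Agent.MW.Ht.Rep
import Fermat.Agent.MW.Ht.Defs
import Fermat.Agent.MW.HtM.PVal

/-!
# MW / HT-Q: the moving lemma in the vocabulary of `Ht/Defs.lean`

* `exists_rep_RatU` : there is `d₀` such that every `U`-fixed class of `J₀(N)(ℚ̄)` is
  `clFull N D` for a `U`-invariant effective divisor `D` on the points (`D ∈ RatU N U`) of degree
  `≤ d₀` avoiding any given finite set of places;
* `exists_rep_far` : the same with general position: for a map `val` on the places with finite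
  fibres, the points of `D` have values different from the values of any given finite set of
  points (field `rep` of `HQ.PairingDatumS`, `far p q := val p ≠ val q`);
* `finite_pval_eq` : the value map `P ↦ pval P t` of a nonconstant function has finite fibres.
-/

set_option autoImplicit false

noncomputable section

namespace Fermat.Agent.MW.Ht.RepPt

open AlgebraicCurve ModularCurve WithZero
open Fermat.Agent.MW Fermat.Agent.MW.Ht.Defs Fermat.Agent.MW.HtM Fermat.Agent.Lib.FF

local notation "Qb" => AlgebraicClosure ℚ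
local notation "GQ" => (AlgebraicClosure ℚ ≃ₐ[ℚ] AlgebraicClosure ℚ)

variable (N : ℕ) [NeZero N]

/-! ### `toDiv` and its inverse on effective divisors off `∞` -/

theorem toDiv_apply (D : Pt N →₀ ℕ) (p : Pt N) : toDiv N D (p : Pl N) = (D p : ℤ) := by
  show Finsupp.mapDomain (Subtype.val : Pt N → Pl N)
    (Finsupp.mapRange (Nat.castAddMonoidHom ℤ) (map_zero _) D) (p : Pl N) = (D p : ℤ)
  rw [Finsupp.mapDomain_apply Subtype.val_injective, Finsupp.mapRange_apply]
  rfl

theorem toDiv_apply_pinf (D : Pt N →₀ ℕ) : toDiv N D (pinf N) = 0 := by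
  show Finsupp.mapDomain (Subtype.val : Pt N → Pl N)
    (Finsupp.mapRange (Nat.castAddMonoidHom ℤ) (map_zero _) D) (pinf N) = 0
  refine Finsupp.mapDomain_of_notMem_range _ _ ?_
  rintro ⟨p, hp⟩
  exact p.2 hp

theorem toDiv_injective : Function.Injective (toDiv N) := by
  intro D E h
  ext p
  have h1 := toDiv_apply N D p
  rw [h, toDiv_apply N E p] at h1
  exact_mod_cast h1.symm

/-- The effective divisor on the points attached to a divisor of the function field. -/
def ofDiv (D : Divisor Qb (FN N)) : Pt N →₀ ℕ :=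
  Finsupp.comapDomain (Subtype.val : Pt N → Pl N) (Finsupp.mapRange Int.toNat rfl D)
    Subtype.val_injective.injOn

theorem ofDiv_apply (D : Divisor Qb (FN N)) (p : Pt N) : ofDiv N D p = (D (p : Pl N)).toNat := by
  unfold ofDiv
  rw [Finsupp.comapDomain_apply, Finsupp.mapRange_apply]

theorem toDiv_ofDiv {D : Divisor Qb (FN N)} (hD : 0 ≤ D) (hinf : D (pinf N) = 0) :
    toDiv N (ofDiv N D) = D := by
  ext v
  by_cases hv : v = pinf N
  · subst hv
    rw [toDiv_apply_pinf, hinf]
  · have h1 := toDiv_apply N (ofDiv N D) ⟨v, hv⟩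
    rw [ofDiv_apply] at h1
    rw [h1]
    exact Int.toNat_of_nonneg (Finsupp.le_def.mp hD v)

/-! ### The moving lemma -/

/-- **The moving lemma over a fixed field** in the vocabulary of `Ht/Defs.lean`. -/
theorem exists_rep_RatU :
    ∃ d₀ : ℕ, ∀ (U : Subgroup GQ) (x : JZero N), (∀ σ ∈ U, σ • x = x) →
      ∀ S : Finset (Pl N), ∃ D ∈ RatU N U, clFull N D = x ∧ HQ.deg D ≤ d₀ ∧
        ∀ p ∈ D.support, (p : Pl N) ∉ S := by
  obtain ⟨d₀, h⟩ := Rep.exists_invariant_rep N
  refine ⟨d₀, fun U x hx S => ?_⟩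
  obtain ⟨D, hD, hD0, hDinv, hDinf, hDS, hDdeg, hDcl⟩ := h U x hx S
  have hto : toDiv N (ofDiv N D) = D := toDiv_ofDiv N hD0 hDinf
  have hdeg : (HQ.deg (ofDiv N D) : ℤ) = Divisor.degree D := by
    rw [← degree_toDiv, hto]
  refine ⟨ofDiv N D, ?_, ?_, ?_, ?_⟩
  · intro σ hσ
    apply toDiv_injective N
    rw [← smul_toDiv, hto, hDinv σ hσ]
  · rw [clFull_apply, ← hDcl]
    congr 1
    apply Subtype.ext
    show toDiv N (ofDiv N D) - (HQ.deg (ofDiv N D) : ℤ) • Finsupp.single (pinf N) 1
      = D - Divisor.degree D • Finsupp.single (PlaceInf.placeInfL Qb N) 1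
    rw [hto, hdeg]
    rfl
  · have h1 : (HQ.deg (ofDiv N D) : ℤ) ≤ (d₀ : ℤ) := hdeg ▸ hDdeg
    exact_mod_cast h1
  · intro p hp hpS
    rw [Finsupp.mem_support_iff, ofDiv_apply, hDS _ hpS] at hp
    exact hp rfl

/-- **The moving lemma with general position**: the representative can be chosen such that the
values of `val` at its points differ from the values at any given finite set of points
(`val` any map on the places with finite fibres). -/
theorem exists_rep_far {κ : Type*} (val : Pl N → κ)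
    (hfin : ∀ c : κ, {P : Pl N | val P = c}.Finite) :
    ∃ d₀ : ℕ, ∀ (U : Subgroup GQ) (x : JZero N), (∀ σ ∈ U, σ • x = x) →
      ∀ S : Finset (Pt N), ∃ D ∈ RatU N U, clFull N D = x ∧ HQ.deg D ≤ d₀ ∧
        ∀ p ∈ D.support, ∀ q ∈ S, val (p : Pl N) ≠ val (q : Pl N) := by
  classical
  obtain ⟨d₀, h⟩ := exists_rep_RatU N
  refine ⟨d₀, fun U x hx S => ?_⟩
  obtain ⟨D, hD, hcl, hdeg, hS⟩ :=
    h U x hx (S.biUnion fun q => (hfin (val (q : Pl N))).toFinset)
  refine ⟨D, hD, hcl, hdeg, fun p hp q hq hpq => hS p hp ?_⟩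
  rw [Finset.mem_biUnion]
  exact ⟨q, hq, by rw [Set.Finite.mem_toFinset]; exact hpq⟩

/-! ### Fibres of the value map -/

/-- The value map of a nonconstant function has finite fibres. -/
theorem finite_pval_eq {t : FN N} (ht : ∀ c : Qb, t ≠ algebraMap Qb (FN N) c) (c : Qb) :
    {P : Pl N | pval P t = c}.Finite := by
  have hFF := isFF1_xL Qb N
  have hne : t - algebraMap Qb (FN N) c ≠ 0 := sub_ne_zero.mpr (ht c)
  obtain ⟨Df, hDf, -⟩ := hFF.hasPrincipalDivisors.exists_divisor _ hne
  refine Df.support.finite_toSet.subset fun P hP => ?_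
  rw [Finset.mem_coe, Finsupp.mem_support_iff, hDf P]
  have hP' : pval P t = c := hP
  by_cases hmem : t ∈ P.toValuationSubring
  · have h1 := pval_spec_of_mem P (hFF.resK P) hmem
    rw [hP', P.adicValuation_eq_exp_neg_ord hne, ← exp_zero, exp_lt_exp] at h1
    omega
  · have h1 : ¬ P.adicValuation (t - algebraMap Qb (FN N) c) ≤ 1 := by
      intro hle
      apply hmem
      have h2 := RR.mem_of_val_le_one P hle
      have h3 : t = (t - algebraMap Qb (FN N) c) + algebraMap Qb (FN N) c := by ring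
      rw [h3]
      exact add_mem h2 (P.algebraMap_mem' c)
    have := P.not_adicValuation_le_one_iff.mp h1
    omega

/-- **Field `rep` of the height datum** for `far p q := pval p t ≠ pval q t` (`t` nonconstant). -/
theorem exists_rep_pval {t : FN N} (ht : ∀ c : Qb, t ≠ algebraMap Qb (FN N) c) :
    ∃ d₀ : ℕ, ∀ (U : Subgroup GQ) (x : JZero N), (∀ σ ∈ U, σ • x = x) →
      ∀ S : Finset (Pt N), ∃ D ∈ RatU N U, clFull N D = x ∧ HQ.deg D ≤ d₀ ∧
        ∀ p ∈ D.support, ∀ q ∈ S, pval (p : Pl N) t ≠ pval (q : Pl N) t :=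
  exists_rep_far N (fun P => pval P t) (finite_pval_eq N ht)

end Fermat.Agent.MW.Ht.RepPt
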