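/-
MW / heights — the family of absolute values `AbsQb.abv` on `Qb = AlgebraicClosure ℚ` as an
`AbsFamily` in the vocabulary of `MW/HtM/Tame.lean`, and the hypotheses (H0), (H1) of
`MW/Height/MorphismLocal.lean` for it.
-/
import Mathlib
import Fermat.Agent.MW.Ht.AbsQb
import Fermat.Agent.MW.HtM.Tame

set_option autoImplicit false

namespace Fermat.Agent.MW.Ht.AbsQb

/-- The absolute values at the finite places are ultrametric. -/
theorem isNonarchimedean_abv_some (p : Nat.Primes) : IsNonarchimedean (abv (some p)) :=
  fun a b => abv_some_add_le p a b

/-- (H0): only finitely many of the absolute values are not ultrametric. -/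
theorem finite_not_isNonarchimedean :
    {v : Pla | ¬ IsNonarchimedean (abv v)}.Finite := by
  refine (Set.finite_singleton (none : Pla)).subset ?_
  intro v hv
  cases v with
  | none => exact Set.mem_singleton _
  | some p => exact absurd (isNonarchimedean_abv_some p) hv

/-- The family `abv` as an `AbsFamily`. -/
noncomputable def absFamily : Fermat.Agent.MW.HtM.AbsFamily (AlgebraicClosure ℚ) Pla where
  abv := abv
  finite_arch := finite_not_isNonarchimedean
  finite_gt_one := finite_one_lt_abv

@[simp] theorem absFamily_abv (v : Pla) : absFamily.abv v = abv v := rfl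

end Fermat.Agent.MW.Ht.AbsQb
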