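/-
MW / heights (helper32): Northcott's theorem over `Qb = AlgebraicClosure ℚ` in GALOIS-SUM form,
for the absolute values `abv : Pla → AbsoluteValue Qb ℝ` of `MW/Ht/AbsQb.lean` (one fixed extension
of every place of `ℚ`).

* `abv_coeff_prod_le` : coefficients of `∏ (X - r)` are bounded by `C ^ n * ∏ max 1 |r|`
  (`C = 2` at the archimedean place, `C = 1` at the finite places);
* `hplus_coeff_prod_le` : `hplus (coeff) ≤ n * log 2 + ∑ hplus r`;
* **`finite_of_height_le`** : for a subgroup `U` of `G_ℚ` and a finite set `Σ` of elements of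
  `G_ℚ` meeting every left coset of `U`, the set of `U`-fixed `a : Qb` with
  `∑ s ∈ Σ, hplus (s a) ≤ T` is finite.
-/
import Mathlib
import Fermat.Agent.MW.Ht.AbsQb

set_option autoImplicit false

noncomputable section

namespace Fermat.Agent.MW.Ht.AbsQb

open Polynomial

local notation "Qb" => AlgebraicClosure ℚ
local notation "GQ" => (AlgebraicClosure ℚ ≃ₐ[ℚ] AlgebraicClosure ℚ)

local instance isAlgebraicQb_nc : Algebra.IsAlgebraic ℚ Qb := AlgebraicClosure.isAlgebraic ℚ
local instance isAlgClosureQb_nc : IsAlgClosure ℚ Qb := ⟨inferInstance, inferInstance⟩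
local instance normalQb_nc : Normal ℚ Qb := IsAlgClosure.normal ℚ Qb
local instance isSeparableQb_nc : Algebra.IsSeparable ℚ Qb :=
  Algebra.IsAlgebraic.isSeparable_of_perfectField
local instance isGaloisQb_nc : IsGalois ℚ Qb := ⟨⟩

/-! ### Coefficients of a product of linear factors -/

/-- The triangle constant of a place: `2` at the archimedean place, `1` at the finite ones. -/
def triC : Pla → ℝ
  | none => 2
  | some _ => 1

theorem one_le_triC (v : Pla) : 1 ≤ triC v := by
  rcases v with _ | p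
  · show (1 : ℝ) ≤ 2
    norm_num
  · exact le_rfl

theorem abv_add_le_triC (v : Pla) (x y : Qb) :
    abv v (x + y) ≤ triC v * max (abv v x) (abv v y) := by
  rcases v with _ | p
  · show abv none (x + y) ≤ 2 * max (abv none x) (abv none y)
    have h := (abv none).add_le x y
    have h1 := le_max_left (abv none x) (abv none y)
    have h2 := le_max_right (abv none x) (abv none y)
    linarith
  · show abv (some p) (x + y) ≤ 1 * max (abv (some p) x) (abv (some p) y)
    rw [one_mul]
    exact abv_some_add_le p x y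

/-- The coefficients of `∏ (X - r)` are bounded by `C ^ n * ∏ max 1 |r|`. -/
theorem abv_coeff_prod_le (v : Pla) (s : Finset Qb) (k : ℕ) :
    abv v ((∏ r ∈ s, (X - C r)).coeff k) ≤ triC v ^ s.card * ∏ r ∈ s, max 1 (abv v r) := by
  classical
  induction s using Finset.induction_on generalizing k with
  | empty =>
    rw [Finset.prod_empty, Finset.prod_empty, Finset.card_empty, pow_zero, one_mul,
      Polynomial.coeff_one]
    split_ifs
    · rw [map_one]
    · rw [map_zero]
      exact zero_le_one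
  | insert a s ha ih =>
    set Q : Qb[X] := ∏ r ∈ s, (X - C r) with hQ
    set M : ℝ := triC v ^ s.card * ∏ r ∈ s, max 1 (abv v r) with hM
    have hM0 : 0 ≤ M := by
      rw [hM]
      refine mul_nonneg (pow_nonneg (le_trans zero_le_one (one_le_triC v)) _)
        (Finset.prod_nonneg fun r _ => le_trans zero_le_one (le_max_left _ _))
    rw [Finset.prod_insert ha, Finset.prod_insert ha, Finset.card_insert_of_notMem ha]
    have hcoeff : ((X - C a) * Q).coeff k = (X * Q).coeff k + -(a * Q.coeff k) := by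
      rw [sub_mul, Polynomial.coeff_sub, Polynomial.coeff_C_mul, sub_eq_add_neg]
    have hu : abv v ((X * Q).coeff k) ≤ M := by
      rcases k with _ | j
      · rw [Polynomial.coeff_X_mul_zero, map_zero]
        exact hM0
      · rw [Polynomial.coeff_X_mul]
        exact ih j
    have hw : abv v (-(a * Q.coeff k)) ≤ abv v a * M := by
      rw [AbsoluteValue.map_neg, map_mul]
      exact mul_le_mul_of_nonneg_left (ih k) ((abv v).nonneg a)
    have hmax : max (abv v ((X * Q).coeff k)) (abv v (-(a * Q.coeff k))) ≤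
        max 1 (abv v a) * M := by
      refine max_le ?_ ?_
      · calc abv v ((X * Q).coeff k) ≤ M := hu
          _ = 1 * M := (one_mul M).symm
          _ ≤ max 1 (abv v a) * M := mul_le_mul_of_nonneg_right (le_max_left _ _) hM0
      · exact hw.trans (mul_le_mul_of_nonneg_right (le_max_right _ _) hM0)
    rw [hcoeff]
    calc abv v ((X * Q).coeff k + -(a * Q.coeff k))
        ≤ triC v * max (abv v ((X * Q).coeff k)) (abv v (-(a * Q.coeff k))) :=
          abv_add_le_triC v _ _
      _ ≤ triC v * (max 1 (abv v a) * M) :=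
          mul_le_mul_of_nonneg_left hmax (le_trans zero_le_one (one_le_triC v))
      _ = triC v ^ (s.card + 1) * (max 1 (abv v a) * ∏ r ∈ s, max 1 (abv v r)) := by
          rw [hM, pow_succ]
          ring

/-- Local logarithmic form of `abv_coeff_prod_le`. -/
theorem logPlus_coeff_prod_le (v : Pla) (s : Finset Qb) (k : ℕ) :
    Real.log (max 1 (abv v ((∏ r ∈ s, (X - C r)).coeff k))) ≤
      s.card * Real.log (triC v) + ∑ r ∈ s, Real.log (max 1 (abv v r)) := by
  have h := abv_coeff_prod_le v s k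
  have hCpos : 0 < triC v := lt_of_lt_of_le zero_lt_one (one_le_triC v)
  have hprod1 : (1 : ℝ) ≤ ∏ r ∈ s, max 1 (abv v r) := by
    calc (1 : ℝ) = ∏ _r ∈ s, (1 : ℝ) := (Finset.prod_const_one).symm
      _ ≤ ∏ r ∈ s, max 1 (abv v r) :=
        Finset.prod_le_prod (fun _ _ => zero_le_one) (fun r _ => le_max_left _ _)
  have hpow1 : (1 : ℝ) ≤ triC v ^ s.card := one_le_pow₀ (one_le_triC v)
  have hR1 : (1 : ℝ) ≤ triC v ^ s.card * ∏ r ∈ s, max 1 (abv v r) := by
    calc (1 : ℝ) = 1 * 1 := (one_mul 1).symm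
      _ ≤ _ := mul_le_mul hpow1 hprod1 zero_le_one (le_trans zero_le_one hpow1)
  have hmax : max 1 (abv v ((∏ r ∈ s, (X - C r)).coeff k)) ≤
      triC v ^ s.card * ∏ r ∈ s, max 1 (abv v r) := max_le hR1 h
  have hlog := Real.log_le_log (lt_of_lt_of_le zero_lt_one (le_max_left _ _)) hmax
  have hprodpos : (0 : ℝ) < ∏ r ∈ s, max 1 (abv v r) := lt_of_lt_of_le zero_lt_one hprod1
  rw [Real.log_mul (pow_pos hCpos _).ne' hprodpos.ne', Real.log_pow,
    Real.log_prod (fun r _ => (lt_of_lt_of_le zero_lt_one (le_max_left _ _)).ne')] at hlog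
  exact hlog

theorem finsum_log_triC : ∑ᶠ v : Pla, Real.log (triC v) = Real.log 2 := by
  rw [finsum_eq_single _ (none : Pla)]
  · rfl
  · intro v hv
    rcases v with _ | p
    · exact absurd rfl hv
    · show Real.log 1 = 0
      exact Real.log_one

theorem hasFiniteSupport_log_triC :
    Function.HasFiniteSupport fun v : Pla => Real.log (triC v) := by
  refine (Set.finite_singleton (none : Pla)).subset ?_
  intro v hv
  simp only [Function.mem_support] at hv
  rcases v with _ | p
  · rfl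
  · exact absurd (show Real.log (triC (some p)) = 0 from Real.log_one) hv

/-- Global form: `hplus (coeff) ≤ n * log 2 + ∑ hplus r`. -/
theorem hplus_coeff_prod_le (s : Finset Qb) (k : ℕ) :
    hplus ((∏ r ∈ s, (X - C r)).coeff k) ≤ s.card * Real.log 2 + ∑ r ∈ s, hplus r := by
  classical
  have hg1 : Function.HasFiniteSupport fun v : Pla => (s.card : ℝ) * Real.log (triC v) := by
    refine hasFiniteSupport_log_triC.subset ?_
    intro v hv
    simp only [Function.mem_support] at hv ⊢
    intro h0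
    exact hv (by rw [h0, mul_zero])
  have hg2 : Function.HasFiniteSupport fun v : Pla => ∑ r ∈ s, Real.log (max 1 (abv v r)) := by
    have hfin : (⋃ r ∈ s, Function.support fun v : Pla => Real.log (max 1 (abv v r))).Finite :=
      s.finite_toSet.biUnion fun r _ => hasFiniteSupport_logPlus r
    refine hfin.subset ?_
    intro v hv
    simp only [Function.mem_support] at hv
    by_contra hcon
    simp only [Set.mem_iUnion, Function.mem_support, not_exists] at hcon
    exact hv (Finset.sum_eq_zero fun r hr => not_not.mp (hcon r hr))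
  have hg : Function.HasFiniteSupport fun v : Pla =>
      (s.card : ℝ) * Real.log (triC v) + ∑ r ∈ s, Real.log (max 1 (abv v r)) := by
    refine (hg1.union hg2).subset ?_
    intro v hv
    simp only [Function.mem_support] at hv
    by_contra hcon
    simp only [Set.mem_union, Function.mem_support, not_or, not_not] at hcon
    exact hv (by rw [hcon.1, hcon.2, add_zero])
  have hle := finsum_le_finsum' (hasFiniteSupport_logPlus ((∏ r ∈ s, (X - C r)).coeff k)) hg
    (fun v => logPlus_coeff_prod_le v s k)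
  have hsum : ∑ᶠ v : Pla, ((s.card : ℝ) * Real.log (triC v) +
      ∑ r ∈ s, Real.log (max 1 (abv v r))) = s.card * Real.log 2 + ∑ r ∈ s, hplus r := by
    rw [finsum_add_distrib hg1 hg2, ← mul_finsum, finsum_log_triC,
      finsum_sum_comm s _ (fun r _ => hasFiniteSupport_logPlus r)]
    rfl
  rw [hsum] at hle
  exact hle


/-! ### Northcott in Galois-sum form -/

/-- The roots of the minimal polynomial of a `U`-fixed element are among the `s a`, `s ∈ Σ`,
if `Σ` meets every left coset of `U`. -/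
theorem exists_mem_smul_eq_of_root (U : Subgroup GQ) (Sg : Finset GQ)
    (hS : ∀ g : GQ, ∃ s ∈ Sg, s⁻¹ * g ∈ U) {a : Qb} (ha : ∀ u ∈ U, u a = a) {r : Qb}
    (hr : aeval r (minpoly ℚ a) = 0) : ∃ s ∈ Sg, s a = r := by
  obtain ⟨σ, hσ⟩ := minpoly.exists_algEquiv_of_root (Algebra.IsAlgebraic.isAlgebraic a) hr
  obtain ⟨s, hs, hsU⟩ := hS σ⁻¹
  refine ⟨s, hs, ?_⟩
  have h1 : (s⁻¹ * σ⁻¹) a = a := ha _ hsU
  have h2 : σ⁻¹ a = r := by
    rw [← hσ]
    show σ⁻¹ (σ r) = r
    exact σ.symm_apply_apply r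
  have h3 : s ((s⁻¹ * σ⁻¹) a) = σ⁻¹ a := by
    show s (s⁻¹ (σ⁻¹ a)) = σ⁻¹ a
    exact s.apply_symm_apply _
  rw [h1] at h3
  rw [h3, h2]

/-- **Northcott over `Qb`, Galois-sum form.**  Let `U` be a subgroup of `G_ℚ` and `Σ` a finite
set of elements of `G_ℚ` meeting every left coset of `U` (so `U` has finite index).  Then there are
only finitely many `U`-fixed algebraic numbers `a` with `∑_{s ∈ Σ} ∑_v log⁺ |s a|_v ≤ T`. -/
theorem finite_of_height_le (U : Subgroup GQ) (Sg : Finset GQ)
    (hS : ∀ g : GQ, ∃ s ∈ Sg, s⁻¹ * g ∈ U) (T : ℝ) :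
    {a : Qb | (∀ u ∈ U, u a = a) ∧ ∑ s ∈ Sg, hplus (s a) ≤ T}.Finite := by
  classical
  set d : ℕ := Sg.card with hd
  set B : ℝ := max (d * Real.log 2 + T) 0 with hB
  have hfin := Polynomial.bUnion_roots_finite (algebraMap ℚ Qb) d (finite_rat_hplus_le B)
  refine hfin.subset ?_
  rintro a ⟨haU, haT⟩
  have hint : IsIntegral ℚ a := Algebra.IsIntegral.isIntegral a
  set P : Qb[X] := (minpoly ℚ a).map (algebraMap ℚ Qb) with hP
  have hPmonic : P.Monic := (minpoly.monic hint).map _
  have hPne : P ≠ 0 := hPmonic.ne_zero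
  have hPsplits : P.Splits := IsAlgClosed.splits P
  have hPsep : P.Separable := ((minpoly.irreducible hint).separable).map
  have hnodup : P.roots.Nodup := Polynomial.nodup_roots hPsep
  set R : Finset Qb := P.roots.toFinset with hR
  have hRval : R.val = P.roots := by
    rw [hR, Multiset.toFinset_val, hnodup.dedup]
  have hPprod : P = ∏ r ∈ R, (X - C r) := by
    rw [Finset.prod_eq_multiset_prod, hRval]
    exact hPsplits.eq_prod_roots_of_monic hPmonic
  have hRsub : R ⊆ Sg.image (fun s : GQ => s a) := by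
    intro r hr
    rw [hR, Multiset.mem_toFinset, Polynomial.mem_roots hPne, Polynomial.IsRoot.def, hP,
      Polynomial.eval_map, ← Polynomial.aeval_def] at hr
    obtain ⟨s, hs, hsr⟩ := exists_mem_smul_eq_of_root U Sg hS haU hr
    exact Finset.mem_image.mpr ⟨s, hs, hsr⟩
  have hRcard : R.card ≤ d := (Finset.card_le_card hRsub).trans Finset.card_image_le
  have hsumR : ∑ r ∈ R, hplus r ≤ T := by
    calc ∑ r ∈ R, hplus r ≤ ∑ r ∈ Sg.image (fun s : GQ => s a), hplus r :=
          Finset.sum_le_sum_of_subset_of_nonneg hRsub (fun r _ _ => hplus_nonneg r)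
      _ ≤ ∑ s ∈ Sg, hplus (s a) :=
          Finset.sum_image_le_of_nonneg (fun r _ => hplus_nonneg r)
      _ ≤ T := haT
  have hlog2 : (0 : ℝ) ≤ Real.log 2 := Real.log_nonneg one_le_two
  simp only [Set.mem_iUnion, Finset.mem_coe, exists_prop]
  refine ⟨minpoly ℚ a, ⟨?_, ?_⟩, ?_⟩
  · -- degree
    have h1 : (minpoly ℚ a).natDegree = P.natDegree := by
      rw [hP, Polynomial.natDegree_map]
    rw [h1, hPsplits.natDegree_eq_card_roots, ← hRval]
    exact hRcard
  · -- coefficients
    intro i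
    show hplus (((minpoly ℚ a).coeff i : ℚ) : Qb) ≤ B
    have h1 : (((minpoly ℚ a).coeff i : ℚ) : Qb) = (∏ r ∈ R, (X - C r)).coeff i := by
      rw [← hPprod, hP, Polynomial.coeff_map, eq_ratCast]
    rw [h1]
    have h2 := hplus_coeff_prod_le R i
    have h3 : (R.card : ℝ) * Real.log 2 ≤ d * Real.log 2 :=
      mul_le_mul_of_nonneg_right (by exact_mod_cast hRcard) hlog2
    calc hplus ((∏ r ∈ R, (X - C r)).coeff i) ≤ R.card * Real.log 2 + ∑ r ∈ R, hplus r := h2
      _ ≤ d * Real.log 2 + T := add_le_add h3 hsumR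
      _ ≤ B := le_max_left _ _
  · -- `a` is a root
    rw [Multiset.mem_toFinset, Polynomial.mem_roots ((minpoly.monic hint).map _).ne_zero,
      Polynomial.IsRoot.def, Polynomial.eval_map, ← Polynomial.aeval_def]
    exact minpoly.aeval ℚ a

/-- Special case `U = ⊤`: Northcott for `ℚ` inside `Qb`. -/
theorem finite_fixed_of_hplus_le (T : ℝ) :
    {a : Qb | (∀ g : GQ, g a = a) ∧ hplus a ≤ T}.Finite := by
  have h := finite_of_height_le ⊤ {1} (fun g => ⟨1, Finset.mem_singleton_self _, Subgroup.mem_top _⟩) T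
  refine h.subset ?_
  rintro a ⟨ha, hT⟩
  refine ⟨fun u _ => ha u, ?_⟩
  rw [Finset.sum_singleton]
  exact hT


/-! ### The product formula in Galois-sum form -/

theorem logSum_prod {ι : Type*} (s : Finset ι) (f : ι → Qb) (hf : ∀ i ∈ s, f i ≠ 0) :
    logSum (∏ i ∈ s, f i) = ∑ i ∈ s, logSum (f i) := by
  classical
  induction s using Finset.induction_on with
  | empty => rw [Finset.prod_empty, Finset.sum_empty, logSum_one]
  | insert i s hi ih =>
    rw [Finset.prod_insert hi, Finset.sum_insert hi,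
      logSum_mul (hf i (Finset.mem_insert_self i s))
        (Finset.prod_ne_zero_iff.mpr fun j hj => hf j (Finset.mem_insert_of_mem hj)),
      ih fun j hj => hf j (Finset.mem_insert_of_mem hj)]

/-- For a set `Σ` of representatives of the left cosets of `U` and a `U`-fixed `a`, the product
`∏_{s ∈ Σ} s a` (the norm of `a`) is fixed by `G_ℚ`. -/
theorem prod_smul_fixed (U : Subgroup GQ) (Sg : Finset GQ)
    (hS : ∀ g : GQ, ∃! s, s ∈ Sg ∧ s⁻¹ * g ∈ U) {a : Qb} (ha : ∀ u ∈ U, u a = a) (g : GQ) :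
    g (∏ s ∈ Sg, s a) = ∏ s ∈ Sg, s a := by
  classical
  rw [map_prod]
  choose ρ hρ hρu using hS
  have h1 : ∀ s ∈ Sg, g (s a) = (ρ (g * s)) a := by
    intro s _
    have hu := ha _ (hρ (g * s)).2
    have h2 : (ρ (g * s)) (((ρ (g * s))⁻¹ * (g * s)) a) = g (s a) := by
      show (ρ (g * s)) ((ρ (g * s))⁻¹ (g (s a))) = g (s a)
      exact (ρ (g * s)).apply_symm_apply _
    rw [hu] at h2
    exact h2.symm
  rw [Finset.prod_congr rfl h1]
  have hinj : Set.InjOn (fun s : GQ => ρ (g * s)) (Sg : Set GQ) := by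
    intro s1 hs1 s2 hs2 h12
    have h12' : ρ (g * s1) = ρ (g * s2) := h12
    have hu1 := (hρ (g * s1)).2
    have hu2 := (hρ (g * s2)).2
    rw [h12'] at hu1
    have hmem : s1⁻¹ * s2 ∈ U := by
      have h3 := U.mul_mem (U.inv_mem hu1) hu2
      have h4 : ((ρ (g * s2))⁻¹ * (g * s1))⁻¹ * ((ρ (g * s2))⁻¹ * (g * s2)) = s1⁻¹ * s2 := by
        group
      rwa [h4] at h3
    have e1 := hρu s2 s1 ⟨hs1, hmem⟩
    have e2 := hρu s2 s2 ⟨hs2, by rw [inv_mul_cancel]; exact U.one_mem⟩
    exact e1.trans e2.symm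
  have himg : Sg.image (fun s : GQ => ρ (g * s)) = Sg := by
    refine Finset.eq_of_subset_of_card_le ?_ ?_
    · intro t ht
      obtain ⟨s, _, rfl⟩ := Finset.mem_image.mp ht
      exact (hρ (g * s)).1
    · rw [Finset.card_image_of_injOn hinj]
  calc ∏ s ∈ Sg, (ρ (g * s)) a = ∏ t ∈ Sg.image (fun s : GQ => ρ (g * s)), t a :=
        (Finset.prod_image (f := fun t : GQ => t a) hinj).symm
    _ = ∏ s ∈ Sg, s a := by rw [himg]

/-- **The product formula in Galois-sum form**: for a set `Σ` of representatives of the left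
cosets of `U ≤ G_ℚ` and a nonzero `U`-fixed algebraic number `a`,
`∑_{s ∈ Σ} ∑_v log |s a|_v = 0`. -/
theorem prod_formula_galois (U : Subgroup GQ) (Sg : Finset GQ)
    (hS : ∀ g : GQ, ∃! s, s ∈ Sg ∧ s⁻¹ * g ∈ U) {a : Qb} (ha0 : a ≠ 0)
    (ha : ∀ u ∈ U, u a = a) :
    ∑ s ∈ Sg, ∑ᶠ v : Pla, Real.log (abv v (s a)) = 0 := by
  have hb : ∀ g : GQ, g (∏ s ∈ Sg, s a) = ∏ s ∈ Sg, s a := prod_smul_fixed U Sg hS ha
  obtain ⟨c, hc⟩ := (InfiniteGalois.mem_range_algebraMap_iff_fixed _).mpr hb
  have hb0 : (∏ s ∈ Sg, s a) ≠ 0 :=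
    Finset.prod_ne_zero_iff.mpr fun s _ => (map_ne_zero s).mpr ha0
  rw [eq_ratCast] at hc
  have hc0 : c ≠ 0 := by
    rintro rfl
    rw [Rat.cast_zero] at hc
    exact hb0 hc.symm
  have h1 : logSum ((c : ℚ) : Qb) = 0 := prod_formula hc0
  rw [hc, logSum_prod Sg (fun s => s a) (fun s _ => (map_ne_zero s).mpr ha0)] at h1
  exact h1

/-- The same for a left transversal in Mathlib's sense. -/
theorem prod_formula_isComplement (U : Subgroup GQ) (Sg : Finset GQ)
    (hS : Subgroup.IsComplement (Sg : Set GQ) (U : Set GQ)) {a : Qb} (ha0 : a ≠ 0)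
    (ha : ∀ u ∈ U, u a = a) :
    ∑ s ∈ Sg, ∑ᶠ v : Pla, Real.log (abv v (s a)) = 0 := by
  refine prod_formula_galois U Sg (fun g => ?_) ha0 ha
  obtain ⟨s, hs, huniq⟩ := Subgroup.isComplement_iff_existsUnique_inv_mul_mem.mp hS g
  refine ⟨s, ⟨s.2, hs⟩, fun t ht => ?_⟩
  have := huniq ⟨t, ht.1⟩ ht.2
  exact congrArg Subtype.val this

end Fermat.Agent.MW.Ht.AbsQb
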