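/-
MW / heights (function-field rows of HT-Q ruling #2) — helper17.

**The fibre divisors and the affine ramification divisor of `t`, with their exact degrees**, in
the literal shapes quantified in `HtM.LocalHt.lip` and in the local estimate `ram`.

Setting: `h : IsFF1 K F x`, `pinf` a place, `t` a function with its only pole at `pinf`, of pole
order `m > 0` there.

* `exists_fibDiv` : for every `τ : K` there is `Z : Place K F →₀ ℕ` with `Z pinf = 0`,
  `(Z P : ℤ) = ord_P (t − τ)` off `pinf`, and `HQ.deg Z = m`;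
* `exists_ramDiv` : (characteristic zero) there is `𝔯 : Place K F →₀ ℕ` with `𝔯 pinf = 0`,
  `(𝔯 P : ℤ) = ord_P (t − t(P)) − 1` off `pinf`, and `deg 𝔯 = 2g + m − 1`
  (Riemann–Hurwitz: `div (dt) = 𝔯 − (m + 1)·pinf` has degree `2g − 2`);
* `one_le_ord_sub_pval`, `ord_sub_pos_iff`, `finite_fibre`, `card_fibre_le` : the fibres of the
  value map `P ↦ pval P t`.
-/
import Mathlib
import Fermat.Agent.Lib.FF.CanonicalFF1
import Fermat.Agent.MW.HtM.PVal
import Fermat.Agent.MW.HQ.Defs

set_option autoImplicit false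

noncomputable section

namespace Fermat.Agent.MW.Ht.RamDiv

open AlgebraicCurve WithZero Module IntermediateField
open Fermat.Agent.Lib.FF Fermat.Agent.MW Fermat.Agent.MW.HtM

variable {K F : Type*} [Field K] [Field F] [Algebra K F] {x : F}

/-! ### Effective divisors as `ℕ`-valued finitely supported functions -/

/-- The `ℕ`-valued divisor of an effective divisor. -/
def toNatDiv (E : Divisor K F) : Place K F →₀ ℕ := E.mapRange Int.toNat Int.toNat_zero

theorem toNatDiv_apply (E : Divisor K F) (P : Place K F) : toNatDiv E P = (E P).toNat :=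
  Finsupp.mapRange_apply (hf := Int.toNat_zero) (g := E) (a := P)

theorem coe_toNatDiv {E : Divisor K F} {P : Place K F} (hE : 0 ≤ E P) :
    ((toNatDiv E P : ℕ) : ℤ) = E P := by
  rw [toNatDiv_apply, Int.toNat_of_nonneg hE]

theorem deg_toNatDiv (h : IsFF1 K F x) {E : Divisor K F} (hE : ∀ P, 0 ≤ E P) :
    (HQ.deg (toNatDiv E) : ℤ) = Divisor.degree E := by
  classical
  rw [h.degree_eq_sum]
  unfold HQ.deg
  rw [Finsupp.sum_of_support_subset (toNatDiv E) (s := E.support) Finsupp.support_mapRange _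
    (fun _ _ => rfl)]
  push_cast
  exact Finset.sum_congr rfl fun P _ => coe_toNatDiv (hE P)

/-! ### Orders of `t − τ` -/

section Orders

variable {pinf : Place K F} {t : F} {m : ℕ}

theorem t_ne_zero (hm : pinf.ord t = -(m : ℤ)) (hm0 : 0 < m) : t ≠ 0 := by
  rintro rfl
  rw [Place.ord_zero] at hm
  omega

theorem t_sub_ne_zero (hm : pinf.ord t = -(m : ℤ)) (hm0 : 0 < m) (τ : K) :
    t - algebraMap K F τ ≠ 0 := by
  intro h0
  rw [sub_eq_zero.mp h0, Fermat.Agent.S24.ord_algebraMap] at hm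
  omega

/-- `t − τ` has a pole of order `m` at `pinf`. -/
theorem ord_pinf_sub (hm : pinf.ord t = -(m : ℤ)) (hm0 : 0 < m) (τ : K) :
    pinf.ord (t - algebraMap K F τ) = -(m : ℤ) := by
  have ht0 := t_ne_zero hm hm0
  have hne := t_sub_ne_zero hm hm0 τ
  have h1 : pinf.adicValuation (algebraMap K F τ) < pinf.adicValuation t := by
    rw [pinf.adicValuation_eq_exp_neg_ord ht0, hm, neg_neg]
    refine lt_of_le_of_lt (pinf.adicValuation_algebraMap_le_one τ) ?_
    rw [← exp_zero, exp_lt_exp]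
    exact_mod_cast hm0
  have h2 : pinf.adicValuation (t - algebraMap K F τ) = pinf.adicValuation t :=
    Valuation.map_sub_eq_of_lt_left _ h1
  rw [pinf.adicValuation_eq_exp_neg_ord hne, pinf.adicValuation_eq_exp_neg_ord ht0,
    exp_inj] at h2
  omega

/-- `t − τ` is regular off `pinf`. -/
theorem ord_sub_nonneg (ht : ∀ P : Place K F, P ≠ pinf → 0 ≤ P.ord t) {P : Place K F}
    (hP : P ≠ pinf) (τ : K) : 0 ≤ P.ord (t - algebraMap K F τ) :=
  Fermat.Agent.S24.ord_nonneg_of_mem P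
    (sub_mem (Fermat.Agent.S24.mem_of_ord_nonneg P (ht P hP)) (P.algebraMap_mem' τ))

/-- `t − t(P)` vanishes at `P`. -/
theorem one_le_ord_sub_pval (h : IsFF1 K F x) (ht : ∀ P : Place K F, P ≠ pinf → 0 ≤ P.ord t)
    (hm : pinf.ord t = -(m : ℤ)) (hm0 : 0 < m) {P : Place K F} (hP : P ≠ pinf) :
    1 ≤ P.ord (t - algebraMap K F (pval P t)) := by
  have hne := t_sub_ne_zero hm hm0 (pval P t)
  have h1 := pval_spec_of_mem P (h.resK P) (Fermat.Agent.S24.mem_of_ord_nonneg P (ht P hP))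
  rw [P.adicValuation_eq_exp_neg_ord hne, ← exp_zero, exp_lt_exp] at h1
  omega

/-- `t − τ` vanishes at `P` iff `t(P) = τ`. -/
theorem ord_sub_pos_iff (h : IsFF1 K F x) (ht : ∀ P : Place K F, P ≠ pinf → 0 ≤ P.ord t)
    (hm : pinf.ord t = -(m : ℤ)) (hm0 : 0 < m) {P : Place K F} (hP : P ≠ pinf) (τ : K) :
    0 < P.ord (t - algebraMap K F τ) ↔ pval P t = τ := by
  constructor
  · intro hpos
    refine pval_eq P ?_
    rw [P.adicValuation_eq_exp_neg_ord (t_sub_ne_zero hm hm0 τ), ← exp_zero, exp_lt_exp]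
    omega
  · rintro rfl
    have := one_le_ord_sub_pval h ht hm hm0 hP
    omega

end Orders

/-! ### The fibre divisors -/

section Fibre

variable {pinf : Place K F} {t : F} {m : ℕ}

/-- **The fibre divisor** of `t` over `τ`: the divisor of zeros of `t − τ`, of degree `m`. -/
theorem exists_fibDiv (h : IsFF1 K F x) (ht : ∀ P : Place K F, P ≠ pinf → 0 ≤ P.ord t)
    (hm : pinf.ord t = -(m : ℤ)) (hm0 : 0 < m) (τ : K) :
    ∃ Z : Place K F →₀ ℕ, Z pinf = 0 ∧
      (∀ P, P ≠ pinf → (Z P : ℤ) = P.ord (t - algebraMap K F τ)) ∧ HQ.deg Z = m := by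
  classical
  have := h.hasPrincipalDivisors
  obtain ⟨D, hD, hdeg⟩ := HasPrincipalDivisors.exists_divisor (K := K)
    (t - algebraMap K F τ) (t_sub_ne_zero hm hm0 τ)
  set E : Divisor K F := D + Finsupp.single pinf (m : ℤ) with hE
  have hEinf : E pinf = 0 := by
    rw [hE, Finsupp.add_apply, hD, ord_pinf_sub hm hm0 τ, Finsupp.single_eq_same]
    omega
  have hEP : ∀ P, P ≠ pinf → E P = P.ord (t - algebraMap K F τ) := by
    intro P hP
    rw [hE, Finsupp.add_apply, hD, Finsupp.single_apply, if_neg (Ne.symm hP), add_zero]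
  have hE0 : ∀ P, 0 ≤ E P := by
    intro P
    by_cases hP : P = pinf
    · rw [hP, hEinf]
    · rw [hEP P hP]; exact ord_sub_nonneg ht hP τ
  refine ⟨toNatDiv E, ?_, fun P hP => ?_, ?_⟩
  · rw [toNatDiv_apply, hEinf]; rfl
  · rw [coe_toNatDiv (hE0 P), hEP P hP]
  · have h1 := deg_toNatDiv h hE0
    rw [hE, map_add, hdeg, Divisor.degree_single, h.deg_eq_one, zero_add] at h1
    have h2 : (HQ.deg (toNatDiv E) : ℤ) = (m : ℤ) := by rw [h1]; simp
    exact_mod_cast h2

/-- The fibres of the value map `P ↦ t(P)` off `pinf` are finite, with at most `m` points. -/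
theorem exists_fibre_finset (h : IsFF1 K F x) (ht : ∀ P : Place K F, P ≠ pinf → 0 ≤ P.ord t)
    (hm : pinf.ord t = -(m : ℤ)) (hm0 : 0 < m) (τ : K) :
    ∃ T : Finset (Place K F), T.card ≤ m ∧ ∀ P, P ∈ T ↔ P ≠ pinf ∧ pval P t = τ := by
  classical
  obtain ⟨Z, hZinf, hZ, hZdeg⟩ := exists_fibDiv h ht hm hm0 τ
  refine ⟨Z.support, ?_, fun P => ?_⟩
  · rw [← hZdeg]
    unfold HQ.deg Finsupp.sum
    calc Z.support.card = ∑ _P ∈ Z.support, 1 := by simp
      _ ≤ ∑ P ∈ Z.support, Z P := Finset.sum_le_sum fun P hP =>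
          Nat.one_le_iff_ne_zero.mpr (Finsupp.mem_support_iff.mp hP)
  · rw [Finsupp.mem_support_iff]
    constructor
    · intro hne
      have hP : P ≠ pinf := by
        rintro rfl
        exact hne hZinf
      refine ⟨hP, (ord_sub_pos_iff h ht hm hm0 hP τ).mp ?_⟩
      have h1 := hZ P hP
      have h2 : (0 : ℤ) < (Z P : ℤ) := by exact_mod_cast Nat.pos_of_ne_zero hne
      omega
    · rintro ⟨hP, hval⟩ h0
      have h1 := hZ P hP
      have h2 := (ord_sub_pos_iff h ht hm hm0 hP τ).mpr hval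
      rw [h0] at h1
      simp at h1
      omega

theorem finite_fibre (h : IsFF1 K F x) (ht : ∀ P : Place K F, P ≠ pinf → 0 ≤ P.ord t)
    (hm : pinf.ord t = -(m : ℤ)) (hm0 : 0 < m) (τ : K) :
    {P : Place K F | P ≠ pinf ∧ pval P t = τ}.Finite := by
  obtain ⟨T, -, hT⟩ := exists_fibre_finset h ht hm hm0 τ
  refine T.finite_toSet.subset fun P hP => ?_
  exact Finset.mem_coe.mpr ((hT P).mpr hP)

/-- Finite fibres on the subtype of points (the `hfib` of `North.north_of`). -/
theorem finite_fibre_subtype (h : IsFF1 K F x)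
    (ht : ∀ P : Place K F, P ≠ pinf → 0 ≤ P.ord t)
    (hm : pinf.ord t = -(m : ℤ)) (hm0 : 0 < m) (τ : K) :
    {p : {P : Place K F // P ≠ pinf} | pval p.1 t = τ}.Finite := by
  have hfin := finite_fibre h ht hm hm0 τ
  refine Set.Finite.of_finite_image (f := Subtype.val) (hfin.subset ?_)
    (Subtype.val_injective.injOn)
  rintro _ ⟨p, hp, rfl⟩
  exact ⟨p.2, hp⟩

end Fibre

/-! ### The ramification divisor -/

section Ram

variable {pinf : Place K F} {t : F} {m : ℕ}

/-- **The affine ramification divisor of `t`** (Riemann–Hurwitz), given that `dt` spans the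
differentials: `𝔯 P = ord_P (t − t(P)) − 1` off `pinf`, and `deg 𝔯 = 2g + m − 1`. -/
theorem exists_ramDiv_of_span [CharZero K] (h : IsFF1 K F x)
    (hsep : Submodule.span F {KaehlerDifferential.D K F t} = ⊤)
    (ht : ∀ P : Place K F, P ≠ pinf → 0 ≤ P.ord t)
    (hm : pinf.ord t = -(m : ℤ)) (hm0 : 0 < m) :
    ∃ 𝔯 : Place K F →₀ ℕ, 𝔯 pinf = 0 ∧
      (∀ P, P ≠ pinf → (𝔯 P : ℤ) = P.ord (t - algebraMap K F (pval P t)) - 1) ∧
      (HQ.deg 𝔯 : ℤ) = 2 * (genusFF K F : ℤ) + m - 1 := by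
  classical
  obtain ⟨W, hW1, hW2, hWdeg⟩ := Res.exists_divisor_D_eq_ff1 h t hsep
  set E : Divisor K F := W + Finsupp.single pinf ((m : ℤ) + 1) with hE
  have hWinf : W pinf = -(m : ℤ) - 1 := by
    have h0 : ((pinf.ord t : ℤ) : K) ≠ 0 := by
      rw [hm]
      have : (m : ℤ) ≠ 0 := by exact_mod_cast hm0.ne'
      exact_mod_cast neg_ne_zero.mpr this
    rw [hW2 pinf h0, hm]
  have hWP : ∀ P, P ≠ pinf → W P = P.ord (t - algebraMap K F (pval P t)) - 1 := by
    intro P hP
    refine hW1 P (pval P t) ?_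
    have h1 := one_le_ord_sub_pval h ht hm hm0 hP
    have : (P.ord (t - algebraMap K F (pval P t)) : ℤ) ≠ 0 := by omega
    exact_mod_cast this
  have hEinf : E pinf = 0 := by
    rw [hE, Finsupp.add_apply, hWinf, Finsupp.single_eq_same]
    ring
  have hEP : ∀ P, P ≠ pinf → E P = P.ord (t - algebraMap K F (pval P t)) - 1 := by
    intro P hP
    rw [hE, Finsupp.add_apply, hWP P hP, Finsupp.single_apply, if_neg (Ne.symm hP), add_zero]
  have hE0 : ∀ P, 0 ≤ E P := by
    intro P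
    by_cases hP : P = pinf
    · rw [hP, hEinf]
    · rw [hEP P hP]
      have := one_le_ord_sub_pval h ht hm hm0 hP
      omega
  refine ⟨toNatDiv E, ?_, fun P hP => ?_, ?_⟩
  · rw [toNatDiv_apply, hEinf]; rfl
  · rw [coe_toNatDiv (hE0 P), hEP P hP]
  · rw [deg_toNatDiv h hE0, hE, map_add, hWdeg, Divisor.degree_single, h.deg_eq_one]
    push_cast
    ring

/-- `dt` spans the differentials for a non-constant `t`, in characteristic zero. -/
theorem span_D_eq_top_of_charZero [IsAlgClosed K] [CharZero K] (x : F)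
    [FiniteDimensional K⟮x⟯ F] {t : F}
    (htc : ∀ c : K, t ≠ algebraMap K F c) :
    Submodule.span F {KaehlerDifferential.D K F t} = ⊤ := by
  have htt : Transcendental K t := by
    intro halg
    obtain ⟨c, hc⟩ := exists_eq_algebraMap_of_isAlgebraic halg
    exact htc c hc
  have := Fermat.Agent.S24.Transfer.finiteDimensional_adjoin_of_transcendental (K := K) x htt
  have : CharZero K⟮t⟯ := charZero_of_injective_algebraMap (algebraMap K K⟮t⟯).injective
  have : Algebra.IsAlgebraic K⟮t⟯ F := Algebra.IsAlgebraic.of_finite _ _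
  have : Algebra.IsSeparable K⟮t⟯ F := inferInstance
  exact Res.span_D_eq_top_of_isSeparable t

/-- **The affine ramification divisor of `t`** over an algebraically closed field of
characteristic zero: `deg 𝔯 = 2g + m − 1`. -/
theorem exists_ramDiv [IsAlgClosed K] [CharZero K] (x : F) (hx : Transcendental K x)
    [FiniteDimensional K⟮x⟯ F]
    (ht : ∀ P : Place K F, P ≠ pinf → 0 ≤ P.ord t)
    (hm : pinf.ord t = -(m : ℤ)) (hm0 : 0 < m) :
    ∃ 𝔯 : Place K F →₀ ℕ, 𝔯 pinf = 0 ∧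
      (∀ P, P ≠ pinf → (𝔯 P : ℤ) = P.ord (t - algebraMap K F (pval P t)) - 1) ∧
      (HQ.deg 𝔯 : ℤ) = 2 * (genusFF K F : ℤ) + m - 1 := by
  have h : IsFF1 K F x := isFF1_of_charZero x hx
  refine exists_ramDiv_of_span h (span_D_eq_top_of_charZero x fun c hc => ?_) ht hm hm0
  exact t_sub_ne_zero hm hm0 c (sub_eq_zero.mpr hc)

end Ram

/-! ### The modular function field -/

section Modular

open ModularCurve Fermat.Agent.S24

variable (N : ℕ) [NeZero N] {pinf : Place (AlgebraicClosure ℚ) ↥(modularFunctionFieldBar N)}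
  {t : ↥(modularFunctionFieldBar N)} {m : ℕ}

/-- The fibre divisors of `t` on `X_0(N)` over `ℚ̄`. -/
theorem exists_fibDiv_modular
    (ht : ∀ P : Place (AlgebraicClosure ℚ) ↥(modularFunctionFieldBar N), P ≠ pinf → 0 ≤ P.ord t)
    (hm : pinf.ord t = -(m : ℤ)) (hm0 : 0 < m) (τ : AlgebraicClosure ℚ) :
    ∃ Z : Place (AlgebraicClosure ℚ) ↥(modularFunctionFieldBar N) →₀ ℕ, Z pinf = 0 ∧
      (∀ P, P ≠ pinf → (Z P : ℤ) = P.ord (t - algebraMap (AlgebraicClosure ℚ) _ τ)) ∧
      HQ.deg Z = m :=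
  exists_fibDiv (Res.isFF1_modular N) ht hm hm0 τ

/-- Finite fibres of the value map of `t` on the points of `X_0(N)` other than `pinf`. -/
theorem finite_fibre_modular
    (ht : ∀ P : Place (AlgebraicClosure ℚ) ↥(modularFunctionFieldBar N), P ≠ pinf → 0 ≤ P.ord t)
    (hm : pinf.ord t = -(m : ℤ)) (hm0 : 0 < m) (τ : AlgebraicClosure ℚ) :
    {p : {P : Place (AlgebraicClosure ℚ) ↥(modularFunctionFieldBar N) // P ≠ pinf} |
      pval p.1 t = τ}.Finite :=
  finite_fibre_subtype (Res.isFF1_modular N) ht hm hm0 τ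

/-- The affine ramification divisor of `t` on `X_0(N)` over `ℚ̄`: `deg 𝔯 = 2g + m − 1`. -/
theorem exists_ramDiv_modular
    (ht : ∀ P : Place (AlgebraicClosure ℚ) ↥(modularFunctionFieldBar N), P ≠ pinf → 0 ≤ P.ord t)
    (hm : pinf.ord t = -(m : ℤ)) (hm0 : 0 < m) :
    ∃ 𝔯 : Place (AlgebraicClosure ℚ) ↥(modularFunctionFieldBar N) →₀ ℕ, 𝔯 pinf = 0 ∧
      (∀ P, P ≠ pinf →
        (𝔯 P : ℤ) = P.ord (t - algebraMap (AlgebraicClosure ℚ) _ (pval P t)) - 1) ∧
      (HQ.deg 𝔯 : ℤ)
        = 2 * (genusFF (AlgebraicClosure ℚ) ↥(modularFunctionFieldBar N) : ℤ) + m - 1 := by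
  have := finiteDimensional_jBar N
  exact exists_ramDiv (jBar N) (transcendental_jBar N) ht hm hm0

end Modular

end Fermat.Agent.MW.Ht.RamDiv
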