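/-
MW / heights — THE GALOIS BRIDGE between the generic local vocabulary of HT-M (`HtM.pval`,
`HtM.LocalHt pinf t m`) and the `G_ℚ`-side of the global theory, on the modular function field
`F = ℚ̄·F_N` (`modularFunctionFieldBar N`), with `ρ σ = arithmeticGalois … σ` and `∞ = placeInfL`.

* generic (`K`, `F`, a place `P` with residue field `K`): `pval` is a ring homomorphism on the
  functions regular at `P` (`pval_add`, `pval_mul`, `pval_const_smul`, `pval_sum`, `pval_eq_iff`,
  `pval_eq_zero_iff`), and is equivariant for semilinear automorphisms (`pval_smul`);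
* (G1) `pval_galois`, `pval_galois_fixed` : `pval (ρ σ • P) f = σ (pval P f)` for `ρ σ • f = f`;
* (G2) `exists_rational_t` : `G_ℚ`-fixed functions with poles only at `∞`, of every large pole
  order;
* (G3) `exists_rational_basis` : a `G_ℚ`-fixed basis of `L(M·∞)`;
* (G4) `galois_smul_sum`, `coeff_fixed_of_fixed` : coordinates in a fixed basis are equivariant;
* (G5) `exists_fixed_function`, `exists_rational_coeffs` : a `U`-invariant divisor `Z ≥ 0` off `∞`
  with `Z − deg Z·∞` principal is the zero divisor of a `U`-fixed function, with `U`-fixed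
  coordinates in the rational basis;
* (G6) `finite_fibre` : the fibres of `P ↦ pval P t` are finite;
* (G7) `prod_pval_fixed` : the value of a `U`-fixed function on a `U`-invariant divisor is
  `U`-fixed.
-/
import Mathlib
import Fermat.Agent.MW.HtM.Local
import Fermat.Agent.CAR.Formal.HorizontalRR
import Fermat.Agent.CAR.Formal.DescentCore
import Fermat.Agent.Lib.FF.RRFF1
import Fermat.Agent.Lib.FF.CanonicalFF1
import Fermat.Agent.Lib.FF.PlaceInf
import Fermat.Agent.Lib.FF.BasePoint

set_option autoImplicit false
set_option linter.unusedSectionVars false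

namespace Fermat.Agent.MW.Ht.GalBridge

open AlgebraicCurve ModularCurve Fermat.Agent.Lib.FF Fermat.Agent.BAD.Dict Fermat.Agent.S24
open Fermat.Agent.Lib.FF.PlaceInf Fermat.Agent.MW.HtM Fermat.Agent.CAR.Formal
open WithZero

local notation "Qb" => AlgebraicClosure ℚ
local notation "GQ" => (AlgebraicClosure ℚ ≃ₐ[ℚ] AlgebraicClosure ℚ)

/-! ### Generic part: `pval` on regular functions, and semilinear automorphisms -/

section Generic

variable {K F : Type*} [Field K] [Field F] [Algebra K F]

theorem adicValuation_smul_smul (g : SemilinearAut K F) (P : Place K F) (f : F) :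
    (g • P).adicValuation (g • f) = P.adicValuation f := by
  rcases eq_or_ne f 0 with rfl | hf
  · simp
  · have hgf : g • f ≠ 0 := (smul_ne_zero_iff_ne _).mpr hf
    rw [Place.adicValuation_eq_exp_neg_ord _ hgf, Place.adicValuation_eq_exp_neg_ord _ hf,
      SemilinearAut.ord_smul]

/-- **(G1), generic form.**  The value map is equivariant for semilinear automorphisms. -/
theorem pval_smul (g : SemilinearAut K F) (P : Place K F) (f : F) :
    pval (g • P) (g • f) = SemilinearAut.baseAut g (pval P f) := by
  classical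
  by_cases h : ∃ c : K, P.adicValuation (f - algebraMap K F c) < 1
  · obtain ⟨c, hc⟩ := h
    rw [pval_eq P hc]
    refine pval_eq (g • P) ?_
    have e : g • f - algebraMap K F (SemilinearAut.baseAut g c) = g • (f - algebraMap K F c) := by
      rw [smul_sub, SemilinearAut.smul_algebraMap]
    rw [e, adicValuation_smul_smul]
    exact hc
  · have h' : ¬ ∃ c : K, (g • P).adicValuation (g • f - algebraMap K F c) < 1 := by
      rintro ⟨c, hc⟩
      apply h
      refine ⟨(SemilinearAut.baseAut g).symm c, ?_⟩
      have e : g • (f - algebraMap K F ((SemilinearAut.baseAut g).symm c))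
          = g • f - algebraMap K F c := by
        rw [smul_sub, SemilinearAut.smul_algebraMap, RingEquiv.apply_symm_apply]
      rw [← adicValuation_smul_smul g, e]
      exact hc
    have e1 : pval P f = 0 := by unfold pval; rw [dif_neg h]
    have e2 : pval (g • P) (g • f) = 0 := by unfold pval; rw [dif_neg h']
    rw [e1, e2, map_zero]

theorem adicValuation_le_one_of_ord_nonneg (P : Place K F) {f : F} (hf : 0 ≤ P.ord f) :
    P.adicValuation f ≤ 1 := by
  rw [← exp_zero, P.adicValuation_le_exp_iff]
  right
  simpa using hf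

theorem adicValuation_lt_one_iff (P : Place K F) {f : F} :
    P.adicValuation f < 1 ↔ f = 0 ∨ 0 < P.ord f := by
  rcases eq_or_ne f 0 with rfl | hf
  · simp
  · rw [P.adicValuation_eq_exp_neg_ord hf, ← exp_zero, exp_lt_exp]
    constructor
    · intro h; right; omega
    · rintro (h | h)
      · exact absurd h hf
      · omega

/-- A function regular at a place with residue field `K` has a value there. -/
theorem exists_pval (P : Place K F) (hP : RR.ResK P) {f : F} (hf : P.adicValuation f ≤ 1) :
    ∃ c : K, P.adicValuation (f - algebraMap K F c) < 1 := by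
  obtain ⟨c, hc⟩ := RR.exists_const_sub P hP (n := 0) (t := (1 : F)) (f := f)
    (by rw [map_one, exp_zero]) (by rwa [exp_zero])
  refine ⟨c, ?_⟩
  rw [Algebra.smul_def, mul_one] at hc
  refine lt_of_le_of_lt hc ?_
  rw [← exp_zero, exp_lt_exp]
  norm_num

theorem pval_spec_of_reg (P : Place K F) (hP : RR.ResK P) {f : F} (hf : P.adicValuation f ≤ 1) :
    P.adicValuation (f - algebraMap K F (pval P f)) < 1 :=
  pval_spec P (exists_pval P hP hf)

theorem pval_eq_iff (P : Place K F) (hP : RR.ResK P) {f : F} (hf : P.adicValuation f ≤ 1)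
    (c : K) : pval P f = c ↔ P.adicValuation (f - algebraMap K F c) < 1 :=
  ⟨fun h => h ▸ pval_spec_of_reg P hP hf, fun h => pval_eq P h⟩

theorem pval_eq_zero_iff (P : Place K F) (hP : RR.ResK P) {f : F} (hf : P.adicValuation f ≤ 1) :
    pval P f = 0 ↔ P.adicValuation f < 1 := by
  rw [pval_eq_iff P hP hf, map_zero, sub_zero]

theorem pval_eq_zero_iff_ord (P : Place K F) (hP : RR.ResK P) {f : F}
    (hf : P.adicValuation f ≤ 1) : pval P f = 0 ↔ f = 0 ∨ 0 < P.ord f := by
  rw [pval_eq_zero_iff P hP hf, adicValuation_lt_one_iff]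

theorem adicValuation_algebraMap_le_one' (P : Place K F) (c : K) :
    P.adicValuation (algebraMap K F c) ≤ 1 := P.adicValuation_algebraMap_le_one c

theorem pval_add (P : Place K F) (hP : RR.ResK P) {f g : F} (hf : P.adicValuation f ≤ 1)
    (hg : P.adicValuation g ≤ 1) : pval P (f + g) = pval P f + pval P g := by
  refine pval_eq P ?_
  have e : f + g - algebraMap K F (pval P f + pval P g)
      = (f - algebraMap K F (pval P f)) + (g - algebraMap K F (pval P g)) := by
    rw [map_add]; ring
  rw [e]
  exact lt_of_le_of_lt (Valuation.map_add _ _ _)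
    (max_lt (pval_spec_of_reg P hP hf) (pval_spec_of_reg P hP hg))

theorem pval_mul (P : Place K F) (hP : RR.ResK P) {f g : F} (hf : P.adicValuation f ≤ 1)
    (hg : P.adicValuation g ≤ 1) : pval P (f * g) = pval P f * pval P g := by
  refine pval_eq P ?_
  have e : f * g - algebraMap K F (pval P f * pval P g)
      = (f - algebraMap K F (pval P f)) * g
        + algebraMap K F (pval P f) * (g - algebraMap K F (pval P g)) := by
    rw [map_mul]; ring
  rw [e]
  refine lt_of_le_of_lt (Valuation.map_add _ _ _) (max_lt ?_ ?_)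
  · rw [map_mul]
    exact lt_of_le_of_lt (mul_le_of_le_one_right' hg) (pval_spec_of_reg P hP hf)
  · rw [map_mul]
    exact lt_of_le_of_lt (mul_le_of_le_one_left' (P.adicValuation_algebraMap_le_one _))
      (pval_spec_of_reg P hP hg)

/-- `pval` is homogeneous for constants (no regularity hypothesis). -/
theorem pval_const_smul (P : Place K F) (c : K) (f : F) : pval P (c • f) = c * pval P f := by
  classical
  rcases eq_or_ne c 0 with rfl | hc
  · simp
  by_cases h : ∃ a : K, P.adicValuation (f - algebraMap K F a) < 1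
  · obtain ⟨a, ha⟩ := h
    rw [pval_eq P ha]
    refine pval_eq P ?_
    have e : c • f - algebraMap K F (c * a) = algebraMap K F c * (f - algebraMap K F a) := by
      rw [Algebra.smul_def, map_mul]; ring
    rw [e, map_mul]
    exact lt_of_le_of_lt (mul_le_of_le_one_left' (P.adicValuation_algebraMap_le_one _)) ha
  · have h' : ¬ ∃ a : K, P.adicValuation (c • f - algebraMap K F a) < 1 := by
      rintro ⟨a, ha⟩
      apply h
      refine ⟨c⁻¹ * a, ?_⟩
      have e : f - algebraMap K F (c⁻¹ * a)
          = algebraMap K F c⁻¹ * (c • f - algebraMap K F a) := by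
        have hcc : algebraMap K F c⁻¹ * algebraMap K F c = 1 := by
          rw [← map_mul, inv_mul_cancel₀ hc, map_one]
        rw [Algebra.smul_def, map_mul, mul_sub, ← mul_assoc, hcc, one_mul]
      rw [e, map_mul]
      exact lt_of_le_of_lt (mul_le_of_le_one_left' (P.adicValuation_algebraMap_le_one _)) ha
    have e1 : pval P f = 0 := by unfold pval; rw [dif_neg h]
    have e2 : pval P (c • f) = 0 := by unfold pval; rw [dif_neg h']
    rw [e1, e2, mul_zero]

theorem adicValuation_sum_le_one (P : Place K F) {ι : Type*} (s : Finset ι) (f : ι → F)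
    (hf : ∀ i ∈ s, P.adicValuation (f i) ≤ 1) : P.adicValuation (∑ i ∈ s, f i) ≤ 1 :=
  Valuation.map_sum_le _ hf

theorem pval_sum (P : Place K F) (hP : RR.ResK P) {ι : Type*} (s : Finset ι) (f : ι → F)
    (hf : ∀ i ∈ s, P.adicValuation (f i) ≤ 1) :
    pval P (∑ i ∈ s, f i) = ∑ i ∈ s, pval P (f i) := by
  classical
  induction s using Finset.induction_on with
  | empty => simp
  | insert a s ha ih =>
    rw [Finset.sum_insert ha, Finset.sum_insert ha,
      pval_add P hP (hf a (Finset.mem_insert_self a s))
        (adicValuation_sum_le_one P s f fun i hi => hf i (Finset.mem_insert_of_mem hi)),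
      ih fun i hi => hf i (Finset.mem_insert_of_mem hi)]

/-- The value of a linear combination of regular functions. -/
theorem pval_sum_smul (P : Place K F) (hP : RR.ResK P) {ι : Type*} [Fintype ι] (a : ι → K)
    (f : ι → F) (hf : ∀ i, P.adicValuation (f i) ≤ 1) :
    pval P (∑ i, a i • f i) = ∑ i, a i * pval P (f i) := by
  rw [pval_sum P hP Finset.univ _ (fun i _ => by
    rw [Algebra.smul_def, map_mul]
    exact (mul_le_of_le_one_left' (P.adicValuation_algebraMap_le_one _)).trans (hf i))]
  exact Finset.sum_congr rfl fun i _ => pval_const_smul P (a i) (f i)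

/-- A semilinear automorphism fixing the place `P` preserves `L(n·P)`. -/
theorem smul_mem_rr_single (g : SemilinearAut K F) {P : Place K F} (hP : g • P = P)
    (n : ℤ) {f : F} (hf : f ∈ riemannRochSpace (Finsupp.single P n)) :
    g • f ∈ riemannRochSpace (Finsupp.single P n) := by
  classical
  intro v
  have hP' : g⁻¹ • P = P := by rw [inv_smul_eq_iff, hP]
  have h1 := adicValuation_smul_smul g (g⁻¹ • v) f
  rw [smul_inv_smul] at h1
  rw [h1]
  have h2 : (Finsupp.single P n) v = (Finsupp.single P n) (g⁻¹ • v) := by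
    by_cases hv : P = v
    · subst hv
      rw [hP']
    · have hv' : P ≠ g⁻¹ • v := by
        intro h
        apply hv
        rw [← hP, h, smul_inv_smul]
      rw [Finsupp.single_apply, Finsupp.single_apply, if_neg hv, if_neg hv']
  rw [h2]
  exact hf _

/-- Membership in `L(M·P)` in terms of orders. -/
theorem mem_rr_single_iff (P : Place K F) (M : ℕ) (f : F) :
    f ∈ riemannRochSpace (Finsupp.single P (M : ℤ)) ↔
      (∀ v : Place K F, v ≠ P → 0 ≤ v.ord f) ∧ -(M : ℤ) ≤ P.ord f := by
  classical
  rw [mem_riemannRochSpace_iff]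
  constructor
  · intro h
    refine ⟨fun v hv => ?_, ?_⟩
    · rcases h v with h0 | h1
      · rw [h0, Place.ord_zero]
      · rwa [Finsupp.single_eq_of_ne hv, neg_zero] at h1
    · rcases h P with h0 | h1
      · rw [h0, Place.ord_zero]
        omega
      · rwa [Finsupp.single_eq_same] at h1
  · rintro ⟨h1, h2⟩ v
    right
    by_cases hv : v = P
    · subst hv
      rwa [Finsupp.single_eq_same]
    · rw [Finsupp.single_eq_of_ne hv, neg_zero]
      exact h1 v hv

end Generic

/-! ### The modular function field -/

section Modular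

variable (N : ℕ) [NeZero N]

/-- The base automorphism of the arithmetic Galois action is `σ`. -/
theorem baseAut_arithmeticGalois (σ : GQ) (c : Qb) :
    SemilinearAut.baseAut (arithmeticGalois (modularFunctionFieldFull N) σ) c = σ c := rfl

/-- **(G1).**  The value map is Galois-equivariant. -/
theorem pval_galois (σ : GQ) (P : Place Qb (modularFunctionFieldBar N))
    (f : modularFunctionFieldBar N) :
    pval (arithmeticGalois (modularFunctionFieldFull N) σ • P)
      (arithmeticGalois (modularFunctionFieldFull N) σ • f) = σ (pval P f) :=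
  pval_smul _ P f

/-- **(G1), for rational functions.** -/
theorem pval_galois_fixed (σ : GQ) (P : Place Qb (modularFunctionFieldBar N))
    {f : modularFunctionFieldBar N}
    (hf : arithmeticGalois (modularFunctionFieldFull N) σ • f = f) :
    pval (arithmeticGalois (modularFunctionFieldFull N) σ • P) f = σ (pval P f) := by
  have h := pval_galois N σ P f
  rwa [hf] at h

/-- Every place of the modular function field has residue field `ℚ̄`. -/
theorem resK_modular (P : Place Qb (modularFunctionFieldBar N)) : RR.ResK P :=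
  (Fermat.Agent.Lib.FF.Res.isFF1_modular N).resK P

/-- The Galois action moves no other place to `∞`. -/
theorem galois_smul_ne_placeInf (σ : GQ) {P : Place Qb (modularFunctionFieldBar N)}
    (hP : P ≠ placeInfL Qb N) :
    arithmeticGalois (modularFunctionFieldFull N) σ • P ≠ placeInfL Qb N := by
  intro h
  apply hP
  have h2 := arithmeticGalois_smul_placeInfL Qb N σ
  rw [← h2] at h
  exact MulAction.injective _ h

/-- `L(n·∞)` is stable under the arithmetic Galois action. -/
theorem galois_smul_mem_rr_inf (σ : GQ) (n : ℤ) {f : modularFunctionFieldBar N}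
    (hf : f ∈ riemannRochSpace (Finsupp.single (placeInfL Qb N) n)) :
    arithmeticGalois (modularFunctionFieldFull N) σ • f
      ∈ riemannRochSpace (Finsupp.single (placeInfL Qb N) n) :=
  smul_mem_rr_single _ (arithmeticGalois_smul_placeInfL Qb N σ) n hf

/-- **Rational bases.**  A finite-dimensional subspace of `ℚ̄·F_N` stable under the arithmetic
Galois action has a basis of `G_ℚ`-fixed functions. -/
theorem exists_fixed_basis_of_stable (L : Submodule Qb (modularFunctionFieldBar N))
    [FiniteDimensional Qb L]
    (hL : ∀ σ : GQ, ∀ y ∈ L, arithmeticGalois (modularFunctionFieldFull N) σ • y ∈ L) :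
    ∃ (r : ℕ) (f : Fin r → modularFunctionFieldBar N),
      (∀ i, ∀ σ : GQ, arithmeticGalois (modularFunctionFieldFull N) σ • f i = f i) ∧
      LinearIndependent Qb f ∧ Submodule.span Qb (Set.range f) = L := by
  set T : Set (modularFunctionFieldBar N) :=
    {y | y ∈ L ∧ ∀ σ ∈ (Set.univ : Set GQ),
      arithmeticGalois (modularFunctionFieldFull N) σ • y = y} with hT
  have h1 : L ≤ Submodule.span Qb T :=
    HorizontalRR.le_span_fixed_modular N Set.univ L (fun σ _ y hy => hL σ y hy)
  have h2 : Submodule.span Qb T = L :=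
    le_antisymm (Submodule.span_le.mpr fun y hy => hy.1) h1
  have : Module.Finite Qb (Submodule.span Qb T) := by rw [h2]; infer_instance
  obtain ⟨f, hfT, hspan, hli⟩ := Submodule.exists_fun_fin_finrank_span_eq Qb T
  exact ⟨_, f, fun i σ => (hfT i).2 σ (Set.mem_univ σ), hli, hspan.trans h2⟩

/-- **(G3).**  A `G_ℚ`-fixed basis of `L(M·∞)`: rational functions, regular off `∞`, with pole
order `≤ M` at `∞` (the hypotheses of `HtM.LocalHt.mle`). -/
theorem exists_rational_basis (M : ℕ) :
    ∃ (r : ℕ) (f : Fin r → modularFunctionFieldBar N),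
      (∀ i, ∀ σ : GQ, arithmeticGalois (modularFunctionFieldFull N) σ • f i = f i) ∧
      LinearIndependent Qb f ∧
      Submodule.span Qb (Set.range f)
        = riemannRochSpace (Finsupp.single (placeInfL Qb N) (M : ℤ)) ∧
      (∀ i, ∀ P : Place Qb (modularFunctionFieldBar N), P ≠ placeInfL Qb N → 0 ≤ P.ord (f i)) ∧
      (∀ i, -(M : ℤ) ≤ (placeInfL Qb N).ord (f i)) := by
  have : Module.Finite Qb (riemannRochSpace (Finsupp.single (placeInfL Qb N) (M : ℤ))) :=
    (Fermat.Agent.Lib.FF.Res.isFF1_modular N).finite_L _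
  obtain ⟨r, f, hfix, hli, hspan⟩ := exists_fixed_basis_of_stable N
    (riemannRochSpace (Finsupp.single (placeInfL Qb N) (M : ℤ)))
    (fun σ y hy => galois_smul_mem_rr_inf N σ _ hy)
  have hmem : ∀ i, f i ∈ riemannRochSpace (Finsupp.single (placeInfL Qb N) (M : ℤ)) := fun i => by
    rw [← hspan]
    exact Submodule.subset_span ⟨i, rfl⟩
  exact ⟨r, f, hfix, hli, hspan,
    fun i P hP => ((mem_rr_single_iff _ M (f i)).mp (hmem i)).1 P hP,
    fun i => ((mem_rr_single_iff _ M (f i)).mp (hmem i)).2⟩

/-- **(G2).**  For every large `m` there is a `G_ℚ`-fixed function with poles only at `∞`, of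
pole order exactly `m` there: the `t` (and `m`) of `HtM.LocalHt Ab ∞ t m`. -/
theorem exists_rational_t :
    ∃ m₀ : ℕ, ∀ m : ℕ, m₀ ≤ m → ∃ t : modularFunctionFieldBar N,
      (∀ σ : GQ, arithmeticGalois (modularFunctionFieldFull N) σ • t = t) ∧
      (∀ P : Place Qb (modularFunctionFieldBar N), P ≠ placeInfL Qb N → 0 ≤ P.ord t) ∧
      (placeInfL Qb N).ord t = -(m : ℤ) := by
  classical
  have h := Fermat.Agent.Lib.FF.Res.isFF1_modular N
  obtain ⟨c, hc⟩ := BasePoint.exists_NS h
  refine ⟨(c + 1).toNat, fun m hm => ?_⟩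
  set P₀ := placeInfL Qb N with hP₀
  set D : Divisor Qb (modularFunctionFieldBar N) := Finsupp.single P₀ (m : ℤ) with hD
  have hdeg : c + 1 ≤ Divisor.degree D := by
    rw [hD, Divisor.degree_single, h.deg_eq_one]
    have : (c + 1).toNat ≤ m := hm
    omega
  obtain ⟨f₀, hf₀, hf₀v⟩ := BasePoint.bpf_of_degree h hc hdeg P₀
  have hnot := BasePoint.notMem_of_val_eq hf₀v
  have : Module.Finite Qb (riemannRochSpace D) := h.finite_L D
  have hspan := HorizontalRR.le_span_fixed_modular N Set.univ (riemannRochSpace D)
    (fun σ _ y hy => galois_smul_mem_rr_inf N σ _ hy)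
  -- some fixed element of `L(D)` is not in `L(D - ∞)`
  obtain ⟨t, htD, htfix, htnot⟩ : ∃ t, t ∈ riemannRochSpace D ∧
      (∀ σ ∈ (Set.univ : Set GQ), arithmeticGalois (modularFunctionFieldFull N) σ • t = t) ∧
      t ∉ riemannRochSpace (D - Finsupp.single P₀ (1 : ℤ)) := by
    by_contra hcon
    push Not at hcon
    apply hnot
    refine (Submodule.span_le.mpr ?_) (hspan hf₀)
    rintro y ⟨hy, hyfix⟩
    exact hcon y hy hyfix
  have hval := RR.val_eq_of_mem_of_notMem (D - Finsupp.single P₀ (1 : ℤ)) (v := P₀)
    (by rw [BasePoint.addPl_sub_single]; exact htD) htnot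
  rw [BasePoint.sub_single_apply_self] at hval
  have hmemD := (mem_rr_single_iff P₀ m t).mp htD
  have ht0 : t ≠ 0 := by
    rintro rfl
    exact htnot (Submodule.zero_mem _)
  refine ⟨t, fun σ => htfix σ (Set.mem_univ σ), hmemD.1, ?_⟩
  rw [P₀.adicValuation_eq_exp_neg_ord ht0, hD, Finsupp.single_eq_same] at hval
  have := exp_injective hval
  omega

/-- A function with a pole is not constant. -/
theorem ne_algebraMap_of_ord_neg {t : modularFunctionFieldBar N}
    {P : Place Qb (modularFunctionFieldBar N)} (ht : P.ord t < 0) (c : Qb) :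
    t ≠ algebraMap Qb (modularFunctionFieldBar N) c := by
  rintro rfl
  rw [ord_algebraMap] at ht
  exact lt_irrefl _ ht

/-! ### (G4): coordinates in a rational basis -/

/-- The Galois action on a linear combination of fixed functions acts on the coefficients. -/
theorem galois_smul_sum {r : ℕ} (f : Fin r → modularFunctionFieldBar N) (σ : GQ)
    (hfix : ∀ i, arithmeticGalois (modularFunctionFieldFull N) σ • f i = f i) (a : Fin r → Qb) :
    arithmeticGalois (modularFunctionFieldFull N) σ • (∑ i, a i • f i) = ∑ i, σ (a i) • f i := by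
  rw [Finset.smul_sum]
  refine Finset.sum_congr rfl fun i _ => ?_
  rw [Algebra.smul_def, Algebra.smul_def, smul_mul', hfix i, SemilinearAut.smul_algebraMap]
  rfl

/-- **(G4).**  A function fixed by `σ` has `σ`-fixed coordinates in a rational basis. -/
theorem coeff_fixed_of_fixed {r : ℕ} (f : Fin r → modularFunctionFieldBar N)
    (hli : LinearIndependent Qb f) (σ : GQ)
    (hfix : ∀ i, arithmeticGalois (modularFunctionFieldFull N) σ • f i = f i) (a : Fin r → Qb)
    (hφ : arithmeticGalois (modularFunctionFieldFull N) σ • (∑ i, a i • f i) = ∑ i, a i • f i)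
    (i : Fin r) : σ (a i) = a i := by
  rw [galois_smul_sum N f σ hfix a] at hφ
  have h1 : ∑ i, (σ (a i) - a i) • f i = 0 := by
    simp only [sub_smul, Finset.sum_sub_distrib, hφ, sub_self]
  have h2 := Fintype.linearIndependent_iff.mp hli _ h1 i
  exact sub_eq_zero.mp h2

/-! ### (G5): rational functions with prescribed invariant zero divisor -/

/-- **(G5).**  If `Z` is a divisor fixed by a set `U ⊆ G_ℚ` with `Z − deg Z·∞` principal, then
`Z − deg Z·∞` is the divisor of a `U`-fixed function (leading coefficient `1` at `∞`). -/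
theorem exists_fixed_function (U : Set GQ) (Z : Divisor Qb (modularFunctionFieldBar N))
    (hZ : ∀ σ ∈ U, arithmeticGalois (modularFunctionFieldFull N) σ • Z = Z)
    (hprin : Z - Divisor.degree Z • Finsupp.single (placeInfL Qb N) (1 : ℤ)
      ∈ Divisor.principal (K := Qb) (F := modularFunctionFieldBar N)) :
    ∃ φ : modularFunctionFieldBar N,
      IsDiv (Z - Divisor.degree Z • Finsupp.single (placeInfL Qb N) (1 : ℤ)) φ ∧
      DescentCore.lcInf N φ = 1 ∧
      ∀ σ ∈ U, arithmeticGalois (modularFunctionFieldFull N) σ • φ = φ := by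
  refine DescentCore.exists_fixed_generator_modular N U _ hprin (fun σ hσ => ?_)
  rw [smul_sub, hZ σ hσ, smul_comm, SemilinearAut.smul_single, arithmeticGalois_smul_placeInfL]

/-- **(G5), coordinate form.**  For `Z ≥ 0` off `∞` of degree `≤ M`, fixed by `U`, with
`Z − deg Z·∞` principal: the function with divisor `Z − deg Z·∞` has `U`-fixed coordinates in a
rational basis of `L(M·∞)`. -/
theorem exists_rational_coeffs (U : Set GQ) {r : ℕ} (f : Fin r → modularFunctionFieldBar N)
    (hfix : ∀ i, ∀ σ : GQ, arithmeticGalois (modularFunctionFieldFull N) σ • f i = f i)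
    (hli : LinearIndependent Qb f) {M : ℕ}
    (hspan : Submodule.span Qb (Set.range f)
      = riemannRochSpace (Finsupp.single (placeInfL Qb N) (M : ℤ)))
    (Z : Divisor Qb (modularFunctionFieldBar N)) (hZ0 : 0 ≤ Z) (hZinf : Z (placeInfL Qb N) = 0)
    (hdeg : Divisor.degree Z ≤ M)
    (hZ : ∀ σ ∈ U, arithmeticGalois (modularFunctionFieldFull N) σ • Z = Z)
    (hprin : Z - Divisor.degree Z • Finsupp.single (placeInfL Qb N) (1 : ℤ)
      ∈ Divisor.principal (K := Qb) (F := modularFunctionFieldBar N)) :
    ∃ a : Fin r → Qb, (∀ i, ∀ σ ∈ U, σ (a i) = a i) ∧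
      IsDiv (Z - Divisor.degree Z • Finsupp.single (placeInfL Qb N) (1 : ℤ)) (∑ i, a i • f i) ∧
      DescentCore.lcInf N (∑ i, a i • f i) = 1 := by
  classical
  obtain ⟨φ, hφ, hlc, hφfix⟩ := exists_fixed_function N U Z hZ hprin
  have hmem : φ ∈ riemannRochSpace (Finsupp.single (placeInfL Qb N) (M : ℤ)) := by
    rw [mem_rr_single_iff]
    refine ⟨fun v hv => ?_, ?_⟩
    · rw [← hφ.2 v, Finsupp.sub_apply, Finsupp.smul_apply, Finsupp.single_eq_of_ne hv, smul_zero,
        sub_zero]
      exact hZ0 v
    · rw [← hφ.2, Finsupp.sub_apply, Finsupp.smul_apply, Finsupp.single_eq_same, hZinf]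
      simp only [smul_eq_mul, mul_one, zero_sub]
      omega
  rw [← hspan] at hmem
  obtain ⟨a, ha⟩ := (Submodule.mem_span_range_iff_exists_fun Qb).mp hmem
  refine ⟨a, fun i σ hσ => ?_, ha ▸ hφ, ha ▸ hlc⟩
  exact coeff_fixed_of_fixed N f hli σ (fun i => hfix i σ) a (by rw [ha]; exact hφfix σ hσ) i

/-! ### (G6): finite fibres -/

/-- **(G6).**  A non-constant function takes each value at finitely many places. -/
theorem finite_fibre (t : modularFunctionFieldBar N)
    (ht : ∀ c : Qb, t ≠ algebraMap Qb (modularFunctionFieldBar N) c) (c : Qb) :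
    {P : Place Qb (modularFunctionFieldBar N) | 0 ≤ P.ord t ∧ pval P t = c}.Finite := by
  classical
  have h := Fermat.Agent.Lib.FF.Res.isFF1_modular N
  have hne : t - algebraMap Qb (modularFunctionFieldBar N) c ≠ 0 := sub_ne_zero.mpr (ht c)
  obtain ⟨D, hD⟩ := DescentCore.exists_isDiv h hne
  refine D.support.finite_toSet.subset ?_
  rintro P ⟨hP, hPc⟩
  have h1 := (pval_eq_iff P (resK_modular N P) (adicValuation_le_one_of_ord_nonneg P hP) c).mp hPc
  rw [adicValuation_lt_one_iff] at h1
  rcases h1 with h1 | h1
  · exact absurd h1 hne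
  · rw [Finset.mem_coe, Finsupp.mem_support_iff, hD.2 P]
    omega

/-! ### (G7): values on invariant divisors -/

/-- **(G7).**  For a function `φ` fixed by `σ` and an effective divisor `E` fixed by `σ`, the
value `φ(E) = ∏_P φ(P)^{E(P)}` is fixed by `σ`. -/
theorem prod_pval_fixed (σ : GQ) {φ : modularFunctionFieldBar N}
    (hφ : arithmeticGalois (modularFunctionFieldFull N) σ • φ = φ)
    (E : Place Qb (modularFunctionFieldBar N) →₀ ℕ)
    (hE : Finsupp.mapDomain (arithmeticGalois (modularFunctionFieldFull N) σ • ·) E = E) :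
    σ (E.prod fun P n => pval P φ ^ n) = E.prod fun P n => pval P φ ^ n := by
  classical
  conv_rhs => rw [← hE]
  rw [Finsupp.prod_mapDomain_index_inj (MulAction.injective _), map_finsuppProd]
  refine Finsupp.prod_congr fun P _ => ?_
  rw [map_pow, pval_galois_fixed N σ P hφ]

end Modular

end Fermat.Agent.MW.Ht.GalBridge
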