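/-
MW / HT-Q, the function-field half of (HadK) under the clause (G5) of `Good` (helper65).

* `det_ne_zero` (generic): for a linearly independent family `b` in `L(B)` and distinct places
  `P_1, …, P_n` at which `B` is `0`, if `L(B - ∑ P_j) = 0` then the evaluation determinant
  `det (pval (P_j) (b_i))` is nonzero;
* `exists_rational_basis_canon` (modular): with `g` the genus of `ℚ̄·F_N` and `∞` the cusp, there
  is a `G_ℚ`-fixed family `b : Fin g → ℚ̄·F_N` of functions regular off `∞` with pole order
  `≤ 2g - 1` at `∞` (a basis of `L((2g - 1)·∞)`) whose evaluation determinant is nonzero at every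
  `g`-tuple of distinct places `P_j ≠ ∞` with `L((2g - 1)·∞ - ∑ P_j) = 0`.

Together with the local Hadamard bound (`MW/HtM/Hadamard.lean`, `M = 2g - 1`) and the product
formula this gives (HadK) with the coefficient `2g - 1` for every good divisor `E` satisfying
(G5) `L((2g - 1)·∞ - E) = 0`; the good-translate lemma with (G5) is
`MW/Ht/GoodTranslateB.lean`.
-/
import Mathlib
import Fermat.Agent.MW.Ht.GalBridge
import Fermat.Agent.Lib.FF.WeilCanonical

set_option autoImplicit false

noncomputable section

namespace Fermat.Agent.MW.Ht.DetNZ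

open AlgebraicCurve Module ModularCurve WithZero
open Fermat.Agent.Lib.FF Fermat.Agent.Lib.FF.PlaceInf Fermat.Agent.MW.HtM
open Fermat.Agent.MW.Ht.GalBridge

/-! ### Generic part -/

section Generic

variable {K F : Type*} [Field K] [Field F] [Algebra K F]

open Classical in
/-- The value at `v` of the reduced divisor of an injective family of places. -/
theorem sum_single_apply {n : ℕ} (P : Fin n → Place K F) (hP : Function.Injective P)
    (v : Place K F) :
    (∑ j, Finsupp.single (P j) (1 : ℤ)) v = if ∃ j, P j = v then 1 else 0 := by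
  classical
  rw [Finsupp.finsetSum_apply]
  split_ifs with hv
  · obtain ⟨j₀, rfl⟩ := hv
    rw [Finset.sum_eq_single j₀]
    · rw [Finsupp.single_eq_same]
    · intro j _ hj
      exact Finsupp.single_eq_of_ne (fun h => hj (hP h.symm))
    · intro h
      exact absurd (Finset.mem_univ j₀) h
  · refine Finset.sum_eq_zero fun j _ => ?_
    exact Finsupp.single_eq_of_ne (fun h => hv ⟨j, h.symm⟩)

/-- **Nonvanishing of the evaluation determinant.**  `b` a linearly independent family in `L(B)`,
`P` an injective family of places with `B (P j) = 0`; if no nonzero element of `L(B)` vanishes at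
all the `P j`, i.e. `L(B - ∑ P_j) = 0`, then `det (pval (P j) (b i)) ≠ 0`. -/
theorem det_ne_zero (hres : ∀ P : Place K F, RR.ResK P) (B : Divisor K F) {n : ℕ}
    (b : Fin n → F) (hb : ∀ i, b i ∈ riemannRochSpace B) (hli : LinearIndependent K b)
    (P : Fin n → Place K F) (hP : Function.Injective P) (hBP : ∀ j, B (P j) = 0)
    (hE : riemannRochSpace (B - ∑ j, Finsupp.single (P j) (1 : ℤ)) = ⊥) :
    Matrix.det (Matrix.of fun i j => pval (P j) (b i)) ≠ 0 := by
  classical
  intro hdet
  obtain ⟨c, hc0, hc⟩ := Matrix.exists_vecMul_eq_zero_iff.mpr hdet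
  set φ : F := ∑ i, c i • b i with hφ
  have hφB : φ ∈ riemannRochSpace B :=
    Submodule.sum_mem _ fun i _ => Submodule.smul_mem _ _ (hb i)
  have hφ0 : φ ≠ 0 := by
    intro h0
    exact hc0 (funext (Fintype.linearIndependent_iff.mp hli c h0))
  have hreg : ∀ i j, (P j).adicValuation (b i) ≤ 1 := by
    intro i j
    refine (hb i (P j)).trans ?_
    rw [← exp_zero, exp_le_exp]
    exact (hBP j).le
  have hval : ∀ j, pval (P j) φ = 0 := by
    intro j
    rw [hφ, pval_sum_smul (P j) (hres (P j)) c b (fun i => hreg i j)]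
    have h1 := congrFun hc j
    simpa [Matrix.vecMul, dotProduct, Matrix.of_apply] using h1
  have hφreg : ∀ j, (P j).adicValuation φ ≤ 1 := by
    intro j
    refine (hφB (P j)).trans ?_
    rw [← exp_zero, exp_le_exp]
    exact (hBP j).le
  have hord : ∀ j, 0 < (P j).ord φ := by
    intro j
    exact ((pval_eq_zero_iff_ord (P j) (hres (P j)) (hφreg j)).mp (hval j)).resolve_left hφ0
  have hmem : φ ∈ riemannRochSpace (B - ∑ j, Finsupp.single (P j) (1 : ℤ)) := by
    rw [mem_riemannRochSpace_iff]
    intro v
    right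
    have h1 := (mem_riemannRochSpace_iff.mp hφB v).resolve_left hφ0
    rw [Finsupp.sub_apply, sum_single_apply P hP v]
    split_ifs with hv
    · obtain ⟨j, rfl⟩ := hv
      have h2 := hord j
      have h3 := hBP j
      omega
    · omega
  rw [hE, Submodule.mem_bot] at hmem
  exact hφ0 hmem

end Generic

/-! ### The modular function field -/

section Modular

local notation "Qb" => AlgebraicClosure ℚ
local notation "GQ" => (AlgebraicClosure ℚ ≃ₐ[ℚ] AlgebraicClosure ℚ)

variable (N : ℕ) [NeZero N]

/-- `l((2g - 1)·∞) = g`. -/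
theorem finrank_L_canon (hg : 0 < genusFF Qb (modularFunctionFieldBar N)) :
    finrank Qb (riemannRochSpace (Finsupp.single (placeInfL Qb N)
      ((2 * genusFF Qb (modularFunctionFieldBar N) - 1 : ℕ) : ℤ)))
      = genusFF Qb (modularFunctionFieldBar N) := by
  have h := Fermat.Agent.Lib.FF.Res.isFF1_modular N
  set g := genusFF Qb (modularFunctionFieldBar N) with hgdef
  have hcast : ((2 * g - 1 : ℕ) : ℤ) = 2 * (g : ℤ) - 1 := by
    have : 1 ≤ 2 * g := by omega
    push_cast [Nat.cast_sub this]
    ring
  have hdeg : Divisor.degree (Finsupp.single (placeInfL Qb N) ((2 * g - 1 : ℕ) : ℤ))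
      = 2 * (g : ℤ) - 1 := by
    rw [Divisor.degree_single, h.deg_eq_one, hcast]
    simp
  have h1 := WeilCanonical.finrank_L_of_degree h
    (D := Finsupp.single (placeInfL Qb N) ((2 * g - 1 : ℕ) : ℤ)) (by rw [hdeg])
  rw [hdeg] at h1
  have : (finrank Qb (riemannRochSpace (Finsupp.single (placeInfL Qb N)
      ((2 * g - 1 : ℕ) : ℤ))) : ℤ) = g := by linarith
  exact_mod_cast this

/-- **The rational basis of `L((2g - 1)·∞)` and its evaluation determinant.**  A `G_ℚ`-fixed
family `b : Fin g → ℚ̄·F_N`, regular off `∞`, of pole order `≤ 2g - 1` at `∞`, whose evaluation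
determinant is nonzero at every injective `g`-tuple `P` of places `≠ ∞` with
`L((2g - 1)·∞ - ∑ P_j) = 0`. -/
theorem exists_rational_basis_canon :
    ∃ b : Fin (genusFF Qb (modularFunctionFieldBar N)) → modularFunctionFieldBar N,
      (∀ i, ∀ σ : GQ, arithmeticGalois (modularFunctionFieldFull N) σ • b i = b i) ∧
      (∀ i, ∀ P : Place Qb (modularFunctionFieldBar N), P ≠ placeInfL Qb N → 0 ≤ P.ord (b i)) ∧
      (∀ i, -((2 * genusFF Qb (modularFunctionFieldBar N) - 1 : ℕ) : ℤ)
        ≤ (placeInfL Qb N).ord (b i)) ∧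
      LinearIndependent Qb b ∧
      ∀ P : Fin (genusFF Qb (modularFunctionFieldBar N)) → Place Qb (modularFunctionFieldBar N),
        Function.Injective P → (∀ j, P j ≠ placeInfL Qb N) →
        riemannRochSpace (Finsupp.single (placeInfL Qb N)
          (2 * (genusFF Qb (modularFunctionFieldBar N) : ℤ) - 1)
            - ∑ j, Finsupp.single (P j) (1 : ℤ)) = ⊥ →
        Matrix.det (Matrix.of fun i j => pval (P j) (b i)) ≠ 0 := by
  classical
  have h := Fermat.Agent.Lib.FF.Res.isFF1_modular N
  rcases Nat.eq_zero_or_pos (genusFF Qb (modularFunctionFieldBar N)) with hg | hg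
  · -- genus zero: the empty family
    refine ⟨fun i => (Fin.elim0 (hg ▸ i)), fun i => (Fin.elim0 (hg ▸ i)),
      fun i => (Fin.elim0 (hg ▸ i)), fun i => (Fin.elim0 (hg ▸ i)), ?_, fun P _ _ _ => ?_⟩
    · have : IsEmpty (Fin (genusFF Qb (modularFunctionFieldBar N))) := by
        rw [hg]; infer_instance
      exact linearIndependent_empty_type
    · have : IsEmpty (Fin (genusFF Qb (modularFunctionFieldBar N))) := by
        rw [hg]; infer_instance
      rw [Matrix.det_isEmpty]
      exact one_ne_zero
  · obtain ⟨r, f, hfix, hli, hspan, hreg, hpole⟩ :=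
      exists_rational_basis N (2 * genusFF Qb (modularFunctionFieldBar N) - 1)
    have hr : r = genusFF Qb (modularFunctionFieldBar N) := by
      have h1 := finrank_span_eq_card hli
      rw [hspan, finrank_L_canon N hg, Fintype.card_fin] at h1
      exact h1.symm
    subst hr
    have hcast : ((2 * genusFF Qb (modularFunctionFieldBar N) - 1 : ℕ) : ℤ)
        = 2 * (genusFF Qb (modularFunctionFieldBar N) : ℤ) - 1 := by
      have : 1 ≤ 2 * genusFF Qb (modularFunctionFieldBar N) := by omega
      push_cast [Nat.cast_sub this]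
      ring
    refine ⟨f, hfix, hreg, hpole, hli, fun P hP hPinf hE => ?_⟩
    refine det_ne_zero h.resK (Finsupp.single (placeInfL Qb N)
      ((2 * genusFF Qb (modularFunctionFieldBar N) - 1 : ℕ) : ℤ)) f
      (fun i => ?_) hli P hP (fun j => ?_) ?_
    · rw [← hspan]
      exact Submodule.subset_span ⟨i, rfl⟩
    · rw [Finsupp.single_eq_of_ne (hPinf j)]
    · rw [hcast]
      exact hE

end Modular

end Fermat.Agent.MW.Ht.DetNZ
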