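/-
MW / HT-Q, the last conjunct of `HG.CurveData₀.Good` (helper65): the residual divisor `R` imposes
independent conditions on `L(M₁ · pinf)`.

* `exists_minor_ne_zero` (generic): `w : Fin (n + 1) → F` a linearly independent family in `L(B)`,
  `R_1, …, R_n` distinct places at which `B` is `0`; if `L(B - ∑ R_j)` is at most a line, then some
  maximal minor `det (pval (R j) (w (i.succAbove k)))` of the evaluation matrix is nonzero;
* `exists_minor_of_isZDiv` (the shape used in `Good`): if `ψ = ∑ a i • w i ≠ 0` has divisor of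
  zeros `∑ P_j + ∑ R_j` off `pinf`, the `w i` are regular off `pinf` with pole order `≤ M = n + γ`
  there, and `l(∑ P_j) = 1`, then some maximal minor is nonzero
  (`L(M · pinf - ∑ R_j) = ψ · L(∑ P_j)` is a line).
-/
import Mathlib
import Fermat.Agent.MW.Ht.DetNZ
import Fermat.Agent.MW.HG.Defs

set_option autoImplicit false

noncomputable section

namespace Fermat.Agent.MW.Ht.DetMinor

open AlgebraicCurve Module WithZero
open Fermat.Agent.Lib.FF Fermat.Agent.MW.HtM Fermat.Agent.MW.Ht.GalBridge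
open Fermat.Agent.MW.Ht.DetNZ

variable {K F : Type*} [Field K] [Field F] [Algebra K F]

/-- A vanishing maximal minor (row `i` deleted) gives a nonzero coefficient vector `c` with
`c i = 0` such that `∑ c l • w l` vanishes at all the `R j`. -/
theorem exists_coeff_of_minor (hres : ∀ P : Place K F, RR.ResK P) (B : Divisor K F) {n : ℕ}
    (w : Fin (n + 1) → F) (hw : ∀ i, w i ∈ riemannRochSpace B)
    (R : Fin n → Place K F) (hR : Function.Injective R) (hBR : ∀ j, B (R j) = 0)
    (i : Fin (n + 1))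
    (hdet : Matrix.det (Matrix.of fun k j => pval (R j) (w (i.succAbove k))) = 0) :
    ∃ c : Fin (n + 1) → K, c ≠ 0 ∧ c i = 0 ∧
      (∑ l, c l • w l) ∈ riemannRochSpace (B - ∑ j, Finsupp.single (R j) (1 : ℤ)) := by
  classical
  obtain ⟨c', hc0, hc⟩ := Matrix.exists_vecMul_eq_zero_iff.mpr hdet
  set c : Fin (n + 1) → K := Fin.insertNth (α := fun _ => K) i (0 : K) c' with hcdef
  have hci : c i = 0 := by rw [hcdef, Fin.insertNth_apply_same]
  have hcs : ∀ k, c (i.succAbove k) = c' k := by
    intro k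
    rw [hcdef, Fin.insertNth_apply_succAbove]
  refine ⟨c, ?_, hci, ?_⟩
  · intro h0
    apply hc0
    funext k
    rw [← hcs k, h0]
    rfl
  · set φ : F := ∑ l, c l • w l with hφ
    have hφB : φ ∈ riemannRochSpace B :=
      Submodule.sum_mem _ fun l _ => Submodule.smul_mem _ _ (hw l)
    by_cases hφ0 : φ = 0
    · rw [hφ0]
      exact Submodule.zero_mem _
    have hreg : ∀ l j, (R j).adicValuation (w l) ≤ 1 := by
      intro l j
      refine (hw l (R j)).trans ?_
      rw [← exp_zero, exp_le_exp]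
      exact (hBR j).le
    have hval : ∀ j, pval (R j) φ = 0 := by
      intro j
      rw [hφ, pval_sum_smul (R j) (hres (R j)) c w (fun l => hreg l j),
        Fin.sum_univ_succAbove _ i, hci, zero_mul, zero_add]
      have h1 := congrFun hc j
      simp only [Matrix.vecMul, dotProduct, Matrix.of_apply, Pi.zero_apply] at h1
      rw [← h1]
      exact Finset.sum_congr rfl fun k _ => by rw [hcs k]
    have hφreg : ∀ j, (R j).adicValuation φ ≤ 1 := by
      intro j
      refine (hφB (R j)).trans ?_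
      rw [← exp_zero, exp_le_exp]
      exact (hBR j).le
    have hord : ∀ j, 0 < (R j).ord φ := by
      intro j
      exact ((pval_eq_zero_iff_ord (R j) (hres (R j)) (hφreg j)).mp (hval j)).resolve_left hφ0
    rw [mem_riemannRochSpace_iff]
    intro v
    right
    have h1 := (mem_riemannRochSpace_iff.mp hφB v).resolve_left hφ0
    rw [Finsupp.sub_apply, sum_single_apply R hR v]
    split_ifs with hv
    · obtain ⟨j, rfl⟩ := hv
      have h2 := hord j
      have h3 := hBR j
      omega
    · omega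

/-- **Some maximal minor of the evaluation matrix is nonzero.**  `w` a linearly independent family
of `n + 1` elements of `L(B)`, `R` an injective family of `n` places with `B (R j) = 0`; if any
two elements of `L(B - ∑ R_j)` are proportional, then for some `i` the determinant of
`(pval (R j) (w (i.succAbove k)))_{k, j}` is nonzero. -/
theorem exists_minor_ne_zero (hres : ∀ P : Place K F, RR.ResK P) (B : Divisor K F) {n : ℕ}
    (w : Fin (n + 1) → F) (hw : ∀ i, w i ∈ riemannRochSpace B) (hli : LinearIndependent K w)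
    (R : Fin n → Place K F) (hR : Function.Injective R) (hBR : ∀ j, B (R j) = 0)
    (hdim : ∀ φ ∈ riemannRochSpace (B - ∑ j, Finsupp.single (R j) (1 : ℤ)),
      ∀ ψ ∈ riemannRochSpace (B - ∑ j, Finsupp.single (R j) (1 : ℤ)), ψ ≠ 0 →
        ∃ c : K, φ = c • ψ) :
    ∃ i : Fin (n + 1),
      Matrix.det (Matrix.of fun k j => pval (R j) (w (i.succAbove k))) ≠ 0 := by
  classical
  by_contra hall
  have hall : ∀ i : Fin (n + 1),
      Matrix.det (Matrix.of fun k j => pval (R j) (w (i.succAbove k))) = 0 := fun i =>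
    by_contra fun hi => hall ⟨i, hi⟩
  obtain ⟨c, hc0, -, hcmem⟩ := exists_coeff_of_minor hres B w hw R hR hBR 0 (hall 0)
  obtain ⟨i₁, hi₁⟩ : ∃ i₁, c i₁ ≠ 0 := by
    by_contra h
    exact hc0 (funext fun l => by_contra fun hl => h ⟨l, hl⟩)
  obtain ⟨c₂, hc₂0, hc₂i, hc₂mem⟩ := exists_coeff_of_minor hres B w hw R hR hBR i₁ (hall i₁)
  have hφ0 : (∑ l, c l • w l) ≠ 0 := fun h0 =>
    hc0 (funext (Fintype.linearIndependent_iff.mp hli c h0))
  obtain ⟨lam, hlam⟩ := hdim _ hc₂mem _ hcmem hφ0
  have hzero : ∑ l, (c₂ l - lam * c l) • w l = 0 := by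
    simp only [sub_smul, mul_smul, Finset.sum_sub_distrib, ← Finset.smul_sum]
    rw [hlam, sub_self]
  have hcoef := Fintype.linearIndependent_iff.mp hli _ hzero
  have h1 := hcoef i₁
  rw [hc₂i, zero_sub, neg_eq_zero, mul_eq_zero] at h1
  rcases h1 with h1 | h1
  · apply hc₂0
    funext l
    have h2 := hcoef l
    rw [h1, zero_mul, sub_zero] at h2
    exact h2
  · exact hi₁ h1

/-- In a module of rank `≤ 1` any vector is a multiple of any nonzero vector. -/
theorem exists_smul_eq_of_finrank_le_one {V : Type*} [AddCommGroup V] [Module K V]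
    [Module.Finite K V] (h : finrank K V ≤ 1) (φ ψ : V) (hψ : ψ ≠ 0) : ∃ c : K, φ = c • ψ := by
  obtain ⟨v, hv⟩ := finrank_le_one_iff.mp h
  obtain ⟨a, ha⟩ := hv φ
  obtain ⟨b, hb⟩ := hv ψ
  have hb0 : b ≠ 0 := by
    rintro rfl
    rw [zero_smul] at hb
    exact hψ hb.symm
  refine ⟨a * b⁻¹, ?_⟩
  rw [← ha, ← hb, smul_smul, mul_assoc, inv_mul_cancel₀ hb0, mul_one]

/-- `exists_minor_ne_zero` with the hypothesis `l(B - ∑ R_j) ≤ 1`. -/
theorem exists_minor_ne_zero_of_finrank {x : F} (h : IsFF1 K F x) (B : Divisor K F) {n : ℕ}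
    (w : Fin (n + 1) → F) (hw : ∀ i, w i ∈ riemannRochSpace B) (hli : LinearIndependent K w)
    (R : Fin n → Place K F) (hR : Function.Injective R) (hBR : ∀ j, B (R j) = 0)
    (hdim : finrank K (riemannRochSpace (B - ∑ j, Finsupp.single (R j) (1 : ℤ))) ≤ 1) :
    ∃ i : Fin (n + 1),
      Matrix.det (Matrix.of fun k j => pval (R j) (w (i.succAbove k))) ≠ 0 := by
  have := h.finite_L (B - ∑ j, Finsupp.single (R j) (1 : ℤ))
  refine exists_minor_ne_zero h.resK B w hw hli R hR hBR (fun φ hφ ψ hψ hψ0 => ?_)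
  obtain ⟨c, hc⟩ := exists_smul_eq_of_finrank_le_one hdim
    (⟨φ, hφ⟩ : riemannRochSpace (B - ∑ j, Finsupp.single (R j) (1 : ℤ))) ⟨ψ, hψ⟩
    (fun h0 => hψ0 (congrArg Subtype.val h0))
  exact ⟨c, congrArg Subtype.val hc⟩

/-- The `ℕ`-valued divisor of a tuple of places, as a `ℤ`-valued divisor. -/
theorem tdiv_apply_cast {n : ℕ} (P : Fin n → Place K F) (v : Place K F) :
    ((HG.tdiv P v : ℕ) : ℤ) = (∑ j, Finsupp.single (P j) (1 : ℤ)) v := by
  classical
  unfold HG.tdiv
  rw [Finsupp.finsetSum_apply, Finsupp.finsetSum_apply, Nat.cast_sum]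
  refine Finset.sum_congr rfl fun j _ => ?_
  rw [Finsupp.single_apply, Finsupp.single_apply]
  split_ifs <;> simp

/-- A tuple of places different from `pinf` has coefficient `0` at `pinf`. -/
theorem sum_single_apply_of_ne {n : ℕ} (P : Fin n → Place K F) {pinf : Place K F}
    (hP : ∀ j, P j ≠ pinf) : (∑ j, Finsupp.single (P j) (1 : ℤ)) pinf = 0 := by
  classical
  rw [Finsupp.finsetSum_apply]
  exact Finset.sum_eq_zero fun j _ => Finsupp.single_eq_of_ne (hP j).symm

/-- **The pole order of a function with a given divisor of zeros.**  If `ψ ≠ 0` has divisor of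
zeros `∑ P_j + ∑ R_j` off `pinf` (`γ` resp. `n` points), then `ord_pinf ψ = -(n + γ)`. -/
theorem ord_pinf_of_isZDiv {x : F} (h : IsFF1 K F x) (pinf : Place K F) {n γ : ℕ}
    (P : Fin γ → Place K F) (hPinf : ∀ j, P j ≠ pinf)
    (R : Fin n → Place K F) (hRinf : ∀ j, R j ≠ pinf) {ψ : F} (hψ : ψ ≠ 0)
    (hZ : HG.IsZDiv pinf ψ (HG.tdiv P + HG.tdiv R)) :
    pinf.ord ψ = -((n + γ : ℕ) : ℤ) := by
  classical
  have := h.hasPrincipalDivisors
  obtain ⟨Df, hDf, hdeg⟩ := HasPrincipalDivisors.exists_divisor (K := K) ψ hψ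
  have hDfeq : Df = ∑ j, Finsupp.single (P j) (1 : ℤ) + ∑ j, Finsupp.single (R j) (1 : ℤ)
      + Finsupp.single pinf (pinf.ord ψ) := by
    ext v
    rw [hDf v, Finsupp.add_apply, Finsupp.add_apply]
    by_cases hv : v = pinf
    · subst hv
      rw [sum_single_apply_of_ne P hPinf, sum_single_apply_of_ne R hRinf,
        Finsupp.single_eq_same]
      ring
    · rw [Finsupp.single_eq_of_ne hv, ← tdiv_apply_cast, ← tdiv_apply_cast, ← hZ.2 v hv,
        Finsupp.add_apply]
      push_cast
      ring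
  have h2 : Divisor.degree Df = (γ : ℤ) + n + pinf.ord ψ := by
    rw [hDfeq, map_add, map_add, map_sum, map_sum]
    simp [Divisor.degree_single, h.deg_eq_one]
  rw [hdeg] at h2
  push_cast
  linarith

/-- **The residual divisor imposes independent conditions** (the last conjunct of
`HG.CurveData₀.Good`).  `w : Fin (n + 1) → F` linearly independent, regular off `pinf`, of pole
order `≤ M = n + γ` at `pinf`; `ψ = ∑ a i • w i ≠ 0` with divisor of zeros `∑ P_j + ∑ R_j` off
`pinf` (`γ` resp. `n` points, the `R_j` distinct); `l(∑ P_j) = 1`.  Then some maximal minor of the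
evaluation matrix `(pval (R j) (w i))` is nonzero. -/
theorem exists_minor_of_isZDiv {x : F} (h : IsFF1 K F x) (pinf : Place K F) {n γ : ℕ} (M : ℕ)
    (hM : n + γ = M) (w : Fin (n + 1) → F) (hreg : ∀ i, HG.RegOff pinf (w i))
    (hpole : ∀ i, -(M : ℤ) ≤ pinf.ord (w i)) (hli : LinearIndependent K w)
    (P : Fin γ → Place K F) (hPinf : ∀ j, P j ≠ pinf)
    (R : Fin n → Place K F) (hR : Function.Injective R) (hRinf : ∀ j, R j ≠ pinf)
    (a : Fin (n + 1) → K) (ha : (∑ i, a i • w i) ≠ 0)
    (hZ : HG.IsZDiv pinf (∑ i, a i • w i) (HG.tdiv P + HG.tdiv R))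
    (hlE : finrank K (riemannRochSpace (∑ j, Finsupp.single (P j) (1 : ℤ))) = 1) :
    ∃ i : Fin (n + 1),
      Matrix.det (Matrix.of fun k j => pval (R j) (w (i.succAbove k))) ≠ 0 := by
  classical
  set ψ : F := ∑ i, a i • w i with hψdef
  have hord := ord_pinf_of_isZDiv h pinf P hPinf R hRinf ha hZ
  rw [hM] at hord
  have := h.hasPrincipalDivisors
  obtain ⟨Df, hDf, -⟩ := HasPrincipalDivisors.exists_divisor (K := K) ψ ha
  have hBeq : Finsupp.single pinf (M : ℤ) - ∑ j, Finsupp.single (R j) (1 : ℤ)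
      = ∑ j, Finsupp.single (P j) (1 : ℤ) - Df := by
    ext v
    rw [Finsupp.sub_apply, Finsupp.sub_apply, hDf v]
    by_cases hv : v = pinf
    · subst hv
      rw [sum_single_apply_of_ne P hPinf, sum_single_apply_of_ne R hRinf,
        Finsupp.single_eq_same, hord]
      ring
    · rw [Finsupp.single_eq_of_ne hv, ← tdiv_apply_cast, ← tdiv_apply_cast, ← hZ.2 v hv,
        Finsupp.add_apply]
      push_cast
      ring
  refine exists_minor_ne_zero_of_finrank h (Finsupp.single pinf (M : ℤ)) w (fun i => ?_) hli R hR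
    (fun j => Finsupp.single_eq_of_ne (hRinf j)) ?_
  · rw [mem_rr_single_iff]
    exact ⟨fun v hv => hreg i v hv, hpole i⟩
  · rw [hBeq, RR.finrank_L_sub_div _ Df ha hDf, hlE]

end Fermat.Agent.MW.Ht.DetMinor
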