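import Mathlib
import Fermat.Agent.Lib.FF.CanonicalIsFF1
import Fermat.Agent.Lib.FF.CanonicalFF1
import Fermat.Agent.MW.HtM.PVal
import Fermat.Agent.MW.HQ.Defs
import Fermat.Agent.S24.FundCor

/-!
# MW / HT : the affine ramification divisor of `t` and its degree (Riemann–Hurwitz)

`F/K` a function field of one variable in the setting `Lib.FF.IsFF1`, `char K = 0`, `pinf` a
place, `t` a function with poles only at `pinf`, of pole order `m ≥ 1` there.

* `exists_ramDiv` : there is an effective divisor `𝔯` off `pinf` with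
  `𝔯 P = ord_P (t - t(P)) - 1` for every `P ≠ pinf`, and `deg 𝔯 = 2 g + m - 1`
  (`g = genusFF K F`).

This is the divisor `𝔯` of the local estimate `ram` of the height theory; the count is
Riemann–Hurwitz for `t`, read off from `deg (dt) = 2 g - 2`.
-/

set_option autoImplicit false
set_option linter.style.haveILetI false

noncomputable section

namespace Fermat.Agent.MW.Ht.RamCount

open AlgebraicCurve IntermediateField Fermat.Agent.Lib.FF Fermat.Agent.MW.HtM

variable {K F : Type*} [Field K] [Field F] [Algebra K F] {x : F}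

/-- A function with a pole is transcendental over the constants. -/
theorem transcendental_of_ord_neg (P : Place K F) {t : F} (ht : P.ord t < 0) :
    Transcendental K t := by
  intro halg
  have hint : IsIntegral K t := halg.isIntegral
  have hint' : IsIntegral P.toValuationSubring t := hint.tower_top
  obtain ⟨y, hy⟩ := IsIntegrallyClosed.isIntegral_iff.1 hint'
  have hmem : t ∈ P.toValuationSubring := by
    rw [← hy]
    exact y.2
  have := Fermat.Agent.S24.ord_nonneg_of_mem P hmem
  omega

/-- At a place where the nonconstant function `t` is regular, `t - t(P)` vanishes. -/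
theorem ord_sub_pval_pos (h : IsFF1 K F x) {t : F} (htr : Transcendental K t) (P : Place K F)
    (hP : 0 ≤ P.ord t) : 0 < P.ord (t - algebraMap K F (pval P t)) := by
  have hmem : t ∈ P.toValuationSubring := Fermat.Agent.S24.mem_of_ord_nonneg P hP
  have hspec := pval_spec_of_mem P (h.resK P) hmem
  have hne : t - algebraMap K F (pval P t) ≠ 0 := by
    intro h0
    apply htr
    rw [sub_eq_zero.1 h0]
    exact isAlgebraic_algebraMap _
  rw [P.adicValuation_eq_exp_neg_ord hne, ← WithZero.exp_zero, WithZero.exp_lt_exp] at hspec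
  omega

/-- **The affine ramification divisor of `t` and Riemann–Hurwitz.** -/
theorem exists_ramDiv [CharZero K] (h : IsFF1 K F x) (pinf : Place K F) (t : F) (m : ℕ)
    (hm : 0 < m) (hreg : ∀ P : Place K F, P ≠ pinf → 0 ≤ P.ord t)
    (hinf : pinf.ord t = -(m : ℤ)) :
    ∃ 𝔯 : Place K F →₀ ℕ, 𝔯 pinf = 0 ∧
      (∀ P, P ≠ pinf → (𝔯 P : ℤ) = P.ord (t - algebraMap K F (pval P t)) - 1) ∧
      HQ.deg 𝔯 = 2 * genusFF K F + m - 1 := by
  classical
  have htr : Transcendental K t := transcendental_of_ord_neg pinf (by rw [hinf]; omega)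
  haveI := h.finiteDimensional
  haveI : FiniteDimensional K⟮t⟯ F := Fermat.Agent.S24.finiteDimensional_of_transcendental x htr
  haveI : Algebra.IsSeparable K⟮t⟯ F := Res.isSeparable_adjoin_of_charZero t
  obtain ⟨W, hW1, hW2, hdeg⟩ :=
    Res.exists_divisor_D_eq_ff1 h t (Res.span_D_eq_top_of_isSeparable t)
  have hfin : ∀ P, P ≠ pinf → 0 < P.ord (t - algebraMap K F (pval P t)) ∧
      W P = P.ord (t - algebraMap K F (pval P t)) - 1 := by
    intro P hP
    have hpos := ord_sub_pval_pos h htr P (hreg P hP)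
    exact ⟨hpos, hW1 P _ (Int.cast_ne_zero.mpr hpos.ne')⟩
  have hWinf : W pinf = -(m : ℤ) - 1 := by
    have h1 := hW2 pinf (by
      rw [hinf]
      exact Int.cast_ne_zero.mpr (by omega))
    rw [h1, hinf]
  refine ⟨(W.erase pinf).mapRange Int.toNat rfl, ?_, ?_, ?_⟩
  · rw [Finsupp.mapRange_apply, Finsupp.erase_same]
    rfl
  · intro P hP
    obtain ⟨hpos, hWP⟩ := hfin P hP
    rw [Finsupp.mapRange_apply, Finsupp.erase_ne hP, hWP]
    exact Int.toNat_of_nonneg (by omega)
  · have hval : ∀ P, P ≠ pinf → (((W.erase pinf).mapRange Int.toNat rfl P : ℕ) : ℤ) = W P := by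
      intro P hP
      obtain ⟨hpos, hWP⟩ := hfin P hP
      rw [Finsupp.mapRange_apply, Finsupp.erase_ne hP]
      exact Int.toNat_of_nonneg (by omega)
    have hsupp : ((W.erase pinf).mapRange Int.toNat rfl).support ⊆ W.support.erase pinf := by
      intro P hP
      rw [Finsupp.mem_support_iff, Finsupp.mapRange_apply] at hP
      have hne : P ≠ pinf := by
        rintro rfl
        rw [Finsupp.erase_same] at hP
        exact hP rfl
      rw [Finsupp.erase_ne hne] at hP
      rw [Finset.mem_erase, Finsupp.mem_support_iff]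
      refine ⟨hne, fun h0 => hP ?_⟩
      rw [h0]
      rfl
    have hsum : ((HQ.deg ((W.erase pinf).mapRange Int.toNat rfl) : ℕ) : ℤ)
        = ∑ P ∈ W.support.erase pinf, W P := by
      unfold HQ.deg
      rw [Finsupp.sum_of_support_subset _ hsupp _ (fun _ _ => rfl), Nat.cast_sum]
      refine Finset.sum_congr rfl fun P hP => ?_
      exact hval P (Finset.ne_of_mem_erase hP)
    have hmemW : pinf ∈ W.support := by
      rw [Finsupp.mem_support_iff, hWinf]
      omega
    have hdeg' : W pinf + ∑ P ∈ W.support.erase pinf, W P = 2 * (genusFF K F : ℤ) - 2 := by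
      rw [Finset.add_sum_erase _ _ hmemW, ← h.degree_eq_sum W, hdeg]
    have hfinal : ((HQ.deg ((W.erase pinf).mapRange Int.toNat rfl) : ℕ) : ℤ)
        = 2 * (genusFF K F : ℤ) + m - 1 := by
      rw [hsum]
      rw [hWinf] at hdeg'
      linarith
    omega

/-- The degree of ANY divisor with the defining properties of the affine ramification divisor. -/
theorem deg_ramDiv [CharZero K] (h : IsFF1 K F x) (pinf : Place K F) (t : F) (m : ℕ)
    (hm : 0 < m) (hreg : ∀ P : Place K F, P ≠ pinf → 0 ≤ P.ord t)
    (hinf : pinf.ord t = -(m : ℤ)) (𝔯 : Place K F →₀ ℕ) (h0 : 𝔯 pinf = 0)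
    (h1 : ∀ P, P ≠ pinf → (𝔯 P : ℤ) = P.ord (t - algebraMap K F (pval P t)) - 1) :
    HQ.deg 𝔯 = 2 * genusFF K F + m - 1 := by
  obtain ⟨𝔯', h0', h1', hdeg⟩ := exists_ramDiv h pinf t m hm hreg hinf
  have heq : 𝔯 = 𝔯' := by
    ext P
    by_cases hP : P = pinf
    · rw [hP, h0, h0']
    · have := (h1 P hP).trans (h1' P hP).symm
      exact_mod_cast this
  rw [heq, hdeg]

end Fermat.Agent.MW.Ht.RamCount
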