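/-
MW / HT-Q, function-field brick (TSep): a UNIFORM bound for the fibres of a function `f` on which
a second function `t` is not injective.

`K` algebraically closed of characteristic `0`, `F/K` a function field of one variable of genus
`g`, `t, f ∈ F` non-constant with `n = [F : K(f)]`, `m = [F : K(t)]` and `1, t, …, t^(n-1)`
linearly independent over `K(f)` (i.e. `K(t, f) = F`; automatic if `gcd(m, n) = 1`).

A pair of places `P ≠ Q`, at which `t` and `f` are regular, with `t(P) = t(Q)` and `f(P) = f(Q)`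
is a "node".  For any family of `k` nodes with `2k` pairwise distinct places:
  `k + g ≤ (n - 1)(m - 1)`        (`card_add_genus_le`)
(the count `p_a - g` of the nodes of the image curve of bidegree `(n, m)`).  Consequently at most
`(n - 1)(m - 1)` fibres of `f` contain two distinct points with the same `t`-value
(`card_bad_le`, `exists_bad_finset`).

Proof: the `n (N + 1)` monomials `t^i f^j` (`i < n`, `j ≤ N`) are linearly independent, lie in
`L(D)`, `D = (n-1)(t)_∞ + N (f)_∞`, and take equal values at the two places of every node; the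
subspace of `L(D)` cut out by these `k` conditions has dimension `≤ l(D - T) + k`, `T` the sum of
the `2k` places, and `l(D - T) = deg D - 2k + 1 - g` by Riemann–Roch for `N` large.
-/
import Mathlib
import Fermat.Agent.Lib.FF.WeilCanonical
import Fermat.Agent.Lib.FF.RRFunctionField
import Fermat.Agent.MW.HtM.PVal

set_option autoImplicit false

noncomputable section

namespace Fermat.Agent.MW.Ht.TSep

open AlgebraicCurve Module
open Fermat.Agent.Lib.FF Fermat.Agent.MW.HtM
open scoped IntermediateField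

variable {K F : Type*} [Field K] [Field F] [Algebra K F]

/-- The monomials `t^i f^j` (`i < n`, `j < N`) are `K`-linearly independent when `f` is
transcendental and `1, t, …, t^(n-1)` are independent over `K(f)`. -/
theorem linearIndependent_monomials (t f : F) (hf : Transcendental K f) {n : ℕ}
    (hind : LinearIndependent K⟮f⟯ (fun i : Fin n => t ^ (i : ℕ))) (N : ℕ) :
    LinearIndependent K (fun p : Fin n × Fin N => t ^ (p.1 : ℕ) * f ^ (p.2 : ℕ)) := by
  classical
  rw [Fintype.linearIndependent_iff]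
  intro g hg p
  set q : Fin n → Polynomial K := fun i => ∑ j : Fin N, Polynomial.monomial (j : ℕ) (g (i, j))
    with hq
  set c : Fin n → K⟮f⟯ := fun i =>
    Polynomial.aeval (IntermediateField.AdjoinSimple.gen K f) (q i) with hc
  have hcoe : ∀ i, ((c i : K⟮f⟯) : F) = Polynomial.aeval f (q i) := by
    intro i
    have h1 := Polynomial.aeval_algHom_apply (K⟮f⟯).val (IntermediateField.AdjoinSimple.gen K f)
      (q i)
    have h2 : (K⟮f⟯).val (IntermediateField.AdjoinSimple.gen K f) = f :=
      IntermediateField.AdjoinSimple.coe_gen K f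
    rw [h2] at h1
    exact h1.symm
  have haev : ∀ i, Polynomial.aeval f (q i) = ∑ j : Fin N, algebraMap K F (g (i, j)) * f ^ (j : ℕ) := by
    intro i
    simp only [hq, map_sum, Polynomial.aeval_monomial]
  have hsum : ∑ i, c i • t ^ (i : ℕ) = 0 := by
    rw [← hg, Fintype.sum_prod_type]
    refine Finset.sum_congr rfl fun i _ => ?_
    rw [IntermediateField.smul_def, hcoe, haev, smul_eq_mul, Finset.sum_mul]
    refine Finset.sum_congr rfl fun j _ => ?_
    rw [Algebra.smul_def]
    ring
  have h0 := Fintype.linearIndependent_iff.1 hind c hsum p.1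
  have h1 : Polynomial.aeval f (q p.1) = 0 := by
    rw [← hcoe, h0]; rfl
  have h2 : q p.1 = 0 := by
    by_contra hne
    exact hf ⟨q p.1, hne, h1⟩
  have h3 : (q p.1).coeff (p.2 : ℕ) = g p := by
    simp only [hq, Polynomial.finsetSum_coeff, Polynomial.coeff_monomial]
    rw [Finset.sum_eq_single p.2]
    · simp
    · intro j _ hj
      rw [if_neg]
      exact fun h => hj (Fin.ext h)
    · intro h; exact absurd (Finset.mem_univ _) h
  rw [← h3, h2, Polynomial.coeff_zero]

/-- Linear algebra: the equaliser of two maps `a, b : L → K^ι` has dimension at most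
`|ι| + dim (ker a ∩ ker b)`. -/
theorem finrank_ker_sub_le {k L : Type*} [Field k] [AddCommGroup L] [Module k L]
    [Module.Finite k L] {ι : Type*} [Fintype ι] (a b : L →ₗ[k] (ι → k)) :
    finrank k (LinearMap.ker (a - b))
      ≤ Fintype.card ι + finrank k ↥(LinearMap.ker a ⊓ LinearMap.ker b) := by
  classical
  set W : Submodule k L := LinearMap.ker (a - b) with hW
  set E : W →ₗ[k] (ι → k) := a.comp W.subtype with hE
  have h1 : finrank k (LinearMap.range E) + finrank k (LinearMap.ker E) = finrank k W :=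
    LinearMap.finrank_range_add_finrank_ker E
  have h2 : finrank k (LinearMap.range E) ≤ Fintype.card ι := by
    refine (Submodule.finrank_le _).trans ?_
    simp
  have h3 : finrank k (LinearMap.ker E) ≤ finrank k ↥(LinearMap.ker a ⊓ LinearMap.ker b) := by
    have hmem : ∀ x : LinearMap.ker E, ((x : W) : L) ∈ LinearMap.ker a ⊓ LinearMap.ker b := by
      intro x
      have hx1 : a ((x : W) : L) = 0 := LinearMap.mem_ker.1 x.2
      have hx2 : (a - b) ((x : W) : L) = 0 := LinearMap.mem_ker.1 (x : W).2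
      rw [LinearMap.sub_apply, hx1, zero_sub, neg_eq_zero] at hx2
      exact ⟨LinearMap.mem_ker.2 hx1, LinearMap.mem_ker.2 hx2⟩
    let inc : LinearMap.ker E →ₗ[k] ↥(LinearMap.ker a ⊓ LinearMap.ker b) :=
      LinearMap.codRestrict _ (W.subtype.comp (LinearMap.ker E).subtype) hmem
    refine LinearMap.finrank_le_finrank_of_injective (f := inc) ?_
    intro x y hxy
    have h7 := congrArg Subtype.val hxy
    exact Subtype.ext (Subtype.ext h7)
  omega

/-- The sum of a family of places, as a divisor. -/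
def sumDiv {ι : Type*} [Fintype ι] (R : ι → Place K F) : Divisor K F :=
  ∑ j, Finsupp.single (R j) (1 : ℤ)

theorem sumDiv_apply_self {ι : Type*} [Fintype ι] {R : ι → Place K F}
    (hR : Function.Injective R) (j : ι) : sumDiv R (R j) = 1 := by
  classical
  rw [sumDiv, Finsupp.finsetSum_apply, Finset.sum_eq_single j]
  · simp
  · intro j' _ hj'
    rw [Finsupp.single_apply, if_neg]
    exact fun e => hj' (hR e)
  · intro hj; exact absurd (Finset.mem_univ _) hj

theorem sumDiv_apply_of_ne {ι : Type*} [Fintype ι] {R : ι → Place K F} {v : Place K F}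
    (hv : ∀ j, R j ≠ v) : sumDiv R v = 0 := by
  classical
  rw [sumDiv, Finsupp.finsetSum_apply]
  refine Finset.sum_eq_zero fun j _ => ?_
  rw [Finsupp.single_apply, if_neg (hv j)]

theorem degree_sumDiv {x₀ : F} (h : IsFF1 K F x₀) {ι : Type*} [Fintype ι]
    (R : ι → Place K F) : Divisor.degree (sumDiv R) = Fintype.card ι := by
  rw [sumDiv, map_sum]
  simp [Divisor.degree_single, h.deg_eq_one]

/-- A function of `L(D)` vanishing at the places `R j` (off the support of `D`) lies in
`L(D - ∑ R j)`. -/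
theorem mem_L_sub_sumDiv {x₀ : F} (h : IsFF1 K F x₀) {ι : Type*} [Fintype ι]
    {R : ι → Place K F} (hR : Function.Injective R) {D : Divisor K F} (hDR : ∀ j, D (R j) = 0)
    {φ : F} (hφ : φ ∈ riemannRochSpace D) (h0 : ∀ j, pval (R j) φ = 0) :
    φ ∈ riemannRochSpace (D - sumDiv R) := by
  rw [mem_riemannRochSpace_iff]
  intro v
  rcases eq_or_ne φ 0 with hz | hz
  · exact Or.inl hz
  right
  have hv := (mem_riemannRochSpace_iff.1 hφ v).resolve_left hz
  rw [Finsupp.sub_apply]
  by_cases hex : ∃ j, R j = v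
  · obtain ⟨j, rfl⟩ := hex
    rw [hDR j] at hv
    rw [hDR j, sumDiv_apply_self hR j]
    have h6 := (pval_eq_zero_iff_ord (h.resK (R j)) hz (by omega)).1 (h0 j)
    omega
  · rw [sumDiv_apply_of_ne (fun j hj => hex ⟨j, hj⟩), sub_zero]
    exact hv

/-- Evaluation at a place off the support of `D`, as a linear form on `L(D)`. -/
def evL {x₀ : F} (h : IsFF1 K F x₀) (D : Divisor K F) (v : Place K F) (hv : D v = 0) :
    riemannRochSpace D →ₗ[K] K where
  toFun φ := pval v (φ : F)
  map_add' φ ψ := by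
    have h1 : ∀ χ : riemannRochSpace D, (χ : F) ∈ v.toValuationSubring := fun χ => by
      have h2 := χ.2 v
      rw [hv, WithZero.exp_zero] at h2
      exact RR.mem_of_val_le_one _ h2
    exact pval_add (h.resK v) (h1 φ) (h1 ψ)
  map_smul' c φ := by
    have h1 : (φ : F) ∈ v.toValuationSubring := by
      have h2 := φ.2 v
      rw [hv, WithZero.exp_zero] at h2
      exact RR.mem_of_val_le_one _ h2
    simpa using pval_smul (h.resK v) c h1

@[simp] theorem evL_apply {x₀ : F} (h : IsFF1 K F x₀) (D : Divisor K F) (v : Place K F)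
    (hv : D v = 0) (φ : riemannRochSpace D) : evL h D v hv φ = pval v (φ : F) := rfl

/-- **The node count**, divisor form: `V ⊆ L(D)` a subspace of functions taking equal values at
the two places of each of `k` nodes (`2k` distinct places off the support of `D`).  Then
`dim V ≤ k + l(D - T)`, `T` the sum of the `2k` places. -/
theorem finrank_le_of_nodes {x₀ : F} (h : IsFF1 K F x₀) (D : Divisor K F)
    {ι : Type*} [Fintype ι] (P Q : ι → Place K F) (hinj : Function.Injective (Sum.elim P Q))
    (hDP : ∀ i, D (P i) = 0) (hDQ : ∀ i, D (Q i) = 0)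
    (V : Submodule K F) (hVL : V ≤ riemannRochSpace D)
    (hV : ∀ φ ∈ V, ∀ i, pval (P i) φ = pval (Q i) φ) :
    finrank K V ≤ Fintype.card ι + finrank K (riemannRochSpace (D - sumDiv (Sum.elim P Q))) := by
  classical
  have hLfin : Module.Finite K (riemannRochSpace D) := h.finite_L D
  have hfin' : Module.Finite K (riemannRochSpace (D - sumDiv (Sum.elim P Q))) := h.finite_L _
  set a : riemannRochSpace D →ₗ[K] (ι → K) := LinearMap.pi fun i => evL h D (P i) (hDP i)
    with ha
  set b : riemannRochSpace D →ₗ[K] (ι → K) := LinearMap.pi fun i => evL h D (Q i) (hDQ i)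
    with hb
  have hDR : ∀ j, D (Sum.elim P Q j) = 0 := by
    rintro (i | i)
    · exact hDP i
    · exact hDQ i
  -- `V` embeds into the equaliser
  have h1 : finrank K V ≤ finrank K (LinearMap.ker (a - b)) := by
    have hmem : ∀ φ : V, (⟨(φ : F), hVL φ.2⟩ : riemannRochSpace D) ∈ LinearMap.ker (a - b) := by
      intro φ
      rw [LinearMap.mem_ker, LinearMap.sub_apply, sub_eq_zero]
      funext i
      exact hV φ φ.2 i
    let inc : V →ₗ[K] LinearMap.ker (a - b) :=
      LinearMap.codRestrict _ (LinearMap.codRestrict (riemannRochSpace D) V.subtype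
        (fun φ => hVL φ.2)) hmem
    refine LinearMap.finrank_le_finrank_of_injective (f := inc) ?_
    intro x y hxy
    have h7 := congrArg (fun z : LinearMap.ker (a - b) => ((z : riemannRochSpace D) : F)) hxy
    exact Subtype.ext h7
  have h2 := finrank_ker_sub_le a b
  have h3 : finrank K ↥(LinearMap.ker a ⊓ LinearMap.ker b)
      ≤ finrank K (riemannRochSpace (D - sumDiv (Sum.elim P Q))) := by
    have hmem : ∀ φ : ↥(LinearMap.ker a ⊓ LinearMap.ker b),
        ((φ : riemannRochSpace D) : F) ∈ riemannRochSpace (D - sumDiv (Sum.elim P Q)) := by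
      intro φ
      have hφa : a (φ : riemannRochSpace D) = 0 := LinearMap.mem_ker.1 φ.2.1
      have hφb : b (φ : riemannRochSpace D) = 0 := LinearMap.mem_ker.1 φ.2.2
      refine mem_L_sub_sumDiv h hinj hDR (φ : riemannRochSpace D).2 ?_
      rintro (i | i)
      · exact congrFun hφa i
      · exact congrFun hφb i
    let inc : ↥(LinearMap.ker a ⊓ LinearMap.ker b) →ₗ[K]
        riemannRochSpace (D - sumDiv (Sum.elim P Q)) :=
      LinearMap.codRestrict _ ((riemannRochSpace D).subtype.comp
        (LinearMap.ker a ⊓ LinearMap.ker b).subtype) hmem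
    refine LinearMap.finrank_le_finrank_of_injective (f := inc) ?_
    intro x y hxy
    have h7 := congrArg Subtype.val hxy
    exact Subtype.ext (Subtype.ext h7)
  omega

variable [IsAlgClosed K] [CharZero K]

/-- The monomial `t^i f^j` lies in `L(a (t)_∞ + b (f)_∞)` for `i ≤ a`, `j ≤ b`. -/
theorem monomial_mem_L (t f : F) (ht0 : t ≠ 0) (hf0 : f ≠ 0) [FiniteDimensional K⟮t⟯ F]
    [FiniteDimensional K⟮f⟯ F] (a b : ℕ) {i j : ℕ} (hi : i ≤ a) (hj : j ≤ b) :
    t ^ i * f ^ j ∈ riemannRochSpace ((a : ℤ) • RR.poleDiv K t + (b : ℤ) • RR.poleDiv K f) := by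
  rw [mem_riemannRochSpace_iff]
  intro v
  right
  have h1 : v.ord (t ^ i * f ^ j) = i * v.ord t + j * v.ord f := by
    rw [v.ord_mul (pow_ne_zero _ ht0) (pow_ne_zero _ hf0), ← zpow_natCast, ← zpow_natCast,
      v.ord_zpow, v.ord_zpow]
  rw [h1]
  simp only [Finsupp.add_apply, Finsupp.smul_apply, RR.poleDiv_apply, smul_eq_mul]
  have key : ∀ (c d : ℕ) (x : ℤ), c ≤ d → -((d : ℤ) * max (-x) 0) ≤ c * x := by
    intro c d x hcd
    have hc : (c : ℤ) ≤ d := by exact_mod_cast hcd
    have hc0 : (0 : ℤ) ≤ c := by positivity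
    rcases le_total 0 x with hx | hx
    · rw [max_eq_right (by omega)]
      simp only [mul_zero, neg_zero]
      positivity
    · rw [max_eq_left (by omega)]
      nlinarith
  have h2 := key i a (v.ord t) hi
  have h3 := key j b (v.ord f) hj
  linarith

/-- **The node count.**  For `k` nodes of the pair `(t, f)` (pairs of distinct places with equal
`t`- and `f`-values), with `2k` pairwise distinct places: `k + g ≤ (n - 1)(m - 1)`. -/
theorem card_add_genus_le (t f : F) (ht : Transcendental K t) (hf : Transcendental K f)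
    [FiniteDimensional K⟮t⟯ F] [FiniteDimensional K⟮f⟯ F]
    (hind : LinearIndependent K⟮f⟯ (fun i : Fin (finrank K⟮f⟯ F) => t ^ (i : ℕ)))
    {ι : Type*} [Fintype ι] (P Q : ι → Place K F)
    (hinj : Function.Injective (Sum.elim P Q))
    (htP : ∀ i, 0 ≤ (P i).ord t) (htQ : ∀ i, 0 ≤ (Q i).ord t)
    (hfP : ∀ i, 0 ≤ (P i).ord f) (hfQ : ∀ i, 0 ≤ (Q i).ord f)
    (hteq : ∀ i, pval (P i) t = pval (Q i) t) (hfeq : ∀ i, pval (P i) f = pval (Q i) f) :
    Fintype.card ι + genusFF K F ≤ (finrank K⟮f⟯ F - 1) * (finrank K⟮t⟯ F - 1) := by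
  classical
  have h : IsFF1 K F t := isFF1_of_charZero t ht
  have ht0 : t ≠ 0 := fun h0 => ht (h0 ▸ isAlgebraic_zero)
  have hf0 : f ≠ 0 := fun h0 => hf (h0 ▸ isAlgebraic_zero)
  have hn1 : 1 ≤ finrank K⟮f⟯ F := Module.finrank_pos
  have hm1 : 1 ≤ finrank K⟮t⟯ F := Module.finrank_pos
  generalize hn : finrank K⟮f⟯ F = n at hind hn1 ⊢
  generalize hm : finrank K⟮t⟯ F = m at hm1 ⊢
  generalize hk : Fintype.card ι = k
  generalize hg : genusFF K F = g
  obtain ⟨N, hN⟩ : ∃ N : ℕ, N = 2 * g + 2 * k := ⟨_, rfl⟩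
  obtain ⟨D, hD⟩ : ∃ D : Divisor K F,
      D = ((n - 1 : ℕ) : ℤ) • RR.poleDiv K t + (N : ℤ) • RR.poleDiv K f := ⟨_, rfl⟩
  have hdegD : Divisor.degree D = ((n : ℤ) - 1) * m + N * n := by
    rw [hD, map_add, map_zsmul, map_zsmul, RR.degree_poleDiv t ht, RR.degree_poleDiv f hf,
      Nat.cast_sub hn1, hn, hm]
    simp only [smul_eq_mul, Nat.cast_one]
  have hDv : ∀ v : Place K F, 0 ≤ v.ord t → 0 ≤ v.ord f → D v = 0 := by
    intro v h1 h2
    simp only [hD, Finsupp.add_apply, Finsupp.smul_apply, RR.poleDiv_apply, smul_eq_mul]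
    rw [max_eq_right (by omega), max_eq_right (by omega)]
    simp
  -- the monomials
  have hmem : ∀ p : Fin n × Fin (N + 1), t ^ (p.1 : ℕ) * f ^ (p.2 : ℕ) ∈ riemannRochSpace D := by
    intro p
    rw [hD]
    exact monomial_mem_L t f ht0 hf0 (n - 1) N (by have := p.1.2; omega)
      (by have := p.2.2; omega)
  have hmono := linearIndependent_monomials t f hf hind (N + 1)
  obtain ⟨V, hVdef⟩ : ∃ V : Submodule K F, V = Submodule.span K
      (Set.range fun p : Fin n × Fin (N + 1) => t ^ (p.1 : ℕ) * f ^ (p.2 : ℕ)) := ⟨_, rfl⟩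
  have hVL : V ≤ riemannRochSpace D := by
    rw [hVdef]
    exact Submodule.span_le.2 (by rintro _ ⟨p, rfl⟩; exact hmem p)
  have hdimV : finrank K V = n * (N + 1) := by
    rw [hVdef, finrank_span_eq_card hmono]
    simp
  have hres : ∀ v : Place K F, RR.ResK v := h.resK
  have hVeq : ∀ φ ∈ V, ∀ i, pval (P i) φ = pval (Q i) φ := by
    intro φ hφ i
    have hLP : ∀ ψ ∈ riemannRochSpace D, ψ ∈ (P i).toValuationSubring := by
      intro ψ hψ
      have h2 := hψ (P i)
      rw [hDv _ (htP i) (hfP i), WithZero.exp_zero] at h2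
      exact RR.mem_of_val_le_one _ h2
    have hLQ : ∀ ψ ∈ riemannRochSpace D, ψ ∈ (Q i).toValuationSubring := by
      intro ψ hψ
      have h2 := hψ (Q i)
      rw [hDv _ (htQ i) (hfQ i), WithZero.exp_zero] at h2
      exact RR.mem_of_val_le_one _ h2
    rw [hVdef] at hφ
    refine Submodule.span_induction (p := fun ψ _ => pval (P i) ψ = pval (Q i) ψ) ?_ ?_ ?_ ?_ hφ
    · rintro _ ⟨p, rfl⟩
      have h1 := Fermat.Agent.S24.mem_of_ord_nonneg (P i) (htP i)
      have h2 := Fermat.Agent.S24.mem_of_ord_nonneg (P i) (hfP i)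
      have h3 := Fermat.Agent.S24.mem_of_ord_nonneg (Q i) (htQ i)
      have h4 := Fermat.Agent.S24.mem_of_ord_nonneg (Q i) (hfQ i)
      show pval (P i) (t ^ (p.1 : ℕ) * f ^ (p.2 : ℕ)) = pval (Q i) (t ^ (p.1 : ℕ) * f ^ (p.2 : ℕ))
      rw [pval_mul (hres _) (pow_mem h1 _) (pow_mem h2 _), pval_pow (hres _) h1,
        pval_pow (hres _) h2, pval_mul (hres _) (pow_mem h3 _) (pow_mem h4 _),
        pval_pow (hres _) h3, pval_pow (hres _) h4, hteq i, hfeq i]
    · simp
    · intro x y hx hy ex ey
      have hxL : x ∈ riemannRochSpace D := hVL (hVdef ▸ hx)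
      have hyL : y ∈ riemannRochSpace D := hVL (hVdef ▸ hy)
      rw [pval_add (hres _) (hLP x hxL) (hLP y hyL), pval_add (hres _) (hLQ x hxL) (hLQ y hyL),
        ex, ey]
    · intro c x hx ex
      have hxL : x ∈ riemannRochSpace D := hVL (hVdef ▸ hx)
      rw [pval_smul (hres _) c (hLP x hxL), pval_smul (hres _) c (hLQ x hxL), ex]
  have hmain := finrank_le_of_nodes h D P Q hinj (fun i => hDv _ (htP i) (hfP i))
    (fun i => hDv _ (htQ i) (hfQ i)) V hVL hVeq
  have hdegT : Divisor.degree (sumDiv (Sum.elim P Q)) = 2 * (k : ℤ) := by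
    rw [degree_sumDiv h, Fintype.card_sum, hk]
    push_cast
    ring
  have hn1' : (1 : ℤ) ≤ n := by exact_mod_cast hn1
  have hm1' : (1 : ℤ) ≤ m := by exact_mod_cast hm1
  have hdegDT : 2 * (genusFF K F : ℤ) - 1 ≤ Divisor.degree (D - sumDiv (Sum.elim P Q)) := by
    rw [map_sub, hdegD, hdegT, hN, hg]
    push_cast
    have h8 : (0 : ℤ) ≤ ((n : ℤ) - 1) * m := by
      have : (0 : ℤ) ≤ (n : ℤ) - 1 := by linarith
      positivity
    nlinarith
  have h4 := WeilCanonical.finrank_L_of_degree h hdegDT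
  rw [map_sub, hdegD, hdegT, hg] at h4
  have h5 : ((n * (N + 1) : ℕ) : ℤ)
      ≤ ((k + finrank K (riemannRochSpace (D - sumDiv (Sum.elim P Q))) : ℕ) : ℤ) := by
    rw [← hdimV, ← hk]
    exact_mod_cast hmain
  have h6 : ((n : ℤ) - 1) * ((m : ℤ) - 1) = ((n : ℤ) - 1) * m - n + 1 := by ring
  have h7 : (k : ℤ) + g ≤ ((n : ℤ) - 1) * ((m : ℤ) - 1) := by
    rw [h6]
    rw [Nat.cast_add, h4] at h5
    push_cast at h5
    linarith
  have h8 : ((k + g : ℕ) : ℤ) ≤ (((n - 1) * (m - 1) : ℕ) : ℤ) := by
    rw [Nat.cast_mul, Nat.cast_sub hn1, Nat.cast_sub hm1]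
    push_cast
    exact h7
  exact_mod_cast h8

omit [IsAlgClosed K] [CharZero K] in
/-- Coprime degrees: `K(t, f) = F`, so `1, t, …, t^(n-1)` are independent over `K(f)`. -/
theorem linearIndependent_pow_of_coprime (t f : F) [FiniteDimensional K⟮t⟯ F]
    [FiniteDimensional K⟮f⟯ F]
    (hco : Nat.Coprime (finrank K⟮t⟯ F) (finrank K⟮f⟯ F)) :
    LinearIndependent K⟮f⟯ (fun i : Fin (finrank K⟮f⟯ F) => t ^ (i : ℕ)) := by
  have hE : K⟮f⟯ ⊔ K⟮t⟯ = ⊤ := by
    have h1 : finrank ↥(K⟮f⟯ ⊔ K⟮t⟯) F ∣ finrank K⟮t⟯ F :=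
      IntermediateField.finrank_dvd_of_le_left le_sup_right
    have h2 : finrank ↥(K⟮f⟯ ⊔ K⟮t⟯) F ∣ finrank K⟮f⟯ F :=
      IntermediateField.finrank_dvd_of_le_left le_sup_left
    exact IntermediateField.finrank_eq_one_iff_eq_top.1 (Nat.eq_one_of_dvd_coprimes hco h1 h2)
  have htop : (IntermediateField.adjoin K⟮f⟯ ({t} : Set F)) = ⊤ := by
    rw [← IntermediateField.restrictScalars_eq_top_iff (K := K),
      IntermediateField.restrictScalars_adjoin_eq_sup]
    exact hE
  have hint : IsIntegral K⟮f⟯ t := IsIntegral.of_finite _ _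
  have hdeg : (minpoly K⟮f⟯ t).natDegree = finrank K⟮f⟯ F := by
    rw [← IntermediateField.adjoin.finrank hint, htop, IntermediateField.finrank_top']
  have h3 := linearIndependent_pow (K := K⟮f⟯) t
  rw [hdeg] at h3
  exact h3

/-- **Bad values, finite form**: a finite set of values `c` over which the fibre of `f` contains
two distinct points with the same `t`-value has at most `(n - 1)(m - 1) - g` elements. -/
theorem card_bad_le (t f : F) (ht : Transcendental K t) (hf : Transcendental K f)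
    [FiniteDimensional K⟮t⟯ F] [FiniteDimensional K⟮f⟯ F]
    (hind : LinearIndependent K⟮f⟯ (fun i : Fin (finrank K⟮f⟯ F) => t ^ (i : ℕ)))
    (s : Finset K)
    (hs : ∀ c ∈ s, ∃ P Q : Place K F, P ≠ Q ∧ 0 ≤ P.ord t ∧ 0 ≤ Q.ord t ∧ 0 ≤ P.ord f ∧
      0 ≤ Q.ord f ∧ pval P f = c ∧ pval Q f = c ∧ pval P t = pval Q t) :
    s.card + genusFF K F ≤ (finrank K⟮f⟯ F - 1) * (finrank K⟮t⟯ F - 1) := by
  classical
  have hs' : ∀ c : s, ∃ P Q : Place K F, P ≠ Q ∧ 0 ≤ P.ord t ∧ 0 ≤ Q.ord t ∧ 0 ≤ P.ord f ∧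
      0 ≤ Q.ord f ∧ pval P f = c ∧ pval Q f = c ∧ pval P t = pval Q t := fun c => hs c c.2
  choose P Q hPQ htP htQ hfP hfQ hPc hQc hteq using hs'
  have hinj : Function.Injective (Sum.elim P Q) := by
    rintro (a | a) (b | b) hab
    · have h1 : (a : K) = b := by
        rw [← hPc a, ← hPc b]; exact congrArg (fun v => pval v f) hab
      rw [Subtype.ext h1]
    · exfalso
      have h1 : (a : K) = b := by
        rw [← hPc a, ← hQc b]; exact congrArg (fun v => pval v f) hab
      have h2 : a = b := Subtype.ext h1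
      subst h2
      exact hPQ a hab
    · exfalso
      have h1 : (a : K) = b := by
        rw [← hQc a, ← hPc b]; exact congrArg (fun v => pval v f) hab
      have h2 : a = b := Subtype.ext h1
      subst h2
      exact hPQ a hab.symm
    · have h1 : (a : K) = b := by
        rw [← hQc a, ← hQc b]; exact congrArg (fun v => pval v f) hab
      rw [Subtype.ext h1]
  have h1 := card_add_genus_le t f ht hf hind P Q hinj htP htQ hfP hfQ hteq
    (fun c => by rw [hPc c, hQc c])
  simpa using h1

/-- **Bad values**: there is a finite set `Bad ⊆ K` of at most `(n - 1)(m - 1)` values such that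
`t` is injective on the points of every fibre of `f` over a value outside `Bad`. -/
theorem exists_bad_finset (t f : F) (ht : Transcendental K t) (hf : Transcendental K f)
    [FiniteDimensional K⟮t⟯ F] [FiniteDimensional K⟮f⟯ F]
    (hind : LinearIndependent K⟮f⟯ (fun i : Fin (finrank K⟮f⟯ F) => t ^ (i : ℕ))) :
    ∃ Bad : Finset K, Bad.card ≤ (finrank K⟮f⟯ F - 1) * (finrank K⟮t⟯ F - 1) ∧
      ∀ P Q : Place K F, P ≠ Q → 0 ≤ P.ord t → 0 ≤ Q.ord t → 0 ≤ P.ord f → 0 ≤ Q.ord f →
        pval P f = pval Q f → pval P f ∉ Bad → pval P t ≠ pval Q t := by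
  classical
  set S : Set K := {c | ∃ P Q : Place K F, P ≠ Q ∧ 0 ≤ P.ord t ∧ 0 ≤ Q.ord t ∧ 0 ≤ P.ord f ∧
      0 ≤ Q.ord f ∧ pval P f = c ∧ pval Q f = c ∧ pval P t = pval Q t} with hS
  have hbound : ∀ s : Finset K, (↑s : Set K) ⊆ S →
      s.card ≤ (finrank K⟮f⟯ F - 1) * (finrank K⟮t⟯ F - 1) := by
    intro s hsub
    have := card_bad_le t f ht hf hind s (fun c hc => hsub hc)
    omega
  have hfin : S.Finite := by
    by_contra hinf
    obtain ⟨s, hsub, hcard⟩ := Set.Infinite.exists_subset_card_eq hinf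
      ((finrank K⟮f⟯ F - 1) * (finrank K⟮t⟯ F - 1) + 1)
    have := hbound s hsub
    omega
  refine ⟨hfin.toFinset, hbound _ (by simp), ?_⟩
  intro P Q hPQ h1 h2 h3 h4 hfeq hnot hteq
  apply hnot
  rw [Set.Finite.mem_toFinset]
  exact ⟨P, Q, hPQ, h1, h2, h3, h4, rfl, hfeq.symm, hteq⟩

end Fermat.Agent.MW.Ht.TSep
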