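/-
MW / HT-Q, brick DEG-1: the good-translate lemma (function-field half of `translates`).

Setting `h : IsFF1 K F x₀` with a canonical divisor `W` (`hW : Adele.IsDivisorOf ω W`), genus
`g = genusFF K F`.

* `jumpSet_subset` : if `L(W - D) ≠ 0`, the places `Q` with `L(D + Q) ≠ L(D)` lie in a finite set
  of at most `2g - 2 - deg D` places;
* `exists_points` : for a divisor `X` of degree `0` and a finite set `Pts` of more than `2g - 2`
  places there are `Q_1, …, Q_g ∈ Pts` with `l(X + ∑ Q_i) = 1` and `H¹ = 0`;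
* `exists_good_translate_of_RH` / `exists_good_translate` : for every divisor `X` of degree `0`
  and every finite set `Pts` of more than `(4g + 1 + |S|)(g + 1)` places there are
  `Q_1, …, Q_g, P, P' ∈ Pts` such that `X + ∑ Q_i + P - P'` is linearly equivalent to an effective
  REDUCED divisor `E` of degree `g`, avoiding `S`, with `l(E) = 1` and `H¹(E) = 0`.
-/
import Mathlib
import Fermat.Agent.Lib.FF.CanonicalIsFF1
import Fermat.Agent.Lib.FF.GenPos

set_option autoImplicit false

noncomputable section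

namespace Fermat.Agent.MW.Ht.GoodTranslate

open AlgebraicCurve WithZero Module KaehlerDifferential
open Fermat.Agent.Lib.FF Fermat.Agent.Lib.FF.BasePoint Fermat.Agent.Lib.FF.Res
open scoped IntermediateField

variable {K F : Type*} [Field K] [Field F] [Algebra K F] {x₀ : F}

/-! ### generalities -/

/-- an effective divisor has at most `deg` places in its support -/
theorem card_support_le_degree (h : IsFF1 K F x₀) {Z : Divisor K F} (hZ : 0 ≤ Z) :
    (Z.support.card : ℤ) ≤ Divisor.degree Z := by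
  rw [h.degree_eq_sum]
  have h1 : ∀ v ∈ Z.support, (1 : ℤ) ≤ Z v := by
    intro v hv
    have h0 : (0 : ℤ) ≤ Z v := Finsupp.le_def.mp hZ v
    have hne : Z v ≠ 0 := Finsupp.mem_support_iff.mp hv
    omega
  calc (Z.support.card : ℤ) = ∑ _v ∈ Z.support, (1 : ℤ) := by simp
    _ ≤ ∑ v ∈ Z.support, Z v := Finset.sum_le_sum h1

theorem sub_single_le (A : Divisor K F) (P : Place K F) : A - Finsupp.single P (1 : ℤ) ≤ A := by
  refine Finsupp.le_def.mpr fun v => ?_
  rw [Finsupp.sub_apply]
  by_cases hv : v = P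
  · subst hv; rw [Finsupp.single_eq_same]; omega
  · rw [Finsupp.single_eq_of_ne hv]; omega

/-- multiplication by `f` maps `L(D')` into `L(D)` when `D' = D + div f` -/
theorem mul_mem_L_of_eq {D D' : Divisor K F} {f : F} (hf : f ≠ 0)
    (hDD' : ∀ v, D' v = D v + v.ord f) {u : F} (hu : u ∈ riemannRochSpace D') :
    u * f ∈ riemannRochSpace D := by
  rw [mem_riemannRochSpace_iff] at hu ⊢
  intro v
  rcases eq_or_ne u 0 with rfl | hu0
  · left; rw [zero_mul]
  · right
    have h1 := (hu v).resolve_left hu0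
    rw [v.ord_mul hu0 hf, ← sub_nonneg]
    have := hDD' v
    omega

/-- `l(D') ≤ l(D)` when `D' = D + div f` -/
theorem finrank_L_le_of_eq (h : IsFF1 K F x₀) {D D' : Divisor K F} {f : F} (hf : f ≠ 0)
    (hDD' : ∀ v, D' v = D v + v.ord f) :
    finrank K (riemannRochSpace D') ≤ finrank K (riemannRochSpace D) := by
  have := h.finite_L D
  let φ : riemannRochSpace D' →ₗ[K] riemannRochSpace D :=
    (LinearMap.mulRight K f).restrict (fun u hu => mul_mem_L_of_eq hf hDD' hu)
  refine LinearMap.finrank_le_finrank_of_injective (f := φ) ?_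
  intro u u' huu'
  have h1 : (u : F) * f = (u' : F) * f := congrArg Subtype.val huu'
  exact Subtype.ext (mul_right_cancel₀ hf h1)

/-- linearly equivalent divisors have the same `l` -/
theorem finrank_L_eq_of_eq (h : IsFF1 K F x₀) {D D' : Divisor K F} {f : F} (hf : f ≠ 0)
    (hDD' : ∀ v, D' v = D v + v.ord f) :
    finrank K (riemannRochSpace D') = finrank K (riemannRochSpace D) := by
  refine le_antisymm (finrank_L_le_of_eq h hf hDD') ?_
  refine finrank_L_le_of_eq h (inv_ne_zero hf) (fun v => ?_)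
  rw [hDD' v, v.ord_inv]
  ring

/-- `cD D = g - 1 - l(W - D)` -/
theorem cD_eq (h : IsFF1 K F x₀) {ω : Ω[F⁄K]} {W : Divisor K F} (hW : Adele.IsDivisorOf ω W)
    (D : Divisor K F) :
    RR.cD D = (genusFF K F : ℤ) - 1 - finrank K (riemannRochSpace (W - D)) := by
  have := riemannRoch_ff1 h hW D
  unfold RR.cD
  linarith

/-- `H¹(D) = 0` iff `L(W - D) = 0` -/
theorem MD_eq_top_iff_L (h : IsFF1 K F x₀) {ω : Ω[F⁄K]} {W : Divisor K F}
    (hW : Adele.IsDivisorOf ω W) (D : Divisor K F) :
    RR.MD D = ⊤ ↔ riemannRochSpace (W - D) = ⊥ := by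
  have := h.finite_L (W - D)
  rw [MD_eq_top_iff h, cD_eq h hW, ← Submodule.finrank_eq_zero (R := K)]
  constructor
  · intro h1
    have : (finrank K (riemannRochSpace (W - D)) : ℤ) = 0 := by linarith
    exact_mod_cast this
  · intro h1
    rw [h1]
    simp

/-- `l(D) = deg D + 1 - g` when `H¹(D) = 0` (natural-number form for degree `g`, `g + 1`) -/
theorem finrank_L_of_cD {D : Divisor K F}
    (hD : RR.cD D = (genusFF K F : ℤ) - 1) :
    (finrank K (riemannRochSpace D) : ℤ) = Divisor.degree D + 1 - genusFF K F := by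
  unfold RR.cD at hD
  linarith

/-! ### the jump set is small -/

/-- **Jump bound.**  If `L(W - D) ≠ 0`, the jump set of `D` is contained in the support of an
effective divisor of degree `2g - 2 - deg D`. -/
theorem jumpSet_subset (h : IsFF1 K F x₀) {ω : Ω[F⁄K]} {W : Divisor K F}
    (hW : Adele.IsDivisorOf ω W) (D : Divisor K F) (hne : riemannRochSpace (W - D) ≠ ⊥) :
    ∃ T : Finset (Place K F), (T.card : ℤ) ≤ 2 * (genusFF K F : ℤ) - 2 - Divisor.degree D ∧
      RR.jumpSet D ⊆ T := by
  have := h.hasPrincipalDivisors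
  obtain ⟨f₀, hf₀, hf₀0⟩ := (Submodule.ne_bot_iff _).mp hne
  obtain ⟨Df, hDf, hdeg⟩ := HasPrincipalDivisors.exists_divisor (K := K) f₀ hf₀0
  set Z : Divisor K F := W - D + Df with hZ
  have hZnn : 0 ≤ Z := by
    refine Finsupp.le_def.mpr fun v => ?_
    have h1 := (mem_riemannRochSpace_iff.mp hf₀ v).resolve_left hf₀0
    rw [Finsupp.zero_apply, hZ, Finsupp.add_apply, hDf v]
    omega
  refine ⟨Z.support, ?_, ?_⟩
  · refine (card_support_le_degree h hZnn).trans ?_
    rw [hZ, map_add, map_sub, hdeg, degree_of_isDivisorOf_ff1 h hW]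
    linarith
  · intro Q hQ
    -- `L(D + Q) ≠ L(D)` forces `L(W - D - Q) = L(W - D)`
    have hfinD := h.finite_L D
    have hfinDQ := h.finite_L (RR.addPl D Q)
    have hfinW := h.finite_L (W - D)
    have hlt : riemannRochSpace D < riemannRochSpace (RR.addPl D Q) :=
      lt_of_le_of_ne (RR.L_mono (RR.le_addPl D Q)) (Ne.symm hQ)
    have h1 : finrank K (riemannRochSpace D) < finrank K (riemannRochSpace (RR.addPl D Q)) :=
      Submodule.finrank_lt_finrank_of_lt hlt
    have h2 := riemannRoch_ff1 h hW D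
    have h3 := riemannRoch_ff1 h hW (RR.addPl D Q)
    rw [RR.degree_addPl h.resK] at h3
    have hle : W - RR.addPl D Q ≤ W - D := by
      refine Finsupp.le_def.mpr fun v => ?_
      have := Finsupp.le_def.mp (RR.le_addPl D Q) v
      rw [Finsupp.sub_apply, Finsupp.sub_apply]
      omega
    have h4 : finrank K (riemannRochSpace (W - D))
        ≤ finrank K (riemannRochSpace (W - RR.addPl D Q)) := by
      have h1' : (finrank K (riemannRochSpace D) : ℤ) + 1
          ≤ finrank K (riemannRochSpace (RR.addPl D Q)) := by exact_mod_cast h1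
      have : (finrank K (riemannRochSpace (W - D)) : ℤ)
          ≤ finrank K (riemannRochSpace (W - RR.addPl D Q)) := by linarith
      exact_mod_cast this
    have heq : riemannRochSpace (W - RR.addPl D Q) = riemannRochSpace (W - D) :=
      Submodule.eq_of_le_of_finrank_le (RR.L_mono hle) h4
    have hmem : f₀ ∈ riemannRochSpace (W - RR.addPl D Q) := by rw [heq]; exact hf₀
    have h5 := (mem_riemannRochSpace_iff.mp hmem Q).resolve_left hf₀0
    rw [Finsupp.sub_apply, RR.addPl_apply_self] at h5
    rw [Finset.mem_coe, Finsupp.mem_support_iff, hZ, Finsupp.add_apply, Finsupp.sub_apply, hDf Q]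
    omega

/-- If `l(A) ≤ 1`, then `L(A - P) = 0` for all `P` outside a set of at most `deg A` places. -/
theorem exists_L_sub_eq_bot (h : IsFF1 K F x₀) (A : Divisor K F)
    (hA : finrank K (riemannRochSpace A) ≤ 1) :
    ∃ T : Finset (Place K F), (T.card : ℤ) ≤ max (Divisor.degree A) 0 ∧
      ∀ P, P ∉ T → riemannRochSpace (A - Finsupp.single P (1 : ℤ)) = ⊥ := by
  have := h.hasPrincipalDivisors
  have hfin := h.finite_L A
  by_cases hbot : riemannRochSpace A = ⊥
  · refine ⟨∅, by simp, fun P _ => ?_⟩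
    rw [eq_bot_iff, ← hbot]
    exact RR.L_mono (sub_single_le A P)
  · obtain ⟨ω₀, hω₀, hω₀0⟩ := (Submodule.ne_bot_iff _).mp hbot
    obtain ⟨Df, hDf, hdeg⟩ := HasPrincipalDivisors.exists_divisor (K := K) ω₀ hω₀0
    set Z : Divisor K F := A + Df with hZ
    have hZnn : 0 ≤ Z := by
      refine Finsupp.le_def.mpr fun v => ?_
      have h1 := (mem_riemannRochSpace_iff.mp hω₀ v).resolve_left hω₀0
      rw [Finsupp.zero_apply, hZ, Finsupp.add_apply, hDf v]
      omega
    refine ⟨Z.support, ?_, fun P hP => ?_⟩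
    · refine (card_support_le_degree h hZnn).trans ?_
      rw [hZ, map_add, hdeg, add_zero]
      exact le_max_left _ _
    · -- `L(A) = K ω₀`
      have hZP : Z P = 0 := by
        by_contra hne
        exact hP (Finsupp.mem_support_iff.mpr hne)
      rw [eq_bot_iff]
      intro u hu
      rw [Submodule.mem_bot]
      by_contra hu0
      have huA : u ∈ riemannRochSpace A := RR.L_mono (sub_single_le A P) hu
      -- `u = c ω₀`
      have hspan : ∃ c : K, c • ω₀ = u := by
        have h1 : finrank K (riemannRochSpace A) = 1 := by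
          refine le_antisymm hA ?_
          exact Module.finrank_pos_iff_exists_ne_zero.mpr
            ⟨⟨ω₀, hω₀⟩, fun h0 => hω₀0 (congrArg Subtype.val h0)⟩
        obtain ⟨c, hc⟩ := (finrank_eq_one_iff_of_nonzero' (⟨ω₀, hω₀⟩ : riemannRochSpace A)
          (fun h0 => hω₀0 (congrArg Subtype.val h0))).mp h1 ⟨u, huA⟩
        exact ⟨c, congrArg Subtype.val hc⟩
      obtain ⟨c, rfl⟩ := hspan
      have hc0 : c ≠ 0 := by
        rintro rfl
        exact hu0 (zero_smul K ω₀)
      have h5 := (mem_riemannRochSpace_iff.mp hu P).resolve_left hu0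
      rw [Finsupp.sub_apply, Finsupp.single_eq_same, Algebra.smul_def,
        P.ord_mul (by rw [Ne, map_eq_zero]; exact hc0) hω₀0] at h5
      have hc1 : P.ord (algebraMap K F c) = 0 := by
        have hc' : algebraMap K F c ≠ 0 := by rw [Ne, map_eq_zero]; exact hc0
        have h1 := (P.adicValuation_le_one_iff.mp
          (P.adicValuation_algebraMap_le_one c)).resolve_left hc'
        have hci' : algebraMap K F c⁻¹ ≠ 0 := by rw [Ne, map_eq_zero]; exact inv_ne_zero hc0
        have h2 := (P.adicValuation_le_one_iff.mp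
          (P.adicValuation_algebraMap_le_one c⁻¹)).resolve_left hci'
        rw [map_inv₀, P.ord_inv] at h2
        omega
      rw [hZ, Finsupp.add_apply, hDf P] at hZP
      omega

/-! ### values at places -/

theorem ord_const (v : Place K F) (c : K) : v.ord (algebraMap K F c) = 0 := by
  rcases eq_or_ne c 0 with rfl | hc
  · rw [map_zero, Place.ord_zero]
  · have hc' : algebraMap K F c ≠ 0 := by rw [Ne, map_eq_zero]; exact hc
    have h1 := (v.adicValuation_le_one_iff.mp (v.adicValuation_algebraMap_le_one c)).resolve_left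
      hc'
    have hci' : algebraMap K F c⁻¹ ≠ 0 := by rw [Ne, map_eq_zero]; exact inv_ne_zero hc
    have h2 := (v.adicValuation_le_one_iff.mp (v.adicValuation_algebraMap_le_one c⁻¹)).resolve_left
      hci'
    rw [map_inv₀, v.ord_inv] at h2
    omega

theorem val_const (v : Place K F) {c : K} (hc : c ≠ 0) : v.adicValuation (algebraMap K F c) = 1 := by
  have hc' : algebraMap K F c ≠ 0 := by rw [Ne, map_eq_zero]; exact hc
  rw [v.adicValuation_eq_exp_neg_ord hc', ord_const, neg_zero, exp_zero]

/-- a function regular at `v` has a value at `v` -/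
theorem exists_value (h : IsFF1 K F x₀) (v : Place K F) {f : F} (hf : v.adicValuation f ≤ 1) :
    ∃ c : K, v.adicValuation (f - algebraMap K F c) < 1 := by
  have hord : 0 ≤ v.ord f := by
    rcases v.adicValuation_le_one_iff.mp hf with h0 | h0
    · rw [h0, Place.ord_zero]
    · exact h0
  have hmem : f ∈ v.toValuationSubring := Fermat.Agent.S24.mem_of_ord_nonneg v hord
  obtain ⟨c, hc⟩ := h.resK v ⟨f, hmem⟩
  refine ⟨c, ?_⟩
  have h1 := RR.val_le_exp_neg_one_of_mem_maximalIdeal v _ hc
  refine lt_of_le_of_lt h1 ?_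
  rw [← exp_zero, exp_lt_exp]
  norm_num

theorem value_unique (v : Place K F) {f : F} {c c' : K}
    (hc : v.adicValuation (f - algebraMap K F c) < 1)
    (hc' : v.adicValuation (f - algebraMap K F c') < 1) : c = c' := by
  by_contra hne
  have h1 : v.adicValuation (algebraMap K F (c' - c)) < 1 := by
    have e : algebraMap K F (c' - c) = (f - algebraMap K F c) - (f - algebraMap K F c') := by
      rw [map_sub]; ring
    rw [e]
    exact lt_of_le_of_lt (v.adicValuation.map_sub _ _) (max_lt hc hc')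
  rw [val_const v (sub_ne_zero.mpr (Ne.symm hne))] at h1
  exact lt_irrefl _ h1

/-! ### step 1: `g` points in general position from a finite set -/

theorem degree_add_sum (h : IsFF1 K F x₀) (X : Divisor K F) {n : ℕ} (Q : Fin n → Place K F) :
    Divisor.degree (X + ∑ i, Finsupp.single (Q i) (1 : ℤ)) = Divisor.degree X + n := by
  rw [map_add, map_sum]
  simp [Divisor.degree_single, h.deg_eq_one]

/-- **General position from a finite set.**  For `X` of degree `0` and a finite set `Pts` of more
than `2g - 2` places, there are `Q_1, …, Q_n ∈ Pts` (`n ≤ g`) with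
`deg - l ≥ n - 1` for `X + ∑ Q_i`. -/
theorem exists_points_aux (h : IsFF1 K F x₀) {ω : Ω[F⁄K]} {W : Divisor K F}
    (hW : Adele.IsDivisorOf ω W) (X : Divisor K F) (hX : Divisor.degree X = 0)
    (Pts : Finset (Place K F)) (hPts : 2 * (genusFF K F : ℤ) - 2 < Pts.card) (n : ℕ)
    (hn : n ≤ genusFF K F) :
    ∃ Q : Fin n → Place K F, (∀ i, Q i ∈ Pts) ∧
      (n : ℤ) - 1 ≤ RR.cD (X + ∑ i, Finsupp.single (Q i) (1 : ℤ)) := by
  induction n with
  | zero =>
    refine ⟨Fin.elim0, fun i => i.elim0, ?_⟩
    rw [Finset.univ_eq_empty, Finset.sum_empty, add_zero]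
    unfold RR.cD
    rw [hX]
    have h1 := GenPos.finrank_L_le_one_of_degree_zero h hX
    have h2 : (finrank K (riemannRochSpace X) : ℤ) ≤ 1 := by exact_mod_cast h1
    push_cast
    linarith
  | succ n ih =>
    obtain ⟨Q, hQ, hcD⟩ := ih (Nat.le_of_succ_le hn)
    set D : Divisor K F := X + ∑ i, Finsupp.single (Q i) (1 : ℤ) with hD
    have hdegD : Divisor.degree D = n := by rw [hD, degree_add_sum h, hX, zero_add]
    have hg : ((n : ℤ) + 1) ≤ (genusFF K F : ℤ) := by exact_mod_cast hn
    have key : ∃ q ∈ Pts, (n : ℤ) ≤ RR.cD (RR.addPl D q) := by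
      by_cases hMD : RR.MD D = ⊤
      · have hne : Pts.Nonempty := by
          rw [← Finset.card_pos]
          have : (0 : ℤ) < Pts.card := by linarith
          exact_mod_cast this
        obtain ⟨q, hq⟩ := hne
        refine ⟨q, hq, ?_⟩
        have h1 := (MD_eq_top_iff h D).1 hMD
        have h2 := cD_mono h (RR.le_addPl D q)
        linarith
      · have hne : riemannRochSpace (W - D) ≠ ⊥ := fun h0 => hMD ((MD_eq_top_iff_L h hW D).2 h0)
        obtain ⟨T, hTcard, hT⟩ := jumpSet_subset h hW D hne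
        rw [hdegD] at hTcard
        have hlt : T.card < Pts.card := by
          have : (T.card : ℤ) < Pts.card := by linarith
          exact_mod_cast this
        obtain ⟨q, hq, hqT⟩ := Finset.exists_mem_notMem_of_card_lt_card hlt
        refine ⟨q, hq, ?_⟩
        have hqJ : q ∉ RR.jumpSet D := fun hmem => hqT (hT hmem)
        rw [GenPos.cD_addPl_of_notMem_jumpSet h hqJ]
        linarith
    obtain ⟨q, hq, hcD'⟩ := key
    refine ⟨Fin.snoc Q q, fun i => ?_, ?_⟩
    · refine Fin.lastCases ?_ (fun j => ?_) i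
      · rw [Fin.snoc_last]; exact hq
      · rw [Fin.snoc_castSucc]; exact hQ j
    · have hsum : X + ∑ i : Fin (n + 1), Finsupp.single ((Fin.snoc Q q : Fin (n + 1) → Place K F) i)
          (1 : ℤ) = RR.addPl D q := by
        rw [Fin.sum_univ_castSucc]
        simp only [Fin.snoc_castSucc, Fin.snoc_last]
        rw [hD, RR.addPl, add_assoc]
      rw [hsum]
      push_cast
      linarith

/-- **General position from a finite set**: `l(X + ∑ Q_i) = 1` and `deg - l = g - 1`. -/
theorem exists_points (h : IsFF1 K F x₀) {ω : Ω[F⁄K]} {W : Divisor K F}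
    (hW : Adele.IsDivisorOf ω W) (X : Divisor K F) (hX : Divisor.degree X = 0)
    (Pts : Finset (Place K F)) (hPts : 2 * (genusFF K F : ℤ) - 2 < Pts.card) :
    ∃ Q : Fin (genusFF K F) → Place K F, (∀ i, Q i ∈ Pts) ∧
      RR.cD (X + ∑ i, Finsupp.single (Q i) (1 : ℤ)) = (genusFF K F : ℤ) - 1 ∧
      finrank K (riemannRochSpace (X + ∑ i, Finsupp.single (Q i) (1 : ℤ))) = 1 := by
  obtain ⟨Q, hQ, hcD⟩ := exists_points_aux h hW X hX Pts hPts (genusFF K F) le_rfl
  have hcD' := le_antisymm (cD_le h _) hcD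
  refine ⟨Q, hQ, hcD', ?_⟩
  have h1 := finrank_L_of_cD hcD'
  rw [degree_add_sum h, hX] at h1
  have : (finrank K (riemannRochSpace (X + ∑ i, Finsupp.single (Q i) (1 : ℤ))) : ℤ) = 1 := by
    linarith
  exact_mod_cast this

/-- a divisor with `L ≠ 0` is linearly equivalent to an effective one -/
theorem exists_effective_rep (h : IsFF1 K F x₀) (D : Divisor K F)
    (hD : 0 < finrank K (riemannRochSpace D)) :
    ∃ (E : Divisor K F) (f : F), f ≠ 0 ∧ 0 ≤ E ∧ ∀ v, E v = D v + v.ord f := by
  have := h.hasPrincipalDivisors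
  have := h.finite_L D
  obtain ⟨⟨f, hfD⟩, hf0⟩ := Module.finrank_pos_iff_exists_ne_zero.mp hD
  have hf : f ≠ 0 := fun h0 => hf0 (Subtype.ext h0)
  obtain ⟨Df, hDf, -⟩ := HasPrincipalDivisors.exists_divisor (K := K) f hf
  refine ⟨D + Df, f, hf, ?_, fun v => by rw [Finsupp.add_apply, hDf v]⟩
  refine Finsupp.le_def.mpr fun v => ?_
  have h1 := (mem_riemannRochSpace_iff.mp hfD v).resolve_left hf
  rw [Finsupp.zero_apply, Finsupp.add_apply, hDf v]
  omega

/-! ### step 2: a base-point-free pencil -/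

theorem one_mem_L {D : Divisor K F} (hD : 0 ≤ D) : (1 : F) ∈ riemannRochSpace D := by
  rw [mem_riemannRochSpace_iff]
  intro v
  right
  have h0 : (0 : ℤ) ≤ D v := Finsupp.le_def.mp hD v
  rw [Place.ord_one]
  omega

/-- in a subspace of dimension `≤ 1` every element is a multiple of a given nonzero element -/
theorem exists_smul_eq_of_finrank_le_one {V : Submodule K F} [Module.Finite K V]
    (hV : finrank K V ≤ 1) {u w : F} (hu : u ∈ V) (hu0 : u ≠ 0) (hw : w ∈ V) :
    ∃ c : K, c • u = w := by
  have hne : (⟨u, hu⟩ : V) ≠ 0 := fun h0 => hu0 (congrArg Subtype.val h0)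
  have h1 : finrank K V = 1 :=
    le_antisymm hV (Module.finrank_pos_iff_exists_ne_zero.mpr ⟨⟨u, hu⟩, hne⟩)
  obtain ⟨c, hc⟩ := (finrank_eq_one_iff_of_nonzero' (⟨u, hu⟩ : V) hne).mp h1 ⟨w, hw⟩
  exact ⟨c, congrArg Subtype.val hc⟩

/-- **Base-point-free pencil.**  For `E₀ ≥ 0` of degree `g` with `l(E₀) = 1` and a finite set
`Pts` of more than `g (g - 1)` places there are `P ∈ Pts` and a non-constant `f ∈ L(E₀ + P)`
whose pole divisor is exactly `E₀ + P`; moreover `l(E₀ + P) = 2`. -/
theorem exists_pencil (h : IsFF1 K F x₀) {ω : Ω[F⁄K]} {W : Divisor K F}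
    (hW : Adele.IsDivisorOf ω W) (E₀ : Divisor K F) (hE₀ : 0 ≤ E₀)
    (hdeg : Divisor.degree E₀ = genusFF K F) (hl : finrank K (riemannRochSpace E₀) = 1)
    (Pts : Finset (Place K F)) (hPts : genusFF K F * (genusFF K F - 1) < Pts.card) :
    ∃ P ∈ Pts, ∃ f : F, f ∈ riemannRochSpace (RR.addPl E₀ P) ∧ (∀ c : K, f ≠ algebraMap K F c) ∧
      finrank K (riemannRochSpace (RR.addPl E₀ P)) = 2 ∧
      ∀ Q, 1 ≤ RR.addPl E₀ P Q → Q.adicValuation f = exp (RR.addPl E₀ P Q) := by
  classical
  have hfinE := h.finite_L E₀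
  have hcD₀ : RR.cD E₀ = (genusFF K F : ℤ) - 1 := by
    unfold RR.cD
    rw [hdeg, hl]
    push_cast
    ring
  -- for each `Q ∈ supp E₀` a small bad set
  have key : ∀ Q : Place K F, ∃ T : Finset (Place K F), T.card ≤ genusFF K F - 1 ∧
      (Q ∈ E₀.support → ∀ P, P ∉ T → riemannRochSpace
        (W - E₀ + Finsupp.single Q (1 : ℤ) - Finsupp.single P (1 : ℤ)) = ⊥) := by
    intro Q
    by_cases hQ : Q ∈ E₀.support
    · set A : Divisor K F := W - E₀ + Finsupp.single Q (1 : ℤ) with hA
      have hAl : finrank K (riemannRochSpace A) ≤ 1 := by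
        have h1 := riemannRoch_ff1 h hW (E₀ - Finsupp.single Q (1 : ℤ))
        have h2 : W - (E₀ - Finsupp.single Q (1 : ℤ)) = A := by rw [hA]; abel
        rw [h2, degree_sub_single h, hdeg] at h1
        have h3 : finrank K (riemannRochSpace (E₀ - Finsupp.single Q (1 : ℤ)))
            ≤ finrank K (riemannRochSpace E₀) :=
          Submodule.finrank_mono (RR.L_mono (sub_single_le E₀ Q))
        rw [hl] at h3
        have h3' : (finrank K (riemannRochSpace (E₀ - Finsupp.single Q (1 : ℤ))) : ℤ) ≤ 1 := by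
          exact_mod_cast h3
        have : (finrank K (riemannRochSpace A) : ℤ) ≤ 1 := by linarith
        exact_mod_cast this
      obtain ⟨T, hTcard, hT⟩ := exists_L_sub_eq_bot h A hAl
      refine ⟨T, ?_, fun _ P hP => hT P hP⟩
      have hdegA : Divisor.degree A = (genusFF K F : ℤ) - 1 := by
        rw [hA, map_add, map_sub, degree_of_isDivisorOf_ff1 h hW, hdeg, Divisor.degree_single,
          h.deg_eq_one]
        push_cast
        ring
      rw [hdegA] at hTcard
      omega
    · exact ⟨∅, by simp, fun hQ' => absurd hQ' hQ⟩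
  choose T hTcard hT using key
  have hsupp : E₀.support.card ≤ genusFF K F := by
    have := card_support_le_degree h hE₀
    rw [hdeg] at this
    exact_mod_cast this
  have hBadcard : (E₀.support.biUnion T).card ≤ genusFF K F * (genusFF K F - 1) := by
    calc (E₀.support.biUnion T).card ≤ ∑ Q ∈ E₀.support, (T Q).card := Finset.card_biUnion_le
      _ ≤ ∑ _Q ∈ E₀.support, (genusFF K F - 1) := Finset.sum_le_sum fun Q _ => hTcard Q
      _ = E₀.support.card * (genusFF K F - 1) := by rw [Finset.sum_const, smul_eq_mul]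
      _ ≤ genusFF K F * (genusFF K F - 1) := Nat.mul_le_mul_right _ hsupp
  obtain ⟨P, hP, hPBad⟩ :=
    Finset.exists_mem_notMem_of_card_lt_card (lt_of_le_of_lt hBadcard hPts)
  refine ⟨P, hP, ?_⟩
  set D₁ : Divisor K F := RR.addPl E₀ P with hD₁
  have hD₁nn : 0 ≤ D₁ := hE₀.trans (RR.le_addPl E₀ P)
  have hdeg₁ : Divisor.degree D₁ = (genusFF K F : ℤ) + 1 := by
    rw [hD₁, RR.degree_addPl h.resK, hdeg]
  have hcD₁ : RR.cD D₁ = (genusFF K F : ℤ) - 1 :=
    le_antisymm (cD_le h _) (by rw [← hcD₀]; exact cD_mono h (RR.le_addPl E₀ P))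
  have hl₁ : finrank K (riemannRochSpace D₁) = 2 := by
    have h1 := finrank_L_of_cD hcD₁
    rw [hdeg₁] at h1
    have : (finrank K (riemannRochSpace D₁) : ℤ) = 2 := by linarith
    exact_mod_cast this
  -- no base points on the support
  have hbp : ∀ Q, 1 ≤ D₁ Q →
      finrank K (riemannRochSpace (D₁ - Finsupp.single Q (1 : ℤ))) ≤ 1 := by
    intro Q hQ
    by_cases hQP : Q = P
    · subst hQP
      have : D₁ - Finsupp.single Q (1 : ℤ) = E₀ := by rw [hD₁]; exact add_sub_cancel_right _ _
      rw [this, hl]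
    · have hQE : Q ∈ E₀.support := by
        rw [Finsupp.mem_support_iff]
        rw [hD₁, RR.addPl_apply_of_ne E₀ hQP] at hQ
        omega
      have hPT : P ∉ T Q := fun hmem => hPBad (Finset.mem_biUnion.mpr ⟨Q, hQE, hmem⟩)
      have hbot := hT Q hQE P hPT
      have h1 := riemannRoch_ff1 h hW (D₁ - Finsupp.single Q (1 : ℤ))
      have h2 : W - (D₁ - Finsupp.single Q (1 : ℤ))
          = W - E₀ + Finsupp.single Q (1 : ℤ) - Finsupp.single P (1 : ℤ) := by
        rw [hD₁, RR.addPl]; abel
      rw [h2, hbot, finrank_bot, degree_sub_single h, hdeg₁] at h1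
      have : (finrank K (riemannRochSpace (D₁ - Finsupp.single Q (1 : ℤ))) : ℤ) = 1 := by
        push_cast at h1
        linarith
      exact_mod_cast this.le
  -- a non-constant element of `L(D₁)`
  have hex : ∃ f ∈ riemannRochSpace D₁, ∀ c : K, f ≠ algebraMap K F c := by
    by_contra hcon
    push Not at hcon
    have hle : riemannRochSpace D₁ ≤ riemannRochSpace (0 : Divisor K F) := by
      intro f hf
      obtain ⟨c, hc⟩ := hcon f hf
      rw [h.L_zero_eq_range]
      exact ⟨c, hc.symm⟩
    have := h.finite_L_zero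
    have h1 := Submodule.finrank_mono hle
    rw [hl₁, h.finrank_L_zero] at h1
    omega
  obtain ⟨f, hf, hfc⟩ := hex
  have hf0 : f ≠ 0 := by
    intro h0
    exact hfc 0 (by rw [h0, map_zero])
  refine ⟨f, hf, hfc, hl₁, fun Q hQ => ?_⟩
  by_contra hval
  have hfQ : f ∈ riemannRochSpace (D₁ - Finsupp.single Q (1 : ℤ)) := by
    rw [mem_riemannRochSpace_iff]
    intro v
    right
    have h1 := (mem_riemannRochSpace_iff.mp hf v).resolve_left hf0
    rw [Finsupp.sub_apply]
    by_cases hv : v = Q
    · subst hv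
      rw [Finsupp.single_eq_same]
      have h2 : -v.ord f ≠ D₁ v := by
        intro h3
        apply hval
        rw [v.adicValuation_eq_exp_neg_ord hf0, h3]
      omega
    · rw [Finsupp.single_eq_of_ne hv]
      omega
  have hnn : 0 ≤ D₁ - Finsupp.single Q (1 : ℤ) := by
    refine Finsupp.le_def.mpr fun v => ?_
    have h0 : (0 : ℤ) ≤ D₁ v := Finsupp.le_def.mp hD₁nn v
    rw [Finsupp.zero_apply, Finsupp.sub_apply]
    by_cases hv : v = Q
    · subst hv
      rw [Finsupp.single_eq_same]
      omega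
    · rw [Finsupp.single_eq_of_ne hv]
      omega
  have := h.finite_L (D₁ - Finsupp.single Q (1 : ℤ))
  obtain ⟨c, hc⟩ := exists_smul_eq_of_finrank_le_one (hbp Q hQ) (one_mem_L hnn) one_ne_zero hfQ
  exact hfc c (by rw [← hc, Algebra.smul_def, mul_one])

/-! ### step 3: a reduced fibre of the pencil -/

/-- linearly equivalent divisors have the same degree -/
theorem degree_eq_of_eq (h : IsFF1 K F x₀) {D D' : Divisor K F} {f : F} (hf : f ≠ 0)
    (hDD' : ∀ v, D' v = D v + v.ord f) : Divisor.degree D' = Divisor.degree D := by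
  have := h.hasPrincipalDivisors
  obtain ⟨Df, hDf, hdeg⟩ := HasPrincipalDivisors.exists_divisor (K := K) f hf
  have : D' = D + Df := by
    ext v
    rw [Finsupp.add_apply, hDf v, hDD' v]
  rw [this, map_add, hdeg, add_zero]

/-- **Reduced fibres (Riemann–Hurwitz count).**  Let `f` be non-constant with pole divisor exactly
`D₁` (`deg D₁ = g + 1`, `l(D₁) = 2`), and let `Wf` be a divisor of degree `2g - 2` with
`Wf ≥ ord (f - c) - 1` everywhere (the divisor of `df`).  For finite sets `S`, `Pts` of places with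
`|Pts| > (4g + 1 + |S|)(g + 1)` there are `P' ∈ Pts` and `c` such that
`E := D₁ + div (f - c) - P'` is effective, reduced, avoids `S`, has degree `g` and `l(E) = 1`. -/
theorem exists_fibre (h : IsFF1 K F x₀) (D₁ : Divisor K F) (hD₁ : 0 ≤ D₁)
    (hdeg₁ : Divisor.degree D₁ = (genusFF K F : ℤ) + 1)
    (hl₁ : finrank K (riemannRochSpace D₁) = 2)
    (f : F) (hf : f ∈ riemannRochSpace D₁) (hfc : ∀ c : K, f ≠ algebraMap K F c)
    (hpole : ∀ Q, 1 ≤ D₁ Q → Q.adicValuation f = exp (D₁ Q))
    (Wf : Divisor K F) (hWfdeg : Divisor.degree Wf = 2 * (genusFF K F : ℤ) - 2)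
    (hWf : ∀ (c : K) (p : Place K F), p.ord (f - algebraMap K F c) - 1 ≤ Wf p)
    (S Pts : Finset (Place K F))
    (hPts : (4 * genusFF K F + 1 + S.card) * (genusFF K F + 1) < Pts.card) :
    ∃ P' ∈ Pts, ∃ (c : K) (E : Divisor K F), 0 ≤ E ∧ (∀ v, E v ≤ 1) ∧ (∀ s ∈ S, E s = 0) ∧
      Divisor.degree E = genusFF K F ∧ finrank K (riemannRochSpace E) = 1 ∧
      ∀ v, E v = D₁ v - Finsupp.single P' (1 : ℤ) v + v.ord (f - algebraMap K F c) := by
  classical
  have := h.hasPrincipalDivisors
  have hfc' : ∀ c : K, f - algebraMap K F c ≠ 0 := fun c h0 => hfc c (sub_eq_zero.mp h0)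
  have hD₁v : ∀ v, 0 ≤ D₁ v := fun v => Finsupp.le_def.mp hD₁ v
  have hreg : ∀ v, D₁ v = 0 → v.adicValuation f ≤ 1 := by
    intro v hv
    have := hf v
    rwa [hv, exp_zero] at this
  -- orders at the poles
  have hordpole : ∀ v, 1 ≤ D₁ v → ∀ c : K, v.ord (f - algebraMap K F c) = -D₁ v := by
    intro v hv c
    have h1 := hpole v hv
    have h2 : v.adicValuation (f - algebraMap K F c) = exp (D₁ v) := by
      rw [← h1]
      refine Valuation.map_sub_eq_of_lt_left _ ?_
      rw [h1]
      refine lt_of_le_of_lt (v.adicValuation_algebraMap_le_one c) ?_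
      rw [← exp_zero, exp_lt_exp]
      omega
    rw [v.adicValuation_eq_exp_neg_ord (hfc' c), exp_inj] at h2
    omega
  -- orders at the regular points
  have hordreg : ∀ v, D₁ v = 0 → ∀ c : K, 0 ≤ v.ord (f - algebraMap K F c) := by
    intro v hv c
    have h1 : v.adicValuation (f - algebraMap K F c) ≤ 1 :=
      (v.adicValuation.map_sub _ _).trans
        (max_le (hreg v hv) (v.adicValuation_algebraMap_le_one c))
    exact (v.adicValuation_le_one_iff.mp h1).resolve_left (hfc' c)
  have hpos_of_lt : ∀ (v : Place K F) (c : K), v.adicValuation (f - algebraMap K F c) < 1 →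
      1 ≤ v.ord (f - algebraMap K F c) := by
    intro v c hlt
    rw [v.adicValuation_eq_exp_neg_ord (hfc' c), ← exp_zero, exp_lt_exp] at hlt
    omega
  have hlt_of_pos : ∀ (v : Place K F) (c : K), 1 ≤ v.ord (f - algebraMap K F c) →
      v.adicValuation (f - algebraMap K F c) < 1 := by
    intro v c hpos
    rw [v.adicValuation_eq_exp_neg_ord (hfc' c), ← exp_zero, exp_lt_exp]
    omega
  -- the fibre divisors
  have hfib : ∀ c : K, ∃ Z : Divisor K F, (∀ v, Z v = D₁ v + v.ord (f - algebraMap K F c)) ∧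
      0 ≤ Z ∧ Divisor.degree Z = (genusFF K F : ℤ) + 1 ∧ Z.support.card ≤ genusFF K F + 1 := by
    intro c
    obtain ⟨Df, hDf, hdegf⟩ := HasPrincipalDivisors.exists_divisor (K := K) _ (hfc' c)
    have hnn : 0 ≤ D₁ + Df := by
      refine Finsupp.le_def.mpr fun v => ?_
      rw [Finsupp.zero_apply, Finsupp.add_apply, hDf v]
      rcases (hD₁v v).eq_or_lt with h0 | h0
      · have := hordreg v h0.symm c
        omega
      · have := hordpole v h0 c
        omega
    have hdegZ : Divisor.degree (D₁ + Df) = (genusFF K F : ℤ) + 1 := by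
      rw [map_add, hdegf, add_zero, hdeg₁]
    refine ⟨D₁ + Df, fun v => by rw [Finsupp.add_apply, hDf v], hnn, hdegZ, ?_⟩
    have := card_support_le_degree h hnn
    rw [hdegZ] at this
    exact_mod_cast this
  choose Zc hZc hZcnn hZcdeg hZccard using hfib
  -- values
  have hval : ∀ v : Place K F, ∃ c : K, D₁ v = 0 → v.adicValuation (f - algebraMap K F c) < 1 := by
    intro v
    by_cases hv : D₁ v = 0
    · obtain ⟨c, hc⟩ := exists_value h v (hreg v hv)
      exact ⟨c, fun _ => hc⟩
    · exact ⟨0, fun h0 => absurd h0 hv⟩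
  choose val hvalspec using hval
  -- the ramification divisor
  set R : Divisor K F := Wf + D₁ + D₁ with hR
  have hRv : ∀ v, R v = Wf v + 2 * D₁ v := by
    intro v
    rw [hR, Finsupp.add_apply, Finsupp.add_apply]
    ring
  have hRnn : 0 ≤ R := by
    refine Finsupp.le_def.mpr fun v => ?_
    rw [Finsupp.zero_apply, hRv]
    rcases (hD₁v v).eq_or_lt with h0 | h0
    · have h1 := hWf (val v) v
      have h2 := hpos_of_lt v (val v) (hvalspec v h0.symm)
      omega
    · have h1 := hWf 0 v
      have h2 := hordpole v h0 0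
      omega
  have hRcard : R.support.card ≤ 4 * genusFF K F := by
    have h1 := card_support_le_degree h hRnn
    have h2 : Divisor.degree R = 4 * (genusFF K F : ℤ) := by
      rw [hR, map_add, map_add, hWfdeg, hdeg₁]
      ring
    rw [h2] at h1
    exact_mod_cast h1
  -- the bad set
  set Fib : Place K F → Finset (Place K F) := fun p => (Zc (val p)).support with hFib
  have hFibcard : ∀ p, (Fib p).card ≤ genusFF K F + 1 := fun p => hZccard (val p)
  have hBadcard : (D₁.support ∪ R.support.biUnion Fib ∪ S.biUnion Fib).card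
      ≤ (4 * genusFF K F + 1 + S.card) * (genusFF K F + 1) := by
    have h1 : D₁.support.card ≤ genusFF K F + 1 := by
      have := card_support_le_degree h hD₁
      rw [hdeg₁] at this
      exact_mod_cast this
    have h2 : (R.support.biUnion Fib).card ≤ 4 * genusFF K F * (genusFF K F + 1) :=
      calc (R.support.biUnion Fib).card ≤ ∑ p ∈ R.support, (Fib p).card :=
            Finset.card_biUnion_le
        _ ≤ ∑ _p ∈ R.support, (genusFF K F + 1) := Finset.sum_le_sum fun p _ => hFibcard p
        _ = R.support.card * (genusFF K F + 1) := by rw [Finset.sum_const, smul_eq_mul]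
        _ ≤ 4 * genusFF K F * (genusFF K F + 1) := Nat.mul_le_mul_right _ hRcard
    have h3 : (S.biUnion Fib).card ≤ S.card * (genusFF K F + 1) :=
      calc (S.biUnion Fib).card ≤ ∑ p ∈ S, (Fib p).card := Finset.card_biUnion_le
        _ ≤ ∑ _p ∈ S, (genusFF K F + 1) := Finset.sum_le_sum fun p _ => hFibcard p
        _ = S.card * (genusFF K F + 1) := by rw [Finset.sum_const, smul_eq_mul]
    have h4 := Finset.card_union_le (D₁.support ∪ R.support.biUnion Fib) (S.biUnion Fib)
    have h5 := Finset.card_union_le D₁.support (R.support.biUnion Fib)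
    have h6 : (4 * genusFF K F + 1 + S.card) * (genusFF K F + 1)
        = (genusFF K F + 1) + 4 * genusFF K F * (genusFF K F + 1)
          + S.card * (genusFF K F + 1) := by ring
    omega
  obtain ⟨P', hP', hP'Bad⟩ :=
    Finset.exists_mem_notMem_of_card_lt_card (lt_of_le_of_lt hBadcard hPts)
  rw [Finset.mem_union, Finset.mem_union, not_or, not_or] at hP'Bad
  obtain ⟨⟨hP'D, hP'R⟩, hP'S⟩ := hP'Bad
  have hD₁P' : D₁ P' = 0 := by
    by_contra hne
    exact hP'D (Finsupp.mem_support_iff.mpr hne)
  have hcP' : P'.adicValuation (f - algebraMap K F (val P')) < 1 := hvalspec P' hD₁P'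
  have hZP' : 1 ≤ Zc (val P') P' := by
    rw [hZc (val P') P', hD₁P', zero_add]
    exact hpos_of_lt P' _ hcP'
  -- if `Z v ≥ 1` then `v` is a regular point with the same value
  have hkey : ∀ v, 1 ≤ Zc (val P') v → D₁ v = 0 ∧ val v = val P' := by
    intro v hv
    have hv0 : D₁ v = 0 := by
      by_contra hne
      have h1 : 1 ≤ D₁ v := by
        have := hD₁v v
        omega
      have := hordpole v h1 (val P')
      rw [hZc (val P') v] at hv
      omega
    refine ⟨hv0, ?_⟩
    have h1 : v.adicValuation (f - algebraMap K F (val P')) < 1 := by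
      rw [hZc (val P') v, hv0, zero_add] at hv
      exact hlt_of_pos v _ hv
    exact value_unique v (hvalspec v hv0) h1
  have hmemFib : ∀ v, 1 ≤ Zc (val P') v → P' ∈ Fib v := by
    intro v hv
    show P' ∈ (Zc (val v)).support
    rw [(hkey v hv).2, Finsupp.mem_support_iff]
    omega
  have hZnn : ∀ v, 0 ≤ Zc (val P') v := fun v => Finsupp.le_def.mp (hZcnn (val P')) v
  -- the fibre is reduced
  have hZred : ∀ v, Zc (val P') v ≤ 1 := by
    intro v
    by_contra hlt
    have hlt' : 2 ≤ Zc (val P') v := by omega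
    have hv := hkey v (by omega)
    have hvR : v ∈ R.support := by
      rw [Finsupp.mem_support_iff, hRv, hv.1]
      have h1 := hWf (val P') v
      rw [hZc (val P') v, hv.1, zero_add] at hlt'
      omega
    exact hP'R (Finset.mem_biUnion.mpr ⟨v, hvR, hmemFib v (by omega)⟩)
  -- the fibre avoids `S`
  have hZS : ∀ s ∈ S, Zc (val P') s = 0 := by
    intro s hs
    by_contra hne
    have h0 := hZnn s
    exact hP'S (Finset.mem_biUnion.mpr ⟨s, hs, hmemFib s (by omega)⟩)
  refine ⟨P', hP', val P', Zc (val P') - Finsupp.single P' (1 : ℤ), ?_, ?_, ?_, ?_, ?_, ?_⟩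
  · refine Finsupp.le_def.mpr fun v => ?_
    have h0 := hZnn v
    rw [Finsupp.zero_apply, Finsupp.sub_apply]
    by_cases hv : v = P'
    · subst hv
      rw [Finsupp.single_eq_same]
      omega
    · rw [Finsupp.single_eq_of_ne hv]
      omega
  · intro v
    exact (Finsupp.le_def.mp (sub_single_le (Zc (val P')) P') v).trans (hZred v)
  · intro s hs
    have h1 := hZS s hs
    have hsP' : s ≠ P' := by
      rintro rfl
      omega
    rw [Finsupp.sub_apply, Finsupp.single_eq_of_ne hsP', h1, sub_zero]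
  · rw [degree_sub_single h, hZcdeg]
    ring
  · have h1 : finrank K (riemannRochSpace (Zc (val P') - Finsupp.single P' (1 : ℤ)))
        = finrank K (riemannRochSpace (D₁ - Finsupp.single P' (1 : ℤ))) :=
      finrank_L_eq_of_eq h (hfc' (val P')) (fun v => by
        rw [Finsupp.sub_apply, Finsupp.sub_apply, hZc (val P') v]
        ring)
    rw [h1]
    have hlt : riemannRochSpace (D₁ - Finsupp.single P' (1 : ℤ)) < riemannRochSpace D₁ := by
      refine lt_of_le_of_ne (RR.L_mono (sub_single_le D₁ P')) ?_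
      intro heq
      have h1 : (1 : F) ∈ riemannRochSpace (D₁ - Finsupp.single P' (1 : ℤ)) := by
        rw [heq]
        exact one_mem_L hD₁
      have h2 := (mem_riemannRochSpace_iff.mp h1 P').resolve_left one_ne_zero
      rw [Finsupp.sub_apply, Finsupp.single_eq_same, hD₁P', Place.ord_one] at h2
      omega
    have := h.finite_L D₁
    have h2 := Submodule.finrank_lt_finrank_of_lt hlt
    rw [hl₁] at h2
    have hmem : f - algebraMap K F (val P') ∈ riemannRochSpace (D₁ - Finsupp.single P' (1 : ℤ)) := by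
      rw [mem_riemannRochSpace_iff]
      intro v
      right
      rw [Finsupp.sub_apply]
      have hZv := hZnn v
      have hZe := hZc (val P') v
      by_cases hv : v = P'
      · subst hv
        rw [Finsupp.single_eq_same]
        omega
      · rw [Finsupp.single_eq_of_ne hv]
        omega
    have := h.finite_L (D₁ - Finsupp.single P' (1 : ℤ))
    have h3 : 0 < finrank K (riemannRochSpace (D₁ - Finsupp.single P' (1 : ℤ))) :=
      Module.finrank_pos_iff_exists_ne_zero.mpr
        ⟨⟨_, hmem⟩, fun h0 => hfc' (val P') (congrArg Subtype.val h0)⟩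
    omega
  · intro v
    rw [Finsupp.sub_apply, hZc (val P') v]
    ring

/-! ### the good-translate lemma -/

/-- **Good translates** (setting `IsFF1` with a canonical divisor; the Riemann–Hurwitz input, i.e.
the existence of the divisor of `df` for every non-constant `f`, is the hypothesis `hRH`). -/
theorem exists_good_translate_of_RH (h : IsFF1 K F x₀) {ω : Ω[F⁄K]} {W : Divisor K F}
    (hW : Adele.IsDivisorOf ω W)
    (hRH : ∀ f : F, (∀ c : K, f ≠ algebraMap K F c) → ∃ Wf : Divisor K F,
      Divisor.degree Wf = 2 * (genusFF K F : ℤ) - 2 ∧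
        ∀ (c : K) (p : Place K F), p.ord (f - algebraMap K F c) - 1 ≤ Wf p)
    (X : Divisor K F) (hX : Divisor.degree X = 0) (S Pts : Finset (Place K F))
    (hPts : (4 * genusFF K F + 1 + S.card) * (genusFF K F + 1) < Pts.card) :
    ∃ (Q : Fin (genusFF K F) → Place K F) (P P' : Place K F) (E : Divisor K F),
      (∀ i, Q i ∈ Pts) ∧ P ∈ Pts ∧ P' ∈ Pts ∧ 0 ≤ E ∧ (∀ v, E v ≤ 1) ∧ (∀ s ∈ S, E s = 0) ∧
      Divisor.degree E = genusFF K F ∧ finrank K (riemannRochSpace E) = 1 ∧ RR.MD E = ⊤ ∧
      E - (X + ∑ i, Finsupp.single (Q i) (1 : ℤ) + Finsupp.single P (1 : ℤ)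
          - Finsupp.single P' (1 : ℤ)) ∈ Divisor.principal (K := K) (F := F) := by
  have hbig : 4 * genusFF K F + 1 ≤ (4 * genusFF K F + 1 + S.card) * (genusFF K F + 1) :=
    calc 4 * genusFF K F + 1 ≤ 4 * genusFF K F + 1 + S.card := Nat.le_add_right _ _
      _ ≤ (4 * genusFF K F + 1 + S.card) * (genusFF K F + 1) :=
        Nat.le_mul_of_pos_right _ (Nat.succ_pos _)
  have hP1 : 2 * (genusFF K F : ℤ) - 2 < Pts.card := by
    have h1 : 4 * genusFF K F + 1 < Pts.card := lt_of_le_of_lt hbig hPts
    have h2 : ((4 * genusFF K F + 1 : ℕ) : ℤ) < Pts.card := by exact_mod_cast h1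
    push_cast at h2
    linarith
  have hP2 : genusFF K F * (genusFF K F - 1) < Pts.card := by
    refine lt_of_le_of_lt ?_ hPts
    exact Nat.mul_le_mul (by omega) (by omega)
  obtain ⟨Q, hQ, -, hl⟩ := exists_points h hW X hX Pts hP1
  set D : Divisor K F := X + ∑ i, Finsupp.single (Q i) (1 : ℤ) with hD
  obtain ⟨E₀, f₀, hf₀, hE₀, hE₀eq⟩ := exists_effective_rep h D (by rw [hl]; exact one_pos)
  have hl₀ : finrank K (riemannRochSpace E₀) = 1 := (finrank_L_eq_of_eq h hf₀ hE₀eq).trans hl
  have hdeg₀ : Divisor.degree E₀ = genusFF K F := by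
    rw [degree_eq_of_eq h hf₀ hE₀eq, hD, degree_add_sum h, hX, zero_add]
  obtain ⟨P, hP, f, hf, hfc, hl₁, hpole⟩ := exists_pencil h hW E₀ hE₀ hdeg₀ hl₀ Pts hP2
  obtain ⟨Wf, hWfdeg, hWf⟩ := hRH f hfc
  have hD₁ : 0 ≤ RR.addPl E₀ P := hE₀.trans (RR.le_addPl E₀ P)
  have hdeg₁ : Divisor.degree (RR.addPl E₀ P) = (genusFF K F : ℤ) + 1 := by
    rw [RR.degree_addPl h.resK, hdeg₀]
  obtain ⟨P', hP', c, E, hEnn, hEred, hES, hEdeg, hEl, hEeq⟩ :=
    exists_fibre h (RR.addPl E₀ P) hD₁ hdeg₁ hl₁ f hf hfc hpole Wf hWfdeg hWf S Pts hPts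
  have hfc' : f - algebraMap K F c ≠ 0 := fun h0 => hfc c (sub_eq_zero.mp h0)
  refine ⟨Q, P, P', E, hQ, hP, hP', hEnn, hEred, hES, hEdeg, hEl, ?_, ?_⟩
  · rw [MD_eq_top_iff h]
    unfold RR.cD
    rw [hEdeg, hEl]
    push_cast
    ring
  · refine ⟨f₀ * (f - algebraMap K F c), mul_ne_zero hf₀ hfc', fun v => ?_⟩
    rw [v.ord_mul hf₀ hfc', Finsupp.sub_apply, hEeq v, Finsupp.sub_apply, Finsupp.add_apply,
      Finsupp.add_apply, hE₀eq v]
    ring

/-- **Good translates** over an algebraically closed field of characteristic zero.  For every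
divisor `X` of degree `0`, every finite set `S` of places and every finite set `Pts` of more than
`(4g + 1 + |S|)(g + 1)` places there are `Q_1, …, Q_g, P, P' ∈ Pts` such that
`X + ∑ Q_i + P - P'` is linearly equivalent to an effective reduced divisor `E` of degree `g`
avoiding `S`, with `l(E) = 1` and `H¹(E) = 0`. -/
theorem exists_good_translate [IsAlgClosed K] [CharZero K] (x : F) (hx : Transcendental K x)
    [FiniteDimensional K⟮x⟯ F] (X : Divisor K F) (hX : Divisor.degree X = 0)
    (S Pts : Finset (Place K F))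
    (hPts : (4 * genusFF K F + 1 + S.card) * (genusFF K F + 1) < Pts.card) :
    ∃ (Q : Fin (genusFF K F) → Place K F) (P P' : Place K F) (E : Divisor K F),
      (∀ i, Q i ∈ Pts) ∧ P ∈ Pts ∧ P' ∈ Pts ∧ 0 ≤ E ∧ (∀ v, E v ≤ 1) ∧ (∀ s ∈ S, E s = 0) ∧
      Divisor.degree E = genusFF K F ∧ finrank K (riemannRochSpace E) = 1 ∧ RR.MD E = ⊤ ∧
      E - (X + ∑ i, Finsupp.single (Q i) (1 : ℤ) + Finsupp.single P (1 : ℤ)
          - Finsupp.single P' (1 : ℤ)) ∈ Divisor.principal (K := K) (F := F) := by
  have h : IsFF1 K F x := isFF1_of_charZero x hx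
  have hsep : ∀ (y : F) [FiniteDimensional K⟮y⟯ F], Algebra.IsSeparable K⟮y⟯ F := by
    intro y _
    have : CharZero K⟮y⟯ := charZero_of_injective_algebraMap (algebraMap K K⟮y⟯).injective
    have : Algebra.IsAlgebraic K⟮y⟯ F := Algebra.IsAlgebraic.of_finite _ _
    infer_instance
  have := hsep x
  obtain ⟨W, hW, -, -, -⟩ := exists_divisor_D_of_isSeparable h x
  refine exists_good_translate_of_RH h hW (fun f hfc => ?_) X hX S Pts hPts
  have hft : Transcendental K f := by
    intro halg
    obtain ⟨c, hc⟩ := exists_eq_algebraMap_of_isAlgebraic halg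
    exact hfc c hc
  have := Fermat.Agent.S24.Transfer.finiteDimensional_adjoin_of_transcendental (K := K) x hft
  have := hsep f
  obtain ⟨Wf, -, hdeg, hge, -⟩ := exists_divisor_D_of_isSeparable h f
  exact ⟨Wf, hdeg, hge⟩

/-- **Uniqueness of the effective divisor** in a class with `l = 1`. -/
theorem eq_of_finrank_one (h : IsFF1 K F x₀) {E E' : Divisor K F} (hE : 0 ≤ E) (hE' : 0 ≤ E')
    (hl : finrank K (riemannRochSpace E) = 1)
    (hlin : E' - E ∈ Divisor.principal (K := K) (F := F)) : E' = E := by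
  obtain ⟨f, hf0, hf⟩ := hlin
  have hfL : f ∈ riemannRochSpace E := by
    rw [mem_riemannRochSpace_iff]
    intro v
    right
    have h1 := hf v
    rw [Finsupp.sub_apply] at h1
    have h2 : (0 : ℤ) ≤ E' v := Finsupp.le_def.mp hE' v
    omega
  have := h.finite_L E
  obtain ⟨c, hc⟩ := exists_smul_eq_of_finrank_le_one hl.le (one_mem_L hE) one_ne_zero hfL
  rw [← sub_eq_zero]
  ext v
  rw [hf v, ← hc, Algebra.smul_def, mul_one, ord_const, Finsupp.zero_apply]

end Fermat.Agent.MW.Ht.GoodTranslate
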