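/-
MW / HT-Q, brick DEG-1 (strengthened): the good-translate lemma with a second Riemann–Roch
condition.

Setting `h : IsFF1 K F x₀` with a canonical divisor `W`, genus `g = genusFF K F`, and a divisor
`A` of degree `2g - 1` (for instance `A = (2g - 1) ∞`).  For every divisor `X` of degree `0`,
every finite set `S` of places and every finite set `Pts` of more than `(4g + 2 + |S|)(g + 1)`
places there are `Q_1, …, Q_g, P, P' ∈ Pts` such that `X + ∑ Q_i + P - P'` is linearly equivalent
to an effective REDUCED divisor `E` of degree `g`, avoiding `S`, with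
`l(E) = 1`, `H¹(E) = 0` AND `L(A - E) = 0`.

* `exists_drop` : if `L(D) ≠ 0`, then `l(D - q) < l(D)` for all `q` outside a set of at most
  `deg D` places;
* `exists_points_two` : the `g` points `Q_i` can be chosen such that moreover `L(A - X - ∑ Q_i) = 0`;
* `exists_good_translate_two_of_RH`, `exists_good_translate_two`, `exists_good_translate_pinf`.
-/
import Mathlib
import Fermat.Agent.MW.Ht.GoodTranslate

set_option autoImplicit false

noncomputable section

namespace Fermat.Agent.MW.Ht.GoodTranslate2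

open AlgebraicCurve WithZero Module KaehlerDifferential
open Fermat.Agent.Lib.FF Fermat.Agent.Lib.FF.BasePoint Fermat.Agent.Lib.FF.Res
open Fermat.Agent.MW.Ht.GoodTranslate
open scoped IntermediateField

variable {K F : Type*} [Field K] [Field F] [Algebra K F] {x₀ : F}

/-- **Drop lemma.**  If `L(D) ≠ 0`, then `l(D - q) < l(D)` for all places `q` outside a set of at
most `deg D` places (the base points of `|D|`). -/
theorem exists_drop (h : IsFF1 K F x₀) (D : Divisor K F) (hne : riemannRochSpace D ≠ ⊥) :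
    ∃ T : Finset (Place K F), (T.card : ℤ) ≤ Divisor.degree D ∧
      ∀ q, q ∉ T → finrank K (riemannRochSpace (D - Finsupp.single q (1 : ℤ))) + 1
        ≤ finrank K (riemannRochSpace D) := by
  have := h.hasPrincipalDivisors
  have hfin := h.finite_L D
  obtain ⟨u, hu, hu0⟩ := (Submodule.ne_bot_iff _).mp hne
  obtain ⟨Df, hDf, hdeg⟩ := HasPrincipalDivisors.exists_divisor (K := K) u hu0
  set Z : Divisor K F := D + Df with hZ
  have hZnn : 0 ≤ Z := by
    refine Finsupp.le_def.mpr fun v => ?_
    have h1 := (mem_riemannRochSpace_iff.mp hu v).resolve_left hu0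
    rw [Finsupp.zero_apply, hZ, Finsupp.add_apply, hDf v]
    omega
  refine ⟨Z.support, ?_, fun q hq => ?_⟩
  · refine (card_support_le_degree h hZnn).trans ?_
    rw [hZ, map_add, hdeg, add_zero]
  · have hZq : Z q = 0 := by
      by_contra hne'
      exact hq (Finsupp.mem_support_iff.mpr hne')
    have hlt : riemannRochSpace (D - Finsupp.single q (1 : ℤ)) < riemannRochSpace D := by
      refine lt_of_le_of_ne (RR.L_mono (sub_single_le D q)) (fun heq => ?_)
      have hu' : u ∈ riemannRochSpace (D - Finsupp.single q (1 : ℤ)) := by rw [heq]; exact hu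
      have h5 := (mem_riemannRochSpace_iff.mp hu' q).resolve_left hu0
      rw [Finsupp.sub_apply, Finsupp.single_eq_same] at h5
      rw [hZ, Finsupp.add_apply, hDf q] at hZq
      omega
    exact Nat.succ_le_of_lt (Submodule.finrank_lt_finrank_of_lt hlt)

/-- **General position from a finite set, two systems at once.**  For `X` of degree `0`, `A` of
degree `2g - 1` and a finite set `Pts` of more than `4g` places, there are `Q_1, …, Q_n ∈ Pts`
(`n ≤ g`) with `deg - l ≥ n - 1` for `X + ∑ Q_i` and `l(A - X - ∑ Q_i) ≤ g - n`. -/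
theorem exists_points_two_aux (h : IsFF1 K F x₀) {ω : Ω[F⁄K]} {W : Divisor K F}
    (hW : Adele.IsDivisorOf ω W) (X : Divisor K F) (hX : Divisor.degree X = 0)
    (A : Divisor K F) (hA : Divisor.degree A = 2 * (genusFF K F : ℤ) - 1)
    (Pts : Finset (Place K F)) (hPts : 4 * genusFF K F < Pts.card) (n : ℕ)
    (hn : n ≤ genusFF K F) :
    ∃ Q : Fin n → Place K F, (∀ i, Q i ∈ Pts) ∧
      (n : ℤ) - 1 ≤ RR.cD (X + ∑ i, Finsupp.single (Q i) (1 : ℤ)) ∧
      finrank K (riemannRochSpace (A - (X + ∑ i, Finsupp.single (Q i) (1 : ℤ)))) + n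
        ≤ genusFF K F := by
  classical
  induction n with
  | zero =>
    refine ⟨Fin.elim0, fun i => i.elim0, ?_, ?_⟩
    · rw [Finset.univ_eq_empty, Finset.sum_empty, add_zero]
      unfold RR.cD
      rw [hX]
      have h1 := GenPos.finrank_L_le_one_of_degree_zero h hX
      have h2 : (finrank K (riemannRochSpace X) : ℤ) ≤ 1 := by exact_mod_cast h1
      push_cast
      linarith
    · rw [Finset.univ_eq_empty, Finset.sum_empty, add_zero, add_zero]
      have h1 := riemannRoch_ff1 h hW (A - X)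
      have hdeg : Divisor.degree (W - (A - X)) < 0 := by
        rw [map_sub, map_sub, degree_of_isDivisorOf_ff1 h hW, hA, hX]
        linarith
      rw [GenPos.L_eq_bot_of_degree_neg h hdeg, finrank_bot, map_sub, hA, hX] at h1
      have : (finrank K (riemannRochSpace (A - X)) : ℤ) = genusFF K F := by
        push_cast at h1
        linarith
      exact_mod_cast this.le
  | succ n ih =>
    obtain ⟨Q, hQ, hcD, hlA⟩ := ih (Nat.le_of_succ_le hn)
    set D : Divisor K F := X + ∑ i, Finsupp.single (Q i) (1 : ℤ) with hD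
    have hdegD : Divisor.degree D = n := by rw [hD, degree_add_sum h, hX, zero_add]
    have hg : ((n : ℤ) + 1) ≤ (genusFF K F : ℤ) := by exact_mod_cast hn
    -- the first system
    have key1 : ∃ T₁ : Finset (Place K F), T₁.card ≤ 2 * genusFF K F ∧
        ∀ q, q ∉ T₁ → (n : ℤ) ≤ RR.cD (RR.addPl D q) := by
      by_cases hMD : RR.MD D = ⊤
      · refine ⟨∅, by simp, fun q _ => ?_⟩
        have h1 := (MD_eq_top_iff h D).1 hMD
        have h2 := cD_mono h (RR.le_addPl D q)
        linarith
      · have hne : riemannRochSpace (W - D) ≠ ⊥ := fun h0 => hMD ((MD_eq_top_iff_L h hW D).2 h0)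
        obtain ⟨T, hTcard, hT⟩ := jumpSet_subset h hW D hne
        rw [hdegD] at hTcard
        refine ⟨T, ?_, fun q hqT => ?_⟩
        · have : (T.card : ℤ) ≤ 2 * (genusFF K F : ℤ) := by linarith
          exact_mod_cast this
        · have hqJ : q ∉ RR.jumpSet D := fun hmem => hqT (hT hmem)
          rw [GenPos.cD_addPl_of_notMem_jumpSet h hqJ]
          linarith
    -- the second system
    have key2 : ∃ T₂ : Finset (Place K F), T₂.card ≤ 2 * genusFF K F ∧
        ∀ q, q ∉ T₂ → finrank K (riemannRochSpace (A - D - Finsupp.single q (1 : ℤ))) + (n + 1)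
          ≤ genusFF K F := by
      by_cases hbot : riemannRochSpace (A - D) = ⊥
      · refine ⟨∅, by simp, fun q _ => ?_⟩
        have h1 : riemannRochSpace (A - D - Finsupp.single q (1 : ℤ)) = ⊥ := by
          rw [eq_bot_iff, ← hbot]
          exact RR.L_mono (sub_single_le (A - D) q)
        rw [h1, finrank_bot, zero_add]
        exact hn
      · obtain ⟨T, hTcard, hT⟩ := exists_drop h (A - D) hbot
        rw [map_sub, hA, hdegD] at hTcard
        refine ⟨T, ?_, fun q hqT => ?_⟩
        · have : (T.card : ℤ) ≤ 2 * (genusFF K F : ℤ) := by linarith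
          exact_mod_cast this
        · have := hT q hqT
          omega
    obtain ⟨T₁, hT₁card, hT₁⟩ := key1
    obtain ⟨T₂, hT₂card, hT₂⟩ := key2
    have hcard : (T₁ ∪ T₂).card < Pts.card := by
      have := Finset.card_union_le T₁ T₂
      omega
    obtain ⟨q, hq, hqT⟩ := Finset.exists_mem_notMem_of_card_lt_card hcard
    rw [Finset.mem_union, not_or] at hqT
    refine ⟨Fin.snoc Q q, fun i => ?_, ?_, ?_⟩
    · refine Fin.lastCases ?_ (fun j => ?_) i
      · rw [Fin.snoc_last]; exact hq
      · rw [Fin.snoc_castSucc]; exact hQ j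
    · have hsum : X + ∑ i : Fin (n + 1), Finsupp.single ((Fin.snoc Q q : Fin (n + 1) → Place K F) i)
          (1 : ℤ) = RR.addPl D q := by
        rw [Fin.sum_univ_castSucc]
        simp only [Fin.snoc_castSucc, Fin.snoc_last]
        rw [hD, RR.addPl, add_assoc]
      rw [hsum]
      have := hT₁ q hqT.1
      push_cast
      linarith
    · have hsum : A - (X + ∑ i : Fin (n + 1),
          Finsupp.single ((Fin.snoc Q q : Fin (n + 1) → Place K F) i) (1 : ℤ))
          = A - D - Finsupp.single q (1 : ℤ) := by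
        rw [Fin.sum_univ_castSucc]
        simp only [Fin.snoc_castSucc, Fin.snoc_last]
        rw [hD]
        abel
      rw [hsum]
      exact hT₂ q hqT.2

/-- **General position from a finite set, two systems at once**: `l(X + ∑ Q_i) = 1`,
`deg - l = g - 1` and `L(A - X - ∑ Q_i) = 0`. -/
theorem exists_points_two (h : IsFF1 K F x₀) {ω : Ω[F⁄K]} {W : Divisor K F}
    (hW : Adele.IsDivisorOf ω W) (X : Divisor K F) (hX : Divisor.degree X = 0)
    (A : Divisor K F) (hA : Divisor.degree A = 2 * (genusFF K F : ℤ) - 1)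
    (Pts : Finset (Place K F)) (hPts : 4 * genusFF K F < Pts.card) :
    ∃ Q : Fin (genusFF K F) → Place K F, (∀ i, Q i ∈ Pts) ∧
      RR.cD (X + ∑ i, Finsupp.single (Q i) (1 : ℤ)) = (genusFF K F : ℤ) - 1 ∧
      finrank K (riemannRochSpace (X + ∑ i, Finsupp.single (Q i) (1 : ℤ))) = 1 ∧
      riemannRochSpace (A - (X + ∑ i, Finsupp.single (Q i) (1 : ℤ))) = ⊥ := by
  obtain ⟨Q, hQ, hcD, hlA⟩ := exists_points_two_aux h hW X hX A hA Pts hPts (genusFF K F) le_rfl
  have hcD' := le_antisymm (cD_le h _) hcD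
  refine ⟨Q, hQ, hcD', ?_, ?_⟩
  · have h1 := finrank_L_of_cD hcD'
    rw [degree_add_sum h, hX] at h1
    have : (finrank K (riemannRochSpace (X + ∑ i, Finsupp.single (Q i) (1 : ℤ))) : ℤ) = 1 := by
      linarith
    exact_mod_cast this
  · have := h.finite_L (A - (X + ∑ i, Finsupp.single (Q i) (1 : ℤ)))
    rw [← Submodule.finrank_eq_zero (R := K)]
    omega

/-- **Good translates with a second Riemann–Roch condition** (setting `IsFF1` with a canonical
divisor; the Riemann–Hurwitz input is the hypothesis `hRH`). -/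
theorem exists_good_translate_two_of_RH (h : IsFF1 K F x₀) {ω : Ω[F⁄K]} {W : Divisor K F}
    (hW : Adele.IsDivisorOf ω W)
    (hRH : ∀ f : F, (∀ c : K, f ≠ algebraMap K F c) → ∃ Wf : Divisor K F,
      Divisor.degree Wf = 2 * (genusFF K F : ℤ) - 2 ∧
        ∀ (c : K) (p : Place K F), p.ord (f - algebraMap K F c) - 1 ≤ Wf p)
    (X : Divisor K F) (hX : Divisor.degree X = 0)
    (A : Divisor K F) (hA : Divisor.degree A = 2 * (genusFF K F : ℤ) - 1)
    (S Pts : Finset (Place K F))
    (hPts : (4 * genusFF K F + 2 + S.card) * (genusFF K F + 1) < Pts.card) :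
    ∃ (Q : Fin (genusFF K F) → Place K F) (P P' : Place K F) (E : Divisor K F),
      (∀ i, Q i ∈ Pts) ∧ P ∈ Pts ∧ P' ∈ Pts ∧ 0 ≤ E ∧ (∀ v, E v ≤ 1) ∧ (∀ s ∈ S, E s = 0) ∧
      Divisor.degree E = genusFF K F ∧ finrank K (riemannRochSpace E) = 1 ∧ RR.MD E = ⊤ ∧
      riemannRochSpace (A - E) = ⊥ ∧
      E - (X + ∑ i, Finsupp.single (Q i) (1 : ℤ) + Finsupp.single P (1 : ℤ)
          - Finsupp.single P' (1 : ℤ)) ∈ Divisor.principal (K := K) (F := F) := by
  classical
  set g := genusFF K F with hg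
  set M := (4 * g + 1 + S.card) * (g + 1) with hM
  have hMeq : (4 * g + 2 + S.card) * (g + 1) = M + (g + 1) := by rw [hM]; ring
  have hMge : 4 * g + 1 ≤ M :=
    calc 4 * g + 1 ≤ 4 * g + 1 + S.card := Nat.le_add_right _ _
      _ ≤ (4 * g + 1 + S.card) * (g + 1) := Nat.le_mul_of_pos_right _ (Nat.succ_pos _)
  have hMge2 : g * (g - 1) ≤ M := Nat.mul_le_mul (by omega) (by omega)
  rw [hMeq] at hPts
  have hP1 : 4 * g < Pts.card := by omega
  have hP2 : g * (g - 1) < Pts.card := by omega
  obtain ⟨Q, hQ, -, hl, hAbot⟩ := exists_points_two h hW X hX A hA Pts hP1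
  set D : Divisor K F := X + ∑ i, Finsupp.single (Q i) (1 : ℤ) with hD
  obtain ⟨E₀, f₀, hf₀, hE₀, hE₀eq⟩ := exists_effective_rep h D (by rw [hl]; exact one_pos)
  have hl₀ : finrank K (riemannRochSpace E₀) = 1 := (finrank_L_eq_of_eq h hf₀ hE₀eq).trans hl
  have hdeg₀ : Divisor.degree E₀ = g := by
    rw [degree_eq_of_eq h hf₀ hE₀eq, hD, degree_add_sum h, hX, zero_add]
  -- `L(A - E₀) = 0`
  have hA₀ : riemannRochSpace (A - E₀) = ⊥ := by
    have := h.finite_L (A - E₀)
    rw [← Submodule.finrank_eq_zero (R := K)]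
    have h1 : finrank K (riemannRochSpace (A - E₀)) = finrank K (riemannRochSpace (A - D)) :=
      finrank_L_eq_of_eq h (inv_ne_zero hf₀) (fun v => by
        rw [Finsupp.sub_apply, Finsupp.sub_apply, hE₀eq v, v.ord_inv]
        ring)
    rw [h1, hAbot, finrank_bot]
  obtain ⟨P, hP, f, hf, hfc, hl₁, hpole⟩ := exists_pencil h hW E₀ hE₀ hdeg₀ hl₀ Pts hP2
  obtain ⟨Wf, hWfdeg, hWf⟩ := hRH f hfc
  have hD₁ : 0 ≤ RR.addPl E₀ P := hE₀.trans (RR.le_addPl E₀ P)
  have hdeg₁ : Divisor.degree (RR.addPl E₀ P) = (g : ℤ) + 1 := by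
    rw [RR.degree_addPl h.resK, hdeg₀]
  -- the divisor `B = A - E₀ - P`
  set B : Divisor K F := A - RR.addPl E₀ P with hB
  have hBbot : riemannRochSpace B = ⊥ := by
    rw [eq_bot_iff, ← hA₀]
    refine RR.L_mono (Finsupp.le_def.mpr fun v => ?_)
    have := Finsupp.le_def.mp (RR.le_addPl E₀ P) v
    rw [hB, Finsupp.sub_apply, Finsupp.sub_apply]
    omega
  have hdegB : Divisor.degree B = (g : ℤ) - 2 := by
    rw [hB, map_sub, hA, hdeg₁]
    ring
  have hWB : riemannRochSpace (W - B) ≠ ⊥ := by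
    intro h0
    have h1 := riemannRoch_ff1 h hW B
    rw [h0, hBbot, finrank_bot, hdegB] at h1
    push_cast at h1
    linarith
  obtain ⟨T, hTcard, hT⟩ := jumpSet_subset h hW B hWB
  rw [hdegB] at hTcard
  have hTcard' : T.card ≤ g := by
    have : (T.card : ℤ) ≤ g := by linarith
    exact_mod_cast this
  have hPts' : M < (Pts \ T).card := by
    have := Finset.le_card_sdiff T Pts
    omega
  obtain ⟨P', hP'mem, c, E, hEnn, hEred, hES, hEdeg, hEl, hEeq⟩ :=
    exists_fibre h (RR.addPl E₀ P) hD₁ hdeg₁ hl₁ f hf hfc hpole Wf hWfdeg hWf S (Pts \ T) hPts'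
  rw [Finset.mem_sdiff] at hP'mem
  obtain ⟨hP', hP'T⟩ := hP'mem
  have hfc' : f - algebraMap K F c ≠ 0 := fun h0 => hfc c (sub_eq_zero.mp h0)
  have hjump : riemannRochSpace (RR.addPl B P') = ⊥ := by
    have hP'J : P' ∉ RR.jumpSet B := fun hmem => hP'T (hT hmem)
    rw [RR.L_addPl_eq_of_notMem_jumpSet hP'J, hBbot]
  refine ⟨Q, P, P', E, hQ, hP, hP', hEnn, hEred, hES, hEdeg, hEl, ?_, ?_, ?_⟩
  · rw [MD_eq_top_iff h]
    unfold RR.cD
    rw [hEdeg, hEl]
    push_cast
    ring
  · have := h.finite_L (A - E)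
    rw [← Submodule.finrank_eq_zero (R := K)]
    have h1 : finrank K (riemannRochSpace (A - E))
        = finrank K (riemannRochSpace (RR.addPl B P')) :=
      finrank_L_eq_of_eq h (inv_ne_zero hfc') (fun v => by
        rw [Finsupp.sub_apply, hEeq v, v.ord_inv]
        simp only [hB, RR.addPl, Finsupp.add_apply, Finsupp.sub_apply]
        ring)
    rw [h1, hjump, finrank_bot]
  · refine ⟨f₀ * (f - algebraMap K F c), mul_ne_zero hf₀ hfc', fun v => ?_⟩
    rw [v.ord_mul hf₀ hfc', Finsupp.sub_apply, hEeq v, Finsupp.sub_apply, Finsupp.add_apply,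
      Finsupp.add_apply, hE₀eq v]
    ring

/-- **Good translates with a second Riemann–Roch condition** over an algebraically closed field
of characteristic zero.  For every divisor `X` of degree `0`, every divisor `A` of degree
`2g - 1`, every finite set `S` of places and every finite set `Pts` of more than
`(4g + 2 + |S|)(g + 1)` places there are `Q_1, …, Q_g, P, P' ∈ Pts` such that
`X + ∑ Q_i + P - P'` is linearly equivalent to an effective reduced divisor `E` of degree `g`
avoiding `S`, with `l(E) = 1`, `H¹(E) = 0` and `L(A - E) = 0`. -/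
theorem exists_good_translate_two [IsAlgClosed K] [CharZero K] (x : F) (hx : Transcendental K x)
    [FiniteDimensional K⟮x⟯ F] (X : Divisor K F) (hX : Divisor.degree X = 0)
    (A : Divisor K F) (hA : Divisor.degree A = 2 * (genusFF K F : ℤ) - 1)
    (S Pts : Finset (Place K F))
    (hPts : (4 * genusFF K F + 2 + S.card) * (genusFF K F + 1) < Pts.card) :
    ∃ (Q : Fin (genusFF K F) → Place K F) (P P' : Place K F) (E : Divisor K F),
      (∀ i, Q i ∈ Pts) ∧ P ∈ Pts ∧ P' ∈ Pts ∧ 0 ≤ E ∧ (∀ v, E v ≤ 1) ∧ (∀ s ∈ S, E s = 0) ∧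
      Divisor.degree E = genusFF K F ∧ finrank K (riemannRochSpace E) = 1 ∧ RR.MD E = ⊤ ∧
      riemannRochSpace (A - E) = ⊥ ∧
      E - (X + ∑ i, Finsupp.single (Q i) (1 : ℤ) + Finsupp.single P (1 : ℤ)
          - Finsupp.single P' (1 : ℤ)) ∈ Divisor.principal (K := K) (F := F) := by
  have h : IsFF1 K F x := isFF1_of_charZero x hx
  have hsep : ∀ (y : F) [FiniteDimensional K⟮y⟯ F], Algebra.IsSeparable K⟮y⟯ F := by
    intro y _
    have : CharZero K⟮y⟯ := charZero_of_injective_algebraMap (algebraMap K K⟮y⟯).injective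
    have : Algebra.IsAlgebraic K⟮y⟯ F := Algebra.IsAlgebraic.of_finite _ _
    infer_instance
  have := hsep x
  obtain ⟨W, hW, -, -, -⟩ := exists_divisor_D_of_isSeparable h x
  refine exists_good_translate_two_of_RH h hW (fun f hfc => ?_) X hX A hA S Pts hPts
  have hft : Transcendental K f := by
    intro halg
    obtain ⟨c, hc⟩ := exists_eq_algebraMap_of_isAlgebraic halg
    exact hfc c hc
  have := Fermat.Agent.S24.Transfer.finiteDimensional_adjoin_of_transcendental (K := K) x hft
  have := hsep f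
  obtain ⟨Wf, -, hdeg, hge, -⟩ := exists_divisor_D_of_isSeparable h f
  exact ⟨Wf, hdeg, hge⟩

/-- **Good translates, base-point form.**  `pinf` a place; for every divisor `X` of degree `0`,
every finite set `S` of places and every finite set `Pts` of more than `(4g + 3 + |S|)(g + 1)`
places there are `Q_1, …, Q_g, P, P' ∈ Pts` such that `X + ∑ Q_i + P - P'` is linearly equivalent
to an effective reduced divisor `E` of degree `g` avoiding `S` and `pinf`, with `l(E) = 1`,
`H¹(E) = 0` and `L((2g - 1) pinf - E) = 0`. -/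
theorem exists_good_translate_pinf [IsAlgClosed K] [CharZero K] (x : F) (hx : Transcendental K x)
    [FiniteDimensional K⟮x⟯ F] (pinf : Place K F) (X : Divisor K F) (hX : Divisor.degree X = 0)
    (S Pts : Finset (Place K F))
    (hPts : (4 * genusFF K F + 3 + S.card) * (genusFF K F + 1) < Pts.card) :
    ∃ (Q : Fin (genusFF K F) → Place K F) (P P' : Place K F) (E : Divisor K F),
      (∀ i, Q i ∈ Pts) ∧ P ∈ Pts ∧ P' ∈ Pts ∧ 0 ≤ E ∧ (∀ v, E v ≤ 1) ∧ E pinf = 0 ∧
      (∀ s ∈ S, E s = 0) ∧
      Divisor.degree E = genusFF K F ∧ finrank K (riemannRochSpace E) = 1 ∧ RR.MD E = ⊤ ∧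
      riemannRochSpace ((2 * (genusFF K F : ℤ) - 1) • Finsupp.single pinf (1 : ℤ) - E) = ⊥ ∧
      E - (X + ∑ i, Finsupp.single (Q i) (1 : ℤ) + Finsupp.single P (1 : ℤ)
          - Finsupp.single P' (1 : ℤ)) ∈ Divisor.principal (K := K) (F := F) := by
  classical
  have h : IsFF1 K F x := isFF1_of_charZero x hx
  have hA : Divisor.degree ((2 * (genusFF K F : ℤ) - 1) • Finsupp.single pinf (1 : ℤ))
      = 2 * (genusFF K F : ℤ) - 1 := by
    rw [map_zsmul, Divisor.degree_single, h.deg_eq_one pinf]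
    simp
  have hcard : (4 * genusFF K F + 2 + (insert pinf S).card) * (genusFF K F + 1) < Pts.card := by
    refine lt_of_le_of_lt (Nat.mul_le_mul_right _ ?_) hPts
    have := Finset.card_insert_le pinf S
    omega
  obtain ⟨Q, P, P', E, hQ, hP, hP', hEnn, hEred, hES, hEdeg, hEl, hMD, hAE, hlin⟩ :=
    exists_good_translate_two x hx X hX _ hA (insert pinf S) Pts hcard
  exact ⟨Q, P, P', E, hQ, hP, hP', hEnn, hEred, hES pinf (Finset.mem_insert_self _ _),
    fun s hs => hES s (Finset.mem_insert_of_mem hs), hEdeg, hEl, hMD, hAE, hlin⟩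

end Fermat.Agent.MW.Ht.GoodTranslate2
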