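/-
MW / HT-Q, brick GEN-3 (chief ruling #2): the good-translate lemma with a pairwise genericity
condition on the points of `E` (for instance: a fixed function `t` is injective on `supp E`).

The input is abstract: a relation `Rel` on places and, for every pencil function `f` (pole divisor
of degree `g + 1`), a set `Tb` of at most `b` "bad values" such that any two zeros of `f - c`
are related when `c ∉ Tb`.  The places of the fibres over `Tb` are added to the finite set `S`
avoided by `E`, so that the fibre through `P'` is a good one.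

* `exists_good_translate_rel_of_RH`, `exists_good_translate_rel` : the relation form;
* `exists_good_translate_inj` : `t` injective on `supp E` (`HtM.pval`), base-point form, from the
  double-point bound (GEN-0) as a hypothesis.
-/
import Mathlib
import Fermat.Agent.MW.Ht.GoodTranslate2
import Fermat.Agent.MW.HtM.PVal

set_option autoImplicit false

noncomputable section

namespace Fermat.Agent.MW.Ht.GoodTranslateInj

open AlgebraicCurve WithZero Module KaehlerDifferential
open Fermat.Agent.Lib.FF Fermat.Agent.Lib.FF.BasePoint Fermat.Agent.Lib.FF.Res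
open Fermat.Agent.MW.Ht.GoodTranslate Fermat.Agent.MW.Ht.GoodTranslate2
open scoped IntermediateField

variable {K F : Type*} [Field K] [Field F] [Algebra K F] {x₀ : F}

/-- The zeros of `f - c`, `f ∈ L(D₁)`, `D₁ ≥ 0`, lie in a set of at most `deg D₁` places. -/
theorem exists_zeros_finset (h : IsFF1 K F x₀) (D₁ : Divisor K F) (hD₁ : 0 ≤ D₁) (f : F)
    (hf : f ∈ riemannRochSpace D₁) (hfc : ∀ c : K, f ≠ algebraMap K F c) (c : K) :
    ∃ Z : Finset (Place K F), (Z.card : ℤ) ≤ Divisor.degree D₁ ∧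
      ∀ v : Place K F, 0 < v.ord (f - algebraMap K F c) → v ∈ Z := by
  have := h.hasPrincipalDivisors
  have hne : f - algebraMap K F c ≠ 0 := fun h0 => hfc c (sub_eq_zero.mp h0)
  have hmem : f - algebraMap K F c ∈ riemannRochSpace D₁ := by
    refine Submodule.sub_mem _ hf ?_
    have h1 := Submodule.smul_mem (riemannRochSpace D₁) c (one_mem_L hD₁)
    rwa [Algebra.smul_def, mul_one] at h1
  obtain ⟨Df, hDf, hdeg⟩ := HasPrincipalDivisors.exists_divisor (K := K) _ hne
  have hnn : 0 ≤ D₁ + Df := by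
    refine Finsupp.le_def.mpr fun v => ?_
    have h1 := (mem_riemannRochSpace_iff.mp hmem v).resolve_left hne
    rw [Finsupp.zero_apply, Finsupp.add_apply, hDf v]
    omega
  refine ⟨(D₁ + Df).support, ?_, fun v hv => ?_⟩
  · refine (card_support_le_degree h hnn).trans ?_
    rw [map_add, hdeg, add_zero]
  · rw [Finsupp.mem_support_iff, Finsupp.add_apply, hDf v]
    have h0 : (0 : ℤ) ≤ D₁ v := Finsupp.le_def.mp hD₁ v
    omega

/-- **Good translates with a pairwise genericity condition** (setting `IsFF1` with a canonical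
divisor; Riemann–Hurwitz input `hRH`; genericity input `hsep`: for every pencil function `f` with
pole divisor exactly `D₁` of degree `g + 1` there are at most `b` values `c` for which two zeros
of `f - c` are not related). -/
theorem exists_good_translate_rel_of_RH (h : IsFF1 K F x₀) {ω : Ω[F⁄K]} {W : Divisor K F}
    (hW : Adele.IsDivisorOf ω W)
    (hRH : ∀ f : F, (∀ c : K, f ≠ algebraMap K F c) → ∃ Wf : Divisor K F,
      Divisor.degree Wf = 2 * (genusFF K F : ℤ) - 2 ∧
        ∀ (c : K) (p : Place K F), p.ord (f - algebraMap K F c) - 1 ≤ Wf p)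
    (Rel : Place K F → Place K F → Prop) (b : ℕ)
    (hsep : ∀ (f : F) (D₁ : Divisor K F), 0 ≤ D₁ →
      Divisor.degree D₁ = (genusFF K F : ℤ) + 1 → f ∈ riemannRochSpace D₁ →
      (∀ c : K, f ≠ algebraMap K F c) → (∀ Q, 1 ≤ D₁ Q → Q.adicValuation f = exp (D₁ Q)) →
      ∃ Tb : Finset K, Tb.card ≤ b ∧ ∀ c, c ∉ Tb → ∀ Q Q' : Place K F,
        0 < Q.ord (f - algebraMap K F c) → 0 < Q'.ord (f - algebraMap K F c) → Rel Q Q')
    (X : Divisor K F) (hX : Divisor.degree X = 0)
    (A : Divisor K F) (hA : Divisor.degree A = 2 * (genusFF K F : ℤ) - 1)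
    (S Pts : Finset (Place K F))
    (hPts : (4 * genusFF K F + 2 + S.card + b * (genusFF K F + 1)) * (genusFF K F + 1)
      < Pts.card) :
    ∃ (Q : Fin (genusFF K F) → Place K F) (P P' : Place K F) (E : Divisor K F),
      (∀ i, Q i ∈ Pts) ∧ P ∈ Pts ∧ P' ∈ Pts ∧ 0 ≤ E ∧ (∀ v, E v ≤ 1) ∧ (∀ s ∈ S, E s = 0) ∧
      Divisor.degree E = genusFF K F ∧ finrank K (riemannRochSpace E) = 1 ∧ RR.MD E = ⊤ ∧
      riemannRochSpace (A - E) = ⊥ ∧ (∀ v w, E v ≠ 0 → E w ≠ 0 → Rel v w) ∧
      E - (X + ∑ i, Finsupp.single (Q i) (1 : ℤ) + Finsupp.single P (1 : ℤ)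
          - Finsupp.single P' (1 : ℤ)) ∈ Divisor.principal (K := K) (F := F) := by
  classical
  set g := genusFF K F with hg
  set M₀ := (4 * g + 1 + S.card + b * (g + 1)) * (g + 1) with hM₀
  have hMeq : (4 * g + 2 + S.card + b * (g + 1)) * (g + 1) = M₀ + (g + 1) := by rw [hM₀]; ring
  have hMge : 4 * g + 1 ≤ M₀ :=
    calc 4 * g + 1 ≤ 4 * g + 1 + S.card + b * (g + 1) := by omega
      _ ≤ (4 * g + 1 + S.card + b * (g + 1)) * (g + 1) :=
        Nat.le_mul_of_pos_right _ (Nat.succ_pos _)
  have hMge2 : g * (g - 1) ≤ M₀ := Nat.mul_le_mul (by omega) (by omega)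
  rw [hMeq] at hPts
  have hP1 : 4 * g < Pts.card := by omega
  have hP2 : g * (g - 1) < Pts.card := by omega
  obtain ⟨Q, hQ, -, hl, hAbot⟩ := exists_points_two h hW X hX A hA Pts hP1
  set D : Divisor K F := X + ∑ i, Finsupp.single (Q i) (1 : ℤ) with hD
  obtain ⟨E₀, f₀, hf₀, hE₀, hE₀eq⟩ := exists_effective_rep h D (by rw [hl]; exact one_pos)
  have hl₀ : finrank K (riemannRochSpace E₀) = 1 := (finrank_L_eq_of_eq h hf₀ hE₀eq).trans hl
  have hdeg₀ : Divisor.degree E₀ = g := by
    rw [degree_eq_of_eq h hf₀ hE₀eq, hD, degree_add_sum h, hX, zero_add]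
  -- `L(A - E₀) = 0`
  have hA₀ : riemannRochSpace (A - E₀) = ⊥ := by
    have := h.finite_L (A - E₀)
    rw [← Submodule.finrank_eq_zero (R := K)]
    have h1 : finrank K (riemannRochSpace (A - E₀)) = finrank K (riemannRochSpace (A - D)) :=
      finrank_L_eq_of_eq h (inv_ne_zero hf₀) (fun v => by
        rw [Finsupp.sub_apply, Finsupp.sub_apply, hE₀eq v, v.ord_inv]
        ring)
    rw [h1, hAbot, finrank_bot]
  obtain ⟨P, hP, f, hf, hfc, hl₁, hpole⟩ := exists_pencil h hW E₀ hE₀ hdeg₀ hl₀ Pts hP2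
  obtain ⟨Wf, hWfdeg, hWf⟩ := hRH f hfc
  have hD₁ : 0 ≤ RR.addPl E₀ P := hE₀.trans (RR.le_addPl E₀ P)
  have hdeg₁ : Divisor.degree (RR.addPl E₀ P) = (g : ℤ) + 1 := by
    rw [RR.degree_addPl h.resK, hdeg₀]
  -- the bad values and their fibres
  obtain ⟨Tb, hTbcard, hTb⟩ := hsep f (RR.addPl E₀ P) hD₁ hdeg₁ hf hfc hpole
  have hZ := fun c : K => exists_zeros_finset h (RR.addPl E₀ P) hD₁ f hf hfc c
  choose Zf hZfcard hZf using hZ
  set S' : Finset (Place K F) := S ∪ Tb.biUnion Zf with hS'
  have hS'card : S'.card ≤ S.card + b * (g + 1) := by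
    have h1 : (Tb.biUnion Zf).card ≤ b * (g + 1) :=
      calc (Tb.biUnion Zf).card ≤ ∑ c ∈ Tb, (Zf c).card := Finset.card_biUnion_le
        _ ≤ ∑ _c ∈ Tb, (g + 1) := Finset.sum_le_sum fun c _ => by
            have := hZfcard c
            rw [hdeg₁] at this
            exact_mod_cast this
        _ = Tb.card * (g + 1) := by rw [Finset.sum_const, smul_eq_mul]
        _ ≤ b * (g + 1) := Nat.mul_le_mul_right _ hTbcard
    have h2 : S'.card ≤ S.card + (Tb.biUnion Zf).card := Finset.card_union_le S (Tb.biUnion Zf)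
    omega
  -- the divisor `B = A - E₀ - P`
  set B : Divisor K F := A - RR.addPl E₀ P with hB
  have hBbot : riemannRochSpace B = ⊥ := by
    rw [eq_bot_iff, ← hA₀]
    refine RR.L_mono (Finsupp.le_def.mpr fun v => ?_)
    have := Finsupp.le_def.mp (RR.le_addPl E₀ P) v
    rw [hB, Finsupp.sub_apply, Finsupp.sub_apply]
    omega
  have hdegB : Divisor.degree B = (g : ℤ) - 2 := by
    rw [hB, map_sub, hA, hdeg₁]
    ring
  have hWB : riemannRochSpace (W - B) ≠ ⊥ := by
    intro h0
    have h1 := riemannRoch_ff1 h hW B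
    rw [h0, hBbot, finrank_bot, hdegB] at h1
    push_cast at h1
    linarith
  obtain ⟨T, hTcard, hT⟩ := jumpSet_subset h hW B hWB
  rw [hdegB] at hTcard
  have hTcard' : T.card ≤ g := by
    have : (T.card : ℤ) ≤ g := by linarith
    exact_mod_cast this
  have hPts' : (4 * g + 1 + S'.card) * (g + 1) < (Pts \ T).card := by
    have h1 := Finset.le_card_sdiff T Pts
    have h2 : (4 * g + 1 + S'.card) * (g + 1) ≤ M₀ := by
      rw [hM₀]
      exact Nat.mul_le_mul_right _ (by omega)
    omega
  obtain ⟨P', hP'mem, c, E, hEnn, hEred, hES, hEdeg, hEl, hEeq⟩ :=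
    exists_fibre h (RR.addPl E₀ P) hD₁ hdeg₁ hl₁ f hf hfc hpole Wf hWfdeg hWf S' (Pts \ T) hPts'
  rw [Finset.mem_sdiff] at hP'mem
  obtain ⟨hP', hP'T⟩ := hP'mem
  have hfc' : f - algebraMap K F c ≠ 0 := fun h0 => hfc c (sub_eq_zero.mp h0)
  have hjump : riemannRochSpace (RR.addPl B P') = ⊥ := by
    have hP'J : P' ∉ RR.jumpSet B := fun hmem => hP'T (hT hmem)
    rw [RR.L_addPl_eq_of_notMem_jumpSet hP'J, hBbot]
  -- the points of `E` are zeros of `f - c`
  have hzero : ∀ v, E v ≠ 0 → 0 < v.ord (f - algebraMap K F c) := by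
    intro v hv
    have hEv : 1 ≤ E v := by
      have := Finsupp.le_def.mp hEnn v
      rw [Finsupp.zero_apply] at this
      omega
    by_contra hle
    have hD₁v : 1 ≤ RR.addPl E₀ P v := by
      have h1 := hEeq v
      have h2 : (0 : ℤ) ≤ Finsupp.single P' (1 : ℤ) v := by
        by_cases hvP : v = P'
        · subst hvP; rw [Finsupp.single_eq_same]; exact zero_le_one
        · rw [Finsupp.single_eq_of_ne hvP]
      omega
    have h1 := hpole v hD₁v
    have h2 : v.adicValuation (f - algebraMap K F c) = exp (RR.addPl E₀ P v) := by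
      rw [← h1]
      refine Valuation.map_sub_eq_of_lt_left _ ?_
      rw [h1]
      refine lt_of_le_of_lt (v.adicValuation_algebraMap_le_one c) ?_
      rw [← exp_zero, exp_lt_exp]
      omega
    rw [v.adicValuation_eq_exp_neg_ord hfc', exp_inj] at h2
    have h3 := hEeq v
    have h4 : (0 : ℤ) ≤ Finsupp.single P' (1 : ℤ) v := by
      by_cases hvP : v = P'
      · subst hvP; rw [Finsupp.single_eq_same]; exact zero_le_one
      · rw [Finsupp.single_eq_of_ne hvP]
    omega
  refine ⟨Q, P, P', E, hQ, hP, hP', hEnn, hEred,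
    fun s hs => hES s (Finset.mem_union_left _ hs), hEdeg, hEl, ?_, ?_, ?_, ?_⟩
  · rw [MD_eq_top_iff h]
    unfold RR.cD
    rw [hEdeg, hEl]
    push_cast
    ring
  · have := h.finite_L (A - E)
    rw [← Submodule.finrank_eq_zero (R := K)]
    have h1 : finrank K (riemannRochSpace (A - E))
        = finrank K (riemannRochSpace (RR.addPl B P')) :=
      finrank_L_eq_of_eq h (inv_ne_zero hfc') (fun v => by
        rw [Finsupp.sub_apply, hEeq v, v.ord_inv]
        simp only [hB, RR.addPl, Finsupp.add_apply, Finsupp.sub_apply]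
        ring)
    rw [h1, hjump, finrank_bot]
  · intro v w hv hw
    have hcT : c ∉ Tb := by
      intro hc
      have hvS : v ∈ S' :=
        Finset.mem_union_right _ (Finset.mem_biUnion.mpr ⟨c, hc, hZf c v (hzero v hv)⟩)
      exact hv (hES v hvS)
    exact hTb c hcT v w (hzero v hv) (hzero w hw)
  · refine ⟨f₀ * (f - algebraMap K F c), mul_ne_zero hf₀ hfc', fun v => ?_⟩
    rw [v.ord_mul hf₀ hfc', Finsupp.sub_apply, hEeq v, Finsupp.sub_apply, Finsupp.add_apply,
      Finsupp.add_apply, hE₀eq v]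
    ring

/-- `[F : K(f)] = deg D₁` for a function with pole divisor exactly `D₁`. -/
theorem finrank_eq_degree_of_pole [IsAlgClosed K] [CharZero K] (h : IsFF1 K F x₀)
    (D₁ : Divisor K F) (hD₁ : 0 ≤ D₁) (f : F) (hf : f ∈ riemannRochSpace D₁)
    (hft : Transcendental K f) [FiniteDimensional K⟮f⟯ F]
    (hpole : ∀ Q, 1 ≤ D₁ Q → Q.adicValuation f = exp (D₁ Q)) :
    (Module.finrank K⟮f⟯ F : ℤ) = Divisor.degree D₁ := by
  classical
  have hf0 : f ≠ 0 := by
    rintro rfl
    exact hft (isAlgebraic_zero)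
  obtain ⟨hfin, hsum⟩ := Fermat.Agent.S24.Transfer.polesOf_finite_sum f hft
  rw [← hsum, h.degree_eq_sum]
  have hD₁v : ∀ v, 0 ≤ D₁ v := fun v => Finsupp.le_def.mp hD₁ v
  have hord : ∀ v, 1 ≤ D₁ v → v.ord f = -D₁ v := by
    intro v hv
    have h1 := hpole v hv
    rw [v.adicValuation_eq_exp_neg_ord hf0, exp_inj] at h1
    omega
  have hset : hfin.toFinset = D₁.support := by
    ext v
    rw [Set.Finite.mem_toFinset, Finsupp.mem_support_iff]
    show v.ord f < 0 ↔ _
    constructor
    · intro hv h0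
      have h1 := (mem_riemannRochSpace_iff.mp hf v).resolve_left hf0
      omega
    · intro hv
      have h0 := hD₁v v
      have h1 := hord v (by omega)
      omega
  rw [hset]
  refine Finset.sum_congr rfl fun v hv => ?_
  have h0 := hD₁v v
  have hne : D₁ v ≠ 0 := Finsupp.mem_support_iff.mp hv
  have h1 := hord v (by omega)
  omega

/-- **Good translates with a pairwise genericity condition** over an algebraically closed field
of characteristic zero: `hsep` is asked for the functions `f` with `[F : K(f)] = g + 1`. -/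
theorem exists_good_translate_rel [IsAlgClosed K] [CharZero K] (x : F) (hx : Transcendental K x)
    [FiniteDimensional K⟮x⟯ F] (Rel : Place K F → Place K F → Prop) (b : ℕ)
    (hsep : ∀ f : F, Transcendental K f → ∀ [FiniteDimensional K⟮f⟯ F],
      Module.finrank K⟮f⟯ F = genusFF K F + 1 →
      ∃ Tb : Finset K, Tb.card ≤ b ∧ ∀ c, c ∉ Tb → ∀ Q Q' : Place K F,
        0 < Q.ord (f - algebraMap K F c) → 0 < Q'.ord (f - algebraMap K F c) → Rel Q Q')
    (X : Divisor K F) (hX : Divisor.degree X = 0)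
    (A : Divisor K F) (hA : Divisor.degree A = 2 * (genusFF K F : ℤ) - 1)
    (S Pts : Finset (Place K F))
    (hPts : (4 * genusFF K F + 2 + S.card + b * (genusFF K F + 1)) * (genusFF K F + 1)
      < Pts.card) :
    ∃ (Q : Fin (genusFF K F) → Place K F) (P P' : Place K F) (E : Divisor K F),
      (∀ i, Q i ∈ Pts) ∧ P ∈ Pts ∧ P' ∈ Pts ∧ 0 ≤ E ∧ (∀ v, E v ≤ 1) ∧ (∀ s ∈ S, E s = 0) ∧
      Divisor.degree E = genusFF K F ∧ finrank K (riemannRochSpace E) = 1 ∧ RR.MD E = ⊤ ∧
      riemannRochSpace (A - E) = ⊥ ∧ (∀ v w, E v ≠ 0 → E w ≠ 0 → Rel v w) ∧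
      E - (X + ∑ i, Finsupp.single (Q i) (1 : ℤ) + Finsupp.single P (1 : ℤ)
          - Finsupp.single P' (1 : ℤ)) ∈ Divisor.principal (K := K) (F := F) := by
  have h : IsFF1 K F x := isFF1_of_charZero x hx
  have hsepx : ∀ (y : F) [FiniteDimensional K⟮y⟯ F], Algebra.IsSeparable K⟮y⟯ F := by
    intro y _
    have : CharZero K⟮y⟯ := charZero_of_injective_algebraMap (algebraMap K K⟮y⟯).injective
    have : Algebra.IsAlgebraic K⟮y⟯ F := Algebra.IsAlgebraic.of_finite _ _
    infer_instance
  have := hsepx x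
  obtain ⟨W, hW, -, -, -⟩ := exists_divisor_D_of_isSeparable h x
  have htr : ∀ f : F, (∀ c : K, f ≠ algebraMap K F c) → Transcendental K f := by
    intro f hfc halg
    obtain ⟨c, hc⟩ := exists_eq_algebraMap_of_isAlgebraic halg
    exact hfc c hc
  refine exists_good_translate_rel_of_RH h hW (fun f hfc => ?_) Rel b
    (fun f D₁ hD₁ hdeg₁ hf hfc hpole => ?_) X hX A hA S Pts hPts
  · have hft := htr f hfc
    have := Fermat.Agent.S24.Transfer.finiteDimensional_adjoin_of_transcendental (K := K) x hft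
    have := hsepx f
    obtain ⟨Wf, -, hdeg, hge, -⟩ := exists_divisor_D_of_isSeparable h f
    exact ⟨Wf, hdeg, hge⟩
  · have hft := htr f hfc
    have := Fermat.Agent.S24.Transfer.finiteDimensional_adjoin_of_transcendental (K := K) x hft
    refine hsep f hft ?_
    have h1 := finrank_eq_degree_of_pole h D₁ hD₁ f hf hft hpole
    rw [hdeg₁] at h1
    exact_mod_cast h1

/-- **Good translates with `t` injective on `supp E`** (base-point form).  `pinf` a place, `t` a
function regular off `pinf`; the double-point bound for `t` is the hypothesis `hBP` (at most `b`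
values `c` such that a fibre `f = c` of a function `f` with `[F : K(f)] = g + 1` contains two
distinct places with the same value of `t`).  For every divisor `X` of degree `0`, every finite
set `S` of places and every finite set `Pts` of more than `(4g + 3 + |S| + b (g + 1))(g + 1)`
places there are `Q_1, …, Q_g, P, P' ∈ Pts` such that `X + ∑ Q_i + P - P'` is linearly equivalent
to an effective reduced divisor `E` of degree `g` avoiding `S` and `pinf`, with `l(E) = 1`,
`H¹(E) = 0`, `L((2g - 1) pinf - E) = 0` and `t` injective on the support of `E`. -/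
theorem exists_good_translate_inj [IsAlgClosed K] [CharZero K] (x : F) (hx : Transcendental K x)
    [FiniteDimensional K⟮x⟯ F] (pinf : Place K F) (t : F)
    (ht : ∀ P : Place K F, P ≠ pinf → 0 ≤ P.ord t) (b : ℕ)
    (hBP : ∀ f : F, Transcendental K f → ∀ [FiniteDimensional K⟮f⟯ F],
      Module.finrank K⟮f⟯ F = genusFF K F + 1 →
      ∃ Tb : Finset K, Tb.card ≤ b ∧ ∀ c, c ∉ Tb → ∀ Q Q' : Place K F,
        0 ≤ Q.ord t → 0 ≤ Q'.ord t → Q.adicValuation (f - algebraMap K F c) < 1 →
        Q'.adicValuation (f - algebraMap K F c) < 1 →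
        Fermat.Agent.MW.HtM.pval Q t = Fermat.Agent.MW.HtM.pval Q' t → Q = Q')
    (X : Divisor K F) (hX : Divisor.degree X = 0) (S Pts : Finset (Place K F))
    (hPts : (4 * genusFF K F + 3 + S.card + b * (genusFF K F + 1)) * (genusFF K F + 1)
      < Pts.card) :
    ∃ (Q : Fin (genusFF K F) → Place K F) (P P' : Place K F) (E : Divisor K F),
      (∀ i, Q i ∈ Pts) ∧ P ∈ Pts ∧ P' ∈ Pts ∧ 0 ≤ E ∧ (∀ v, E v ≤ 1) ∧ E pinf = 0 ∧
      (∀ s ∈ S, E s = 0) ∧
      Divisor.degree E = genusFF K F ∧ finrank K (riemannRochSpace E) = 1 ∧ RR.MD E = ⊤ ∧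
      riemannRochSpace ((2 * (genusFF K F : ℤ) - 1) • Finsupp.single pinf (1 : ℤ) - E) = ⊥ ∧
      (∀ v w, E v = 1 → E w = 1 →
        Fermat.Agent.MW.HtM.pval v t = Fermat.Agent.MW.HtM.pval w t → v = w) ∧
      E - (X + ∑ i, Finsupp.single (Q i) (1 : ℤ) + Finsupp.single P (1 : ℤ)
          - Finsupp.single P' (1 : ℤ)) ∈ Divisor.principal (K := K) (F := F) := by
  classical
  have h : IsFF1 K F x := isFF1_of_charZero x hx
  have hA : Divisor.degree ((2 * (genusFF K F : ℤ) - 1) • Finsupp.single pinf (1 : ℤ))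
      = 2 * (genusFF K F : ℤ) - 1 := by
    rw [map_zsmul, Divisor.degree_single, h.deg_eq_one pinf]
    simp
  have hcard : (4 * genusFF K F + 2 + (insert pinf S).card + b * (genusFF K F + 1))
      * (genusFF K F + 1) < Pts.card := by
    refine lt_of_le_of_lt (Nat.mul_le_mul_right _ ?_) hPts
    have := Finset.card_insert_le pinf S
    omega
  -- the relation
  let Rel : Place K F → Place K F → Prop := fun Q Q' =>
    0 ≤ Q.ord t → 0 ≤ Q'.ord t →
      Fermat.Agent.MW.HtM.pval Q t = Fermat.Agent.MW.HtM.pval Q' t → Q = Q'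
  have hsep : ∀ f : F, Transcendental K f → ∀ [FiniteDimensional K⟮f⟯ F],
      Module.finrank K⟮f⟯ F = genusFF K F + 1 →
      ∃ Tb : Finset K, Tb.card ≤ b ∧ ∀ c, c ∉ Tb → ∀ Q Q' : Place K F,
        0 < Q.ord (f - algebraMap K F c) → 0 < Q'.ord (f - algebraMap K F c) → Rel Q Q' := by
    intro f hft _ hfin
    obtain ⟨Tb, hTbcard, hTb⟩ := hBP f hft hfin
    refine ⟨Tb, hTbcard, fun c hc Q Q' hQ hQ' hQt hQ't hval => ?_⟩
    have hne : f - algebraMap K F c ≠ 0 := by
      intro h0
      apply hft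
      rw [sub_eq_zero.mp h0]
      exact isAlgebraic_algebraMap c
    have hlt : ∀ v : Place K F, 0 < v.ord (f - algebraMap K F c) →
        v.adicValuation (f - algebraMap K F c) < 1 := by
      intro v hv
      rw [v.adicValuation_eq_exp_neg_ord hne, ← exp_zero, exp_lt_exp]
      omega
    exact hTb c hc Q Q' hQt hQ't (hlt Q hQ) (hlt Q' hQ') hval
  obtain ⟨Q, P, P', E, hQ, hP, hP', hEnn, hEred, hES, hEdeg, hEl, hMD, hAE, hrel, hlin⟩ :=
    exists_good_translate_rel x hx Rel b hsep X hX _ hA (insert pinf S) Pts hcard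
  have hEinf : E pinf = 0 := hES pinf (Finset.mem_insert_self _ _)
  refine ⟨Q, P, P', E, hQ, hP, hP', hEnn, hEred, hEinf,
    fun s hs => hES s (Finset.mem_insert_of_mem hs), hEdeg, hEl, hMD, hAE, ?_, hlin⟩
  intro v w hv hw hval
  have hvne : v ≠ pinf := by
    rintro rfl
    rw [hEinf] at hv
    exact zero_ne_one hv
  have hwne : w ≠ pinf := by
    rintro rfl
    rw [hEinf] at hw
    exact zero_ne_one hw
  exact hrel v w (by rw [hv]; exact one_ne_zero) (by rw [hw]; exact one_ne_zero)
    (ht v hvne) (ht w hwne) hval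

end Fermat.Agent.MW.Ht.GoodTranslateInj
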