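/-
MW / HT-Q, brick GEN-3, second half: the good-translate lemma with `t` injective on `supp E`,
with the double-point bound discharged by `Ht/TSep.lean` (helper19's node count).

Hypothesis on `t`: regular off `pinf`, transcendental, and `[F : K(t)]` coprime to `g + 1`.
-/
import Mathlib
import Fermat.Agent.MW.Ht.GoodTranslateInj
import Fermat.Agent.MW.Ht.TSep

set_option autoImplicit false

noncomputable section

namespace Fermat.Agent.MW.Ht.GoodTranslateInjC

open AlgebraicCurve WithZero Module
open Fermat.Agent.Lib.FF Fermat.Agent.MW.HtM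
open scoped IntermediateField

variable {K F : Type*} [Field K] [Field F] [Algebra K F]

/-- The double-point bound in the shape of the hypothesis `hBP` of
`GoodTranslateInj.exists_good_translate_inj`: if `[F : K(t)]` is coprime to `[F : K(f)] = n`,
there are at most `(n - 1) ([F : K(t)] - 1)` values `c` such that the fibre `f = c` contains two
distinct places with the same value of `t`. -/
theorem exists_bad_values [IsAlgClosed K] [CharZero K] (t : F) (htt : Transcendental K t)
    [FiniteDimensional K⟮t⟯ F] (f : F) (hft : Transcendental K f) [FiniteDimensional K⟮f⟯ F]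
    (hco : Nat.Coprime (finrank K⟮t⟯ F) (finrank K⟮f⟯ F)) :
    ∃ Tb : Finset K, Tb.card ≤ (finrank K⟮f⟯ F - 1) * (finrank K⟮t⟯ F - 1) ∧
      ∀ c, c ∉ Tb → ∀ Q Q' : Place K F, 0 ≤ Q.ord t → 0 ≤ Q'.ord t →
        Q.adicValuation (f - algebraMap K F c) < 1 →
        Q'.adicValuation (f - algebraMap K F c) < 1 → pval Q t = pval Q' t → Q = Q' := by
  have hind := TSep.linearIndependent_pow_of_coprime t f hco
  obtain ⟨Bad, hcard, hBad⟩ := TSep.exists_bad_finset t f htt hft hind
  refine ⟨Bad, hcard, fun c hc Q Q' hQt hQ't hQ hQ' hval => ?_⟩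
  by_contra hne
  have hreg : ∀ v : Place K F, v.adicValuation (f - algebraMap K F c) < 1 → 0 ≤ v.ord f := by
    intro v hv
    have h1 := mem_of_adicValuation_lt_one v hv
    have h2 : f = (f - algebraMap K F c) + algebraMap K F c := by ring
    have h3 : f ∈ v.toValuationSubring := by
      rw [h2]
      exact add_mem h1 (v.algebraMap_mem' c)
    exact Fermat.Agent.S24.ord_nonneg_of_mem v h3
  have hQc : pval Q f = c := pval_eq Q hQ
  have hQ'c : pval Q' f = c := pval_eq Q' hQ'
  exact hBad Q Q' hne hQt hQ't (hreg Q hQ) (hreg Q' hQ') (by rw [hQc, hQ'c])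
    (by rw [hQc]; exact hc) hval

/-- **Good translates with `t` injective on `supp E`**, for `t` regular off `pinf` with
`[F : K(t)]` coprime to `g + 1`.  For every divisor `X` of degree `0`, every finite set `S` of
places and every finite set `Pts` of more than `(4g + 3 + |S| + g ([F : K(t)] - 1)(g + 1))(g + 1)`
places there are `Q_1, …, Q_g, P, P' ∈ Pts` such that `X + ∑ Q_i + P - P'` is linearly equivalent
to an effective reduced divisor `E` of degree `g` avoiding `S` and `pinf`, with `l(E) = 1`,
`H¹(E) = 0`, `L((2g - 1) pinf - E) = 0` and `t` injective on the support of `E`. -/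
theorem exists_good_translate_inj_of_coprime [IsAlgClosed K] [CharZero K] (x : F)
    (hx : Transcendental K x) [FiniteDimensional K⟮x⟯ F] (pinf : Place K F) (t : F)
    (ht : ∀ P : Place K F, P ≠ pinf → 0 ≤ P.ord t) (htt : Transcendental K t)
    [FiniteDimensional K⟮t⟯ F]
    (hco : Nat.Coprime (finrank K⟮t⟯ F) (genusFF K F + 1))
    (X : Divisor K F) (hX : Divisor.degree X = 0) (S Pts : Finset (Place K F))
    (hPts : (4 * genusFF K F + 3 + S.card
      + (genusFF K F * (finrank K⟮t⟯ F - 1)) * (genusFF K F + 1)) * (genusFF K F + 1)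
      < Pts.card) :
    ∃ (Q : Fin (genusFF K F) → Place K F) (P P' : Place K F) (E : Divisor K F),
      (∀ i, Q i ∈ Pts) ∧ P ∈ Pts ∧ P' ∈ Pts ∧ 0 ≤ E ∧ (∀ v, E v ≤ 1) ∧ E pinf = 0 ∧
      (∀ s ∈ S, E s = 0) ∧
      Divisor.degree E = genusFF K F ∧ finrank K (riemannRochSpace E) = 1 ∧ RR.MD E = ⊤ ∧
      riemannRochSpace ((2 * (genusFF K F : ℤ) - 1) • Finsupp.single pinf (1 : ℤ) - E) = ⊥ ∧
      (∀ v w, E v = 1 → E w = 1 → pval v t = pval w t → v = w) ∧
      E - (X + ∑ i, Finsupp.single (Q i) (1 : ℤ) + Finsupp.single P (1 : ℤ)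
          - Finsupp.single P' (1 : ℤ)) ∈ Divisor.principal (K := K) (F := F) := by
  refine GoodTranslateInj.exists_good_translate_inj x hx pinf t ht
    (genusFF K F * (finrank K⟮t⟯ F - 1)) (fun f hft _ hfin => ?_) X hX S Pts hPts
  have hco' : Nat.Coprime (finrank K⟮t⟯ F) (finrank K⟮f⟯ F) := by rw [hfin]; exact hco
  obtain ⟨Tb, hcard, hTb⟩ := exists_bad_values t htt f hft hco'
  refine ⟨Tb, ?_, hTb⟩
  rw [hfin] at hcard
  simpa using hcard

end Fermat.Agent.MW.Ht.GoodTranslateInjC
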