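/-
MW / HT (S17), (DEG-1) "good translates" for `J₀(N)` — the field `translates` of the height
datum, TRANSPORTED to `J₀(N)(ℚ̄)` with its Galois action.  The function-field core is helper50's
`GoodTranslate2.exists_good_translate_pinf` (generic, any `F/K`); this file adds the classes,
the Galois invariance and the supply of rational points.

`F = ℚ̄·F_N`, `∞` the cusp place, `g` the genus, `ρ σ` the arithmetic Galois action.

* `exists_good_translate_J S₀` (raw Prelude vocabulary): there is a bound `B` such that for every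
  subgroup `U ≤ G_ℚ` and every set `Pts` of at least `B` places fixed by `U`, a FINITE set `C` of
  `U`-fixed classes has the property: every `U`-fixed class `x` has a translate `x + c`, `c ∈ C`,
  which is the class `[E - g·∞]` of a GOOD divisor `E`: `U`-invariant, effective, reduced, of
  degree `g`, avoiding `∞` and `S₀`, with `dim L(E) = 1`, `H¹(E) = 0` and `L((2g-1)∞ - E) = 0`.
  `C = {[∑ Qᵢ + P - P' - g·∞] : Qᵢ, P, P' ∈ Pts}`.
* `exists_fixed_places` : every number of places is fixed by the Galois group of a number field.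
* `exists_good_translate_field S₀` : hence a number field `K₀` such that the conclusion holds for
  every `U ≤ Gal(ℚ̄/K₀)`.
* `exists_good_translate_Pt`, `exists_good_translate_Pt_field` : the same in the vocabulary of
  `Ht/Defs.lean` (`Pt N →₀ ℕ`, `RatU`, `clFull`).
-/
import Mathlib
import Fermat.Agent.MW.Ht.GoodTranslate2
import Fermat.Agent.MW.Ht.RepPt
import Fermat.Agent.MW.WMW.Smooth
import Fermat.Agent.ESJ.Jac.KummerPair

set_option autoImplicit false

noncomputable section

namespace Fermat.Agent.MW.Ht.GoodTranslateJ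

open ModularCurve AlgebraicCurve Module
open Fermat.Agent.Lib.FF

section generic

theorem smul_eq_of_add {G M : Type*} [Monoid G] [AddMonoid M] [DistribMulAction G M] (σ : G)
    {a b e : M} (h : e = a + b) (ha : σ • a = a) (hb : σ • b = b) : σ • e = e := by
  rw [h, smul_add, ha, hb]

end generic

section modular

variable (N : ℕ) [NeZero N]

local notation "Qb" => AlgebraicClosure ℚ
local notation "GQ" => (AlgebraicClosure ℚ ≃ₐ[ℚ] AlgebraicClosure ℚ)

theorem isFF1 : IsFF1 Qb ↥(modularFunctionFieldBar N) (Fermat.Agent.Lib.Red.xL Qb N) :=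
  isFF1_xL Qb N

theorem degree_single_cusp :
    Divisor.degree (Finsupp.single (PlaceInf.placeInfL Qb N) (1 : ℤ) :
      Divisor Qb (modularFunctionFieldBar N)) = 1 := by
  rw [Divisor.degree_single, (isFF1 N).deg_eq_one]
  simp

theorem degree_sub_cusp (D : Divisor Qb (modularFunctionFieldBar N)) :
    Divisor.degree (D - Divisor.degree D • Finsupp.single (PlaceInf.placeInfL Qb N) (1 : ℤ))
      = 0 := by
  rw [map_sub, map_zsmul, degree_single_cusp]
  simp

/-- the class `[D - deg D · ∞]` of a divisor relative to the cusp `∞` -/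
def cls (D : Divisor Qb (modularFunctionFieldBar N)) : JZero N :=
  Pic0.mk ⟨D - Divisor.degree D • Finsupp.single (PlaceInf.placeInfL Qb N) (1 : ℤ),
    degree_sub_cusp N D⟩

theorem smul_sub_cusp (g : SemilinearAut Qb (modularFunctionFieldBar N))
    (hg : g • PlaceInf.placeInfL Qb N = PlaceInf.placeInfL Qb N)
    (D : Divisor Qb (modularFunctionFieldBar N)) :
    g • (D - Divisor.degree D • Finsupp.single (PlaceInf.placeInfL Qb N) (1 : ℤ))
      = g • D - Divisor.degree (g • D) • Finsupp.single (PlaceInf.placeInfL Qb N) (1 : ℤ) := by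
  have hz : g • (Divisor.degree D •
      (Finsupp.single (PlaceInf.placeInfL Qb N) (1 : ℤ) : Divisor Qb (modularFunctionFieldBar N)))
      = Divisor.degree D • (g •
        (Finsupp.single (PlaceInf.placeInfL Qb N) (1 : ℤ) :
          Divisor Qb (modularFunctionFieldBar N))) :=
    map_zsmul (DistribSMul.toAddMonoidHom (Divisor Qb (modularFunctionFieldBar N)) g) _ _
  rw [smul_sub, hz, SemilinearAut.smul_single, hg, SemilinearAut.degree_smul]

theorem smul_cls (σ : GQ) (D : Divisor Qb (modularFunctionFieldBar N)) :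
    σ • cls N D = cls N (arithmeticGalois (modularFunctionFieldFull N) σ • D) :=
  congrArg Pic0.mk (Subtype.ext (smul_sub_cusp N (arithmeticGalois (modularFunctionFieldFull N) σ)
    (PlaceInf.arithmeticGalois_smul_placeInfL Qb N σ) D))

/-- an effective divisor with `dim L = 1` is fixed by every automorphism fixing its class -/
theorem smul_eq_of_cls_eq (g : SemilinearAut Qb (modularFunctionFieldBar N))
    (E : Divisor Qb (modularFunctionFieldBar N)) (hnn : 0 ≤ E)
    (hl : finrank Qb (riemannRochSpace E) = 1) (h1 : cls N E = cls N (g • E)) : g • E = E := by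
  unfold cls at h1
  rw [Fermat.Agent.ESJ.Jac.pic0_mk_eq_mk_iff] at h1
  refine GoodTranslate.eq_of_finrank_one (isFF1 N) hnn ?_ hl ?_
  · rw [Finsupp.le_def]
    intro v
    rw [SemilinearAut.divisor_smul_apply]
    exact Finsupp.le_def.mp hnn _
  · have e : (g • E - Divisor.degree (g • E) • Finsupp.single (PlaceInf.placeInfL Qb N) (1 : ℤ))
        - (E - Divisor.degree E • Finsupp.single (PlaceInf.placeInfL Qb N) (1 : ℤ))
        = g • E - E := by
      rw [SemilinearAut.degree_smul]
      abel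
    rw [← e]
    exact h1

/-- the class of `E ~ X + C` is the class of `X` plus the class of `C` -/
theorem cls_eq_add_of_principal (X C E : Divisor Qb (modularFunctionFieldBar N))
    (hX : Divisor.degree X = 0) (hC : Divisor.degree C = Divisor.degree E)
    (hlin : E - (X + C) ∈ Divisor.principal (K := Qb) (F := ↥(modularFunctionFieldBar N))) :
    cls N E = Pic0.mk ⟨X, hX⟩ + cls N C := by
  unfold cls
  rw [← Pic0.mk_add, Fermat.Agent.ESJ.Jac.pic0_mk_eq_mk_iff]
  have e : (X + (C - Divisor.degree C • Finsupp.single (PlaceInf.placeInfL Qb N) (1 : ℤ)))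
      - (E - Divisor.degree E • Finsupp.single (PlaceInf.placeInfL Qb N) (1 : ℤ))
      = -(E - (X + C)) := by
    rw [hC]
    abel
  show (X + (C - Divisor.degree C • Finsupp.single (PlaceInf.placeInfL Qb N) (1 : ℤ)))
      - (E - Divisor.degree E • Finsupp.single (PlaceInf.placeInfL Qb N) (1 : ℤ))
      ∈ Divisor.principal
  rw [e]
  exact neg_mem hlin

/-- **Good translates** (raw vocabulary), avoiding a given finite set `S₀` of places, with both
Riemann–Roch conditions. -/
theorem exists_good_translate_J (S₀ : Finset (Place Qb (modularFunctionFieldBar N))) :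
    ∃ B : ℕ, ∀ (U : Subgroup GQ) (Pts : Finset (Place Qb (modularFunctionFieldBar N))),
    B ≤ Pts.card →
    (∀ v ∈ Pts, ∀ σ ∈ U, arithmeticGalois (modularFunctionFieldFull N) σ • v = v) →
    ∃ C : Finset (JZero N), (∀ c ∈ C, ∀ σ ∈ U, σ • c = c) ∧
      ∀ x : JZero N, (∀ σ ∈ U, σ • x = x) →
        ∃ c ∈ C, ∃ (E : Divisor Qb (modularFunctionFieldBar N))
        (hE : Divisor.degree
          (E - Divisor.degree E • Finsupp.single (PlaceInf.placeInfL Qb N) (1 : ℤ)) = 0),
        0 ≤ E ∧ (∀ v, E v ≤ 1) ∧ E (PlaceInf.placeInfL Qb N) = 0 ∧ (∀ v ∈ S₀, E v = 0) ∧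
        Divisor.degree E = genusFF Qb (modularFunctionFieldBar N) ∧
        finrank Qb (riemannRochSpace E) = 1 ∧ RR.MD E = ⊤ ∧
        riemannRochSpace ((2 * (genusFF Qb (modularFunctionFieldBar N) : ℤ) - 1) •
          Finsupp.single (PlaceInf.placeInfL Qb N) (1 : ℤ) - E) = ⊥ ∧
        (∀ σ ∈ U, arithmeticGalois (modularFunctionFieldFull N) σ • E = E) ∧
        Pic0.mk ⟨E - Divisor.degree E • Finsupp.single (PlaceInf.placeInfL Qb N) (1 : ℤ), hE⟩
          = x + c := by
  classical
  have h := isFF1 N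
  have := h.finiteDimensional
  refine ⟨(4 * genusFF Qb (modularFunctionFieldBar N) + 3 + S₀.card)
    * (genusFF Qb (modularFunctionFieldBar N) + 1) + 1, fun U Pts hB hfix => ?_⟩
  -- the translation divisors
  let cdiv : (Fin (genusFF Qb (modularFunctionFieldBar N)) →
      Place Qb (modularFunctionFieldBar N)) × Place Qb (modularFunctionFieldBar N)
        × Place Qb (modularFunctionFieldBar N) →
      Divisor Qb (modularFunctionFieldBar N) := fun t =>
    ∑ i, Finsupp.single (t.1 i) (1 : ℤ) + Finsupp.single t.2.1 (1 : ℤ)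
      - Finsupp.single t.2.2 (1 : ℤ)
  have hfixc : ∀ t ∈ (Fintype.piFinset
      fun _ : Fin (genusFF Qb (modularFunctionFieldBar N)) => Pts) ×ˢ Pts ×ˢ Pts,
      ∀ σ ∈ U, σ • cls N (cdiv t) = cls N (cdiv t) := by
    rintro ⟨T, P, P'⟩ ht σ hσ
    rw [Finset.mem_product, Finset.mem_product, Fintype.mem_piFinset] at ht
    obtain ⟨hT, hP, hP'⟩ := ht
    rw [smul_cls]
    congr 1
    simp only [cdiv, smul_sub, smul_add, Finset.smul_sum, SemilinearAut.smul_single]
    rw [hfix _ hP σ hσ, hfix _ hP' σ hσ]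
    congr 2
    exact Finset.sum_congr rfl fun i _ => by rw [hfix _ (hT i) σ hσ]
  refine ⟨((Fintype.piFinset
    fun _ : Fin (genusFF Qb (modularFunctionFieldBar N)) => Pts) ×ˢ Pts ×ˢ Pts).image
    (fun t => cls N (cdiv t)), ?_, ?_⟩
  · intro c hc σ hσ
    obtain ⟨t, ht, rfl⟩ := Finset.mem_image.mp hc
    exact hfixc t ht σ hσ
  · intro x hx
    obtain ⟨D₀, rfl⟩ := Pic0.mk_surjective x
    obtain ⟨T, P, P', E, hT, hP, hP', hnn, hred, hinf, hS₀, hdeg, hl, hMD, hAE, hlin⟩ :=
      GoodTranslate2.exists_good_translate_pinf (K := Qb) (F := ↥(modularFunctionFieldBar N))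
        (Fermat.Agent.Lib.Red.xL Qb N) h.transcendental
        (PlaceInf.placeInfL Qb N) (D₀ : Divisor Qb (modularFunctionFieldBar N)) D₀.2 S₀ Pts
        (by omega)
    have hmem : (T, P, P') ∈ (Fintype.piFinset
        fun _ : Fin (genusFF Qb (modularFunctionFieldBar N)) => Pts) ×ˢ Pts ×ˢ Pts := by
      rw [Finset.mem_product, Finset.mem_product, Fintype.mem_piFinset]
      exact ⟨hT, hP, hP'⟩
    have hdegC : Divisor.degree (cdiv (T, P, P'))
        = (genusFF Qb (modularFunctionFieldBar N) : ℤ) := by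
      have h1 : ∀ v : Place Qb (modularFunctionFieldBar N),
          Divisor.degree (Finsupp.single v (1 : ℤ) : Divisor Qb (modularFunctionFieldBar N))
            = 1 := fun v => by
        rw [Divisor.degree_single, h.deg_eq_one]
        simp
      simp only [cdiv]
      rw [map_sub, map_add, map_sum, h1, h1, Finset.sum_congr rfl (fun i _ => h1 (T i))]
      simp
    have hlin' : E - ((D₀ : Divisor Qb (modularFunctionFieldBar N)) + cdiv (T, P, P'))
        ∈ Divisor.principal (K := Qb) (F := ↥(modularFunctionFieldBar N)) := by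
      have e : (D₀ : Divisor Qb (modularFunctionFieldBar N)) + cdiv (T, P, P')
          = (D₀ : Divisor Qb (modularFunctionFieldBar N))
            + ∑ i, Finsupp.single (T i) (1 : ℤ) + Finsupp.single P (1 : ℤ)
            - Finsupp.single P' (1 : ℤ) := by
        ext v
        simp only [cdiv, Finsupp.sub_apply, Finsupp.add_apply]
        ring
      rw [e]
      exact hlin
    have hcls : cls N E = Pic0.mk D₀ + cls N (cdiv (T, P, P')) :=
      cls_eq_add_of_principal N _ _ E D₀.2 (hdegC.trans hdeg.symm) hlin'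
    refine ⟨cls N (cdiv (T, P, P')), Finset.mem_image.mpr ⟨(T, P, P'), hmem, rfl⟩, E,
      degree_sub_cusp N E, hnn, hred, hinf, hS₀, hdeg, hl, hMD, hAE, ?_, hcls⟩
    intro σ hσ
    have h0 : σ • cls N E = cls N E :=
      smul_eq_of_add σ hcls (hx σ hσ) (hfixc _ hmem σ hσ)
    exact smul_eq_of_cls_eq N _ E hnn hl (h0.symm.trans (smul_cls N σ E))

/-! ### Enough fixed places -/

/-- every finite set of places is fixed by the Galois group of a number field -/
theorem openlyFixed_finset (Pts : Finset (Place Qb (modularFunctionFieldBar N))) :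
    Fermat.Agent.MW.WMW.Smooth.OpenlyFixed fun σ : GQ =>
      ∀ v ∈ Pts, arithmeticGalois (modularFunctionFieldFull N) σ • v = v := by
  classical
  induction Pts using Finset.induction_on with
  | empty =>
    exact Fermat.Agent.MW.WMW.Smooth.openlyFixed_of_forall fun σ v hv =>
      absurd hv (Finset.notMem_empty v)
  | insert a s _ ih =>
    refine ((Fermat.Agent.MW.WMW.Smooth.openlyFixed_smul_place N a).and ih).mono
      fun σ h v hv => ?_
    rcases Finset.mem_insert.mp hv with rfl | hv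
    · exact h.1
    · exact h.2 v hv

/-- **Enough rational points over a number field**: for every `B` there are a number field
`K ⊆ ℚ̄` and `B` places other than the cusp `∞` fixed by `Gal(ℚ̄/K)`. -/
theorem exists_fixed_places (B : ℕ) : ∃ K : IntermediateField ℚ Qb, FiniteDimensional ℚ K ∧
    ∃ Pts : Finset (Place Qb (modularFunctionFieldBar N)), B ≤ Pts.card ∧
      ∀ v ∈ Pts, v ≠ PlaceInf.placeInfL Qb N ∧ ∀ σ ∈ K.fixingSubgroup,
        arithmeticGalois (modularFunctionFieldFull N) σ • v = v := by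
  classical
  have : Infinite (Place Qb (modularFunctionFieldBar N)) := (isFF1 N).infinite_place
  obtain ⟨S, hS⟩ :=
    Infinite.exists_subset_card_eq (Place Qb (modularFunctionFieldBar N)) (B + 1)
  obtain ⟨K, hK, hfix⟩ := openlyFixed_finset N (S.erase (PlaceInf.placeInfL Qb N))
  refine ⟨K, hK, S.erase (PlaceInf.placeInfL Qb N), ?_, fun v hv =>
    ⟨Finset.ne_of_mem_erase hv, fun σ hσ => hfix σ hσ v hv⟩⟩
  have := Finset.pred_card_le_card_erase (s := S) (a := PlaceInf.placeInfL Qb N)
  omega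

/-- **Good translates over a number field**: there is a number field `K₀ ⊆ ℚ̄` such that for
EVERY subgroup `U ≤ Gal(ℚ̄/K₀)` the conclusion of `exists_good_translate_J` holds. -/
theorem exists_good_translate_field (S₀ : Finset (Place Qb (modularFunctionFieldBar N))) :
    ∃ K₀ : IntermediateField ℚ Qb, FiniteDimensional ℚ K₀ ∧
    ∀ U : Subgroup GQ, U ≤ K₀.fixingSubgroup →
    ∃ C : Finset (JZero N), (∀ c ∈ C, ∀ σ ∈ U, σ • c = c) ∧
      ∀ x : JZero N, (∀ σ ∈ U, σ • x = x) →
        ∃ c ∈ C, ∃ (E : Divisor Qb (modularFunctionFieldBar N))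
        (hE : Divisor.degree
          (E - Divisor.degree E • Finsupp.single (PlaceInf.placeInfL Qb N) (1 : ℤ)) = 0),
        0 ≤ E ∧ (∀ v, E v ≤ 1) ∧ E (PlaceInf.placeInfL Qb N) = 0 ∧ (∀ v ∈ S₀, E v = 0) ∧
        Divisor.degree E = genusFF Qb (modularFunctionFieldBar N) ∧
        finrank Qb (riemannRochSpace E) = 1 ∧ RR.MD E = ⊤ ∧
        riemannRochSpace ((2 * (genusFF Qb (modularFunctionFieldBar N) : ℤ) - 1) •
          Finsupp.single (PlaceInf.placeInfL Qb N) (1 : ℤ) - E) = ⊥ ∧
        (∀ σ ∈ U, arithmeticGalois (modularFunctionFieldFull N) σ • E = E) ∧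
        Pic0.mk ⟨E - Divisor.degree E • Finsupp.single (PlaceInf.placeInfL Qb N) (1 : ℤ), hE⟩
          = x + c := by
  obtain ⟨B, hB⟩ := exists_good_translate_J N S₀
  obtain ⟨K₀, hK₀, Pts, hcard, hPts⟩ := exists_fixed_places N B
  exact ⟨K₀, hK₀, fun U hU => hB U Pts hcard fun v hv σ hσ => (hPts v hv).2 σ (hU hσ)⟩

/-! ### The vocabulary of `Ht/Defs.lean` -/

section PtVocab

open Fermat.Agent.MW Fermat.Agent.MW.Ht.Defs

/-- `cls` of `toDiv D` is `clFull D`. -/
theorem cls_toDiv (D : Pt N →₀ ℕ) : cls N (toDiv N D) = clFull N D := by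
  rw [clFull_apply]
  unfold cls
  refine congrArg Pic0.mk (Subtype.ext ?_)
  show toDiv N D - Divisor.degree (toDiv N D) • Finsupp.single (PlaceInf.placeInfL Qb N) (1 : ℤ)
    = toDiv N D - (HQ.deg D : ℤ) • Finsupp.single (pinf N) 1
  rw [degree_toDiv]
  rfl

/-- **Good translates** in the vocabulary of `Ht/Defs.lean`: effective divisors on the points
(`Pt N →₀ ℕ`), `RatU`, `clFull`. -/
theorem exists_good_translate_Pt (S₀ : Finset (Pl N)) :
    ∃ B : ℕ, ∀ (U : Subgroup GQ) (Pts : Finset (Pl N)), B ≤ Pts.card →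
    (∀ v ∈ Pts, ∀ σ ∈ U, galPl N σ v = v) →
    ∃ C : Finset (JZero N), (∀ c ∈ C, ∀ σ ∈ U, σ • c = c) ∧
      ∀ x : JZero N, (∀ σ ∈ U, σ • x = x) →
        ∃ c ∈ C, ∃ E : Pt N →₀ ℕ, E ∈ RatU N U ∧ (∀ p, E p ≤ 1) ∧
          HQ.deg E = genusFF Qb (FN N) ∧ (∀ p ∈ E.support, (p : Pl N) ∉ S₀) ∧
          finrank Qb (riemannRochSpace (toDiv N E)) = 1 ∧ RR.MD (toDiv N E) = ⊤ ∧
          riemannRochSpace ((2 * (genusFF Qb (FN N) : ℤ) - 1) •
            Finsupp.single (pinf N) (1 : ℤ) - toDiv N E) = ⊥ ∧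
          clFull N E = x + c := by
  obtain ⟨B, hB⟩ := exists_good_translate_J N S₀
  refine ⟨B, fun U Pts hcard hfix => ?_⟩
  obtain ⟨C, hC, hx⟩ := hB U Pts hcard hfix
  refine ⟨C, hC, fun x hxU => ?_⟩
  obtain ⟨c, hc, E, hE, h0, hred, hinf, hS₀, hdeg, hl, hMD, hAE, hinv, hcl⟩ := hx x hxU
  have hto : toDiv N (RepPt.ofDiv N E) = E := RepPt.toDiv_ofDiv N h0 hinf
  refine ⟨c, hc, RepPt.ofDiv N E, ?_, ?_, ?_, ?_, ?_, ?_, ?_, ?_⟩
  · intro σ hσ
    apply RepPt.toDiv_injective N
    rw [← smul_toDiv, hto]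
    exact hinv σ hσ
  · intro p
    have h1 := RepPt.toDiv_apply N (RepPt.ofDiv N E) p
    rw [hto] at h1
    have h2 := hred (p : Pl N)
    rw [h1] at h2
    exact_mod_cast h2
  · have h1 := degree_toDiv N (RepPt.ofDiv N E)
    rw [hto, hdeg] at h1
    exact_mod_cast h1.symm
  · intro p hp hpS
    have h1 := RepPt.toDiv_apply N (RepPt.ofDiv N E) p
    rw [hto, hS₀ _ hpS] at h1
    have h2 : RepPt.ofDiv N E p ≠ 0 := Finsupp.mem_support_iff.mp hp
    exact h2 (by exact_mod_cast h1.symm)
  · rw [hto]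
    exact hl
  · rw [hto]
    exact hMD
  · rw [hto]
    exact hAE
  · rw [← cls_toDiv, hto]
    exact hcl

/-- **Good translates over a number field**, in the vocabulary of `Ht/Defs.lean`: there is a
number field `K₀ ⊆ ℚ̄` such that for EVERY subgroup `U ≤ Gal(ℚ̄/K₀)` finitely many `U`-fixed
translations move every `U`-fixed class to the class of a good divisor. -/
theorem exists_good_translate_Pt_field (S₀ : Finset (Pl N)) :
    ∃ K₀ : IntermediateField ℚ Qb, FiniteDimensional ℚ K₀ ∧
    ∀ U : Subgroup GQ, U ≤ K₀.fixingSubgroup →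
    ∃ C : Finset (JZero N), (∀ c ∈ C, ∀ σ ∈ U, σ • c = c) ∧
      ∀ x : JZero N, (∀ σ ∈ U, σ • x = x) →
        ∃ c ∈ C, ∃ E : Pt N →₀ ℕ, E ∈ RatU N U ∧ (∀ p, E p ≤ 1) ∧
          HQ.deg E = genusFF Qb (FN N) ∧ (∀ p ∈ E.support, (p : Pl N) ∉ S₀) ∧
          finrank Qb (riemannRochSpace (toDiv N E)) = 1 ∧ RR.MD (toDiv N E) = ⊤ ∧
          riemannRochSpace ((2 * (genusFF Qb (FN N) : ℤ) - 1) •
            Finsupp.single (pinf N) (1 : ℤ) - toDiv N E) = ⊥ ∧
          clFull N E = x + c := by
  obtain ⟨B, hB⟩ := exists_good_translate_Pt N S₀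
  obtain ⟨K₀, hK₀, Pts, hcard, hPts⟩ := exists_fixed_places N B
  exact ⟨K₀, hK₀, fun U hU => hB U Pts hcard fun v hv σ hσ => (hPts v hv).2 σ (hU hσ)⟩

end PtVocab

end modular

end Fermat.Agent.MW.Ht.GoodTranslateJ
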