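/-
MW / HT (S17), good translates for `J₀(N)`, PREDICATE-GENERIC transport and the `t`-INJECTIVE
instance (helper78).  Companion of `MW/Ht/GoodTranslateJ.lean`.

`F = ℚ̄·F_N`, `∞` the cusp place, `g` the genus, `ρ σ` the arithmetic Galois action,
`cls D = [D - deg D · ∞] ∈ J₀(N)`.

* `exists_good_translate_J_of G` : let `G` be ANY property of divisors implying
  `0 ≤ E`, `deg E = g`, `dim L(E) = 1`, and suppose a generic producer is given: for every `X` of
  degree `0` and every set `Pts` of at least `B` places there are `Q_1 … Q_g, P, P' ∈ Pts` and `E`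
  with `G E` and `E ~ X + ∑ Q_i + P - P'`.  Then for every subgroup `U ≤ G_ℚ` and every set `Pts`
  of at least `B` places fixed by `U`, finitely many `U`-fixed classes `c` have the property:
  every `U`-fixed class `x` has a translate `x + c = cls E` with `G E` and `E` `U`-invariant.
* `exists_good_translate_field_of G` : hence a number field `K₀` such that this holds for every
  `U ≤ Gal(ℚ̄/K₀)`.
* `exists_good_translate_inj_field t S₀` : the instance for helper50's
  `GoodTranslateInjC.exists_good_translate_inj_of_coprime`: `E` effective, reduced, of degree `g`,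
  off `∞` and `S₀`, `dim L(E) = 1`, `H¹(E) = 0`, `L((2g-1)∞ - E) = 0` and **`t` injective on the
  support of `E`** (for `t` regular off `∞`, transcendental, `[F : ℚ̄(t)]` coprime to `g + 1`).
* `exists_good_translate_inj_field_ord` : the same with the hypotheses on `t` in the form
  "pole of order `m > 0` at `∞`".
-/
import Mathlib
import Fermat.Agent.MW.Ht.GoodTranslateJ
import Fermat.Agent.MW.Ht.GoodTranslateInjC
import Fermat.Agent.MW.Ht.RamCount

set_option autoImplicit false
set_option linter.style.haveILetI false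

noncomputable section

namespace Fermat.Agent.MW.Ht.GoodTranslateJInj

open ModularCurve AlgebraicCurve Module
open Fermat.Agent.Lib.FF Fermat.Agent.MW.HtM
open Fermat.Agent.MW.Ht.GoodTranslateJ
open scoped IntermediateField

variable (N : ℕ) [NeZero N]

local notation "Qb" => AlgebraicClosure ℚ
local notation "GQ" => (AlgebraicClosure ℚ ≃ₐ[ℚ] AlgebraicClosure ℚ)

/-- **Predicate-generic transport of good translates to `J₀(N)`.** -/
theorem exists_good_translate_J_of (G : Divisor Qb (modularFunctionFieldBar N) → Prop)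
    (hG : ∀ E, G E → 0 ≤ E ∧ Divisor.degree E = genusFF Qb (modularFunctionFieldBar N) ∧
      finrank Qb (riemannRochSpace E) = 1)
    (B : ℕ)
    (hgen : ∀ X : Divisor Qb (modularFunctionFieldBar N), Divisor.degree X = 0 →
      ∀ Pts : Finset (Place Qb (modularFunctionFieldBar N)), B ≤ Pts.card →
      ∃ (Q : Fin (genusFF Qb (modularFunctionFieldBar N)) → Place Qb (modularFunctionFieldBar N))
        (P P' : Place Qb (modularFunctionFieldBar N))
        (E : Divisor Qb (modularFunctionFieldBar N)),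
        (∀ i, Q i ∈ Pts) ∧ P ∈ Pts ∧ P' ∈ Pts ∧ G E ∧
        E - (X + ∑ i, Finsupp.single (Q i) (1 : ℤ) + Finsupp.single P (1 : ℤ)
          - Finsupp.single P' (1 : ℤ))
          ∈ Divisor.principal (K := Qb) (F := ↥(modularFunctionFieldBar N)))
    (U : Subgroup GQ) (Pts : Finset (Place Qb (modularFunctionFieldBar N)))
    (hB : B ≤ Pts.card)
    (hfix : ∀ v ∈ Pts, ∀ σ ∈ U, arithmeticGalois (modularFunctionFieldFull N) σ • v = v) :
    ∃ C : Finset (JZero N), (∀ c ∈ C, ∀ σ ∈ U, σ • c = c) ∧
      ∀ x : JZero N, (∀ σ ∈ U, σ • x = x) →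
        ∃ c ∈ C, ∃ E : Divisor Qb (modularFunctionFieldBar N), G E ∧
          (∀ σ ∈ U, arithmeticGalois (modularFunctionFieldFull N) σ • E = E) ∧
          cls N E = x + c := by
  classical
  have h := isFF1 N
  -- the translation divisors
  let cdiv : (Fin (genusFF Qb (modularFunctionFieldBar N)) →
      Place Qb (modularFunctionFieldBar N)) × Place Qb (modularFunctionFieldBar N)
        × Place Qb (modularFunctionFieldBar N) →
      Divisor Qb (modularFunctionFieldBar N) := fun t =>
    ∑ i, Finsupp.single (t.1 i) (1 : ℤ) + Finsupp.single t.2.1 (1 : ℤ)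
      - Finsupp.single t.2.2 (1 : ℤ)
  have hfixc : ∀ t ∈ (Fintype.piFinset
      fun _ : Fin (genusFF Qb (modularFunctionFieldBar N)) => Pts) ×ˢ Pts ×ˢ Pts,
      ∀ σ ∈ U, σ • cls N (cdiv t) = cls N (cdiv t) := by
    rintro ⟨T, P, P'⟩ ht σ hσ
    rw [Finset.mem_product, Finset.mem_product, Fintype.mem_piFinset] at ht
    obtain ⟨hT, hP, hP'⟩ := ht
    rw [smul_cls]
    congr 1
    simp only [cdiv, smul_sub, smul_add, Finset.smul_sum, SemilinearAut.smul_single]
    rw [hfix _ hP σ hσ, hfix _ hP' σ hσ]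
    congr 2
    exact Finset.sum_congr rfl fun i _ => by rw [hfix _ (hT i) σ hσ]
  refine ⟨((Fintype.piFinset
    fun _ : Fin (genusFF Qb (modularFunctionFieldBar N)) => Pts) ×ˢ Pts ×ˢ Pts).image
    (fun t => cls N (cdiv t)), ?_, ?_⟩
  · intro c hc σ hσ
    obtain ⟨t, ht, rfl⟩ := Finset.mem_image.mp hc
    exact hfixc t ht σ hσ
  · intro x hx
    obtain ⟨D₀, rfl⟩ := Pic0.mk_surjective x
    obtain ⟨T, P, P', E, hT, hP, hP', hGE, hlin⟩ :=
      hgen (D₀ : Divisor Qb (modularFunctionFieldBar N)) D₀.2 Pts hB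
    obtain ⟨hnn, hdeg, hl⟩ := hG E hGE
    have hmem : (T, P, P') ∈ (Fintype.piFinset
        fun _ : Fin (genusFF Qb (modularFunctionFieldBar N)) => Pts) ×ˢ Pts ×ˢ Pts := by
      rw [Finset.mem_product, Finset.mem_product, Fintype.mem_piFinset]
      exact ⟨hT, hP, hP'⟩
    have hdegC : Divisor.degree (cdiv (T, P, P'))
        = (genusFF Qb (modularFunctionFieldBar N) : ℤ) := by
      have h1 : ∀ v : Place Qb (modularFunctionFieldBar N),
          Divisor.degree (Finsupp.single v (1 : ℤ) : Divisor Qb (modularFunctionFieldBar N))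
            = 1 := fun v => by
        rw [Divisor.degree_single, h.deg_eq_one]
        simp
      simp only [cdiv]
      rw [map_sub, map_add, map_sum, h1, h1, Finset.sum_congr rfl (fun i _ => h1 (T i))]
      simp
    have hlin' : E - ((D₀ : Divisor Qb (modularFunctionFieldBar N)) + cdiv (T, P, P'))
        ∈ Divisor.principal (K := Qb) (F := ↥(modularFunctionFieldBar N)) := by
      have e : (D₀ : Divisor Qb (modularFunctionFieldBar N)) + cdiv (T, P, P')
          = (D₀ : Divisor Qb (modularFunctionFieldBar N))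
            + ∑ i, Finsupp.single (T i) (1 : ℤ) + Finsupp.single P (1 : ℤ)
            - Finsupp.single P' (1 : ℤ) := by
        ext v
        simp only [cdiv, Finsupp.sub_apply, Finsupp.add_apply]
        ring
      rw [e]
      exact hlin
    have hcls : cls N E = Pic0.mk D₀ + cls N (cdiv (T, P, P')) :=
      cls_eq_add_of_principal N _ _ E D₀.2 (hdegC.trans hdeg.symm) hlin'
    refine ⟨cls N (cdiv (T, P, P')), Finset.mem_image.mpr ⟨(T, P, P'), hmem, rfl⟩, E, hGE,
      ?_, hcls⟩
    intro σ hσ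
    have h0 : σ • cls N E = cls N E :=
      smul_eq_of_add σ hcls (hx σ hσ) (hfixc _ hmem σ hσ)
    exact smul_eq_of_cls_eq N _ E hnn hl (h0.symm.trans (smul_cls N σ E))

/-- **Predicate-generic good translates over a number field.** -/
theorem exists_good_translate_field_of (G : Divisor Qb (modularFunctionFieldBar N) → Prop)
    (hG : ∀ E, G E → 0 ≤ E ∧ Divisor.degree E = genusFF Qb (modularFunctionFieldBar N) ∧
      finrank Qb (riemannRochSpace E) = 1)
    (B : ℕ)
    (hgen : ∀ X : Divisor Qb (modularFunctionFieldBar N), Divisor.degree X = 0 →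
      ∀ Pts : Finset (Place Qb (modularFunctionFieldBar N)), B ≤ Pts.card →
      ∃ (Q : Fin (genusFF Qb (modularFunctionFieldBar N)) → Place Qb (modularFunctionFieldBar N))
        (P P' : Place Qb (modularFunctionFieldBar N))
        (E : Divisor Qb (modularFunctionFieldBar N)),
        (∀ i, Q i ∈ Pts) ∧ P ∈ Pts ∧ P' ∈ Pts ∧ G E ∧
        E - (X + ∑ i, Finsupp.single (Q i) (1 : ℤ) + Finsupp.single P (1 : ℤ)
          - Finsupp.single P' (1 : ℤ))
          ∈ Divisor.principal (K := Qb) (F := ↥(modularFunctionFieldBar N))) :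
    ∃ K₀ : IntermediateField ℚ Qb, FiniteDimensional ℚ K₀ ∧
    ∀ U : Subgroup GQ, U ≤ K₀.fixingSubgroup →
    ∃ C : Finset (JZero N), (∀ c ∈ C, ∀ σ ∈ U, σ • c = c) ∧
      ∀ x : JZero N, (∀ σ ∈ U, σ • x = x) →
        ∃ c ∈ C, ∃ E : Divisor Qb (modularFunctionFieldBar N), G E ∧
          (∀ σ ∈ U, arithmeticGalois (modularFunctionFieldFull N) σ • E = E) ∧
          cls N E = x + c := by
  obtain ⟨K₀, hK₀, Pts, hcard, hPts⟩ := exists_fixed_places N B
  exact ⟨K₀, hK₀, fun U hU => exists_good_translate_J_of N G hG B hgen U Pts hcard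
    fun v hv σ hσ => (hPts v hv).2 σ (hU hσ)⟩

/-- **Good translates with `t` injective on the support, over a number field.**  `t` regular off
`∞`, transcendental, `[F : ℚ̄(t)]` coprime to `g + 1`; `S₀` a finite set of places to avoid. -/
theorem exists_good_translate_inj_field (t : modularFunctionFieldBar N)
    (ht : ∀ P : Place Qb (modularFunctionFieldBar N), P ≠ PlaceInf.placeInfL Qb N → 0 ≤ P.ord t)
    (htt : Transcendental Qb t)
    (hco : Nat.Coprime (finrank Qb⟮t⟯ (modularFunctionFieldBar N))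
      (genusFF Qb (modularFunctionFieldBar N) + 1))
    (S₀ : Finset (Place Qb (modularFunctionFieldBar N))) :
    ∃ K₀ : IntermediateField ℚ Qb, FiniteDimensional ℚ K₀ ∧
    ∀ U : Subgroup GQ, U ≤ K₀.fixingSubgroup →
    ∃ C : Finset (JZero N), (∀ c ∈ C, ∀ σ ∈ U, σ • c = c) ∧
      ∀ x : JZero N, (∀ σ ∈ U, σ • x = x) →
        ∃ c ∈ C, ∃ E : Divisor Qb (modularFunctionFieldBar N),
          (0 ≤ E ∧ (∀ v, E v ≤ 1) ∧ E (PlaceInf.placeInfL Qb N) = 0 ∧ (∀ v ∈ S₀, E v = 0) ∧
            Divisor.degree E = genusFF Qb (modularFunctionFieldBar N) ∧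
            finrank Qb (riemannRochSpace E) = 1 ∧ RR.MD E = ⊤ ∧
            riemannRochSpace ((2 * (genusFF Qb (modularFunctionFieldBar N) : ℤ) - 1) •
              Finsupp.single (PlaceInf.placeInfL Qb N) (1 : ℤ) - E) = ⊥ ∧
            (∀ v w, E v = 1 → E w = 1 → pval v t = pval w t → v = w)) ∧
          (∀ σ ∈ U, arithmeticGalois (modularFunctionFieldFull N) σ • E = E) ∧
          cls N E = x + c := by
  have h := isFF1 N
  haveI := h.finiteDimensional
  haveI : FiniteDimensional Qb⟮t⟯ (modularFunctionFieldBar N) :=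
    Fermat.Agent.S24.finiteDimensional_of_transcendental (Fermat.Agent.Lib.Red.xL Qb N) htt
  refine exists_good_translate_field_of N _ (fun E hE => ⟨hE.1, hE.2.2.2.2.1, hE.2.2.2.2.2.1⟩)
    ((4 * genusFF Qb (modularFunctionFieldBar N) + 3 + S₀.card
      + (genusFF Qb (modularFunctionFieldBar N)
          * (finrank Qb⟮t⟯ (modularFunctionFieldBar N) - 1))
        * (genusFF Qb (modularFunctionFieldBar N) + 1))
      * (genusFF Qb (modularFunctionFieldBar N) + 1) + 1) (fun X hX Pts hPts => ?_)
  obtain ⟨Q, P, P', E, hQ, hP, hP', h1, h2, h3, h4, h5, h6, h7, h8, h9, hlin⟩ :=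
    GoodTranslateInjC.exists_good_translate_inj_of_coprime (K := Qb)
      (F := ↥(modularFunctionFieldBar N)) (Fermat.Agent.Lib.Red.xL Qb N) h.transcendental
      (PlaceInf.placeInfL Qb N) t ht htt hco X hX S₀ Pts (by omega)
  exact ⟨Q, P, P', E, hQ, hP, hP', ⟨h1, h2, h3, h4, h5, h6, h7, h8, h9⟩, hlin⟩

/-- The same, for `t` with a pole of order `m > 0` at `∞` (hence transcendental). -/
theorem exists_good_translate_inj_field_ord (t : modularFunctionFieldBar N) (m : ℕ) (hm : 0 < m)
    (ht : ∀ P : Place Qb (modularFunctionFieldBar N), P ≠ PlaceInf.placeInfL Qb N → 0 ≤ P.ord t)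
    (hinf : (PlaceInf.placeInfL Qb N).ord t = -(m : ℤ))
    (hco : Nat.Coprime (finrank Qb⟮t⟯ (modularFunctionFieldBar N))
      (genusFF Qb (modularFunctionFieldBar N) + 1))
    (S₀ : Finset (Place Qb (modularFunctionFieldBar N))) :
    ∃ K₀ : IntermediateField ℚ Qb, FiniteDimensional ℚ K₀ ∧
    ∀ U : Subgroup GQ, U ≤ K₀.fixingSubgroup →
    ∃ C : Finset (JZero N), (∀ c ∈ C, ∀ σ ∈ U, σ • c = c) ∧
      ∀ x : JZero N, (∀ σ ∈ U, σ • x = x) →
        ∃ c ∈ C, ∃ E : Divisor Qb (modularFunctionFieldBar N),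
          (0 ≤ E ∧ (∀ v, E v ≤ 1) ∧ E (PlaceInf.placeInfL Qb N) = 0 ∧ (∀ v ∈ S₀, E v = 0) ∧
            Divisor.degree E = genusFF Qb (modularFunctionFieldBar N) ∧
            finrank Qb (riemannRochSpace E) = 1 ∧ RR.MD E = ⊤ ∧
            riemannRochSpace ((2 * (genusFF Qb (modularFunctionFieldBar N) : ℤ) - 1) •
              Finsupp.single (PlaceInf.placeInfL Qb N) (1 : ℤ) - E) = ⊥ ∧
            (∀ v w, E v = 1 → E w = 1 → pval v t = pval w t → v = w)) ∧
          (∀ σ ∈ U, arithmeticGalois (modularFunctionFieldFull N) σ • E = E) ∧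
          cls N E = x + c :=
  exists_good_translate_inj_field N t ht
    (RamCount.transcendental_of_ord_neg (PlaceInf.placeInfL Qb N) (by rw [hinf]; omega)) hco S₀

end Fermat.Agent.MW.Ht.GoodTranslateJInj
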