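/-
MW / heights (HT-Q, field `north` of `HQ.HeightDatum`) — helper17.

**Northcott for invariant effective divisors**, in the one-extension-per-place vocabulary of
`MW/Ht/AbsQb.lean` (no places of number fields, no Mathlib heights):

* `hplus_mul_le`, `hplus_add_le`, `hplus_neg` : the sum `hplus a = ∑_v log⁺ |a|_v` of the local
  `log⁺` is sub-multiplicative and sub-additive up to `log 2`;
* `hplus_coeff_prod_le` : the coefficients of `∏_{b ∈ S} (X - b)` have bounded `hplus`;
* `finite_of_stable_finset` : **Northcott for bounded degree** — only finitely many algebraic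
  numbers lie in a Galois-stable finite set of at most `n` numbers of `hplus ≤ T`;
* `finite_divisors_of_ht_le` : for points `P` with an action of `GQ`, a `GQ`-equivariant
  function `tv : P → Qb` with finite fibres (the value of a rational function `t`), a subgroup
  `U` with a finite set `Sg` of coset representatives and a point height `η ≥ 0` dominating
  `∑_{s ∈ Sg} hplus (tv (s • p))` up to an affine-linear comparison: only finitely many
  `U`-invariant effective divisors of degree `≤ d` have `HQ.ht η E ≤ T`;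
* `north_of` : the literal shape of the field `north`.
-/
import Mathlib
import Fermat.Agent.Lib.GalQbar
import Fermat.Agent.MW.Ht.AbsQb
import Fermat.Agent.MW.HQ.Defs

set_option autoImplicit false

noncomputable section

namespace Fermat.Agent.MW.Ht.North

open Fermat.Agent.MW.Ht.AbsQb Polynomial

local notation "Qb" => AlgebraicClosure ℚ
local notation "GQ" => (AlgebraicClosure ℚ ≃ₐ[ℚ] AlgebraicClosure ℚ)

/-! ### `hplus` of products, sums, negatives -/

theorem max_one_mul_le {a b : ℝ} (hb : 0 ≤ b) :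
    max 1 (a * b) ≤ max 1 a * max 1 b := by
  refine max_le ?_ ?_
  · exact one_le_mul_of_one_le_of_one_le (le_max_left _ _) (le_max_left _ _)
  · exact mul_le_mul (le_max_right _ _) (le_max_right _ _) hb
      (le_trans zero_le_one (le_max_left _ _))

theorem logPlus_mul_le (v : Pla) (x y : Qb) :
    Real.log (max 1 (abv v (x * y))) ≤
      Real.log (max 1 (abv v x)) + Real.log (max 1 (abv v y)) := by
  have h1 : (0 : ℝ) < max 1 (abv v x) := lt_of_lt_of_le one_pos (le_max_left _ _)
  have h2 : (0 : ℝ) < max 1 (abv v y) := lt_of_lt_of_le one_pos (le_max_left _ _)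
  rw [← Real.log_mul h1.ne' h2.ne']
  refine Real.log_le_log (lt_of_lt_of_le one_pos (le_max_left _ _)) ?_
  rw [map_mul]
  exact max_one_mul_le ((abv v).nonneg y)

theorem hplus_mul_le (x y : Qb) : hplus (x * y) ≤ hplus x + hplus y := by
  unfold hplus
  rw [← finsum_add_distrib (hasFiniteSupport_logPlus x) (hasFiniteSupport_logPlus y)]
  refine finsum_le_finsum' (hasFiniteSupport_logPlus _) ?_ fun v => logPlus_mul_le v x y
  exact (hasFiniteSupport_logPlus x).add (hasFiniteSupport_logPlus y)

theorem hplus_neg (x : Qb) : hplus (-x) = hplus x := by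
  unfold hplus
  simp only [AbsoluteValue.map_neg]

theorem hplus_one : hplus (1 : Qb) = 0 := by
  unfold hplus
  refine finsum_eq_zero_of_forall_eq_zero fun v => ?_
  rw [map_one, max_self, Real.log_one]

/-- The archimedean defect: `log 2` at the archimedean place, `0` elsewhere. -/
def archDefect (v : Pla) : ℝ := if v = none then Real.log 2 else 0

theorem archDefect_nonneg (v : Pla) : 0 ≤ archDefect v := by
  unfold archDefect
  split_ifs
  · exact Real.log_nonneg (by norm_num)
  · exact le_rfl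

theorem hasFiniteSupport_archDefect : Function.HasFiniteSupport archDefect := by
  refine (Set.finite_singleton (none : Pla)).subset ?_
  intro v hv
  simp only [Function.mem_support] at hv
  by_contra h
  exact hv (if_neg h)

theorem finsum_archDefect : ∑ᶠ v : Pla, archDefect v = Real.log 2 := by
  rw [finsum_eq_single archDefect none fun v hv => if_neg hv]
  exact if_pos rfl

theorem logPlus_add_le (v : Pla) (x y : Qb) :
    Real.log (max 1 (abv v (x + y))) ≤
      archDefect v + (Real.log (max 1 (abv v x)) + Real.log (max 1 (abv v y))) := by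
  have h1 : (1 : ℝ) ≤ max 1 (abv v x) := le_max_left _ _
  have h2 : (1 : ℝ) ≤ max 1 (abv v y) := le_max_left _ _
  have hx : abv v x ≤ max 1 (abv v x) := le_max_right _ _
  have hy : abv v y ≤ max 1 (abv v y) := le_max_right _ _
  have h12 : (1 : ℝ) ≤ max 1 (abv v x) * max 1 (abv v y) :=
    one_le_mul_of_one_le_of_one_le h1 h2
  have hpos : (0 : ℝ) < max 1 (abv v (x + y)) := lt_of_lt_of_le one_pos (le_max_left _ _)
  rw [← Real.log_mul (by positivity) (by positivity)]
  rcases v with _ | p
  · have hd : archDefect (none : Pla) = Real.log 2 := if_pos rfl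
    rw [hd, ← Real.log_mul (by norm_num) (by positivity)]
    refine Real.log_le_log hpos (max_le (by linarith) ?_)
    calc abv none (x + y) ≤ abv none x + abv none y := (abv none).add_le x y
      _ ≤ max 1 (abv none x) * max 1 (abv none y) + max 1 (abv none x) * max 1 (abv none y) := by
          refine add_le_add ?_ ?_
          · exact hx.trans (le_mul_of_one_le_right (by positivity) h2)
          · exact hy.trans (le_mul_of_one_le_left (by positivity) h1)
      _ = 2 * (max 1 (abv none x) * max 1 (abv none y)) := by ring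
  · have hd : archDefect (some p : Pla) = 0 := if_neg (by simp)
    rw [hd, zero_add]
    refine Real.log_le_log hpos (max_le h12 ?_)
    refine (abv_some_add_le p x y).trans (max_le ?_ ?_)
    · exact hx.trans (le_mul_of_one_le_right (by positivity) h2)
    · exact hy.trans (le_mul_of_one_le_left (by positivity) h1)

theorem hplus_add_le (x y : Qb) : hplus (x + y) ≤ Real.log 2 + (hplus x + hplus y) := by
  have hxy : Function.HasFiniteSupport
      (fun v : Pla => Real.log (max 1 (abv v x)) + Real.log (max 1 (abv v y))) :=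
    (hasFiniteSupport_logPlus x).add (hasFiniteSupport_logPlus y)
  have hall : Function.HasFiniteSupport (fun v : Pla => archDefect v +
      (Real.log (max 1 (abv v x)) + Real.log (max 1 (abv v y)))) :=
    hasFiniteSupport_archDefect.add hxy
  have e1 : ∑ᶠ v : Pla, (archDefect v +
      (Real.log (max 1 (abv v x)) + Real.log (max 1 (abv v y))))
      = ∑ᶠ v : Pla, archDefect v +
        ∑ᶠ v : Pla, (Real.log (max 1 (abv v x)) + Real.log (max 1 (abv v y))) :=
    finsum_add_distrib hasFiniteSupport_archDefect hxy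
  have e2 : ∑ᶠ v : Pla, (Real.log (max 1 (abv v x)) + Real.log (max 1 (abv v y)))
      = hplus x + hplus y :=
    finsum_add_distrib (hasFiniteSupport_logPlus x) (hasFiniteSupport_logPlus y)
  calc hplus (x + y) ≤ ∑ᶠ v : Pla, (archDefect v +
        (Real.log (max 1 (abv v x)) + Real.log (max 1 (abv v y)))) :=
        finsum_le_finsum' (hasFiniteSupport_logPlus _) hall fun v => logPlus_add_le v x y
    _ = Real.log 2 + (hplus x + hplus y) := by
        rw [e1, e2, finsum_archDefect]

/-! ### Coefficients of `∏ (X - b)` -/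

/-- A crude bound for the `hplus` of the coefficients of a product of `m` linear factors with
roots of `hplus ≤ T`. -/
def Bd (T : ℝ) : ℕ → ℝ
  | 0 => 0
  | (m + 1) => Real.log 2 + T + 2 * Bd T m

theorem Bd_nonneg {T : ℝ} (hT : 0 ≤ T) : ∀ m, 0 ≤ Bd T m
  | 0 => le_rfl
  | (m + 1) => by
      have h := Bd_nonneg hT m
      have h2 : (0 : ℝ) ≤ Real.log 2 := Real.log_nonneg (by norm_num)
      show 0 ≤ Real.log 2 + T + 2 * Bd T m
      linarith

theorem Bd_mono {T : ℝ} (hT : 0 ≤ T) : Monotone (Bd T) := by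
  refine monotone_nat_of_le_succ fun m => ?_
  have h := Bd_nonneg hT m
  have h2 : (0 : ℝ) ≤ Real.log 2 := Real.log_nonneg (by norm_num)
  show Bd T m ≤ Real.log 2 + T + 2 * Bd T m
  linarith

theorem hplus_coeff_prod_le {T : ℝ} (hT : 0 ≤ T) (S : Finset Qb) (hS : ∀ b ∈ S, hplus b ≤ T)
    (k : ℕ) : hplus ((∏ b ∈ S, (X - C b)).coeff k) ≤ Bd T S.card := by
  classical
  induction S using Finset.induction_on generalizing k with
  | empty =>
    rw [Finset.prod_empty, Finset.card_empty, coeff_one]
    split_ifs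
    · rw [hplus_one]; exact le_rfl
    · rw [hplus_zero]; exact le_rfl
  | insert b S hb ih =>
    have ih' := fun k => ih (fun c hc => hS c (Finset.mem_insert_of_mem hc)) k
    have hbT : hplus b ≤ T := hS b (Finset.mem_insert_self b S)
    have h2 : (0 : ℝ) ≤ Real.log 2 := Real.log_nonneg (by norm_num)
    have hB := Bd_nonneg hT S.card
    rw [Finset.prod_insert hb, Finset.card_insert_of_notMem hb]
    show _ ≤ Real.log 2 + T + 2 * Bd T S.card
    set f : Qb[X] := ∏ c ∈ S, (X - C c) with hf
    rcases k with _ | k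
    · rw [mul_coeff_zero]
      have h0 : (X - C b : Qb[X]).coeff 0 = -b := by simp
      rw [h0, neg_mul, hplus_neg]
      refine (hplus_mul_le b (f.coeff 0)).trans ?_
      have := ih' 0
      linarith
    · rw [coeff_X_sub_C_mul, sub_eq_add_neg]
      have h3 := hplus_add_le (f.coeff k) (-(b * f.coeff (k + 1)))
      rw [hplus_neg] at h3
      have h4 := hplus_mul_le b (f.coeff (k + 1))
      have h5 := ih' k
      have h6 := ih' (k + 1)
      refine h3.trans ?_
      linarith

/-- The coefficients of `∏_{b ∈ S} (X - b)` are rational if `S` is Galois-stable. -/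
theorem exists_rat_coeff_prod (S : Finset Qb) (hS : ∀ σ : GQ, ∀ b ∈ S, σ b ∈ S) (k : ℕ) :
    ∃ q : ℚ, (q : Qb) = (∏ b ∈ S, (X - C b)).coeff k := by
  classical
  refine Fermat.Agent.Lib.GalQbar.exists_ratCast_of_fixed _ fun σ => ?_
  have himg : S.image (fun b => σ b) = S := by
    refine Finset.eq_of_subset_of_card_le ?_ ?_
    · intro c hc
      obtain ⟨b, hb, rfl⟩ := Finset.mem_image.mp hc
      exact hS σ b hb
    · rw [Finset.card_image_of_injective _ σ.injective]
  have hmap : (∏ b ∈ S, (X - C b)).map (σ : Qb →+* Qb) = ∏ b ∈ S, (X - C b) := by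
    rw [Polynomial.map_prod]
    conv_rhs => rw [← himg]
    rw [Finset.prod_image fun x _ y _ h => σ.injective h]
    refine Finset.prod_congr rfl fun b _ => ?_
    rw [Polynomial.map_sub, map_X, map_C]
    rfl
  have h1 : σ ((∏ b ∈ S, (X - C b)).coeff k)
      = ((∏ b ∈ S, (X - C b)).map (σ : Qb →+* Qb)).coeff k := by
    rw [coeff_map]; rfl
  rw [h1, hmap]

/-- **Northcott for bounded degree** (one fixed extension of every place): only finitely many
algebraic numbers lie in a Galois-stable finite set of at most `n` numbers of `hplus ≤ T`. -/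
theorem finite_of_stable_finset (n : ℕ) (T : ℝ) :
    {a : Qb | ∃ S : Finset Qb, S.card ≤ n ∧ a ∈ S ∧ (∀ σ : GQ, ∀ b ∈ S, σ b ∈ S) ∧
      ∀ b ∈ S, hplus b ≤ T}.Finite := by
  classical
  set T' : ℝ := max T 0 with hT'
  have hT0 : 0 ≤ T' := le_max_right _ _
  have hfinU : {c : ℚ | hplus (c : Qb) ≤ Bd T' n}.Finite := finite_rat_hplus_le _
  refine (Polynomial.bUnion_roots_finite (algebraMap ℚ Qb) n hfinU).subset ?_
  rintro a ⟨S, hcard, haS, hstab, hbd⟩
  set f : Qb[X] := ∏ b ∈ S, (X - C b) with hf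
  have hlift : f ∈ Polynomial.lifts (algebraMap ℚ Qb) := by
    rw [Polynomial.lifts_iff_coeff_lifts]
    intro k
    obtain ⟨q, hq⟩ := exists_rat_coeff_prod S hstab k
    exact ⟨q, by rw [eq_ratCast]; exact hq⟩
  obtain ⟨g, hg, hgdeg⟩ := Polynomial.exists_natDegree_eq_of_mem_lifts hlift
  have hfmonic : f.Monic := monic_prod_of_monic _ _ fun b _ => monic_X_sub_C b
  have hfdeg : f.natDegree = S.card := by
    rw [hf, natDegree_prod_of_monic _ _ fun b _ => monic_X_sub_C b]
    simp
  have hroot : f.IsRoot a := by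
    rw [IsRoot.def, hf, eval_prod]
    exact Finset.prod_eq_zero haS (by simp)
  simp only [Set.mem_iUnion, Finset.mem_coe, Multiset.mem_toFinset]
  refine ⟨g, ⟨?_, fun i => ?_⟩, ?_⟩
  · rw [hgdeg, hfdeg]; exact hcard
  · show hplus ((g.coeff i : ℚ) : Qb) ≤ Bd T' n
    have h1 : ((g.coeff i : ℚ) : Qb) = f.coeff i := by
      rw [← hg, coeff_map, eq_ratCast]
    rw [h1]
    exact (hplus_coeff_prod_le hT0 S (fun b hb => (hbd b hb).trans (le_max_left _ _)) i).trans
      (Bd_mono hT0 hcard)
  · rw [hg]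
    exact (mem_roots hfmonic.ne_zero).mpr hroot

/-! ### Northcott for invariant effective divisors -/

section Divisors

variable {P : Type*}

/-- **Northcott for invariant effective divisors** (explicit action).  `act` is an action of
`GQ` on the points, `tv` a `GQ`-equivariant function with finite fibres, `Sg` a set of
representatives of the left cosets of `U`, and `η ≥ 0` a point height dominating
`∑_{s ∈ Sg} hplus (tv (s • p))` up to an affine-linear comparison. -/
theorem finite_divisors_of_ht_le_act (act : GQ → P → P)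
    (hact1 : ∀ p, act 1 p = p) (hact : ∀ g h p, act (g * h) p = act g (act h p))
    (tv : P → Qb) (htv : ∀ (σ : GQ) (p : P), tv (act σ p) = σ (tv p))
    (hfib : ∀ c : Qb, {p | tv p = c}.Finite)
    (U : Subgroup GQ) (Sg : Finset GQ) (hSg : ∀ g : GQ, ∃ s ∈ Sg, s⁻¹ * g ∈ U)
    (η : P → ℝ) (hη0 : ∀ p, 0 ≤ η p) (c c' : ℝ) (hc : 0 ≤ c)
    (hη : ∀ p, ∑ s ∈ Sg, hplus (tv (act s p)) ≤ c * η p + c') (d : ℕ) (T : ℝ) :
    {E : P →₀ ℕ | (∀ u ∈ U, ∀ p, E (act u p) = E p) ∧ HQ.deg E ≤ d ∧ HQ.ht η E ≤ T}.Finite := by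
  classical
  -- the finite set of possible values and points
  have hA := finite_of_stable_finset (Sg.card * d) (c * T + c')
  set A : Set Qb := {a : Qb | ∃ S : Finset Qb, S.card ≤ Sg.card * d ∧ a ∈ S ∧
      (∀ σ : GQ, ∀ b ∈ S, σ b ∈ S) ∧ ∀ b ∈ S, hplus b ≤ c * T + c'} with hAdef
  have hPts : {p : P | tv p ∈ A}.Finite := by
    have h : {p : P | tv p ∈ A} = ⋃ a ∈ A, {p | tv p = a} := by
      ext p
      simp
    rw [h]
    exact hA.biUnion fun a _ => hfib a
  set D₀ : P →₀ ℕ := ∑ p ∈ hPts.toFinset, Finsupp.single p d with hD₀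
  have hD₀apply : ∀ p, tv p ∈ A → D₀ p = d := by
    intro p hp
    rw [hD₀, Finsupp.finsetSum_apply]
    simp only [Finsupp.single_apply]
    rw [Finset.sum_ite_eq' hPts.toFinset p (fun _ => d)]
    rw [if_pos]
    exact (Set.Finite.mem_toFinset hPts).mpr hp
  refine (Set.finite_Icc (0 : P →₀ ℕ) D₀).subset ?_
  rintro E ⟨hinv, hdeg, hht⟩
  refine ⟨fun p => Nat.zero_le _, fun p => ?_⟩
  by_cases hp : p ∈ E.support
  swap
  · rw [Finsupp.notMem_support_iff.mp hp]; exact Nat.zero_le _
  -- `E p ≤ deg E ≤ d`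
  have hEp : E p ≤ d := by
    refine le_trans ?_ hdeg
    unfold HQ.deg Finsupp.sum
    exact Finset.single_le_sum (f := fun q => E q) (fun q _ => Nat.zero_le _) hp
  -- the support has at most `d` points
  have hcardE : E.support.card ≤ d := by
    refine le_trans ?_ hdeg
    unfold HQ.deg Finsupp.sum
    calc E.support.card = ∑ _q ∈ E.support, 1 := by simp
      _ ≤ ∑ q ∈ E.support, E q := Finset.sum_le_sum fun q hq =>
          Nat.one_le_iff_ne_zero.mpr (Finsupp.mem_support_iff.mp hq)
  -- every point of the support has small height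
  have hηle : ∀ q ∈ E.support, η q ≤ T := by
    intro q hq
    have h1 : (E q : ℝ) * η q ≤ HQ.ht η E := by
      unfold HQ.ht Finsupp.sum
      exact Finset.single_le_sum (f := fun q => (E q : ℝ) * η q)
        (fun q _ => mul_nonneg (Nat.cast_nonneg _) (hη0 q)) hq
    have h2 : (1 : ℝ) ≤ (E q : ℝ) := by
      exact_mod_cast Nat.one_le_iff_ne_zero.mpr (Finsupp.mem_support_iff.mp hq)
    have h3 : η q ≤ (E q : ℝ) * η q := le_mul_of_one_le_left (hη0 q) h2
    linarith
  have hval : ∀ q ∈ E.support, ∀ s ∈ Sg, hplus (tv (act s q)) ≤ c * T + c' := by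
    intro q hq s hs
    have h1 : hplus (tv (act s q)) ≤ ∑ s ∈ Sg, hplus (tv (act s q)) :=
      Finset.single_le_sum (f := fun s => hplus (tv (act s q)))
        (fun s _ => hplus_nonneg _) hs
    have h2 := hη q
    have h3 : c * η q ≤ c * T := mul_le_mul_of_nonneg_left (hηle q hq) hc
    linarith
  -- invariance of the support
  have hsupp : ∀ u ∈ U, ∀ q ∈ E.support, act u q ∈ E.support := by
    intro u hu q hq
    rw [Finsupp.mem_support_iff] at hq ⊢
    rwa [hinv u hu q]
  -- the stable set of values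
  set S : Finset Qb := (Sg ×ˢ E.support).image (fun sp : GQ × P => tv (act sp.1 sp.2)) with hS
  have hScard : S.card ≤ Sg.card * d := by
    refine Finset.card_image_le.trans ?_
    rw [Finset.card_product]
    exact Nat.mul_le_mul_left _ hcardE
  have hpS : tv p ∈ S := by
    obtain ⟨s, hs, hsU⟩ := hSg 1
    rw [mul_one] at hsU
    have hq : act s⁻¹ p ∈ E.support := hsupp _ hsU p hp
    refine Finset.mem_image.mpr ⟨(s, act s⁻¹ p), Finset.mem_product.mpr ⟨hs, hq⟩, ?_⟩
    show tv (act s (act s⁻¹ p)) = tv p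
    rw [← hact, mul_inv_cancel, hact1]
  have hSstab : ∀ σ : GQ, ∀ b ∈ S, σ b ∈ S := by
    intro σ b hb
    obtain ⟨⟨s, q⟩, hsq, rfl⟩ := Finset.mem_image.mp hb
    obtain ⟨hs, hq⟩ := Finset.mem_product.mp hsq
    obtain ⟨s', hs', hu⟩ := hSg (σ * s)
    refine Finset.mem_image.mpr ⟨(s', act (s'⁻¹ * (σ * s)) q),
      Finset.mem_product.mpr ⟨hs', hsupp _ hu q hq⟩, ?_⟩
    show tv (act s' (act (s'⁻¹ * (σ * s)) q)) = σ (tv (act s q))
    rw [← hact, mul_inv_cancel_left, hact, htv]
  have hSbd : ∀ b ∈ S, hplus b ≤ c * T + c' := by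
    intro b hb
    obtain ⟨⟨s, q⟩, hsq, rfl⟩ := Finset.mem_image.mp hb
    obtain ⟨hs, hq⟩ := Finset.mem_product.mp hsq
    exact hval q hq s hs
  have hpA : tv p ∈ A := ⟨S, hScard, hpS, hSstab, hSbd⟩
  rw [hD₀apply p hpA]
  exact hEp

/-- **Northcott for invariant effective divisors** (`MulAction` form). -/
theorem finite_divisors_of_ht_le [MulAction GQ P]
    (tv : P → Qb) (htv : ∀ (σ : GQ) (p : P), tv (σ • p) = σ (tv p))
    (hfib : ∀ c : Qb, {p | tv p = c}.Finite)
    (U : Subgroup GQ) (Sg : Finset GQ) (hSg : ∀ g : GQ, ∃ s ∈ Sg, s⁻¹ * g ∈ U)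
    (η : P → ℝ) (hη0 : ∀ p, 0 ≤ η p) (c c' : ℝ) (hc : 0 ≤ c)
    (hη : ∀ p, ∑ s ∈ Sg, hplus (tv (s • p)) ≤ c * η p + c') (d : ℕ) (T : ℝ) :
    {E : P →₀ ℕ | (∀ u ∈ U, ∀ p, E (u • p) = E p) ∧ HQ.deg E ≤ d ∧ HQ.ht η E ≤ T}.Finite :=
  finite_divisors_of_ht_le_act (fun g p => g • p) (fun p => one_smul _ p)
    (fun g h p => mul_smul g h p) tv htv hfib U Sg hSg η hη0 c c' hc hη d T

/-- The special case `η p = ∑_{s ∈ Sg} hplus (tv (s • p))`. -/
theorem finite_divisors_of_height_le [MulAction GQ P]
    (tv : P → Qb) (htv : ∀ (σ : GQ) (p : P), tv (σ • p) = σ (tv p))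
    (hfib : ∀ c : Qb, {p | tv p = c}.Finite)
    (U : Subgroup GQ) (Sg : Finset GQ) (hSg : ∀ g : GQ, ∃ s ∈ Sg, s⁻¹ * g ∈ U) (d : ℕ) (T : ℝ) :
    {E : P →₀ ℕ | (∀ u ∈ U, ∀ p, E (u • p) = E p) ∧ HQ.deg E ≤ d ∧
      HQ.ht (fun p => ∑ s ∈ Sg, hplus (tv (s • p))) E ≤ T}.Finite :=
  finite_divisors_of_ht_le tv htv hfib U Sg hSg _
    (fun p => Finset.sum_nonneg fun s _ => hplus_nonneg _) 1 0 zero_le_one
    (fun p => by rw [one_mul, add_zero]) d T

/-- **The literal shape of the field `north` of `HQ.HeightDatum`**: only finitely many good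
divisors of bounded height, as soon as good divisors are `U`-invariant of degree `≤ d₁`. -/
theorem north_of [MulAction GQ P]
    (tv : P → Qb) (htv : ∀ (σ : GQ) (p : P), tv (σ • p) = σ (tv p))
    (hfib : ∀ c : Qb, {p | tv p = c}.Finite)
    (U : Subgroup GQ) (Sg : Finset GQ) (hSg : ∀ g : GQ, ∃ s ∈ Sg, s⁻¹ * g ∈ U)
    (η : P → ℝ) (hη0 : ∀ p, 0 ≤ η p) (c c' : ℝ) (hc : 0 ≤ c)
    (hη : ∀ p, ∑ s ∈ Sg, hplus (tv (s • p)) ≤ c * η p + c')
    (Good : (P →₀ ℕ) → Prop) (d₁ : ℕ)
    (good_inv : ∀ E, Good E → ∀ u ∈ U, ∀ p, E (u • p) = E p)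
    (good_deg : ∀ E, Good E → HQ.deg E ≤ d₁) (T : ℝ) :
    {E | Good E ∧ HQ.ht η E ≤ T}.Finite :=
  (finite_divisors_of_ht_le tv htv hfib U Sg hSg η hη0 c c' hc hη d₁ T).subset
    fun E hE => ⟨good_inv E hE.1, good_deg E hE.1, hE.2⟩

end Divisors

end Fermat.Agent.MW.Ht.North
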