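import Mathlib
import Fermat.Agent.MW.Ht.RamCount
import Fermat.Agent.MW.Ht.GalBridge

/-!
# MW / HT : the canonical-type space of functions (input of the canonical Hadamard bound)

`F/K` a function field of one variable in the setting `Lib.FF.IsFF1`, `char K = 0`, `pinf` a
place, `t` a function with poles only at `pinf`, of pole order `m ≥ 1` there; `g = genusFF K F`.

* `exists_divisor_dt` : the divisor of `dt` : `ord_P (t - t(P)) - 1` at `P ≠ pinf`, `-m - 1` at
  `pinf`, of degree `2 g - 2`;
* `exists_w` : a nonzero function `w`, regular off `pinf`, vanishing on the ramification divisor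
  of `t`, of pole order `≤ 3 g + m - 1`;
* `exists_canonical` : `W = div (dt / w)` is a canonical divisor, `≤ 0` off `pinf`;
* `rr_sub_eq_bot` : for a canonical divisor `W` and `E` of degree `g` with `l(E) = 1`:
  `L(W - E) = 0`;
* `det_pval_ne_zero` : hence the matrix of values of a basis of `L(W)` at the points of a reduced
  `E` (off the support of `W`) is invertible;
* `exists_canonical_family` : the package consumed by the canonical Hadamard bound: an effective
  divisor `B` off `pinf` of degree `k ≤ g` and `g` linearly independent functions, regular off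
  `pinf`, of pole order `≤ 2 g - 2 + k` at `pinf`, vanishing on `B`, whose matrix of values at
  any `g` distinct points `P_j ∉ supp B ∪ {pinf}` with `l(∑ P_j) = 1` is invertible.
-/

set_option autoImplicit false
set_option linter.style.haveILetI false

noncomputable section

namespace Fermat.Agent.MW.Ht.CanonSpace

open AlgebraicCurve IntermediateField Fermat.Agent.Lib.FF Fermat.Agent.MW.HtM WithZero Module
open KaehlerDifferential

variable {K F : Type*} [Field K] [Field F] [Algebra K F] {x : F}

open scoped Classical in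

/-- The degree of a divisor, with one place singled out. -/
theorem degree_eq_add_sum (h : IsFF1 K F x) (W : Divisor K F) (pinf : Place K F) :
    Divisor.degree W = W pinf + ∑ P ∈ W.support.erase pinf, W P := by
  classical
  rw [h.degree_eq_sum]
  by_cases hp : pinf ∈ W.support
  · rw [Finset.add_sum_erase _ _ hp]
  · rw [Finset.erase_eq_of_notMem hp, Finsupp.notMem_support_iff.1 hp, zero_add]

open scoped Classical in
/-- An integral divisor which is `≥ 0` off `pinf` gives a natural divisor off `pinf`. -/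
theorem exists_nat_divisor (V : Divisor K F) (pinf : Place K F)
    (hV : ∀ P, P ≠ pinf → 0 ≤ V P) :
    ∃ B : Place K F →₀ ℕ, B pinf = 0 ∧ (∀ P, P ≠ pinf → (B P : ℤ) = V P) ∧
      (HQ.deg B : ℤ) = ∑ P ∈ V.support.erase pinf, V P := by
  classical
  have hval : ∀ P, P ≠ pinf → (((V.erase pinf).mapRange Int.toNat rfl P : ℕ) : ℤ) = V P := by
    intro P hP
    rw [Finsupp.mapRange_apply, Finsupp.erase_ne hP]
    exact Int.toNat_of_nonneg (hV P hP)
  refine ⟨(V.erase pinf).mapRange Int.toNat rfl, ?_, hval, ?_⟩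
  · rw [Finsupp.mapRange_apply, Finsupp.erase_same]
    rfl
  · have hsupp : ((V.erase pinf).mapRange Int.toNat rfl).support ⊆ V.support.erase pinf := by
      intro P hP
      rw [Finsupp.mem_support_iff, Finsupp.mapRange_apply] at hP
      have hne : P ≠ pinf := by
        rintro rfl
        rw [Finsupp.erase_same] at hP
        exact hP rfl
      rw [Finsupp.erase_ne hne] at hP
      rw [Finset.mem_erase, Finsupp.mem_support_iff]
      refine ⟨hne, fun h0 => hP ?_⟩
      rw [h0]
      rfl
    unfold HQ.deg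
    rw [Finsupp.sum_of_support_subset _ hsupp _ (fun _ _ => rfl), Nat.cast_sum]
    exact Finset.sum_congr rfl fun P hP => hval P (Finset.ne_of_mem_erase hP)

/-- **The divisor of `dt`.** -/
theorem exists_divisor_dt [CharZero K] (h : IsFF1 K F x) (pinf : Place K F) (t : F) (m : ℕ)
    (hm : 0 < m) (hreg : ∀ P : Place K F, P ≠ pinf → 0 ≤ P.ord t)
    (hinf : pinf.ord t = -(m : ℤ)) :
    ∃ W₀ : Divisor K F, Res.Adele.IsDivisorOf (D K F t) W₀ ∧
      Divisor.degree W₀ = 2 * (genusFF K F : ℤ) - 2 ∧ W₀ pinf = -(m : ℤ) - 1 ∧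
      ∀ P, P ≠ pinf → W₀ P = P.ord (t - algebraMap K F (pval P t)) - 1 ∧ 0 ≤ W₀ P := by
  have htr : Transcendental K t := RamCount.transcendental_of_ord_neg pinf (by rw [hinf]; omega)
  haveI := h.finiteDimensional
  haveI : FiniteDimensional K⟮t⟯ F := Fermat.Agent.S24.finiteDimensional_of_transcendental x htr
  haveI : Algebra.IsSeparable K⟮t⟯ F := Res.isSeparable_adjoin_of_charZero t
  obtain ⟨W, hW, hdeg, -, heq⟩ :=
    Res.exists_divisor_D_of_span h t (Res.span_D_eq_top_of_isSeparable t)
  refine ⟨W, hW, hdeg, ?_, fun P hP => ?_⟩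
  · have h1 := heq 0 pinf (by
      rw [map_zero, sub_zero, hinf]
      exact Int.cast_ne_zero.mpr (by omega))
    rw [map_zero, sub_zero] at h1
    rw [h1, hinf]
  · have hpos := RamCount.ord_sub_pval_pos h htr P (hreg P hP)
    have h1 := heq (pval P t) P (Int.cast_ne_zero.mpr hpos.ne')
    exact ⟨h1, by rw [h1]; omega⟩

/-- A nonzero function, regular off `pinf`, vanishing on the ramification divisor of `t`, of pole
order `≤ 3 g + m - 1` at `pinf`. -/
theorem exists_w [CharZero K] (h : IsFF1 K F x) (pinf : Place K F) (t : F) (m : ℕ)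
    (hm : 0 < m) (hreg : ∀ P : Place K F, P ≠ pinf → 0 ≤ P.ord t)
    (hinf : pinf.ord t = -(m : ℤ)) :
    ∃ w : F, w ≠ 0 ∧
      (∀ P, P ≠ pinf → P.ord (t - algebraMap K F (pval P t)) - 1 ≤ P.ord w) ∧
      -(3 * (genusFF K F : ℤ) + m - 1) ≤ pinf.ord w := by
  classical
  obtain ⟨W₀, -, hdeg, hWinf, hWfin⟩ := exists_divisor_dt h pinf t m hm hreg hinf
  set Dv : Divisor K F := Finsupp.single pinf (3 * (genusFF K F : ℤ) - 2) - W₀ with hDv
  have hdegD : Divisor.degree Dv = genusFF K F := by
    rw [hDv, map_sub, Divisor.degree_single, h.deg_eq_one, hdeg]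
    push_cast
    ring
  obtain ⟨w, hw0, hw⟩ := h.exists_ne_zero_of_degree_ge Dv (by rw [hdegD])
  refine ⟨w, hw0, fun P hP => ?_, ?_⟩
  · have h1 := hw P
    rw [hDv, Finsupp.sub_apply, Finsupp.single_apply, if_neg (Ne.symm hP), (hWfin P hP).1] at h1
    omega
  · have h1 := hw pinf
    rw [hDv, Finsupp.sub_apply, Finsupp.single_apply, if_pos rfl, hWinf] at h1
    omega

/-- **A canonical divisor supported negatively off `pinf`**: `W = div (dt / w)`. -/
theorem exists_canonical [CharZero K] (h : IsFF1 K F x) (pinf : Place K F) (t : F) (m : ℕ)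
    (hm : 0 < m) (hreg : ∀ P : Place K F, P ≠ pinf → 0 ≤ P.ord t)
    (hinf : pinf.ord t = -(m : ℤ)) (w : F) (hw0 : w ≠ 0) :
    ∃ W : Divisor K F, Res.Adele.IsDivisorOf (w⁻¹ • D K F t) W ∧
      W pinf = -pinf.ord w - ((m : ℤ) + 1) ∧
      ∀ P, P ≠ pinf → W P = (P.ord (t - algebraMap K F (pval P t)) - 1) - P.ord w := by
  obtain ⟨W₀, hW₀, -, hWinf, hWfin⟩ := exists_divisor_dt h pinf t m hm hreg hinf
  obtain ⟨Dw, hDw, -⟩ := h.hasPrincipalDivisors.exists_divisor w⁻¹ (inv_ne_zero hw0)
  refine ⟨W₀ + Dw, hW₀.smul (inv_ne_zero hw0) hDw, ?_, fun P hP => ?_⟩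
  · rw [Finsupp.add_apply, hDw, hWinf, Place.ord_inv]
    ring
  · rw [Finsupp.add_apply, hDw, (hWfin P hP).1, Place.ord_inv]
    ring

/-- **Duality**: for a canonical divisor `W` and `E` of degree `g` with `l(E) = 1`,
`L(W - E) = 0`. -/
theorem rr_sub_eq_bot (h : IsFF1 K F x) {ω : Ω[F⁄K]} {W : Divisor K F}
    (hW : Res.Adele.IsDivisorOf ω W) (E : Divisor K F)
    (hdeg : Divisor.degree E = genusFF K F)
    (hE : finrank K (riemannRochSpace E) = 1) : riemannRochSpace (W - E) = ⊥ := by
  have h1 := Res.riemannRoch_ff1 h hW E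
  rw [hE, hdeg] at h1
  haveI := h.finite_L (W - E)
  have h2 : finrank K (riemannRochSpace (W - E)) = 0 := by
    have : (finrank K (riemannRochSpace (W - E)) : ℤ) = 0 := by
      push_cast at h1
      linarith
    exact_mod_cast this
  exact Submodule.finrank_eq_zero.1 h2

/-- Membership in `L(D)` in terms of orders. -/
theorem mem_rr_iff {D : Divisor K F} {f : F} (hf : f ≠ 0) :
    f ∈ riemannRochSpace D ↔ ∀ v : Place K F, -D v ≤ v.ord f := by
  constructor
  · intro h v
    have h1 := h v
    rw [v.adicValuation_eq_exp_neg_ord hf, exp_le_exp] at h1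
    omega
  · intro h v
    rw [v.adicValuation_eq_exp_neg_ord hf, exp_le_exp]
    have := h v
    omega

open scoped Classical in
/-- The sum of `n` distinct places as a divisor. -/
theorem sum_single_apply {n : ℕ} (P : Fin n → Place K F) (hP : Function.Injective P)
    (v : Place K F) :
    (∑ j, Finsupp.single (P j) (1 : ℤ)) v = if v ∈ Set.range P then 1 else 0 := by
  classical
  rw [Finsupp.finsetSum_apply]
  split_ifs with hv
  · obtain ⟨j, rfl⟩ := hv
    rw [Finset.sum_eq_single j]
    · rw [Finsupp.single_apply, if_pos rfl]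
    · intro i _ hij
      rw [Finsupp.single_apply, if_neg (fun e => hij (hP e))]
    · intro hj
      exact absurd (Finset.mem_univ j) hj
  · refine Finset.sum_eq_zero fun i _ => ?_
    rw [Finsupp.single_apply, if_neg (fun e => hv ⟨i, e⟩)]

theorem degree_sum_single (h : IsFF1 K F x) {n : ℕ} (P : Fin n → Place K F) :
    Divisor.degree (∑ j, Finsupp.single (P j) (1 : ℤ)) = n := by
  rw [map_sum]
  simp [Divisor.degree_single, h.deg_eq_one]

/-- **Non-vanishing of the canonical determinant.**  For a canonical divisor `W`, a basis `f` of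
`L(W)` and `g` distinct places `P_j` off the support of `W` with `l(∑ P_j) = 1`, the matrix
`(f_i (P_j))` is invertible. -/
theorem det_pval_ne_zero (h : IsFF1 K F x) {ω : Ω[F⁄K]} {W : Divisor K F}
    (hW : Res.Adele.IsDivisorOf ω W) (f : Fin (genusFF K F) → F)
    (hf : ∀ i, f i ∈ riemannRochSpace W) (hli : LinearIndependent K f)
    (P : Fin (genusFF K F) → Place K F) (hP : Function.Injective P) (hWP : ∀ j, W (P j) = 0)
    (hE : finrank K (riemannRochSpace (∑ j, Finsupp.single (P j) (1 : ℤ))) = 1) :
    Matrix.det (fun i j => pval (P j) (f i)) ≠ 0 := by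
  classical
  intro hdet
  obtain ⟨a, ha0, ha⟩ := Matrix.exists_vecMul_eq_zero_iff.2 hdet
  have hreg : ∀ j i, (P j).adicValuation (f i) ≤ 1 := by
    intro j i
    have := hf i (P j)
    rwa [hWP j, exp_zero] at this
  set φ : F := ∑ i, a i • f i with hφ
  have hφW : φ ∈ riemannRochSpace W := Submodule.sum_mem _ fun i _ => Submodule.smul_mem _ _ (hf i)
  have hval : ∀ j, pval (P j) φ = 0 := by
    intro j
    rw [hφ, GalBridge.pval_sum_smul (P j) (h.resK (P j)) a f (hreg j)]
    have := congrFun ha j
    simpa [Matrix.vecMul, dotProduct] using this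
  have hφ0 : φ ≠ 0 := by
    intro h0
    apply ha0
    have := Fintype.linearIndependent_iff.1 hli a h0
    exact funext this
  have hmem : φ ∈ riemannRochSpace (W - ∑ j, Finsupp.single (P j) (1 : ℤ)) := by
    rw [mem_rr_iff hφ0]
    intro v
    have h1 := (mem_rr_iff hφ0).1 hφW v
    rw [Finsupp.sub_apply, sum_single_apply P hP v]
    split_ifs with hv
    · obtain ⟨j, rfl⟩ := hv
      have hreg' : (P j).adicValuation φ ≤ 1 := by
        have := hφW (P j)
        rwa [hWP j, exp_zero] at this
      have h2 := (GalBridge.pval_eq_zero_iff_ord (P j) (h.resK (P j)) hreg').1 (hval j)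
      rcases h2 with h2 | h2
      · exact absurd h2 hφ0
      · rw [hWP j]
        omega
    · omega
  rw [rr_sub_eq_bot h hW _ (degree_sum_single h P) hE, Submodule.mem_bot] at hmem
  exact hφ0 hmem

/-- **The canonical-type family.**  An effective divisor `B` off `pinf` of degree `k ≤ g` and `g`
linearly independent functions, regular off `pinf`, of pole order `≤ 2 g - 2 + k` at `pinf`,
vanishing on `B`, whose matrix of values at any `g` distinct points `P_j ∉ supp B ∪ {pinf}` with
`l(∑ P_j) = 1` is invertible. -/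
theorem exists_canonical_family [CharZero K] (h : IsFF1 K F x) (pinf : Place K F) (t : F)
    (m : ℕ) (hm : 0 < m) (hreg : ∀ P : Place K F, P ≠ pinf → 0 ≤ P.ord t)
    (hinf : pinf.ord t = -(m : ℤ)) :
    ∃ (k : ℕ) (B : Place K F →₀ ℕ) (f : Fin (genusFF K F) → F),
      B pinf = 0 ∧ HQ.deg B = k ∧ k ≤ genusFF K F ∧
      (∀ i, ∀ P, P ≠ pinf → 0 ≤ P.ord (f i)) ∧
      (∀ i, -((2 * genusFF K F + k - 2 : ℕ) : ℤ) ≤ pinf.ord (f i)) ∧
      (∀ i, ∀ P, P ≠ pinf → (B P : ℤ) ≤ P.ord (f i)) ∧
      LinearIndependent K f ∧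
      ∀ P : Fin (genusFF K F) → Place K F, Function.Injective P → (∀ j, P j ≠ pinf) →
        (∀ j, P j ∉ B.support) →
        finrank K (riemannRochSpace (∑ j, Finsupp.single (P j) (1 : ℤ))) = 1 →
        Matrix.det (fun i j => pval (P j) (f i)) ≠ 0 := by
  classical
  obtain ⟨w, hw0, hwram, hwinf⟩ := exists_w h pinf t m hm hreg hinf
  obtain ⟨W, hW, hWinf, hWfin⟩ := exists_canonical h pinf t m hm hreg hinf w hw0
  have hWle : ∀ P, P ≠ pinf → 0 ≤ (-W) P := by
    intro P hP
    rw [Finsupp.neg_apply, hWfin P hP]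
    have := hwram P hP
    omega
  obtain ⟨B, hB0, hBval, hBdeg⟩ := exists_nat_divisor (-W) pinf hWle
  have hdegW := Res.degree_of_isDivisorOf_ff1 h hW
  rw [degree_eq_add_sum h W pinf] at hdegW
  have hBdeg' : (HQ.deg B : ℤ) = W pinf - (2 * (genusFF K F : ℤ) - 2) := by
    rw [hBdeg, Finsupp.support_neg W]
    have : ∑ P ∈ W.support.erase pinf, (-W) P = -∑ P ∈ W.support.erase pinf, W P := by
      rw [← Finset.sum_neg_distrib (f := fun P => W P)]
      exact Finset.sum_congr rfl fun P _ => Finsupp.neg_apply W P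
    rw [this]
    linarith
  have hkle : HQ.deg B ≤ genusFF K F := by
    have : (HQ.deg B : ℤ) ≤ genusFF K F := by
      rw [hBdeg', hWinf]
      omega
    exact_mod_cast this
  -- a basis of `L(W)`
  haveI := h.finite_L W
  have hrank : finrank K (riemannRochSpace W) = genusFF K F := Res.finrank_L_ff1 h hW
  let b := Module.finBasisOfFinrankEq K (riemannRochSpace W) hrank
  have hli : LinearIndependent K fun i => ((b i : riemannRochSpace W) : F) :=
    b.linearIndependent.map' (Submodule.subtype _) (Submodule.ker_subtype _)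
  have hne : ∀ i, ((b i : riemannRochSpace W) : F) ≠ 0 := fun i => hli.ne_zero i
  have hmemW : ∀ i, ((b i : riemannRochSpace W) : F) ∈ riemannRochSpace W := fun i => (b i).2
  refine ⟨HQ.deg B, B, fun i => ((b i : riemannRochSpace W) : F), hB0, rfl, hkle, ?_, ?_, ?_, hli,
    ?_⟩
  · intro i P hP
    beta_reduce
    have h1 := (mem_rr_iff (hne i)).1 (hmemW i) P
    have h2 := hWle P hP
    rw [Finsupp.neg_apply] at h2
    omega
  · intro i
    beta_reduce
    have h1 := (mem_rr_iff (hne i)).1 (hmemW i) pinf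
    have hg : 0 < genusFF K F := i.pos
    have h2 : ((2 * genusFF K F + HQ.deg B - 2 : ℕ) : ℤ) = W pinf := by
      rw [Nat.cast_sub (by omega)]
      push_cast
      rw [hBdeg']
      ring
    rw [h2]
    exact h1
  · intro i P hP
    beta_reduce
    have h1 := (mem_rr_iff (hne i)).1 (hmemW i) P
    rw [hBval P hP, Finsupp.neg_apply]
    exact h1
  · intro P hP hPinf hPB hE
    refine det_pval_ne_zero h hW _ hmemW hli P hP (fun j => ?_) hE
    have h1 := hBval (P j) (hPinf j)
    have h2 : B (P j) = 0 := Finsupp.notMem_support_iff.1 (hPB j)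
    rw [h2, Finsupp.neg_apply] at h1
    have h3 : (0 : ℤ) = -W (P j) := by exact_mod_cast h1
    omega

end Fermat.Agent.MW.Ht.CanonSpace
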