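/-
MW / heights (helper21) — the NORM FORMS of a function field over `K(t)` (function-field half of
the global Mahler bound (B) of the height plan).

`F` a function field of one variable over an algebraically closed field `K` of characteristic `0`
(`h : IsFF1 K F x`), `t ∈ F` transcendental, `O_t` the integral closure of `K[t]` in `F`
(`MW/Adj/Roots.lean`), `normPolyT ht f ∈ K[X]` the norm polynomial of `f ∈ O_t`.

* `cf`, `eval_cf`, `cf_isHomogeneous` : the `X^j`-coefficient forms of a multivariate polynomial
  over `K[X]`;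
* `exists_norm_forms` : for a finite family `u` in `O_t` the coefficients of the norm polynomial
  of `∑ aᵢ uᵢ` are forms `p_j(a)` of degree `[F : K(t)]`, of bounded index;
* `norm_forms_no_zero` : they have no common zero `≠ 0` if `u` is linearly independent;
* `prod_roots_normPolyT` : a product over the roots of the norm polynomial is the product over the
  zeros of `f` (with multiplicity) of the values at `t(P)`;
* `normPolyT_smul` : equivariance for semilinear automorphisms fixing `t`.
-/
import Mathlib
import Fermat.Agent.MW.Adj.Roots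
import Fermat.Agent.MW.Adj.Norm
import Fermat.Agent.MW.HtM.PVal
import Fermat.Prelude.Def_AlgebraicCurve_BaseChangeGalois

set_option autoImplicit false
set_option linter.unusedSectionVars false

noncomputable section

namespace Fermat.Agent.MW.Ht.NormForm

open Polynomial IntermediateField AlgebraicCurve
open Fermat.Agent.Lib.FF Fermat.Agent.MW.Adj.Roots Fermat.Agent.MW.Adj Fermat.Agent.MW.HtM

/-! ### Coefficient forms -/

section Forms

variable {K : Type*} [Field K] {ι : Type*}

/-- The `X^j`-coefficient form of a multivariate polynomial with coefficients in `K[X]`. -/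
def cf (Q : MvPolynomial ι K[X]) (j : ℕ) : MvPolynomial ι K :=
  ∑ s ∈ Q.support, MvPolynomial.monomial s ((Q.coeff s).coeff j)

theorem cf_isHomogeneous {Q : MvPolynomial ι K[X]} {m : ℕ} (hQ : Q.IsHomogeneous m) (j : ℕ) :
    (cf Q j).IsHomogeneous m := by
  unfold cf
  refine MvPolynomial.IsHomogeneous.sum _ _ _ fun s hs => ?_
  have hs' : Q.coeff s ≠ 0 := MvPolynomial.mem_support_iff.mp hs
  have := hQ hs'
  by_cases hc : (Q.coeff s).coeff j = 0
  · rw [hc, map_zero]; exact MvPolynomial.isHomogeneous_zero _ _ _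
  · exact MvPolynomial.isHomogeneous_monomial _ (by rw [Finsupp.degree_eq_weight_one]; exact this)

theorem eval_cf (Q : MvPolynomial ι K[X]) (j : ℕ) (a : ι → K) :
    MvPolynomial.eval a (cf Q j)
      = (MvPolynomial.eval (fun i => Polynomial.C (a i)) Q).coeff j := by
  unfold cf
  rw [map_sum]
  conv_rhs => rw [MvPolynomial.eval_eq, Polynomial.finsetSum_coeff]
  refine Finset.sum_congr rfl fun s _ => ?_
  rw [MvPolynomial.eval_monomial]
  have : ∏ i ∈ s.support, (Polynomial.C (a i) : K[X]) ^ (s i)
      = Polynomial.C (s.prod fun n e => a n ^ e) := by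
    rw [Finsupp.prod, map_prod]; simp
  rw [this, Polynomial.coeff_mul_C]

theorem cf_eq_zero_of_lt (Q : MvPolynomial ι K[X]) {D j : ℕ}
    (hD : ∀ s ∈ Q.support, (Q.coeff s).natDegree ≤ D) (hj : D < j) : cf Q j = 0 := by
  unfold cf
  refine Finset.sum_eq_zero fun s hs => ?_
  rw [Polynomial.coeff_eq_zero_of_natDegree_lt (lt_of_le_of_lt (hD s hs) hj), map_zero]

end Forms

/-! ### Norm forms -/

section NormForms

variable {K F : Type*} [Field K] [Field F] [Algebra K F] [IsAlgClosed K] [CharZero K] {x : F}

/-- **Norm forms.**  For a finite family `u` in `O_t`, the coefficients of the norm polynomial of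
`∑ aᵢ uᵢ` are forms of degree `[F : K(t)]` in `a`, and only finitely many are nonzero. -/
theorem exists_norm_forms (h : IsFF1 K F x) {t : F} (ht : Transcendental K t) {ι : Type*}
    [Fintype ι] (u : ι → Ot (K := K) t) :
    ∃ (D : ℕ) (p : ℕ → MvPolynomial ι K),
      (∀ j, (p j).IsHomogeneous (Module.finrank K⟮t⟯ F)) ∧ (∀ j, D < j → p j = 0) ∧
      ∀ (a : ι → K) (j : ℕ),
        (normPolyT ht (∑ i, a i • u i)).coeff j = MvPolynomial.eval a (p j) := by
  classical
  have := free_Ot h ht
  have := finite_Ot h ht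
  let b := Module.Free.chooseBasis (Kt K t) (Ot (K := K) t)
  let e : Kt K t →+* K[X] := ((polyEquiv ht).symm : Kt K t →+* K[X])
  let Q : MvPolynomial ι K[X] := MvPolynomial.map e (Norm.normPoly b u)
  have hQ : Q.IsHomogeneous (Module.finrank K⟮t⟯ F) := by
    have h1 := Norm.normPoly_isHomogeneous b u
    rw [← Module.finrank_eq_card_chooseBasisIndex, finrank_Ot h ht] at h1
    exact h1.map e
  refine ⟨Q.support.sup fun s => (Q.coeff s).natDegree, fun j => cf Q j,
    fun j => cf_isHomogeneous hQ j,
    fun j hj => cf_eq_zero_of_lt Q (fun s hs => Finset.le_sup (f := fun s => (Q.coeff s).natDegree) hs) hj,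
    fun a j => ?_⟩
  rw [eval_cf]
  congr 1
  have h1 : (∑ i, a i • u i : Ot (K := K) t)
      = ∑ i, (algebraMap K (Kt K t) (a i)) • u i :=
    Finset.sum_congr rfl fun i _ => (algebraMap_smul (Kt K t) (a i) (u i)).symm
  have h2 : ∀ i, e (algebraMap K (Kt K t) (a i)) = Polynomial.C (a i) := fun i =>
    (polyEquiv ht).symm.commutes (a i)
  have h3 : MvPolynomial.eval (fun i => Polynomial.C (a i)) Q
      = e (MvPolynomial.eval (fun i => algebraMap K (Kt K t) (a i)) (Norm.normPoly b u)) := by
    rw [MvPolynomial.eval_map, ← MvPolynomial.eval₂_id (Norm.normPoly b u),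
      MvPolynomial.eval₂_comp_left, RingHom.comp_id]
    congr 1
    exact funext fun i => (h2 i).symm
  rw [h3, Norm.eval_normPoly, ← h1]
  rfl

/-- The norm forms of a linearly independent family have no common zero `≠ 0`. -/
theorem eq_zero_of_normPolyT_eq_zero (h : IsFF1 K F x) {t : F} (ht : Transcendental K t)
    {ι : Type*} [Fintype ι] (u : ι → Ot (K := K) t)
    (hu : LinearIndependent K fun i => (u i : F)) (a : ι → K)
    (h0 : normPolyT ht (∑ i, a i • u i) = 0) : a = 0 := by
  have h1 : ((∑ i, a i • u i : Ot (K := K) t) : F) = 0 := by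
    by_contra hne
    exact normPolyT_ne_zero h ht _ hne h0
  have h2 : ∑ i, a i • (u i : F) = 0 := by
    rw [← h1]
    push_cast
    rfl
  funext i
  exact (Fintype.linearIndependent_iff.mp hu) a h2 i

/-! ### The roots of the norm polynomial -/

open Classical in
/-- The places with `t(P) = c` among the zeros of `f`. -/
theorem mem_filter_pval_iff (h : IsFF1 K F x) {t : F} (ht : Transcendental K t) (f : F)
    (S : Finset (Place K F)) (hS : ∀ P, P ∈ S ↔ 0 ≤ P.ord t ∧ P.ord f ≠ 0) (c : K)
    (P : Place K F) :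
    P ∈ S.filter (fun P => pval P t = c) ↔ 0 < P.ord (t - algebraMap K F c) ∧ P.ord f ≠ 0 := by
  classical
  have hne : t - algebraMap K F c ≠ 0 := by
    intro h0
    apply ht
    rw [sub_eq_zero.mp h0]
    exact isAlgebraic_algebraMap c
  rw [Finset.mem_filter, hS]
  constructor
  · rintro ⟨⟨h1, h2⟩, h3⟩
    refine ⟨?_, h2⟩
    have hmem : t ∈ P.toValuationSubring := Fermat.Agent.S24.mem_of_ord_nonneg P h1
    have hcmem : algebraMap K F c ∈ P.toValuationSubring := P.algebraMap_mem' c
    have h4 : pval P (t - algebraMap K F c) = 0 := by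
      rw [pval_sub (h.resK P) hmem hcmem, pval_algebraMap, h3, sub_self]
    exact (pval_eq_zero_iff_ord (h.resK P) hne
      (Fermat.Agent.S24.ord_nonneg_of_mem P (sub_mem hmem hcmem))).mp h4
  · rintro ⟨h1, h2⟩
    have hmem : t - algebraMap K F c ∈ P.toValuationSubring :=
      Fermat.Agent.S24.mem_of_ord_nonneg P h1.le
    have hcmem : algebraMap K F c ∈ P.toValuationSubring := P.algebraMap_mem' c
    have htmem : t ∈ P.toValuationSubring := by
      have : t = (t - algebraMap K F c) + algebraMap K F c := by ring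
      rw [this]
      exact add_mem hmem hcmem
    refine ⟨⟨Fermat.Agent.S24.ord_nonneg_of_mem P htmem, h2⟩, ?_⟩
    have h4 : pval P (t - algebraMap K F c) = 0 := pval_eq_zero_of_ord_pos h1
    rw [pval_sub (h.resK P) htmem hcmem, pval_algebraMap] at h4
    exact sub_eq_zero.mp h4

/-- **The roots of the norm polynomial** are the `t`-values of the zeros of `f`, with
multiplicity: a product over the roots is a product over the zeros. -/
theorem prod_roots_normPolyT {M : Type*} [CommMonoid M] (h : IsFF1 K F x) {t : F}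
    (ht : Transcendental K t) (f : Ot (K := K) t) (hf : (f : F) ≠ 0) (g : K → M)
    (S : Finset (Place K F)) (hS : ∀ P, P ∈ S ↔ 0 ≤ P.ord t ∧ P.ord (f : F) ≠ 0) :
    ((normPolyT ht f).roots.map g).prod = ∏ P ∈ S, g (pval P t) ^ (P.ord (f : F)).toNat := by
  classical
  have hPf : normPolyT ht f ≠ 0 := normPolyT_ne_zero h ht f hf
  have hnn : ∀ P ∈ S, 0 ≤ P.ord (f : F) := fun P hP =>
    (mem_Ot_iff h ht (f : F)).mp f.2 P ((hS P).mp hP).1
  have key : ∀ c : K, (normPolyT ht f).rootMultiplicity c
      = ∑ P ∈ S.filter (fun P => pval P t = c), (P.ord (f : F)).toNat := by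
    intro c
    have h1 := rootMultiplicity_normPolyT h ht f hf c (S.filter fun P => pval P t = c)
      (mem_filter_pval_iff h ht (f : F) S hS c)
    have h2 : ((∑ P ∈ S.filter (fun P => pval P t = c), (P.ord (f : F)).toNat : ℕ) : ℤ)
        = ∑ P ∈ S.filter (fun P => pval P t = c), P.ord (f : F) := by
      push_cast
      exact Finset.sum_congr rfl fun P hP =>
        Int.toNat_of_nonneg (hnn P (Finset.mem_of_mem_filter P hP))
    exact_mod_cast h1.trans h2.symm
  rw [Finset.prod_multiset_map_count]
  have hmaps : ∀ P ∈ S, pval P t ∈ (normPolyT ht f).roots.toFinset := by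
    intro P hP
    rw [Multiset.mem_toFinset, Polynomial.mem_roots hPf, ← Polynomial.rootMultiplicity_pos hPf,
      key]
    have hmem : P ∈ S.filter (fun Q => pval Q t = pval P t) := Finset.mem_filter.mpr ⟨hP, rfl⟩
    have hpos : 0 < (P.ord (f : F)).toNat := by
      have h1 := hnn P hP
      have h2 := ((hS P).mp hP).2
      omega
    exact lt_of_lt_of_le hpos
      (Finset.single_le_sum (f := fun Q => (Q.ord (f : F)).toNat) (fun _ _ => Nat.zero_le _) hmem)
  rw [← Finset.prod_fiberwise_of_maps_to hmaps]
  refine Finset.prod_congr rfl fun c _ => ?_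
  rw [Polynomial.count_roots, key, ← Finset.prod_pow_eq_pow_sum]
  exact Finset.prod_congr rfl fun P hP => by rw [(Finset.mem_filter.mp hP).2]

/-- The degree of the norm polynomial is the number of zeros of `f` (with multiplicity) at the
places where `t` is regular. -/
theorem natDegree_normPolyT (h : IsFF1 K F x) {t : F} (ht : Transcendental K t)
    (f : Ot (K := K) t) (hf : (f : F) ≠ 0)
    (S : Finset (Place K F)) (hS : ∀ P, P ∈ S ↔ 0 ≤ P.ord t ∧ P.ord (f : F) ≠ 0) :
    (normPolyT ht f).natDegree = ∑ P ∈ S, (P.ord (f : F)).toNat := by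
  have h1 := prod_roots_normPolyT (M := Multiplicative ℕ) h ht f hf
    (fun _ => Multiplicative.ofAdd 1) S hS
  have h2 : (normPolyT ht f).roots.card = (normPolyT ht f).natDegree :=
    (Polynomial.splits_iff_card_roots.mp (IsAlgClosed.splits _))
  rw [← h2]
  have h3 : (((normPolyT ht f).roots.map fun _ => Multiplicative.ofAdd 1).prod :
      Multiplicative ℕ) = Multiplicative.ofAdd (normPolyT ht f).roots.card := by
    rw [Multiset.map_const', Multiset.prod_replicate, ← ofAdd_nsmul]
    simp
  rw [h3] at h1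
  have h4 : (∏ P ∈ S, (Multiplicative.ofAdd 1 : Multiplicative ℕ) ^ (P.ord (f : F)).toNat)
      = Multiplicative.ofAdd (∑ P ∈ S, (P.ord (f : F)).toNat) := by
    rw [ofAdd_sum]
    exact Finset.prod_congr rfl fun P _ => by rw [← ofAdd_nsmul]; simp
  rw [h4] at h1
  exact Multiplicative.ofAdd.injective h1

end NormForms

/-! ### Equivariance for semilinear automorphisms fixing `t` -/

section Equivariance

variable {K F : Type*} [Field K] [Field F] [Algebra K F]

/-- A semilinear automorphism acts on polynomial expressions through the coefficients. -/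
theorem smul_aeval (g : SemilinearAut K F) (r : K[X]) (y : F) :
    g • (aeval y r) = aeval (g • y) (r.map (SemilinearAut.baseAut g : K →+* K)) := by
  rw [SemilinearAut.smul_def, SemilinearAut.smul_def, aeval_def, aeval_def, Polynomial.eval₂_map,
    ← RingEquiv.coe_toRingHom, Polynomial.hom_eval₂]
  congr 1
  ext a
  exact SemilinearAut.commutes g a

theorem smul_mem_adjoin (g : SemilinearAut K F) {t : F} (hg : g • t = t) {y : F}
    (hy : y ∈ K⟮t⟯) : g • y ∈ K⟮t⟯ := by
  obtain ⟨r, s, rfl⟩ := (IntermediateField.mem_adjoin_simple_iff K y).mp hy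
  rw [smul_div₀', smul_aeval, smul_aeval, hg]
  exact (IntermediateField.mem_adjoin_simple_iff K _).mpr ⟨_, _, rfl⟩

/-- The automorphism of `K(t)` induced by a semilinear automorphism fixing `t`. -/
def adjoinEquiv (g : SemilinearAut K F) {t : F} (hg : g • t = t) : K⟮t⟯ ≃+* K⟮t⟯ where
  toFun y := ⟨g • (y : F), smul_mem_adjoin g hg y.2⟩
  invFun y := ⟨g⁻¹ • (y : F), smul_mem_adjoin g⁻¹ (by rw [inv_smul_eq_iff, hg]) y.2⟩
  left_inv y := Subtype.ext (inv_smul_smul g (y : F))
  right_inv y := Subtype.ext (smul_inv_smul g (y : F))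
  map_mul' y z := Subtype.ext (smul_mul' g (y : F) (z : F))
  map_add' y z := Subtype.ext (smul_add g (y : F) (z : F))

theorem coe_adjoinEquiv (g : SemilinearAut K F) {t : F} (hg : g • t = t) (y : K⟮t⟯) :
    ((adjoinEquiv g hg y : K⟮t⟯) : F) = g • (y : F) := rfl

/-- **The norm to `K(t)` is equivariant** for semilinear automorphisms fixing `t`. -/
theorem norm_smul (g : SemilinearAut K F) {t : F} (hg : g • t = t) (f : F) :
    algebraMap K⟮t⟯ F (Algebra.norm K⟮t⟯ (g • f))
      = g • algebraMap K⟮t⟯ F (Algebra.norm K⟮t⟯ f) := by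
  have he : RingHom.comp (algebraMap K⟮t⟯ F) ((adjoinEquiv g hg : K⟮t⟯ ≃+* K⟮t⟯) : K⟮t⟯ →+* K⟮t⟯)
      = RingHom.comp ((SemilinearAut.toRingAut g : F ≃+* F) : F →+* F) (algebraMap K⟮t⟯ F) := by
    ext y
    rfl
  have h1 := Algebra.norm_eq_of_equiv_equiv (adjoinEquiv g hg) (SemilinearAut.toRingAut g) he f
  have h2 : adjoinEquiv g hg (Algebra.norm K⟮t⟯ f)
      = Algebra.norm K⟮t⟯ (SemilinearAut.toRingAut g f) := by
    rw [h1, RingEquiv.apply_symm_apply]
  rw [SemilinearAut.smul_def, ← h2]
  rfl

variable [IsAlgClosed K] [CharZero K] {x : F}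

/-- `O_t` is stable under semilinear automorphisms fixing `t`. -/
theorem smul_mem_Ot (h : IsFF1 K F x) {t : F} (ht : Transcendental K t) (g : SemilinearAut K F)
    (hg : g • t = t) {f : F} (hf : f ∈ Ot (K := K) t) : g • f ∈ Ot (K := K) t := by
  rw [mem_Ot_iff h ht] at hf ⊢
  intro P hP
  have h1 : P = g • (g⁻¹ • P) := (smul_inv_smul g P).symm
  have h2 : (g⁻¹ • P).ord t = P.ord t := by
    conv_rhs => rw [h1, ← hg]
    exact (SemilinearAut.ord_smul g (g⁻¹ • P) t).symm
  have h3 : P.ord (g • f) = (g⁻¹ • P).ord f := by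
    conv_lhs => rw [h1]
    exact SemilinearAut.ord_smul g (g⁻¹ • P) f
  rw [h3]
  exact hf _ (by rw [h2]; exact hP)

/-- **The norm polynomial is equivariant** for semilinear automorphisms fixing `t`. -/
theorem normPolyT_smul (h : IsFF1 K F x) {t : F} (ht : Transcendental K t)
    (g : SemilinearAut K F) (hg : g • t = t) (f : Ot (K := K) t) :
    normPolyT ht ⟨g • (f : F), smul_mem_Ot h ht g hg f.2⟩
      = (normPolyT ht f).map (SemilinearAut.baseAut g : K →+* K) := by
  apply transcendental_iff_injective.mp ht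
  rw [aeval_normPolyT h ht]
  show algebraMap K⟮t⟯ F (Algebra.norm K⟮t⟯ (g • (f : F))) = _
  rw [norm_smul g hg, ← aeval_normPolyT h ht f, smul_aeval, hg]

end Equivariance

end Fermat.Agent.MW.Ht.NormForm
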