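/-
MW / heights (helper63) — **Galois-fixed functions**.

* `le_span_fixed_fn` : a finite-dimensional subspace `V` of `L·F₀ ⊆ L((q))` stable under the
  arithmetic Galois action of a set `H ⊆ Aut(L/ℚ)` is spanned by its `H`-fixed elements
  (coefficientwise descent, `Lib/Descent/Core.le_span_fixed`);
* `exists_fixed_notMem` : such a `V` not contained in a subspace `V₀` has an `H`-fixed element
  outside `V₀`;
* `smul_mem_riemannRochSpace` : `L(E)` is stable under automorphisms fixing `E`;
* `exists_rational_coordinate` : on `ℚ̄·F_N` there is a non-constant function `t`, fixed by all of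
  `G_ℚ`, with its only pole at the cusp `∞`.
-/
import Fermat.Agent.Lib.Descent.Laurent
import Fermat.Agent.Lib.FF.CanonicalFF1
import Fermat.Agent.Lib.FF.PlaceInf
import Fermat.Agent.Lib.FF.RRFF1

set_option autoImplicit false

noncomputable section

namespace Fermat.Agent.MW.Ht.RatCoord

open ModularCurve AlgebraicCurve Fermat.Agent.Lib.Descent

section General

variable {L : Type*} [Field L] [Algebra ℚ L]
variable (F₀ : IntermediateField ℚ (LaurentSeries ℚ))

/-- The coefficient family of a function, as an injective linear map. -/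
def coeffFn : laurentBaseChange L F₀ →ₗ[L] (ℤ → L) where
  toFun f := fun i => (f : LaurentSeries L).coeff i
  map_add' f g := by
    funext i
    simp
  map_smul' c f := by
    funext i
    have h1 : ((c • f : laurentBaseChange L F₀) : LaurentSeries L)
        = HahnSeries.C c * (f : LaurentSeries L) := by
      rw [Algebra.smul_def, MulMemClass.coe_mul, ← LaurentSeries.algebraMap_apply]
      rfl
    simp only [h1, coeff_C_mul, RingHom.id_apply, Pi.smul_apply, smul_eq_mul]

theorem coeffFn_apply (f : laurentBaseChange L F₀) (i : ℤ) :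
    coeffFn F₀ f i = (f : LaurentSeries L).coeff i := rfl

theorem coeffFn_injective : Function.Injective (coeffFn (L := L) F₀) := by
  intro f g h
  apply Subtype.ext
  ext i
  exact congrFun h i

theorem coeffFn_smul (σ : L ≃ₐ[ℚ] L) (f : laurentBaseChange L F₀) (i : ℤ) :
    coeffFn F₀ (arithmeticGalois F₀ σ • f) i = σ (coeffFn F₀ f i) := by
  rw [coeffFn_apply, coe_arithmeticGalois_smul, coeffMap_coeff]
  rfl

/-- **Fixed functions span.** -/
theorem le_span_fixed_fn (V : Submodule L (laurentBaseChange L F₀)) [FiniteDimensional L V]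
    (H : Set (L ≃ₐ[ℚ] L)) (hV : ∀ σ ∈ H, ∀ f ∈ V, arithmeticGalois F₀ σ • f ∈ V) :
    V ≤ Submodule.span L {f | f ∈ V ∧ ∀ σ ∈ H, arithmeticGalois F₀ σ • f = f} := by
  have hfd : FiniteDimensional L (V.map (coeffFn F₀)) := inferInstance
  have hstab : ∀ φ ∈ {φ : L →+* L | ∃ σ ∈ H, φ = ((σ : L ≃ₐ[ℚ] L) : L →+* L)},
      ∀ x ∈ V.map (coeffFn F₀), (fun i => φ (x i)) ∈ V.map (coeffFn F₀) := by
    rintro φ ⟨σ, hσ, rfl⟩ x' ⟨f, hf, rfl⟩
    refine ⟨arithmeticGalois F₀ σ • f, hV σ hσ f hf, ?_⟩
    funext i
    exact coeffFn_smul F₀ σ f i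
  have key := le_span_fixed (V.map (coeffFn F₀))
    {φ : L →+* L | ∃ σ ∈ H, φ = ((σ : L ≃ₐ[ℚ] L) : L →+* L)} hstab
  have h1 : V.map (coeffFn F₀) ≤
      (Submodule.span L {f | f ∈ V ∧ ∀ σ ∈ H, arithmeticGalois F₀ σ • f = f}).map
        (coeffFn F₀) := by
    refine key.trans ?_
    rw [Submodule.span_le]
    rintro x' ⟨⟨f, hf, rfl⟩, hfix⟩
    refine Submodule.mem_map_of_mem (Submodule.subset_span ⟨hf, fun σ hσ => ?_⟩)
    apply coeffFn_injective F₀
    funext i
    rw [coeffFn_smul]
    exact hfix _ ⟨σ, hσ, rfl⟩ i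
  intro f hf
  obtain ⟨g, hg, hgf⟩ := h1 (Submodule.mem_map_of_mem hf)
  have h3 : g = f := coeffFn_injective F₀ hgf
  rw [← h3]
  exact hg

/-- A stable finite-dimensional subspace not contained in `V₀` has a fixed element outside
`V₀`. -/
theorem exists_fixed_notMem (V : Submodule L (laurentBaseChange L F₀)) [FiniteDimensional L V]
    (H : Set (L ≃ₐ[ℚ] L)) (hV : ∀ σ ∈ H, ∀ f ∈ V, arithmeticGalois F₀ σ • f ∈ V)
    (V₀ : Submodule L (laurentBaseChange L F₀)) (hne : ¬ V ≤ V₀) :
    ∃ f ∈ V, f ∉ V₀ ∧ ∀ σ ∈ H, arithmeticGalois F₀ σ • f = f := by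
  by_contra hcon
  push Not at hcon
  apply hne
  refine (le_span_fixed_fn F₀ V H hV).trans (Submodule.span_le.2 ?_)
  rintro f ⟨hf, hfix⟩
  by_contra hf0
  obtain ⟨σ, hσ, hσf⟩ := hcon f hf hf0
  exact hσf (hfix σ hσ)

end General

section RR

variable {K F : Type*} [Field K] [Field F] [Algebra K F]

/-- `L(E)` is stable under the semilinear automorphisms fixing `E`. -/
theorem smul_mem_riemannRochSpace (γ : SemilinearAut K F) {E : Divisor K F} (hE : γ • E = E)
    {f : F} (hf : f ∈ riemannRochSpace E) : γ • f ∈ riemannRochSpace E := by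
  rw [mem_riemannRochSpace_iff] at hf ⊢
  intro v
  rcases hf (γ⁻¹ • v) with h0 | h
  · left; rw [h0, smul_zero]
  · right
    have h1 := SemilinearAut.ord_smul γ (γ⁻¹ • v) f
    rw [smul_inv_smul] at h1
    have h2 : E (γ⁻¹ • v) = E v := by
      conv_rhs => rw [← hE]
      rw [SemilinearAut.divisor_smul_apply]
    rw [h1, ← h2]
    exact h

end RR

section Modular

open Fermat.Agent.Lib.FF Fermat.Agent.Lib.FF.PlaceInf

local notation "Qb" => AlgebraicClosure ℚ
local notation "GQ" => (AlgebraicClosure ℚ ≃ₐ[ℚ] AlgebraicClosure ℚ)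

variable (N : ℕ) [NeZero N]

/-- Multiples of the cusp `∞` are fixed by the arithmetic Galois action. -/
theorem smul_single_placeInf (σ : GQ) (n : ℤ) :
    arithmeticGalois (modularFunctionFieldFull N) σ •
        (Finsupp.single (placeInfL Qb N) n : Divisor Qb (modularFunctionFieldBar N))
      = Finsupp.single (placeInfL Qb N) n := by
  rw [SemilinearAut.smul_single, arithmeticGalois_smul_placeInfL]

/-- **The rational coordinate**: a non-constant function on `X₀(N)` fixed by all of `G_ℚ` with
its only pole at the cusp `∞`. -/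
theorem exists_rational_coordinate :
    ∃ t : modularFunctionFieldBar N,
      (∀ σ : GQ, arithmeticGalois (modularFunctionFieldFull N) σ • t = t) ∧
      (∀ P : Place Qb (modularFunctionFieldBar N), P ≠ placeInfL Qb N → 0 ≤ P.ord t) ∧
      (placeInfL Qb N).ord t < 0 := by
  classical
  have h := Fermat.Agent.Lib.FF.Res.isFF1_modular N
  set E : Divisor Qb (modularFunctionFieldBar N) :=
    Finsupp.single (placeInfL Qb N) ((genusFF Qb (modularFunctionFieldBar N) : ℤ) + 1) with hE
  have hfin : Module.Finite Qb (riemannRochSpace E) := h.finite_L E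
  have hfin0 : Module.Finite Qb (riemannRochSpace (0 : Divisor Qb (modularFunctionFieldBar N))) :=
    h.finite_L 0
  have hdim : (2 : ℤ) ≤ (Module.finrank Qb (riemannRochSpace E) : ℤ) := by
    have h1 := h.riemann_le E
    rw [hE, Divisor.degree_single, h.deg_eq_one] at h1
    push_cast at h1
    linarith
  have hne : ¬ riemannRochSpace E ≤
      riemannRochSpace (0 : Divisor Qb (modularFunctionFieldBar N)) := by
    intro hle
    have h1 := Submodule.finrank_mono hle
    rw [h.finrank_L_zero] at h1
    have : (Module.finrank Qb (riemannRochSpace E) : ℤ) ≤ 1 := by exact_mod_cast h1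
    linarith
  obtain ⟨t, htE, ht0, htfix⟩ := exists_fixed_notMem (modularFunctionFieldFull N)
    (riemannRochSpace E) Set.univ
    (fun σ _ f hf => smul_mem_riemannRochSpace _ (smul_single_placeInf N σ _) hf)
    (riemannRochSpace 0) hne
  have htne : t ≠ 0 := fun h0 => ht0 (by rw [h0]; exact Submodule.zero_mem _)
  have hreg : ∀ P : Place Qb (modularFunctionFieldBar N), P ≠ placeInfL Qb N → 0 ≤ P.ord t := by
    intro P hP
    rcases (mem_riemannRochSpace_iff.1 htE) P with h0 | h1
    · exact absurd h0 htne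
    · rw [hE, Finsupp.single_apply, if_neg (Ne.symm hP), neg_zero] at h1
      exact h1
  refine ⟨t, fun σ => htfix σ (Set.mem_univ σ), hreg, ?_⟩
  by_contra hcon
  push Not at hcon
  apply ht0
  rw [mem_riemannRochSpace_iff]
  intro v
  right
  rw [Finsupp.zero_apply, neg_zero]
  by_cases hv : v = placeInfL Qb N
  · rw [hv]; exact hcon
  · exact hreg v hv

end Modular

end Fermat.Agent.MW.Ht.RatCoord
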