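/-
MW / heights (helper63) — **the rational coordinate with exact pole order `2g + 1`**.

* `finrank_adjoin_of_single_pole` : a function `t` with its only pole at `pinf`, of order `m ≥ 1`,
  is transcendental and `[F : K(t)] = m`;
* `exists_fixed_of_pole_order` : for every `m ≥ 2g`, an `H`-fixed function on `X₀(N)` with its only pole at the cusp `∞`, of order exactly `m`;
* `exists_rational_coordinate_exact` : the case `m = 2g + 1`, with `[F : ℚ̄(t)] = 2g + 1`.
-/
import Fermat.Agent.MW.Ht.RatCoord
import Fermat.Agent.Lib.FF.WeilCanonical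
import Fermat.Agent.Lib.FF.RRFunctionField

set_option autoImplicit false

noncomputable section

namespace Fermat.Agent.MW.Ht.RatCoord

open ModularCurve AlgebraicCurve IntermediateField Fermat.Agent.Lib.FF

section General

variable {K F : Type*} [Field K] [Field F] [Algebra K F] [IsAlgClosed K] [CharZero K] {x : F}

omit [CharZero K] in
/-- A function with a pole is transcendental over the (algebraically closed) constants. -/
theorem transcendental_of_pole (P : Place K F) {t : F} (ht : P.ord t < 0) :
    Transcendental K t := by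
  intro halg
  obtain ⟨c, rfl⟩ := exists_eq_algebraMap_of_isAlgebraic halg
  have h1 := P.adicValuation_algebraMap_le_one c
  rcases (P.adicValuation_le_one_iff).1 h1 with h | h
  · rw [h, Place.ord_zero] at ht
    exact lt_irrefl _ ht
  · omega

/-- A function with a single pole, of order `m ≥ 1`, generates a subfield of index `m`. -/
theorem finrank_adjoin_of_single_pole (h : IsFF1 K F x) (pinf : Place K F) (t : F) (m : ℕ)
    (hm : 0 < m) (hreg : ∀ P : Place K F, P ≠ pinf → 0 ≤ P.ord t)
    (hinf : pinf.ord t = -(m : ℤ)) :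
    Transcendental K t ∧ ∃ _ : FiniteDimensional K⟮t⟯ F, Module.finrank K⟮t⟯ F = m := by
  classical
  have ht : Transcendental K t := transcendental_of_pole pinf (by rw [hinf]; omega)
  have hx : FiniteDimensional K⟮x⟯ F := h.finiteDimensional
  have hfd : FiniteDimensional K⟮t⟯ F :=
    Fermat.Agent.S24.Transfer.finiteDimensional_adjoin_of_transcendental (K := K) x ht
  refine ⟨ht, hfd, ?_⟩
  have h1 := RR.degree_poleDiv (K := K) t ht
  have h2 : RR.poleDiv K t = Finsupp.single pinf (m : ℤ) := by
    ext v
    rw [RR.poleDiv_apply, Finsupp.single_apply]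
    by_cases hv : pinf = v
    · subst hv
      rw [if_pos rfl, hinf]
      simp
    · rw [if_neg hv]
      have := hreg v (Ne.symm hv)
      omega
  rw [h2, Divisor.degree_single, h.deg_eq_one, Nat.cast_one, mul_one] at h1
  exact_mod_cast h1.symm

end General

section Modular

open Fermat.Agent.Lib.FF.PlaceInf

local notation "Qb" => AlgebraicClosure ℚ
local notation "GQ" => (AlgebraicClosure ℚ ≃ₐ[ℚ] AlgebraicClosure ℚ)

variable (N : ℕ) [NeZero N]

/-- **Fixed functions of every pole order `m ≥ 2g` at the cusp `∞`**, regular elsewhere,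
fixed by a prescribed set `H` of Galois automorphisms. -/
theorem exists_fixed_of_pole_order (H : Set GQ) (m : ℕ)
    (hg : 2 * genusFF Qb (modularFunctionFieldBar N) ≤ m) :
    ∃ t : modularFunctionFieldBar N,
      (∀ σ ∈ H, arithmeticGalois (modularFunctionFieldFull N) σ • t = t) ∧
      (∀ P : Place Qb (modularFunctionFieldBar N), P ≠ placeInfL Qb N → 0 ≤ P.ord t) ∧
      (placeInfL Qb N).ord t = -(m : ℤ) := by
  classical
  have h := Fermat.Agent.Lib.FF.Res.isFF1_modular N
  obtain ⟨E₁, hE₁⟩ : ∃ E : Divisor Qb (modularFunctionFieldBar N),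
      E = Finsupp.single (placeInfL Qb N) (m : ℤ) := ⟨_, rfl⟩
  obtain ⟨E₀, hE₀⟩ : ∃ E : Divisor Qb (modularFunctionFieldBar N),
      E = Finsupp.single (placeInfL Qb N) ((m : ℤ) - 1) := ⟨_, rfl⟩
  have hfin1 : Module.Finite Qb (riemannRochSpace E₁) := h.finite_L E₁
  have hfin0 : Module.Finite Qb (riemannRochSpace E₀) := h.finite_L E₀
  have hd1 : Divisor.degree E₁ = (m : ℤ) := by
    rw [hE₁, Divisor.degree_single, h.deg_eq_one]; simp
  have hd0 : Divisor.degree E₀ = (m : ℤ) - 1 := by
    rw [hE₀, Divisor.degree_single, h.deg_eq_one]; simp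
  have hgm : (2 : ℤ) * (genusFF Qb (modularFunctionFieldBar N) : ℤ) ≤ (m : ℤ) := by
    exact_mod_cast hg
  have hr1 := WeilCanonical.finrank_L_of_degree h (D := E₁) (by rw [hd1]; linarith)
  have hr0 := WeilCanonical.finrank_L_of_degree h (D := E₀) (by rw [hd0]; linarith)
  rw [hd1] at hr1
  rw [hd0] at hr0
  have hne : ¬ riemannRochSpace E₁ ≤ riemannRochSpace E₀ := by
    intro hle
    have h1 := Submodule.finrank_mono hle
    have h2 : (Module.finrank Qb (riemannRochSpace E₁) : ℤ)
        ≤ (Module.finrank Qb (riemannRochSpace E₀) : ℤ) := by exact_mod_cast h1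
    linarith
  obtain ⟨t, htE, ht0, htfix⟩ := exists_fixed_notMem (modularFunctionFieldFull N)
    (riemannRochSpace E₁) H
    (fun σ _ f hf => smul_mem_riemannRochSpace _ (by rw [hE₁]; exact smul_single_placeInf N σ _) hf)
    (riemannRochSpace E₀) hne
  have htne : t ≠ 0 := fun h0 => ht0 (by rw [h0]; exact Submodule.zero_mem _)
  have hreg : ∀ P : Place Qb (modularFunctionFieldBar N), P ≠ placeInfL Qb N → 0 ≤ P.ord t := by
    intro P hP
    rcases (mem_riemannRochSpace_iff.1 htE) P with h0 | h1
    · exact absurd h0 htne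
    · rw [hE₁, Finsupp.single_apply, if_neg (Ne.symm hP), neg_zero] at h1
      exact h1
  refine ⟨t, htfix, hreg, ?_⟩
  have hge : -(m : ℤ) ≤ (placeInfL Qb N).ord t := by
    rcases (mem_riemannRochSpace_iff.1 htE) (placeInfL Qb N) with h0 | h1
    · exact absurd h0 htne
    · rw [hE₁, Finsupp.single_apply, if_pos rfl] at h1
      exact h1
  by_contra hcon
  have hgt : -((m : ℤ) - 1) ≤ (placeInfL Qb N).ord t := by
    have : -(m : ℤ) ≠ (placeInfL Qb N).ord t := fun h => hcon h.symm
    omega
  apply ht0
  rw [mem_riemannRochSpace_iff]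
  intro v
  right
  by_cases hv : v = placeInfL Qb N
  · rw [hv, hE₀, Finsupp.single_apply, if_pos rfl]
    exact hgt
  · rw [hE₀, Finsupp.single_apply, if_neg (Ne.symm hv), neg_zero]
    exact hreg v hv

/-- **The rational coordinate with exact pole order `2g + 1`** (chief ruling #2): a function on
`X₀(N)` fixed by all of `G_ℚ`, regular off the cusp `∞`, with a pole of order exactly `2g + 1`
there; it is transcendental and `[F : ℚ̄(t)] = 2g + 1`. -/
theorem exists_rational_coordinate_exact :
    ∃ t : modularFunctionFieldBar N,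
      (∀ σ : GQ, arithmeticGalois (modularFunctionFieldFull N) σ • t = t) ∧
      (∀ P : Place Qb (modularFunctionFieldBar N), P ≠ placeInfL Qb N → 0 ≤ P.ord t) ∧
      (placeInfL Qb N).ord t
        = -((2 * genusFF Qb (modularFunctionFieldBar N) + 1 : ℕ) : ℤ) ∧
      Transcendental Qb t ∧
      ∃ _ : FiniteDimensional Qb⟮t⟯ (modularFunctionFieldBar N),
        Module.finrank Qb⟮t⟯ (modularFunctionFieldBar N)
          = 2 * genusFF Qb (modularFunctionFieldBar N) + 1 := by
  obtain ⟨t, h1, h2, h3⟩ := exists_fixed_of_pole_order N Set.univ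
    (2 * genusFF Qb (modularFunctionFieldBar N) + 1) (Nat.le_succ _)
  obtain ⟨h4, h5⟩ := finrank_adjoin_of_single_pole (Fermat.Agent.Lib.FF.Res.isFF1_modular N)
    (placeInfL Qb N) t _ (Nat.succ_pos _) h2 h3
  exact ⟨t, fun σ => h1 σ (Set.mem_univ σ), h2, h3, h4, h5⟩

end Modular

end Fermat.Agent.MW.Ht.RatCoord
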