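/-
MW / heights — the arithmetic fields of `HG.Setting` for the absolute values `AbsQb.abv` of
`Qb = AlgebraicClosure ℚ`:

* `exists_finset_transversal` : a finite-index subgroup `U ≤ G_ℚ` has a finite set `Σ ∋ 1` of
  representatives of its left cosets (in the `∃!` shape used by `prod_formula_galois`);
  `exists_finset_transversal_fixingSubgroup` : the case `U = Gal(Qb/k)`, `k` a number field;
* `pf_of_transversal` : the product formula in the literal shape of the field `pf` of
  `HG.Setting`, for a homomorphism `ρ : G_ℚ →* SemilinearAut Qb F` with base action `σ`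
  (e.g. `arithmeticGalois`), `Γ = ρ.range`, `U = U₀.map ρ`, `Sg = Σ.image ρ`.
-/
import Mathlib
import Fermat.Prelude.Def_AlgebraicCurve_BaseChangeGalois
import Fermat.Agent.MW.Ht.NorthcottQb
import Fermat.Agent.MW.Ht.AbsFamilyQb

set_option autoImplicit false

noncomputable section

namespace Fermat.Agent.MW.Ht.AbsQb

open AlgebraicCurve

local notation "Qb" => AlgebraicClosure ℚ
local notation "GQ" => (AlgebraicClosure ℚ ≃ₐ[ℚ] AlgebraicClosure ℚ)

local instance isAlgebraicQb_sp : Algebra.IsAlgebraic ℚ Qb := AlgebraicClosure.isAlgebraic ℚ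
local instance isAlgClosureQb_sp : IsAlgClosure ℚ Qb := ⟨inferInstance, inferInstance⟩
local instance normalQb_sp : Normal ℚ Qb := IsAlgClosure.normal ℚ Qb
local instance isSeparableQb_sp : Algebra.IsSeparable ℚ Qb :=
  Algebra.IsAlgebraic.isSeparable_of_perfectField
local instance isGaloisQb_sp : IsGalois ℚ Qb := ⟨⟩

/-- A finite-index subgroup of `G_ℚ` has a finite set of representatives of its left cosets,
containing `1`. -/
theorem exists_finset_transversal (U : Subgroup GQ) [U.FiniteIndex] :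
    ∃ Sg : Finset GQ, (1 : GQ) ∈ Sg ∧ Sg.card = U.index ∧
      ∀ g : GQ, ∃! s, s ∈ Sg ∧ s⁻¹ * g ∈ U := by
  classical
  obtain ⟨S, hS, h1⟩ := U.exists_isComplement_left 1
  have hfin : S.Finite := hS.finite_left
  refine ⟨hfin.toFinset, by simpa using h1, ?_, fun g => ?_⟩
  · rw [← hS.ncard_left, Set.ncard_eq_toFinset_card S hfin]
  · obtain ⟨s, hs, huniq⟩ := Subgroup.isComplement_iff_existsUnique_inv_mul_mem.mp hS g
    refine ⟨s, ⟨by simp, hs⟩, fun t ht => ?_⟩
    have ht' : t ∈ S := by simpa using ht.1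
    have := huniq ⟨t, ht'⟩ ht.2
    exact congrArg Subtype.val this

/-- The fixing subgroup of a number field has finite index in `G_ℚ`. -/
theorem finiteIndex_fixingSubgroup_nf (k : IntermediateField ℚ Qb) [FiniteDimensional ℚ k] :
    k.fixingSubgroup.FiniteIndex := by
  refine ⟨?_⟩
  rw [← IntermediateField.finrank_eq_fixingSubgroup_index]
  exact Module.finrank_pos.ne'

/-- A finite set of representatives of the left cosets of `Gal(Qb/k)` in `G_ℚ`, `k` a number
field. -/
theorem exists_finset_transversal_fixingSubgroup (k : IntermediateField ℚ Qb)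
    [FiniteDimensional ℚ k] :
    ∃ Sg : Finset GQ, (1 : GQ) ∈ Sg ∧ Sg.card = Module.finrank ℚ k ∧
      ∀ g : GQ, ∃! s, s ∈ Sg ∧ s⁻¹ * g ∈ k.fixingSubgroup := by
  have := finiteIndex_fixingSubgroup_nf k
  obtain ⟨Sg, h1, hc, hS⟩ := exists_finset_transversal k.fixingSubgroup
  exact ⟨Sg, h1, by rw [hc, IntermediateField.finrank_eq_fixingSubgroup_index], hS⟩

section Semilinear

variable {F : Type*} [Field F] [Algebra Qb F]

/-- A homomorphism `G_ℚ →* SemilinearAut Qb F` with base action `σ` is injective. -/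
theorem injective_of_baseAut (ρ : GQ →* SemilinearAut Qb F)
    (hρ : ∀ (σ : GQ) (a : Qb), SemilinearAut.baseAut (ρ σ) a = σ a) : Function.Injective ρ := by
  intro σ τ h
  ext a
  rw [← hρ σ a, ← hρ τ a, h]

open Classical in
/-- **The field `pf` of `HG.Setting`** for the family `absFamily` of absolute values of `Qb`:
the product formula for `U`-fixed constants, `U = U₀.map ρ`, `Sg = Σ.image ρ`. -/
theorem pf_of_transversal (ρ : GQ →* SemilinearAut Qb F)
    (hρ : ∀ (σ : GQ) (a : Qb), SemilinearAut.baseAut (ρ σ) a = σ a)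
    (U : Subgroup GQ) (Sg : Finset GQ) (hS : ∀ g : GQ, ∃! s, s ∈ Sg ∧ s⁻¹ * g ∈ U)
    (a : Qb) (ha : a ≠ 0) (hfix : ∀ u ∈ U.map ρ, SemilinearAut.baseAut u a = a) :
    ∑ s ∈ Sg.image ρ, ∑ᶠ v, Real.log (absFamily.abv v (SemilinearAut.baseAut s a)) = 0 := by
  rw [Finset.sum_image fun x _ y _ h => injective_of_baseAut ρ hρ h]
  have h1 : ∀ u ∈ U, u a = a := fun u hu => by
    rw [← hρ u a]
    exact hfix _ (Subgroup.mem_map_of_mem ρ hu)
  have h2 := prod_formula_galois U Sg hS ha h1
  simpa [hρ] using h2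

/-- The other arithmetic fields of `HG.Setting`: `U ≤ Γ` and `Sg ⊆ Γ`. -/
theorem map_le_range (ρ : GQ →* SemilinearAut Qb F) (U : Subgroup GQ) : U.map ρ ≤ ρ.range := by
  rintro _ ⟨u, -, rfl⟩
  exact ⟨u, rfl⟩

open Classical in
theorem image_mem_range (ρ : GQ →* SemilinearAut Qb F) (Sg : Finset GQ) :
    ∀ s ∈ Sg.image ρ, s ∈ ρ.range := by
  intro s hs
  obtain ⟨σ, -, rfl⟩ := Finset.mem_image.mp hs
  exact ⟨σ, rfl⟩

end Semilinear

end Fermat.Agent.MW.Ht.AbsQb
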