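/-
MW / heights — finite left transversals of finite-index subgroups of `G_ℚ`, in Mathlib's
`Subgroup.IsComplement` shape (the shape consumed by `HG.SettingInst.modSetting` and by
`AbsQb.prod_formula_isComplement`).
-/
import Mathlib
import Fermat.Agent.MW.Ht.SettingPf

set_option autoImplicit false

namespace Fermat.Agent.MW.Ht.AbsQb

local notation "Qb" => AlgebraicClosure ℚ
local notation "GQ" => (AlgebraicClosure ℚ ≃ₐ[ℚ] AlgebraicClosure ℚ)

/-- The `∃!` form of a transversal is Mathlib's `IsComplement`. -/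
theorem isComplement_of_existsUnique (U : Subgroup GQ) (Sg : Finset GQ)
    (hS : ∀ g : GQ, ∃! s, s ∈ Sg ∧ s⁻¹ * g ∈ U) :
    Subgroup.IsComplement (Sg : Set GQ) (U : Set GQ) := by
  rw [Subgroup.isComplement_iff_existsUnique_inv_mul_mem]
  intro g
  obtain ⟨s, ⟨hs, hsU⟩, huniq⟩ := hS g
  refine ⟨⟨s, hs⟩, hsU, fun t ht => ?_⟩
  exact Subtype.ext (huniq t ⟨t.2, ht⟩)

/-- A finite-index subgroup of `G_ℚ` has a finite left transversal containing `1`. -/
theorem exists_finset_isComplement (U : Subgroup GQ) [U.FiniteIndex] :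
    ∃ Sg : Finset GQ, (1 : GQ) ∈ Sg ∧ Sg.card = U.index ∧
      Subgroup.IsComplement (Sg : Set GQ) (U : Set GQ) := by
  obtain ⟨Sg, h1, hc, hS⟩ := exists_finset_transversal U
  exact ⟨Sg, h1, hc, isComplement_of_existsUnique U Sg hS⟩

/-- A finite left transversal of `Gal(Qb/k)` in `G_ℚ`, `k` a number field. -/
theorem exists_finset_isComplement_fixingSubgroup (k : IntermediateField ℚ Qb)
    [FiniteDimensional ℚ k] :
    ∃ Sg : Finset GQ, (1 : GQ) ∈ Sg ∧ Sg.card = Module.finrank ℚ k ∧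
      Subgroup.IsComplement (Sg : Set GQ) (k.fixingSubgroup : Set GQ) := by
  obtain ⟨Sg, h1, hc, hS⟩ := exists_finset_transversal_fixingSubgroup k
  exact ⟨Sg, h1, hc, isComplement_of_existsUnique _ Sg hS⟩

end Fermat.Agent.MW.Ht.AbsQb
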