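/-
MW / HT-Q, function-field half of (HadK): the RATIONAL canonical-type family (helper78), on top
of helper16's `MW/Ht/CanonSpace.lean` and helper45's `MW/Ht/GalBridge.lean`.

* `exists_canonical_family_fixed` (generic): `F/K` in the setting `Lib.FF.IsFF1`, `char K = 0`,
  `pinf` a place, `t` a function with poles only at `pinf` (of order `m ≥ 1`), `Γ` a group of
  semilinear automorphisms fixing `pinf` and `t` such that every finite-dimensional `Γ`-stable
  subspace of `F` has a basis of `Γ`-fixed vectors (Galois descent).  Then there are an effective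
  `Γ`-STABLE divisor `B` off `pinf` of degree `k ≤ g` and `g` linearly independent `Γ`-FIXED
  functions, regular off `pinf`, of pole order `≤ 2 g - 2 + k` at `pinf`, vanishing on `B`, whose
  matrix of values at any `g` distinct points `P_j ∉ supp B ∪ {pinf}` with `l(∑ P_j) = 1` is
  invertible.
* `exists_rational_canonical_family` (modular): the same for `F = ℚ̄·F_N`, `∞` the cusp and the
  arithmetic Galois action of `G_ℚ`; `exists_rational_canonical_family_range` is the same
  statement for the subgroup `Γ = range (arithmeticGalois …)` (the `Γ` of `HG.Setting`).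

These are the fields `κ`, `MK`, `κ_fam`, `B`, `B_inf`, `B_stable`, `hMK` of `HG.CurveData₀` and the
determinant clause of `HG.CurveData₀.Good`.
-/
import Mathlib
import Fermat.Agent.MW.Ht.CanonSpace

set_option autoImplicit false
set_option linter.style.haveILetI false

noncomputable section

namespace Fermat.Agent.MW.Ht.CanonRat

open AlgebraicCurve ModularCurve Module WithZero
open Fermat.Agent.Lib.FF Fermat.Agent.Lib.FF.PlaceInf Fermat.Agent.MW.HtM
open Fermat.Agent.MW.Ht

local notation "Qb" => AlgebraicClosure ℚ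
local notation "GQ" => (AlgebraicClosure ℚ ≃ₐ[ℚ] AlgebraicClosure ℚ)

/-! ### Generic part -/

section Generic

variable {K F : Type*} [Field K] [Field F] [Algebra K F]

/-- A semilinear automorphism preserves `L(D)` when `D` is invariant. -/
theorem smul_mem_rr_of_invariant (g : SemilinearAut K F) (D : Divisor K F)
    (hD : ∀ v, D (g⁻¹ • v) = D v) {f : F} (hf : f ∈ riemannRochSpace D) :
    g • f ∈ riemannRochSpace D := by
  intro v
  have h1 := GalBridge.adicValuation_smul_smul g (g⁻¹ • v) f
  rw [smul_inv_smul] at h1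
  rw [h1, ← hD v]
  exact hf _

/-- The ramification index of a fixed function is invariant. -/
theorem ord_sub_pval_smul (g : SemilinearAut K F) {t : F} (ht : g • t = t) (P : Place K F) :
    (g • P).ord (t - algebraMap K F (pval (g • P) t))
      = P.ord (t - algebraMap K F (pval P t)) := by
  have h1 : pval (g • P) t = SemilinearAut.baseAut g (pval P t) := by
    have := GalBridge.pval_smul g P t
    rwa [ht] at this
  have h2 : t - algebraMap K F (SemilinearAut.baseAut g (pval P t))
      = g • (t - algebraMap K F (pval P t)) := by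
    rw [smul_sub, SemilinearAut.smul_algebraMap, ht]
  rw [h1, h2, SemilinearAut.ord_smul]

/-- The order of a fixed function is invariant. -/
theorem ord_smul_of_fixed (g : SemilinearAut K F) {w : F} (hw : g • w = w) (P : Place K F) :
    (g • P).ord w = P.ord w := by
  conv_lhs => rw [← hw]
  exact SemilinearAut.ord_smul g P w

theorem smul_ne_of_ne {g : SemilinearAut K F} {pinf : Place K F} (hg : g • pinf = pinf)
    {v : Place K F} (hv : v ≠ pinf) : g • v ≠ pinf := by
  intro e
  apply hv
  rw [← hg] at e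
  exact MulAction.injective g e

/-- **The canonical-type family, with a group of semilinear automorphisms.** -/
theorem exists_canonical_family_fixed [CharZero K] {x : F} (h : IsFF1 K F x) (pinf : Place K F)
    (t : F) (m : ℕ) (hm : 0 < m) (hreg : ∀ P : Place K F, P ≠ pinf → 0 ≤ P.ord t)
    (hinf : pinf.ord t = -(m : ℤ))
    (Γ : Subgroup (SemilinearAut K F)) (hΓinf : ∀ g ∈ Γ, g • pinf = pinf)
    (hΓt : ∀ g ∈ Γ, g • t = t)
    (hbasis : ∀ (L : Submodule K F) [FiniteDimensional K L], (∀ g ∈ Γ, ∀ y ∈ L, g • y ∈ L) →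
      ∃ (r : ℕ) (f : Fin r → F), (∀ i, ∀ g ∈ Γ, g • f i = f i) ∧ LinearIndependent K f ∧
        Submodule.span K (Set.range f) = L) :
    ∃ (k : ℕ) (B : Place K F →₀ ℕ) (f : Fin (genusFF K F) → F),
      B pinf = 0 ∧ HQ.deg B = k ∧ k ≤ genusFF K F ∧
      (∀ g ∈ Γ, B.mapDomain (fun P => g • P) = B) ∧
      (∀ i, ∀ g ∈ Γ, g • f i = f i) ∧
      (∀ i, ∀ P, P ≠ pinf → 0 ≤ P.ord (f i)) ∧
      (∀ i, -((2 * genusFF K F + k - 2 : ℕ) : ℤ) ≤ pinf.ord (f i)) ∧
      (∀ i, ∀ P, P ≠ pinf → (B P : ℤ) ≤ P.ord (f i)) ∧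
      LinearIndependent K f ∧
      ∀ P : Fin (genusFF K F) → Place K F, Function.Injective P → (∀ j, P j ≠ pinf) →
        (∀ j, P j ∉ B.support) →
        finrank K (riemannRochSpace (∑ j, Finsupp.single (P j) (1 : ℤ))) = 1 →
        Matrix.det (fun i j => pval (P j) (f i)) ≠ 0 := by
  classical
  -- Step 1: a `Γ`-fixed `w ≠ 0` vanishing on the ramification divisor
  obtain ⟨W₀, -, hdeg, hWinf, hWfin⟩ := CanonSpace.exists_divisor_dt h pinf t m hm hreg hinf
  set Dv : Divisor K F := Finsupp.single pinf (3 * (genusFF K F : ℤ) - 2) - W₀ with hDv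
  have hdegD : Divisor.degree Dv = genusFF K F := by
    rw [hDv, map_sub, Divisor.degree_single, h.deg_eq_one, hdeg]
    push_cast
    ring
  have hW₀inv : ∀ g ∈ Γ, ∀ v, W₀ (g • v) = W₀ v := by
    intro g hg v
    by_cases hv : v = pinf
    · rw [hv, hΓinf g hg]
    · rw [(hWfin _ (smul_ne_of_ne (hΓinf g hg) hv)).1, (hWfin v hv).1,
        ord_sub_pval_smul g (hΓt g hg)]
  have hDvinv : ∀ g ∈ Γ, ∀ v, Dv (g⁻¹ • v) = Dv v := by
    intro g hg v
    have hg' := Γ.inv_mem hg
    rw [hDv, Finsupp.sub_apply, Finsupp.sub_apply, hW₀inv _ hg' v]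
    congr 1
    by_cases hv : v = pinf
    · rw [hv, hΓinf _ hg']
    · rw [Finsupp.single_apply, Finsupp.single_apply,
        if_neg (Ne.symm (smul_ne_of_ne (hΓinf _ hg') hv)), if_neg (Ne.symm hv)]
  haveI := h.finite_L Dv
  obtain ⟨r, fw, hfwfix, hfwli, hfwspan⟩ := hbasis (riemannRochSpace Dv)
    (fun g hg y hy => smul_mem_rr_of_invariant g Dv (hDvinv g hg) hy)
  obtain ⟨w', hw'0, hw'⟩ := h.exists_ne_zero_of_degree_ge Dv (by rw [hdegD])
  have hw'mem : w' ∈ riemannRochSpace Dv :=
    (CanonSpace.mem_rr_iff hw'0).2 fun v => by have := hw' v; omega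
  have hr : 0 < r := by
    by_contra hr0
    have hr' : r = 0 := by omega
    subst hr'
    have hbot : Submodule.span K (Set.range fw) = ⊥ := by
      rw [Set.range_eq_empty, Submodule.span_empty]
    rw [← hfwspan, hbot, Submodule.mem_bot] at hw'mem
    exact hw'0 hw'mem
  set w : F := fw ⟨0, hr⟩ with hwdef
  have hw0 : w ≠ 0 := hfwli.ne_zero _
  have hwmem : w ∈ riemannRochSpace Dv := by
    rw [← hfwspan]
    exact Submodule.subset_span ⟨_, rfl⟩
  have hwfix : ∀ g ∈ Γ, g • w = w := hfwfix _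
  have hword := (CanonSpace.mem_rr_iff hw0).1 hwmem
  have hwram : ∀ P, P ≠ pinf → P.ord (t - algebraMap K F (pval P t)) - 1 ≤ P.ord w := by
    intro P hP
    have h1 := hword P
    rw [hDv, Finsupp.sub_apply, Finsupp.single_apply, if_neg (Ne.symm hP), (hWfin P hP).1] at h1
    omega
  have hwinf : -(3 * (genusFF K F : ℤ) + m - 1) ≤ pinf.ord w := by
    have h1 := hword pinf
    rw [hDv, Finsupp.sub_apply, Finsupp.single_apply, if_pos rfl, hWinf] at h1
    omega
  -- Step 2: the canonical divisor `W = div (dt / w)`, invariant under `Γ`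
  obtain ⟨W, hW, hWinf', hWfin'⟩ := CanonSpace.exists_canonical h pinf t m hm hreg hinf w hw0
  have hWinv : ∀ g ∈ Γ, ∀ v, W (g • v) = W v := by
    intro g hg v
    by_cases hv : v = pinf
    · rw [hv, hΓinf g hg]
    · rw [hWfin' _ (smul_ne_of_ne (hΓinf g hg) hv), hWfin' v hv,
        ord_sub_pval_smul g (hΓt g hg), ord_smul_of_fixed g (hwfix g hg)]
  have hWle : ∀ P, P ≠ pinf → 0 ≤ (-W) P := by
    intro P hP
    rw [Finsupp.neg_apply, hWfin' P hP]
    have := hwram P hP
    omega
  obtain ⟨B, hB0, hBval, hBdeg⟩ := CanonSpace.exists_nat_divisor (-W) pinf hWle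
  have hBinv : ∀ g ∈ Γ, ∀ v, B (g • v) = B v := by
    intro g hg v
    by_cases hv : v = pinf
    · rw [hv, hΓinf g hg]
    · have h1 := hBval _ (smul_ne_of_ne (hΓinf g hg) hv)
      have h2 := hBval v hv
      rw [Finsupp.neg_apply, hWinv g hg v] at h1
      rw [Finsupp.neg_apply] at h2
      exact_mod_cast h1.trans h2.symm
  have hdegW := Res.degree_of_isDivisorOf_ff1 h hW
  rw [CanonSpace.degree_eq_add_sum h W pinf] at hdegW
  have hBdeg' : (HQ.deg B : ℤ) = W pinf - (2 * (genusFF K F : ℤ) - 2) := by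
    rw [hBdeg, Finsupp.support_neg W]
    have : ∑ P ∈ W.support.erase pinf, (-W) P = -∑ P ∈ W.support.erase pinf, W P := by
      rw [← Finset.sum_neg_distrib (f := fun P => W P)]
      exact Finset.sum_congr rfl fun P _ => Finsupp.neg_apply W P
    rw [this]
    linarith
  have hkle : HQ.deg B ≤ genusFF K F := by
    have : (HQ.deg B : ℤ) ≤ genusFF K F := by
      rw [hBdeg', hWinf']
      omega
    exact_mod_cast this
  -- Step 3: a `Γ`-fixed basis of `L(W)`
  have hWinv' : ∀ g ∈ Γ, ∀ v, W (g⁻¹ • v) = W v := fun g hg v => hWinv _ (Γ.inv_mem hg) v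
  haveI := h.finite_L W
  have hrank : finrank K (riemannRochSpace W) = genusFF K F := Res.finrank_L_ff1 h hW
  obtain ⟨r', f, hffix, hli, hfspan⟩ := hbasis (riemannRochSpace W)
    (fun g hg y hy => smul_mem_rr_of_invariant g W (hWinv' g hg) hy)
  have hr' : r' = genusFF K F := by
    have h1 := finrank_span_eq_card hli
    rw [hfspan, hrank, Fintype.card_fin] at h1
    exact h1.symm
  subst hr'
  have hne : ∀ i, f i ≠ 0 := fun i => hli.ne_zero i
  have hmemW : ∀ i, f i ∈ riemannRochSpace W := fun i => by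
    rw [← hfspan]
    exact Submodule.subset_span ⟨i, rfl⟩
  refine ⟨HQ.deg B, B, f, hB0, rfl, hkle, ?_, hffix, ?_, ?_, ?_, hli, ?_⟩
  · intro g hg
    ext Q
    have h1 := Finsupp.mapDomain_apply (MulAction.injective g) B (g⁻¹ • Q)
    rw [smul_inv_smul] at h1
    rw [h1]
    exact hBinv _ (Γ.inv_mem hg) Q
  · intro i P hP
    have h1 := (CanonSpace.mem_rr_iff (hne i)).1 (hmemW i) P
    have h2 := hWle P hP
    rw [Finsupp.neg_apply] at h2
    omega
  · intro i
    have h1 := (CanonSpace.mem_rr_iff (hne i)).1 (hmemW i) pinf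
    have hg : 0 < finrank K (riemannRochSpace W) := by rw [hrank]; exact i.pos
    rw [hrank] at hg
    have h2 : ((2 * genusFF K F + HQ.deg B - 2 : ℕ) : ℤ) = W pinf := by
      rw [Nat.cast_sub (by omega)]
      push_cast
      rw [hBdeg']
      ring
    rw [h2]
    exact h1
  · intro i P hP
    have h1 := (CanonSpace.mem_rr_iff (hne i)).1 (hmemW i) P
    rw [hBval P hP, Finsupp.neg_apply]
    exact h1
  · intro P hP hPinf hPB hE
    refine CanonSpace.det_pval_ne_zero h hW _ hmemW hli P hP (fun j => ?_) hE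
    have h1 := hBval (P j) (hPinf j)
    have h2 : B (P j) = 0 := Finsupp.notMem_support_iff.1 (hPB j)
    rw [h2, Finsupp.neg_apply] at h1
    have h3 : (0 : ℤ) = -W (P j) := by exact_mod_cast h1
    omega

end Generic

/-! ### The modular function field -/

section Modular

variable (N : ℕ) [NeZero N]

/-- Galois descent for the subgroup `range (arithmeticGalois …)`. -/
theorem exists_fixed_basis_range (L : Submodule Qb (modularFunctionFieldBar N))
    [FiniteDimensional Qb L]
    (hL : ∀ g ∈ (arithmeticGalois (L := Qb) (modularFunctionFieldFull N)).range, ∀ y ∈ L, g • y ∈ L) :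
    ∃ (r : ℕ) (f : Fin r → modularFunctionFieldBar N),
      (∀ i, ∀ g ∈ (arithmeticGalois (L := Qb) (modularFunctionFieldFull N)).range, g • f i = f i) ∧
      LinearIndependent Qb f ∧ Submodule.span Qb (Set.range f) = L := by
  obtain ⟨r, f, hfix, hli, hspan⟩ := GalBridge.exists_fixed_basis_of_stable N L
    (fun σ y hy => hL _ ⟨σ, rfl⟩ y hy)
  refine ⟨r, f, fun i g hg => ?_, hli, hspan⟩
  obtain ⟨σ, rfl⟩ := hg
  exact hfix i σ

/-- **The rational canonical-type family**, for the subgroup
`Γ = range (arithmeticGalois …)` of semilinear automorphisms. -/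
theorem exists_rational_canonical_family_range (t : modularFunctionFieldBar N) (m : ℕ)
    (hm : 0 < m)
    (htfix : ∀ g ∈ (arithmeticGalois (L := Qb) (modularFunctionFieldFull N)).range, g • t = t)
    (hreg : ∀ P : Place Qb (modularFunctionFieldBar N), P ≠ placeInfL Qb N → 0 ≤ P.ord t)
    (hinf : (placeInfL Qb N).ord t = -(m : ℤ)) :
    ∃ (k : ℕ) (B : Place Qb (modularFunctionFieldBar N) →₀ ℕ)
      (f : Fin (genusFF Qb (modularFunctionFieldBar N)) → modularFunctionFieldBar N),
      B (placeInfL Qb N) = 0 ∧ HQ.deg B = k ∧ k ≤ genusFF Qb (modularFunctionFieldBar N) ∧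
      (∀ g ∈ (arithmeticGalois (L := Qb) (modularFunctionFieldFull N)).range,
        B.mapDomain (fun P => g • P) = B) ∧
      (∀ i, ∀ g ∈ (arithmeticGalois (L := Qb) (modularFunctionFieldFull N)).range, g • f i = f i) ∧
      (∀ i, ∀ P, P ≠ placeInfL Qb N → 0 ≤ P.ord (f i)) ∧
      (∀ i, -((2 * genusFF Qb (modularFunctionFieldBar N) + k - 2 : ℕ) : ℤ)
        ≤ (placeInfL Qb N).ord (f i)) ∧
      (∀ i, ∀ P, P ≠ placeInfL Qb N → (B P : ℤ) ≤ P.ord (f i)) ∧
      LinearIndependent Qb f ∧
      ∀ P : Fin (genusFF Qb (modularFunctionFieldBar N)) → Place Qb (modularFunctionFieldBar N),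
        Function.Injective P → (∀ j, P j ≠ placeInfL Qb N) → (∀ j, P j ∉ B.support) →
        finrank Qb (riemannRochSpace (∑ j, Finsupp.single (P j) (1 : ℤ))) = 1 →
        Matrix.det (fun i j => pval (P j) (f i)) ≠ 0 :=
  exists_canonical_family_fixed (Res.isFF1_modular N) (placeInfL Qb N) t m hm hreg hinf
    (arithmeticGalois (L := Qb) (modularFunctionFieldFull N)).range
    (fun g hg => by
      obtain ⟨σ, rfl⟩ := hg
      exact arithmeticGalois_smul_placeInfL Qb N σ)
    htfix
    (fun L _ hL => exists_fixed_basis_range N L hL)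

/-- **The rational canonical-type family**, `∀ σ : G_ℚ` form. -/
theorem exists_rational_canonical_family (t : modularFunctionFieldBar N) (m : ℕ) (hm : 0 < m)
    (htfix : ∀ σ : GQ, arithmeticGalois (modularFunctionFieldFull N) σ • t = t)
    (hreg : ∀ P : Place Qb (modularFunctionFieldBar N), P ≠ placeInfL Qb N → 0 ≤ P.ord t)
    (hinf : (placeInfL Qb N).ord t = -(m : ℤ)) :
    ∃ (k : ℕ) (B : Place Qb (modularFunctionFieldBar N) →₀ ℕ)
      (f : Fin (genusFF Qb (modularFunctionFieldBar N)) → modularFunctionFieldBar N),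
      B (placeInfL Qb N) = 0 ∧ HQ.deg B = k ∧ k ≤ genusFF Qb (modularFunctionFieldBar N) ∧
      (∀ σ : GQ,
        B.mapDomain (fun P => arithmeticGalois (modularFunctionFieldFull N) σ • P) = B) ∧
      (∀ i, ∀ σ : GQ, arithmeticGalois (modularFunctionFieldFull N) σ • f i = f i) ∧
      (∀ i, ∀ P, P ≠ placeInfL Qb N → 0 ≤ P.ord (f i)) ∧
      (∀ i, -((2 * genusFF Qb (modularFunctionFieldBar N) + k - 2 : ℕ) : ℤ)
        ≤ (placeInfL Qb N).ord (f i)) ∧
      (∀ i, ∀ P, P ≠ placeInfL Qb N → (B P : ℤ) ≤ P.ord (f i)) ∧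
      LinearIndependent Qb f ∧
      ∀ P : Fin (genusFF Qb (modularFunctionFieldBar N)) → Place Qb (modularFunctionFieldBar N),
        Function.Injective P → (∀ j, P j ≠ placeInfL Qb N) → (∀ j, P j ∉ B.support) →
        finrank Qb (riemannRochSpace (∑ j, Finsupp.single (P j) (1 : ℤ))) = 1 →
        Matrix.det (fun i j => pval (P j) (f i)) ≠ 0 := by
  obtain ⟨k, B, f, h1, h2, h3, h4, h5, h6, h7, h8, h9, h10⟩ :=
    exists_rational_canonical_family_range N t m hm
      (fun g hg => by
        obtain ⟨σ, rfl⟩ := hg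
        exact htfix σ) hreg hinf
  exact ⟨k, B, f, h1, h2, h3, fun σ => h4 _ ⟨σ, rfl⟩, fun i σ => h5 i _ ⟨σ, rfl⟩, h6, h7, h8,
    h9, h10⟩

end Modular

end Fermat.Agent.MW.Ht.CanonRat
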