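/-
MW / Ht / OrbRet (helper9) — the orbit retraction (Mathlib only).

For a group `U` acting on a type `P` there is an additive endomorphism `orbRet` of the effective
divisors `P →₀ ℕ` whose values are `U`-invariant and which is the identity on the `U`-invariant
divisors: a chosen representative of every FINITE orbit is sent to the orbit sum, all other
points to `0`.  (No finiteness hypothesis: an invariant divisor has finite support, so it only
meets finite orbits.)
-/
import Mathlib

set_option autoImplicit false

noncomputable section

namespace Fermat.Agent.MW.Ht.OrbRet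

variable (U : Type*) [Group U] {P : Type*} [MulAction U P]

/-- The chosen representative of the orbit of `p`. -/
def orep (p : P) : P := (Quotient.mk (MulAction.orbitRel U P) p).out

theorem orep_mem (p : P) : orep U p ∈ MulAction.orbit U p := by
  have h : (MulAction.orbitRel U P).r (orep U p) p :=
    Quotient.exact (Quotient.out_eq (Quotient.mk (MulAction.orbitRel U P) p))
  exact h

theorem orep_eq_of_mem {p q : P} (h : q ∈ MulAction.orbit U p) : orep U q = orep U p := by
  unfold orep
  congr 1
  exact Quotient.sound h

theorem orep_smul (u : U) (p : P) : orep U (u • p) = orep U p :=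
  orep_eq_of_mem U (MulAction.mem_orbit p u)

theorem orep_orep (p : P) : orep U (orep U p) = orep U p :=
  orep_eq_of_mem U (orep_mem U p)

open Classical in
/-- The sum of the points of the orbit of `p` (zero if the orbit is infinite). -/
def orbSum (p : P) : P →₀ ℕ :=
  if h : (MulAction.orbit U p).Finite then Finsupp.indicator h.toFinset (fun _ _ => 1) else 0

open Classical in
theorem orbSum_apply_of_finite {p : P} (h : (MulAction.orbit U p).Finite) (q : P) :
    orbSum U p q = if q ∈ MulAction.orbit U p then 1 else 0 := by
  classical
  unfold orbSum
  rw [dif_pos h, Finsupp.indicator_apply]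
  by_cases hq : q ∈ MulAction.orbit U p
  · rw [dif_pos (by simpa using hq), if_pos hq]
  · rw [dif_neg (by simpa using hq), if_neg hq]

theorem orbSum_of_infinite {p : P} (h : ¬ (MulAction.orbit U p).Finite) : orbSum U p = 0 := by
  unfold orbSum
  rw [dif_neg h]

theorem orbSum_smul_apply (p : P) (u : U) (q : P) : orbSum U p (u • q) = orbSum U p q := by
  classical
  by_cases h : (MulAction.orbit U p).Finite
  · rw [orbSum_apply_of_finite U h, orbSum_apply_of_finite U h]
    have : u • q ∈ MulAction.orbit U p ↔ q ∈ MulAction.orbit U p := by
      rw [← MulAction.orbit_eq_iff, ← MulAction.orbit_eq_iff, MulAction.orbit_smul]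
    rw [if_congr this rfl rfl]
  · rw [orbSum_of_infinite U h]
    rfl

/-- The orbit sums are invariant. -/
theorem mapDomain_orbSum (p : P) (u : U) :
    Finsupp.mapDomain (fun q : P => u • q) (orbSum U p) = orbSum U p := by
  ext q
  have hq : q = u • (u⁻¹ • q) := by rw [smul_inv_smul]
  conv_lhs => rw [hq]
  rw [Finsupp.mapDomain_apply (MulAction.injective u), ← orbSum_smul_apply U p u (u⁻¹ • q),
    smul_inv_smul]

open Classical in
/-- **The orbit retraction.** -/
def orbRet : (P →₀ ℕ) →+ (P →₀ ℕ) :=
  Finsupp.liftAddHom fun p =>
    if orep U p = p then multiplesHom (P →₀ ℕ) (orbSum U p) else 0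

open Classical in
theorem orbRet_single (p : P) (n : ℕ) :
    orbRet U (Finsupp.single p n) = if orep U p = p then n • orbSum U p else 0 := by
  classical
  unfold orbRet
  rw [Finsupp.liftAddHom_apply_single]
  split_ifs <;> simp

/-- The values of the orbit retraction are invariant. -/
theorem mapDomain_orbRet (D : P →₀ ℕ) (u : U) :
    Finsupp.mapDomain (fun q : P => u • q) (orbRet U D) = orbRet U D := by
  classical
  induction D using Finsupp.induction_linear with
  | zero => simp
  | add D E hD hE => rw [map_add, Finsupp.mapDomain_add, hD, hE]
  | single p n =>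
    rw [orbRet_single]
    split_ifs
    · rw [Finsupp.mapDomain_smul, mapDomain_orbSum]
    · simp

/-- An invariant divisor is constant on orbits. -/
theorem apply_smul_of_invariant {D : P →₀ ℕ}
    (hD : ∀ u : U, Finsupp.mapDomain (fun q : P => u • q) D = D) (u : U) (p : P) :
    D (u • p) = D p := by
  conv_lhs => rw [← hD u]
  exact Finsupp.mapDomain_apply (MulAction.injective u) D p

theorem apply_eq_of_mem_orbit {D : P →₀ ℕ}
    (hD : ∀ u : U, Finsupp.mapDomain (fun q : P => u • q) D = D) {p q : P}
    (h : q ∈ MulAction.orbit U p) : D q = D p := by
  obtain ⟨u, rfl⟩ := h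
  exact apply_smul_of_invariant U hD u p

/-- The orbits meeting the support of an invariant divisor are finite. -/
theorem orbit_finite_of_invariant {D : P →₀ ℕ}
    (hD : ∀ u : U, Finsupp.mapDomain (fun q : P => u • q) D = D) {p : P} (hp : D p ≠ 0) :
    (MulAction.orbit U p).Finite := by
  refine D.support.finite_toSet.subset ?_
  intro q hq
  rw [Finset.mem_coe, Finsupp.mem_support_iff, apply_eq_of_mem_orbit U hD hq]
  exact hp

/-- **The orbit retraction is the identity on the invariant divisors.** -/
theorem orbRet_of_invariant {D : P →₀ ℕ}
    (hD : ∀ u : U, Finsupp.mapDomain (fun q : P => u • q) D = D) : orbRet U D = D := by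
  classical
  ext q
  -- evaluate at `q`
  have key : ∀ E : P →₀ ℕ, orbRet U E q
      = E.sum fun p n => if orep U p = p then n * orbSum U p q else 0 := by
    intro E
    induction E using Finsupp.induction_linear with
    | zero => simp
    | add E E' hE hE' =>
      rw [map_add, Finsupp.add_apply, hE, hE']
      refine (Finsupp.sum_add_index' (fun p => by simp) (fun p a b => ?_)).symm
      split_ifs
      · ring
      · simp
    | single p n =>
      rw [orbRet_single, Finsupp.sum_single_index (by simp)]
      split_ifs
      · simp
      · simp
  rw [key]
  by_cases hq : D q = 0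
  · -- no point of the support lies in the orbit of `q`
    rw [hq]
    refine Finset.sum_eq_zero fun p hp => ?_
    have hp' : D p ≠ 0 := Finsupp.mem_support_iff.mp hp
    beta_reduce
    split_ifs with h1
    · rw [orbSum_apply_of_finite U (orbit_finite_of_invariant U hD hp')]
      have : q ∉ MulAction.orbit U p := fun hmem =>
        hp' (by rw [← apply_eq_of_mem_orbit U hD hmem]; exact hq)
      rw [if_neg this, mul_zero]
    · rfl
  · -- only the representative of the orbit of `q` contributes
    have hr : orep U q ∈ D.support := by
      rw [Finsupp.mem_support_iff, apply_eq_of_mem_orbit U hD (orep_mem U q)]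
      exact hq
    unfold Finsupp.sum
    rw [Finset.sum_eq_single_of_mem (orep U q) hr]
    · beta_reduce
      rw [if_pos (orep_orep U q),
        orbSum_apply_of_finite U (orbit_finite_of_invariant U hD (Finsupp.mem_support_iff.mp hr))]
      have hmem : q ∈ MulAction.orbit U (orep U q) := by
        have := orep_mem U q
        rw [← MulAction.orbit_eq_iff] at this ⊢
        exact this.symm
      rw [if_pos hmem, mul_one, apply_eq_of_mem_orbit U hD (orep_mem U q)]
    · intro p hp hne
      have hp' : D p ≠ 0 := Finsupp.mem_support_iff.mp hp
      beta_reduce
      split_ifs with h1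
      · rw [orbSum_apply_of_finite U (orbit_finite_of_invariant U hD hp')]
        have : q ∉ MulAction.orbit U p := fun hmem =>
          hne (by rw [← h1]; exact (orep_eq_of_mem U hmem).symm)
        rw [if_neg this, mul_zero]
      · rfl

end Fermat.Agent.MW.Ht.OrbRet
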