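/-
MW / Ht / ClU (helper9) — the class map into the `U`-fixed classes ((D5) of #2951).

`J := FixedPoints.addSubgroup ↥U (JZero N)` (the classes fixed by the subgroup `U ≤ GQ`).

* `clU N U : (Pt N →₀ ℕ) →+ J` : an additive map with `(clU N U D : JZero N) = clFull N D` for
  every `U`-invariant effective divisor `D` (`coe_clU`); it is `clFull ∘ orbRet`, where `orbRet`
  is the orbit retraction of `MW/Ht/OrbRet.lean`;
* `inclU N U` : the inclusion of the `GQ`-fixed classes into `J`, injective;
* `fg_of_heightDatum` : **the final wiring** — a `HQ.HeightDatum J (Pt N)` for ONE subgroup `U`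
  gives the finite generation of `J_0(N)(ℚ)` (the statement of S17), through weak Mordell–Weil
  (`WMW/FinalFG`) and divisibility (`DivC/Main`).
-/
import Mathlib
import Fermat.Agent.MW.Ht.Defs
import Fermat.Agent.MW.Ht.OrbRet
import Fermat.Agent.MW.HQ.Height
import Fermat.Agent.MW.WMW.FinalFG
import Fermat.Agent.MW.DivC.Main

set_option autoImplicit false
set_option linter.unusedSectionVars false

noncomputable section

namespace Fermat.Agent.MW.Ht.ClU

open AlgebraicCurve ModularCurve
open Fermat.Agent.MW Fermat.Agent.MW.Ht.Defs Fermat.Agent.MW.Ht.OrbRet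

local notation "Qb" => AlgebraicClosure ℚ
local notation "GQ" => (AlgebraicClosure ℚ ≃ₐ[ℚ] AlgebraicClosure ℚ)

variable (N : ℕ) [NeZero N] (U : Subgroup GQ)

/-- `D ∈ RatU N U` in terms of the action of the subgroup `U` on the points. -/
theorem mem_RatU_iff_mapDomain {D : Pt N →₀ ℕ} :
    D ∈ RatU N U ↔ ∀ u : ↥U, Finsupp.mapDomain (fun q : Pt N => u • q) D = D := by
  constructor
  · intro h u
    exact h (u : GQ) u.2
  · intro h σ hσ
    exact h ⟨σ, hσ⟩

/-- A `U`-invariant divisor is constant on the `U`-orbits. -/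
theorem apply_smul_of_mem_RatU {D : Pt N →₀ ℕ} (hD : D ∈ RatU N U) {σ : GQ} (hσ : σ ∈ U)
    (p : Pt N) : D (σ • p) = D p :=
  apply_smul_of_invariant ↥U ((mem_RatU_iff_mapDomain N U).mp hD) ⟨σ, hσ⟩ p

/-- The orbit retraction onto the `U`-invariant divisors. -/
def retU : (Pt N →₀ ℕ) →+ (Pt N →₀ ℕ) := orbRet ↥U

theorem retU_mem (D : Pt N →₀ ℕ) : retU N U D ∈ RatU N U :=
  (mem_RatU_iff_mapDomain N U).mpr fun u => mapDomain_orbRet ↥U D u

theorem retU_of_mem {D : Pt N →₀ ℕ} (hD : D ∈ RatU N U) : retU N U D = D :=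
  orbRet_of_invariant ↥U ((mem_RatU_iff_mapDomain N U).mp hD)

/-- **The class map into the `U`-fixed classes.** -/
def clU : (Pt N →₀ ℕ) →+ ↥(FixedPoints.addSubgroup ↥U (JZero N)) where
  toFun D := ⟨clFull N (retU N U D), by
    rw [FixedPoints.mem_addSubgroup]
    intro u
    exact clFull_mem_fixed N (retU_mem N U D) (u : GQ) u.2⟩
  map_zero' := by
    apply Subtype.ext
    simp
  map_add' D E := by
    apply Subtype.ext
    simp

/-- On the `U`-invariant divisors, `clU` is the class map `D ↦ [D − deg D · ∞]`. -/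
theorem coe_clU {D : Pt N →₀ ℕ} (hD : D ∈ RatU N U) :
    (clU N U D : JZero N) = clFull N D := by
  show clFull N (retU N U D) = clFull N D
  rw [retU_of_mem N U hD]

theorem clU_eq_iff {D : Pt N →₀ ℕ} (hD : D ∈ RatU N U)
    (x : ↥(FixedPoints.addSubgroup ↥U (JZero N))) :
    clU N U D = x ↔ clFull N D = (x : JZero N) := by
  rw [← coe_clU N U hD]
  exact Subtype.ext_iff

theorem clU_eq_zero_iff {D : Pt N →₀ ℕ} (hD : D ∈ RatU N U) :
    clU N U D = 0 ↔ clFull N D = 0 := by
  rw [clU_eq_iff N U hD]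
  rfl

/-- The inclusion of the `GQ`-fixed classes into the `U`-fixed classes. -/
def inclU : ↥(FixedPoints.addSubgroup GQ (JZero N)) →+
    ↥(FixedPoints.addSubgroup ↥U (JZero N)) where
  toFun x := ⟨(x : JZero N), by
    rw [FixedPoints.mem_addSubgroup]
    intro u
    exact (FixedPoints.mem_addSubgroup GQ (JZero N) _).mp x.2 (u : GQ)⟩
  map_zero' := rfl
  map_add' _ _ := rfl

theorem inclU_injective : Function.Injective (inclU N U) := by
  intro x y h
  exact Subtype.ext (congrArg (fun z : ↥(FixedPoints.addSubgroup ↥U (JZero N)) => (z : JZero N)) h)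

/-- **The final wiring (S17 from the height datum).**  A `HeightDatum` on the `U`-fixed classes,
for ONE subgroup `U` of `GQ`, gives the finite generation of `J_0(N)(ℚ)`. -/
theorem fg_of_heightDatum
    (H : HQ.HeightDatum ↥(FixedPoints.addSubgroup ↥U (JZero N)) (Pt N)) :
    AddGroup.FG ↥(FixedPoints.addSubgroup GQ (JZero N)) := by
  obtain ⟨q, h0, hP, hN⟩ := H.exists_height
  exact Fermat.Agent.MW.WMW.FinalFG.fg_of_divisible_of_height N
    (fun x => Fermat.Agent.MW.DivC.jZero_divisible N (by norm_num) x)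
    (inclU N U) (inclU_injective N U) q h0 hP hN

end Fermat.Agent.MW.Ht.ClU
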