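/-
MW / heights — coefficients of a split polynomial are bounded by its roots, for ANY absolute
value (`HtM.kap v` = `1` for ultrametric `v`, `2` otherwise):

  `|coeff_j P|_v ≤ kap_v ^ deg P · |lc P|_v · ∏_{roots r} max(1, |r|_v)`.

Mathlib-only (plus `kap` from `MW/HtM/TameQ.lean`).  Leaf (L1) of helper21's (RecLow).
-/
import Mathlib
import Fermat.Agent.MW.HtM.TameQ

set_option autoImplicit false

namespace Fermat.Agent.MW.Ht.CoeffRoots

open Polynomial Fermat.Agent.MW.HtM

variable {K : Type*} [Field K]

theorem one_le_prod_max_one (v : AbsoluteValue K ℝ) (s : Multiset K) :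
    1 ≤ (s.map fun r => max 1 (v r)).prod := by
  induction s using Multiset.induction_on with
  | empty => simp
  | cons r s ih =>
    rw [Multiset.map_cons, Multiset.prod_cons]
    exact one_le_mul_of_one_le_of_one_le (le_max_left _ _) ih

/-- Coefficients of `∏ (X − r)` are bounded by the roots. -/
theorem abv_coeff_prod_X_sub_C_le (v : AbsoluteValue K ℝ) (s : Multiset K) (j : ℕ) :
    v ((s.map fun r => X - C r).prod.coeff j)
      ≤ kap v ^ s.card * (s.map fun r => max 1 (v r)).prod := by
  induction s using Multiset.induction_on generalizing j with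
  | empty =>
    simp only [Multiset.map_zero, Multiset.prod_zero, Multiset.card_zero, pow_zero, mul_one]
    rw [coeff_one]
    split_ifs
    · rw [map_one]
    · rw [map_zero]; exact zero_le_one
  | cons r s ih =>
    set Q : K[X] := (s.map fun r => X - C r).prod with hQ
    set B : ℝ := kap v ^ s.card * (s.map fun r => max 1 (v r)).prod with hB
    have hB0 : 0 ≤ B := by
      have h1 := one_le_prod_max_one v s
      have h2 : (0 : ℝ) ≤ kap v ^ s.card := pow_nonneg (kap_pos v).le _
      exact mul_nonneg h2 (le_trans zero_le_one h1)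
    have hmax1 : (1 : ℝ) ≤ max 1 (v r) := le_max_left _ _
    have hmaxr : v r ≤ max 1 (v r) := le_max_right _ _
    rw [Multiset.map_cons, Multiset.prod_cons, Multiset.card_cons, Multiset.map_cons,
      Multiset.prod_cons]
    have key : ∀ a b : K, v a ≤ B → v b ≤ B →
        v (a - r * b) ≤ kap v ^ (s.card + 1) * (max 1 (v r) * (s.map fun r => max 1 (v r)).prod) := by
      intro a b ha hb
      have h1 : v (r * b) ≤ max 1 (v r) * B := by
        rw [map_mul]
        exact mul_le_mul hmaxr hb (v.nonneg _) (le_trans zero_le_one hmax1)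
      have h2 : v a ≤ max 1 (v r) * B := le_trans ha (le_mul_of_one_le_left hB0 hmax1)
      calc v (a - r * b) ≤ kap v * max (v a) (v (r * b)) := abv_sub_le v _ _
        _ ≤ kap v * (max 1 (v r) * B) :=
            mul_le_mul_of_nonneg_left (max_le h2 h1) (kap_pos v).le
        _ = kap v ^ (s.card + 1) * (max 1 (v r) * (s.map fun r => max 1 (v r)).prod) := by
            rw [hB]; ring
    cases j with
    | zero =>
      have e : ((X - C r) * Q).coeff 0 = 0 - r * Q.coeff 0 := by
        rw [mul_coeff_zero, coeff_sub, coeff_X_zero, coeff_C_zero]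
        ring
      rw [e]
      exact key 0 _ (by rw [map_zero]; exact hB0) (ih 0)
    | succ j =>
      have e : ((X - C r) * Q).coeff (j + 1) = Q.coeff j - r * Q.coeff (j + 1) := by
        rw [sub_mul, coeff_sub, coeff_X_mul, coeff_C_mul]
      rw [e]
      exact key _ _ (ih j) (ih (j + 1))

/-- **(L1).**  Coefficients of a split polynomial are bounded by its roots. -/
theorem abv_coeff_le_of_roots (v : AbsoluteValue K ℝ) (P : K[X]) (hP : P.Splits) (j : ℕ) :
    v (P.coeff j)
      ≤ kap v ^ P.natDegree * v P.leadingCoeff * (P.roots.map fun r => max 1 (v r)).prod := by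
  have h1 := abv_coeff_prod_X_sub_C_le v P.roots j
  have e : P.coeff j = P.leadingCoeff * ((P.roots.map fun r => X - C r).prod).coeff j := by
    conv_lhs => rw [hP.eq_prod_roots]
    rw [coeff_C_mul]
  rw [e, map_mul, hP.natDegree_eq_card_roots]
  calc v P.leadingCoeff * v (((P.roots.map fun r => X - C r).prod).coeff j)
      ≤ v P.leadingCoeff * (kap v ^ P.roots.card * (P.roots.map fun r => max 1 (v r)).prod) :=
        mul_le_mul_of_nonneg_left h1 (v.nonneg _)
    _ = kap v ^ P.roots.card * v P.leadingCoeff * (P.roots.map fun r => max 1 (v r)).prod := by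
        ring

/-- Monic form. -/
theorem abv_coeff_le_of_roots_of_monic (v : AbsoluteValue K ℝ) (P : K[X]) (hP : P.Splits)
    (hm : P.Monic) (j : ℕ) :
    v (P.coeff j) ≤ kap v ^ P.natDegree * (P.roots.map fun r => max 1 (v r)).prod := by
  have h := abv_coeff_le_of_roots v P hP j
  rwa [hm.leadingCoeff, map_one, mul_one] at h

end Fermat.Agent.MW.Ht.CoeffRoots
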