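/-
MW / heights — Gauss–Mahler on the projective line for the absolute values `AbsQb.abv` of
`Qb = AlgebraicClosure ℚ` and the height `hplus`.

* `abs_finsum_log_iSup_coeff_sub_hplus_le` : for a multiset `s` of algebraic numbers, the
  logarithmic size of the coefficient vector of `∏_{r ∈ s} (X - r)`, summed over the places, is
  `∑_{r ∈ s} hplus r` up to `card s ^ 2 * log 2`.
* `abs_galois_sum_log_iSup_coeff_sub_le` : for a subgroup `U ≤ G_ℚ` with a finite set `Σ` of
  representatives of the left cosets, and a nonzero polynomial `P` with `U`-fixed coefficients: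
  the `(U, Σ)`-height of the coefficient vector of `P` (a projective invariant, by the product
  formula) is the sum of the `(U, Σ)`-heights of the roots of `P`, up to a constant depending only
  on a degree bound.
-/
import Mathlib
import Fermat.Agent.MW.Ht.NorthcottQb
import Fermat.Agent.MW.Height.GaussMahler

set_option autoImplicit false

noncomputable section

namespace Fermat.Agent.MW.Ht.AbsQb

open Polynomial Fermat.Agent.MW.Height.GaussMahler

local notation "Qb" => AlgebraicClosure ℚ
local notation "GQ" => (AlgebraicClosure ℚ ≃ₐ[ℚ] AlgebraicClosure ℚ)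

/-- Only the place `none` is archimedean. -/
theorem finite_arch_abv : {v : Pla | ¬ IsNonarchimedean (abv v)}.Finite := by
  refine (Set.finite_singleton (none : Pla)).subset ?_
  intro v hv
  cases v with
  | none => exact Set.mem_singleton _
  | some p => exact absurd (fun a b => abv_some_add_le p a b) hv

theorem card_arch_abv_le : finite_arch_abv.toFinset.card ≤ 1 := by
  have h : finite_arch_abv.toFinset ⊆ {(none : Pla)} := by
    intro v hv
    rw [Set.Finite.mem_toFinset] at hv
    cases v with
    | none => exact Finset.mem_singleton_self _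
    | some p => exact absurd (fun a b => abv_some_add_le p a b) hv
  simpa using Finset.card_le_card h

/-- **Gauss–Mahler for `hplus`**: the size of the coefficient vector of `∏_{r ∈ s} (X - r)`
against the sum of the heights of the roots. -/
theorem abs_finsum_log_iSup_coeff_sub_hplus_le (s : Multiset Qb) {n : ℕ}
    (hn : Multiset.card s ≤ n) :
    |∑ᶠ v : Pla, Real.log (⨆ k : Fin (n + 1), abv v ((rootPoly s).coeff k))
        - (s.map hplus).sum|
      ≤ (Multiset.card s : ℝ) ^ 2 * Real.log 2 := by
  have h := abs_finsum_log_iSup_coeff_sub_le abv finite_arch_abv finite_one_lt_abv s hn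
  refine h.trans ?_
  have h0 : (0 : ℝ) ≤ (Multiset.card s : ℝ) ^ 2 * Real.log 2 :=
    mul_nonneg (by positivity) (Real.log_nonneg (by norm_num))
  have h1 : (finite_arch_abv.toFinset.card : ℝ) ≤ 1 := by exact_mod_cast card_arch_abv_le
  calc (finite_arch_abv.toFinset.card : ℝ) * ((Multiset.card s : ℝ) ^ 2 * Real.log 2)
      ≤ 1 * ((Multiset.card s : ℝ) ^ 2 * Real.log 2) := mul_le_mul_of_nonneg_right h1 h0
    _ = (Multiset.card s : ℝ) ^ 2 * Real.log 2 := one_mul _

/-- The coefficients of a Galois conjugate of `P`, in terms of the roots of `P`. -/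
theorem galois_coeff_eq (σ : GQ) (P : Qb[X]) (k : ℕ) :
    σ (P.coeff k) = σ P.leadingCoeff * (rootPoly (P.roots.map σ)).coeff k := by
  have h := congrArg (Polynomial.map (σ : Qb →+* Qb)) (eq_C_mul_rootPoly P)
  rw [Polynomial.map_mul, Polynomial.map_C, map_rootPoly] at h
  have h2 := congrArg (fun Q : Qb[X] => Q.coeff k) h
  simp only [coeff_map, coeff_C_mul] at h2
  simpa using h2

/-- **Gauss–Mahler in Galois-sum form.**  `Σ` a set of representatives of the left cosets of
`U ≤ G_ℚ`, `P ≠ 0` a polynomial of degree `≤ n` with `U`-fixed coefficients.  Then the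
`(U, Σ)`-height of the coefficient vector of `P` equals the sum of the `(U, Σ)`-heights of the
roots of `P` (with multiplicity), up to `#Σ * n ^ 2 * log 2`. -/
theorem abs_galois_sum_log_iSup_coeff_sub_le (U : Subgroup GQ) (Sg : Finset GQ)
    (hS : ∀ g : GQ, ∃! s, s ∈ Sg ∧ s⁻¹ * g ∈ U) {P : Qb[X]} (hP : P ≠ 0) {n : ℕ}
    (hn : P.natDegree ≤ n) (hU : ∀ u ∈ U, ∀ k, u (P.coeff k) = P.coeff k) :
    |∑ s ∈ Sg, ∑ᶠ v : Pla, Real.log (⨆ k : Fin (n + 1), abv v (s (P.coeff k)))
        - ∑ s ∈ Sg, (P.roots.map fun r => hplus (s r)).sum|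
      ≤ Sg.card * ((n : ℝ) ^ 2 * Real.log 2) := by
  have hl0 : P.leadingCoeff ≠ 0 := leadingCoeff_ne_zero.mpr hP
  have hcard : ∀ σ : GQ, Multiset.card (P.roots.map σ) ≤ n := fun σ => by
    rw [Multiset.card_map]; exact (card_roots' P).trans hn
  -- split off the leading coefficient
  have hsplit : ∀ σ : GQ, ∑ᶠ v : Pla, Real.log (⨆ k : Fin (n + 1), abv v (σ (P.coeff k)))
      = ∑ᶠ v : Pla, Real.log (abv v (σ P.leadingCoeff))
        + ∑ᶠ v : Pla, Real.log (⨆ k : Fin (n + 1),
            abv v ((rootPoly (P.roots.map σ)).coeff k)) := by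
    intro σ
    have hσ0 : σ P.leadingCoeff ≠ 0 := (map_ne_zero σ).mpr hl0
    rw [← finsum_add_distrib (hasFiniteSupport_log hσ0)
      (hasFiniteSupport_log_iSup_coeff abv finite_one_lt_abv _ (hcard σ))]
    refine finsum_congr fun v => ?_
    have h1 : ⨆ k : Fin (n + 1), abv v (σ (P.coeff k))
        = abv v (σ P.leadingCoeff) * ⨆ k : Fin (n + 1),
            abv v ((rootPoly (P.roots.map σ)).coeff k) := by
      rw [Real.mul_iSup_of_nonneg ((abv v).nonneg _)]
      refine iSup_congr fun k => ?_
      rw [galois_coeff_eq σ P k, (abv v).map_mul]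
    rw [h1, Real.log_mul (abv_pos v hσ0).ne'
      (lt_of_lt_of_le one_pos (one_le_iSup_coeff_rootPoly (abv v) _ (hcard σ))).ne']
  have hlead : ∑ s ∈ Sg, ∑ᶠ v : Pla, Real.log (abv v (s P.leadingCoeff)) = 0 :=
    prod_formula_galois U Sg hS hl0 fun u hu => hU u hu _
  have hroots : ∀ σ : GQ, (P.roots.map fun r => hplus (σ r)).sum
      = ((P.roots.map σ).map hplus).sum := fun σ => by
    rw [Multiset.map_map]; rfl
  have hterm : ∀ σ : GQ, |∑ᶠ v : Pla, Real.log (⨆ k : Fin (n + 1),
      abv v ((rootPoly (P.roots.map σ)).coeff k)) - (P.roots.map fun r => hplus (σ r)).sum|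
        ≤ (n : ℝ) ^ 2 * Real.log 2 := by
    intro σ
    rw [hroots σ]
    refine (abs_finsum_log_iSup_coeff_sub_hplus_le _ (hcard σ)).trans ?_
    refine mul_le_mul_of_nonneg_right ?_ (Real.log_nonneg (by norm_num))
    have : (Multiset.card (P.roots.map σ) : ℝ) ≤ n := by exact_mod_cast hcard σ
    gcongr
  have hsum : ∑ s ∈ Sg, ∑ᶠ v : Pla, Real.log (⨆ k : Fin (n + 1), abv v (s (P.coeff k)))
        - ∑ s ∈ Sg, (P.roots.map fun r => hplus (s r)).sum
      = ∑ s ∈ Sg, (∑ᶠ v : Pla, Real.log (⨆ k : Fin (n + 1),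
          abv v ((rootPoly (P.roots.map s)).coeff k))
            - (P.roots.map fun r => hplus (s r)).sum) := by
    rw [Finset.sum_congr rfl fun s _ => hsplit s, Finset.sum_add_distrib, hlead, zero_add,
      Finset.sum_sub_distrib]
  rw [hsum]
  refine (Finset.abs_sum_le_sum_abs _ _).trans ?_
  refine (Finset.sum_le_card_nsmul _ _ _ fun s _ => hterm s).trans (by rw [nsmul_eq_mul])

end Fermat.Agent.MW.Ht.AbsQb
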