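/-
MW / HT-Q, brick DEG-1 with the extra clause (G5) (helper65): the good-translate lemma of
`MW/Ht/GoodTranslate.lean` (helper50) with one more open condition on the good divisor `E`.

Setting `h : IsFF1 K F x₀` with a canonical divisor `W`, genus `g = genusFF K F`, and a divisor
`B` of degree `2g - 1` (in the application `B = (2g - 1)·∞`).

* `exists_finrank_sub_le` : `l(A - P) ≤ l(A) - 1` for all `P` outside a set of at most
  `max (deg A) 0` places;
* `exists_points_two` : simultaneous general position for two divisors: `n` points of a finite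
  set `Pts` with `l(A_j - ∑ Q_i) ≤ l(A_j) - n` for `j = 1, 2`;
* `exists_good_translate_of_RH` / `exists_good_translate` : for every divisor `X` of degree `0`
  and every finite set `Pts` of more than `(4g + 1 + |S|)(g + 1) + g` places there are
  `Q_1, …, Q_g, P, P' ∈ Pts` such that `X + ∑ Q_i + P - P'` is linearly equivalent to an effective
  REDUCED divisor `E` of degree `g`, avoiding `S`, with `l(E) = 1`, `H¹(E) = 0` and
  **`L(B - E) = 0`**.

The last clause is what makes the determinant of a basis of `L(B)` at the points of `E` nonzero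
(`MW/Ht/DetNZ.lean`), i.e. what the Hadamard bound (HadK) needs with the coefficient `2g - 1`.
-/
import Mathlib
import Fermat.Agent.MW.Ht.GoodTranslate
import Fermat.Agent.Lib.FF.WeilCanonical

set_option autoImplicit false

noncomputable section

namespace Fermat.Agent.MW.Ht.GoodTranslateB

open AlgebraicCurve WithZero Module KaehlerDifferential
open Fermat.Agent.Lib.FF Fermat.Agent.Lib.FF.BasePoint Fermat.Agent.Lib.FF.Res
open Fermat.Agent.MW.Ht.GoodTranslate
open scoped IntermediateField

variable {K F : Type*} [Field K] [Field F] [Algebra K F] {x₀ : F}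

/-! ### subtracting a general point lowers `l` -/

/-- `l(A - P) ≤ l(A) - 1` (truncated subtraction) for all `P` outside a set of at most
`max (deg A) 0` places. -/
theorem exists_finrank_sub_le (h : IsFF1 K F x₀) (A : Divisor K F) :
    ∃ T : Finset (Place K F), (T.card : ℤ) ≤ max (Divisor.degree A) 0 ∧
      ∀ P, P ∉ T → finrank K (riemannRochSpace (A - Finsupp.single P (1 : ℤ)))
        ≤ finrank K (riemannRochSpace A) - 1 := by
  have := h.hasPrincipalDivisors
  have hfin := h.finite_L A
  by_cases hbot : riemannRochSpace A = ⊥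
  · refine ⟨∅, by simp, fun P _ => ?_⟩
    have h1 : riemannRochSpace (A - Finsupp.single P (1 : ℤ)) = ⊥ := by
      rw [eq_bot_iff, ← hbot]
      exact RR.L_mono (sub_single_le A P)
    rw [h1, finrank_bot]
    exact Nat.zero_le _
  · obtain ⟨ω₀, hω₀, hω₀0⟩ := (Submodule.ne_bot_iff _).mp hbot
    obtain ⟨Df, hDf, hdeg⟩ := HasPrincipalDivisors.exists_divisor (K := K) ω₀ hω₀0
    set Z : Divisor K F := A + Df with hZ
    have hZnn : 0 ≤ Z := by
      refine Finsupp.le_def.mpr fun v => ?_
      have h1 := (mem_riemannRochSpace_iff.mp hω₀ v).resolve_left hω₀0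
      rw [Finsupp.zero_apply, hZ, Finsupp.add_apply, hDf v]
      omega
    refine ⟨Z.support, ?_, fun P hP => ?_⟩
    · refine (card_support_le_degree h hZnn).trans ?_
      rw [hZ, map_add, hdeg, add_zero]
      exact le_max_left _ _
    · have hZP : Z P = 0 := by
        by_contra hne
        exact hP (Finsupp.mem_support_iff.mpr hne)
      have hlt : riemannRochSpace (A - Finsupp.single P (1 : ℤ)) < riemannRochSpace A := by
        refine lt_of_le_of_ne (RR.L_mono (sub_single_le A P)) fun heq => ?_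
        have hmem : ω₀ ∈ riemannRochSpace (A - Finsupp.single P (1 : ℤ)) := by
          rw [heq]; exact hω₀
        have h5 := (mem_riemannRochSpace_iff.mp hmem P).resolve_left hω₀0
        rw [Finsupp.sub_apply, Finsupp.single_eq_same] at h5
        rw [hZ, Finsupp.add_apply, hDf P] at hZP
        omega
      have := Submodule.finrank_lt_finrank_of_lt hlt
      omega

/-! ### simultaneous general position -/

theorem degree_sub_sum (h : IsFF1 K F x₀) (A : Divisor K F) {n : ℕ} (Q : Fin n → Place K F) :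
    Divisor.degree (A - ∑ i, Finsupp.single (Q i) (1 : ℤ)) = Divisor.degree A - n := by
  rw [map_sub, map_sum]
  simp [Divisor.degree_single, h.deg_eq_one]

/-- **Simultaneous general position from a finite set.**  For two divisors `A₁`, `A₂` and a finite
set `Pts` of more than `max (deg A₁) 0 + max (deg A₂) 0` places there are `Q_1, …, Q_n ∈ Pts`
with `l(A_j - ∑ Q_i) ≤ l(A_j) - n` (truncated subtraction) for `j = 1, 2`. -/
theorem exists_points_two (h : IsFF1 K F x₀) (A₁ A₂ : Divisor K F) (Pts : Finset (Place K F))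
    (hPts : max (Divisor.degree A₁) 0 + max (Divisor.degree A₂) 0 < Pts.card) (n : ℕ) :
    ∃ Q : Fin n → Place K F, (∀ i, Q i ∈ Pts) ∧
      finrank K (riemannRochSpace (A₁ - ∑ i, Finsupp.single (Q i) (1 : ℤ)))
        ≤ finrank K (riemannRochSpace A₁) - n ∧
      finrank K (riemannRochSpace (A₂ - ∑ i, Finsupp.single (Q i) (1 : ℤ)))
        ≤ finrank K (riemannRochSpace A₂) - n := by
  classical
  induction n with
  | zero =>
    refine ⟨Fin.elim0, fun i => i.elim0, ?_, ?_⟩ <;>
      rw [Finset.univ_eq_empty, Finset.sum_empty, sub_zero, Nat.sub_zero]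
  | succ n ih =>
    obtain ⟨Q, hQ, h1, h2⟩ := ih
    set D₁ : Divisor K F := A₁ - ∑ i, Finsupp.single (Q i) (1 : ℤ) with hD₁
    set D₂ : Divisor K F := A₂ - ∑ i, Finsupp.single (Q i) (1 : ℤ) with hD₂
    obtain ⟨T₁, hT₁card, hT₁⟩ := exists_finrank_sub_le h D₁
    obtain ⟨T₂, hT₂card, hT₂⟩ := exists_finrank_sub_le h D₂
    have hd₁ : Divisor.degree D₁ = Divisor.degree A₁ - n := degree_sub_sum h A₁ Q
    have hd₂ : Divisor.degree D₂ = Divisor.degree A₂ - n := degree_sub_sum h A₂ Q
    have hcard : (T₁ ∪ T₂).card < Pts.card := by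
      have h3 : ((T₁ ∪ T₂).card : ℤ) ≤ T₁.card + T₂.card := by
        exact_mod_cast Finset.card_union_le T₁ T₂
      have h4 : (T₁.card : ℤ) ≤ max (Divisor.degree A₁) 0 := by
        refine hT₁card.trans (max_le_max ?_ le_rfl)
        rw [hd₁]; linarith [Nat.cast_nonneg (α := ℤ) n]
      have h5 : (T₂.card : ℤ) ≤ max (Divisor.degree A₂) 0 := by
        refine hT₂card.trans (max_le_max ?_ le_rfl)
        rw [hd₂]; linarith [Nat.cast_nonneg (α := ℤ) n]
      have : ((T₁ ∪ T₂).card : ℤ) < Pts.card := by linarith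
      exact_mod_cast this
    obtain ⟨q, hq, hqT⟩ := Finset.exists_mem_notMem_of_card_lt_card hcard
    have hq₁ : q ∉ T₁ := fun hmem => hqT (Finset.mem_union_left _ hmem)
    have hq₂ : q ∉ T₂ := fun hmem => hqT (Finset.mem_union_right _ hmem)
    have hsum : ∀ A : Divisor K F,
        A - ∑ i : Fin (n + 1), Finsupp.single ((Fin.snoc Q q : Fin (n + 1) → Place K F) i) (1 : ℤ)
          = (A - ∑ i, Finsupp.single (Q i) (1 : ℤ)) - Finsupp.single q (1 : ℤ) := by
      intro A
      rw [Fin.sum_univ_castSucc]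
      simp only [Fin.snoc_castSucc, Fin.snoc_last]
      abel
    refine ⟨Fin.snoc Q q, fun i => ?_, ?_, ?_⟩
    · refine Fin.lastCases ?_ (fun j => ?_) i
      · rw [Fin.snoc_last]; exact hq
      · rw [Fin.snoc_castSucc]; exact hQ j
    · rw [hsum A₁, ← hD₁]
      have := hT₁ q hq₁
      omega
    · rw [hsum A₂, ← hD₂]
      have := hT₂ q hq₂
      omega

/-! ### the good-translate lemma with the clause `L(B - E) = 0` -/

/-- **Good translates with (G5)** (setting `IsFF1` with a canonical divisor; the Riemann–Hurwitz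
input is the hypothesis `hRH`, as in `GoodTranslate.exists_good_translate_of_RH`).  `B` is any
divisor of degree `2g - 1`. -/
theorem exists_good_translate_of_RH (h : IsFF1 K F x₀) {ω : Ω[F⁄K]} {W : Divisor K F}
    (hW : Adele.IsDivisorOf ω W)
    (hRH : ∀ f : F, (∀ c : K, f ≠ algebraMap K F c) → ∃ Wf : Divisor K F,
      Divisor.degree Wf = 2 * (genusFF K F : ℤ) - 2 ∧
        ∀ (c : K) (p : Place K F), p.ord (f - algebraMap K F c) - 1 ≤ Wf p)
    (B : Divisor K F) (hB : Divisor.degree B = 2 * (genusFF K F : ℤ) - 1)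
    (X : Divisor K F) (hX : Divisor.degree X = 0) (S Pts : Finset (Place K F))
    (hPts : (4 * genusFF K F + 1 + S.card) * (genusFF K F + 1) + genusFF K F < Pts.card) :
    ∃ (Q : Fin (genusFF K F) → Place K F) (P P' : Place K F) (E : Divisor K F),
      (∀ i, Q i ∈ Pts) ∧ P ∈ Pts ∧ P' ∈ Pts ∧ 0 ≤ E ∧ (∀ v, E v ≤ 1) ∧ (∀ s ∈ S, E s = 0) ∧
      Divisor.degree E = genusFF K F ∧ finrank K (riemannRochSpace E) = 1 ∧ RR.MD E = ⊤ ∧
      riemannRochSpace (B - E) = ⊥ ∧
      E - (X + ∑ i, Finsupp.single (Q i) (1 : ℤ) + Finsupp.single P (1 : ℤ)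
          - Finsupp.single P' (1 : ℤ)) ∈ Divisor.principal (K := K) (F := F) := by
  classical
  have := h.hasPrincipalDivisors
  set g := genusFF K F with hg
  have hWdeg : Divisor.degree W = 2 * (g : ℤ) - 2 := degree_of_isDivisorOf_ff1 h hW
  have hbig : 4 * g + 1 ≤ (4 * g + 1 + S.card) * (g + 1) :=
    calc 4 * g + 1 ≤ 4 * g + 1 + S.card := Nat.le_add_right _ _
      _ ≤ (4 * g + 1 + S.card) * (g + 1) := Nat.le_mul_of_pos_right _ (Nat.succ_pos _)
  -- step 1: points in general position for `W - X` and `B - X`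
  have hA₁deg : Divisor.degree (W - X) = 2 * (g : ℤ) - 2 := by rw [map_sub, hWdeg, hX, sub_zero]
  have hA₂deg : Divisor.degree (B - X) = 2 * (g : ℤ) - 1 := by rw [map_sub, hB, hX, sub_zero]
  have hP1 : max (Divisor.degree (W - X)) 0 + max (Divisor.degree (B - X)) 0 < Pts.card := by
    rw [hA₁deg, hA₂deg]
    have h1 : ((4 * g + 1 : ℕ) : ℤ) < Pts.card := by
      have : 4 * g + 1 < Pts.card := by omega
      exact_mod_cast this
    push_cast at h1
    have h2 : max (2 * (g : ℤ) - 2) 0 ≤ 2 * g := max_le (by linarith) (by positivity)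
    have h3 : max (2 * (g : ℤ) - 1) 0 ≤ 2 * g := max_le (by linarith) (by positivity)
    linarith
  obtain ⟨Q, hQ, hQ₁, hQ₂⟩ := exists_points_two h (W - X) (B - X) Pts hP1 g
  set D : Divisor K F := X + ∑ i, Finsupp.single (Q i) (1 : ℤ) with hD
  have hdegD : Divisor.degree D = g := by rw [hD, degree_add_sum h, hX, zero_add]
  -- `l(W - X) ≤ g`
  have hlA₁ : finrank K (riemannRochSpace (W - X)) ≤ g := by
    have h1 := riemannRoch_ff1 h hW X
    have h2 := GenPos.finrank_L_le_one_of_degree_zero h hX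
    have h3 : (finrank K (riemannRochSpace X) : ℤ) ≤ 1 := by exact_mod_cast h2
    rw [hX] at h1
    have : (finrank K (riemannRochSpace (W - X)) : ℤ) ≤ g := by linarith
    exact_mod_cast this
  -- `l(B - X) = g`
  have hlA₂ : finrank K (riemannRochSpace (B - X)) = g := by
    have h1 := WeilCanonical.finrank_L_of_degree h (D := B - X) (by rw [hA₂deg])
    rw [hA₂deg] at h1
    have : (finrank K (riemannRochSpace (B - X)) : ℤ) = g := by linarith
    exact_mod_cast this
  have hWD : riemannRochSpace (W - D) = ⊥ := by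
    have hfin := h.finite_L (W - D)
    rw [← Submodule.finrank_eq_zero (R := K)]
    have e : W - D = W - X - ∑ i, Finsupp.single (Q i) (1 : ℤ) := by rw [hD]; abel
    rw [e]
    omega
  have hBD : riemannRochSpace (B - D) = ⊥ := by
    have hfin := h.finite_L (B - D)
    rw [← Submodule.finrank_eq_zero (R := K)]
    have e : B - D = B - X - ∑ i, Finsupp.single (Q i) (1 : ℤ) := by rw [hD]; abel
    rw [e]
    omega
  have hMD : RR.MD D = ⊤ := (MD_eq_top_iff_L h hW D).2 hWD
  have hl : finrank K (riemannRochSpace D) = 1 := by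
    have h1 := finrank_L_of_cD ((MD_eq_top_iff h D).1 hMD)
    rw [hdegD] at h1
    have : (finrank K (riemannRochSpace D) : ℤ) = 1 := by linarith
    exact_mod_cast this
  obtain ⟨E₀, f₀, hf₀, hE₀, hE₀eq⟩ := exists_effective_rep h D (by rw [hl]; exact one_pos)
  have hl₀ : finrank K (riemannRochSpace E₀) = 1 := (finrank_L_eq_of_eq h hf₀ hE₀eq).trans hl
  have hdeg₀ : Divisor.degree E₀ = g := by
    rw [degree_eq_of_eq h hf₀ hE₀eq, hdegD]
  -- `L(B - E₀) = 0`
  have hBE₀ : riemannRochSpace (B - E₀) = ⊥ := by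
    have hfin := h.finite_L (B - E₀)
    rw [← Submodule.finrank_eq_zero (R := K)]
    have h1 := finrank_L_eq_of_eq h (D := B - D) (D' := B - E₀) (inv_ne_zero hf₀) (fun v => by
      rw [Finsupp.sub_apply, Finsupp.sub_apply, hE₀eq v, v.ord_inv]; ring)
    rw [h1, hBD, finrank_bot]
  -- step 2: the pencil
  have hP2 : g * (g - 1) < Pts.card := by
    have h1 : g * (g - 1) ≤ (4 * g + 1 + S.card) * (g + 1) :=
      Nat.mul_le_mul (by omega) (by omega)
    omega
  obtain ⟨P, hP, f, hf, hfc, hl₁, hpole⟩ := exists_pencil h hW E₀ hE₀ hdeg₀ hl₀ Pts hP2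
  obtain ⟨Wf, hWfdeg, hWf⟩ := hRH f hfc
  have hD₁ : 0 ≤ RR.addPl E₀ P := hE₀.trans (RR.le_addPl E₀ P)
  have hdeg₁ : Divisor.degree (RR.addPl E₀ P) = (g : ℤ) + 1 := by
    rw [RR.degree_addPl h.resK, hdeg₀]
  -- the divisor `A = B - (E₀ + P)` of degree `g - 2` has `L(A) = 0`, so `l(W - A) = 1`
  set A : Divisor K F := B - RR.addPl E₀ P with hA
  have hAdeg : Divisor.degree A = (g : ℤ) - 2 := by rw [hA, map_sub, hB, hdeg₁]; ring
  have hLA : riemannRochSpace A = ⊥ := by
    rw [eq_bot_iff, ← hBE₀]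
    refine RR.L_mono (Finsupp.le_def.mpr fun v => ?_)
    have := Finsupp.le_def.mp (RR.le_addPl E₀ P) v
    rw [hA, Finsupp.sub_apply, Finsupp.sub_apply]
    omega
  have hlWA : finrank K (riemannRochSpace (W - A)) ≤ 1 := by
    have h1 := riemannRoch_ff1 h hW (W - A)
    have e : W - (W - A) = A := by abel
    rw [e, hLA, finrank_bot, map_sub, hWdeg, hAdeg] at h1
    have : (finrank K (riemannRochSpace (W - A)) : ℤ) ≤ 1 := by push_cast at h1; linarith
    exact_mod_cast this
  obtain ⟨T, hTcard, hT⟩ := exists_L_sub_eq_bot h (W - A) hlWA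
  have hTg : T.card ≤ g := by
    have h1 : Divisor.degree (W - A) = g := by rw [map_sub, hWdeg, hAdeg]; ring
    rw [h1] at hTcard
    have : (T.card : ℤ) ≤ g := hTcard.trans (max_le le_rfl (by positivity))
    exact_mod_cast this
  -- step 3: a reduced fibre through a point off `T`
  have hPts' : (4 * g + 1 + S.card) * (g + 1) < (Pts \ T).card := by
    have h1 := Finset.le_card_sdiff T Pts
    omega
  obtain ⟨P', hP', c, E, hEnn, hEred, hES, hEdeg, hEl, hEeq⟩ :=
    exists_fibre h (RR.addPl E₀ P) hD₁ hdeg₁ hl₁ f hf hfc hpole Wf hWfdeg hWf S (Pts \ T) hPts'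
  obtain ⟨hP'Pts, hP'T⟩ := Finset.mem_sdiff.mp hP'
  have hfc' : f - algebraMap K F c ≠ 0 := fun h0 => hfc c (sub_eq_zero.mp h0)
  -- `L(A + P') = 0`
  have hLAP : riemannRochSpace (A + Finsupp.single P' (1 : ℤ)) = ⊥ := by
    have hfin := h.finite_L (A + Finsupp.single P' (1 : ℤ))
    rw [← Submodule.finrank_eq_zero (R := K)]
    have h1 := riemannRoch_ff1 h hW (A + Finsupp.single P' (1 : ℤ))
    have e : W - (A + Finsupp.single P' (1 : ℤ)) = W - A - Finsupp.single P' (1 : ℤ) := by abel
    rw [e, hT P' hP'T, finrank_bot, map_add, hAdeg, Divisor.degree_single, h.deg_eq_one] at h1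
    have : (finrank K (riemannRochSpace (A + Finsupp.single P' (1 : ℤ))) : ℤ) = 0 := by
      push_cast at h1; linarith
    exact_mod_cast this
  have hBE : riemannRochSpace (B - E) = ⊥ := by
    have hfin := h.finite_L (B - E)
    rw [← Submodule.finrank_eq_zero (R := K)]
    have h1 := finrank_L_eq_of_eq h (D := A + Finsupp.single P' (1 : ℤ)) (D' := B - E)
      (inv_ne_zero hfc') (fun v => by
        rw [Finsupp.sub_apply, Finsupp.add_apply, hA, Finsupp.sub_apply, hEeq v, v.ord_inv]; ring)
    rw [h1, hLAP, finrank_bot]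
  refine ⟨Q, P, P', E, hQ, hP, hP'Pts, hEnn, hEred, hES, hEdeg, hEl, ?_, hBE, ?_⟩
  · rw [MD_eq_top_iff h]
    unfold RR.cD
    rw [hEdeg, hEl]
    push_cast
    ring
  · refine ⟨f₀ * (f - algebraMap K F c), mul_ne_zero hf₀ hfc', fun v => ?_⟩
    rw [v.ord_mul hf₀ hfc', Finsupp.sub_apply, hEeq v, Finsupp.sub_apply, Finsupp.add_apply,
      Finsupp.add_apply, hE₀eq v]
    have hDv : D v = X v + (∑ i, Finsupp.single (Q i) (1 : ℤ)) v := by
      rw [hD, Finsupp.add_apply]
    rw [hDv]
    ring

/-- **Good translates with (G5)** over an algebraically closed field of characteristic zero.  For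
every divisor `B` of degree `2g - 1`, every divisor `X` of degree `0`, every finite set `S` of
places and every finite set `Pts` of more than `(4g + 1 + |S|)(g + 1) + g` places there are
`Q_1, …, Q_g, P, P' ∈ Pts` such that `X + ∑ Q_i + P - P'` is linearly equivalent to an effective
reduced divisor `E` of degree `g` avoiding `S`, with `l(E) = 1`, `H¹(E) = 0` and `L(B - E) = 0`. -/
theorem exists_good_translate [IsAlgClosed K] [CharZero K] (x : F) (hx : Transcendental K x)
    [FiniteDimensional K⟮x⟯ F] (B : Divisor K F)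
    (hB : Divisor.degree B = 2 * (genusFF K F : ℤ) - 1)
    (X : Divisor K F) (hX : Divisor.degree X = 0)
    (S Pts : Finset (Place K F))
    (hPts : (4 * genusFF K F + 1 + S.card) * (genusFF K F + 1) + genusFF K F < Pts.card) :
    ∃ (Q : Fin (genusFF K F) → Place K F) (P P' : Place K F) (E : Divisor K F),
      (∀ i, Q i ∈ Pts) ∧ P ∈ Pts ∧ P' ∈ Pts ∧ 0 ≤ E ∧ (∀ v, E v ≤ 1) ∧ (∀ s ∈ S, E s = 0) ∧
      Divisor.degree E = genusFF K F ∧ finrank K (riemannRochSpace E) = 1 ∧ RR.MD E = ⊤ ∧
      riemannRochSpace (B - E) = ⊥ ∧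
      E - (X + ∑ i, Finsupp.single (Q i) (1 : ℤ) + Finsupp.single P (1 : ℤ)
          - Finsupp.single P' (1 : ℤ)) ∈ Divisor.principal (K := K) (F := F) := by
  have h : IsFF1 K F x := isFF1_of_charZero x hx
  have hsep : ∀ (y : F) [FiniteDimensional K⟮y⟯ F], Algebra.IsSeparable K⟮y⟯ F := by
    intro y _
    have : CharZero K⟮y⟯ := charZero_of_injective_algebraMap (algebraMap K K⟮y⟯).injective
    have : Algebra.IsAlgebraic K⟮y⟯ F := Algebra.IsAlgebraic.of_finite _ _
    infer_instance
  have := hsep x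
  obtain ⟨W, hW, -, -, -⟩ := exists_divisor_D_of_isSeparable h x
  refine exists_good_translate_of_RH h hW (fun f hfc => ?_) B hB X hX S Pts hPts
  have hft : Transcendental K f := by
    intro halg
    obtain ⟨c, hc⟩ := exists_eq_algebraMap_of_isAlgebraic halg
    exact hfc c hc
  have := Fermat.Agent.S24.Transfer.finiteDimensional_adjoin_of_transcendental (K := K) x hft
  have := hsep f
  obtain ⟨Wf, -, hdeg, hge, -⟩ := exists_divisor_D_of_isSeparable h f
  exact ⟨Wf, hdeg, hge⟩

end Fermat.Agent.MW.Ht.GoodTranslateB
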