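/-
MW / heights (helper21) — THE LOCAL MAHLER BOUND (B-loc): coefficients are bounded by the zeros.

`F` a function field over an algebraically closed field `K` of characteristic `0`, `t ∈ F`
transcendental, `u` a linearly independent finite family in `O_t` (functions regular wherever `t`
is regular), `φ = ∑ aᵢ uᵢ`.  With `c(φ) = normLC ht φ` the leading coefficient of the norm
polynomial of `φ` and `m = [F : K(t)]`:

  `(max_i |aᵢ|_v)^m ≤ C_v · |c(φ)|_v · ∏_{P : zero of φ} max(1, |t(P)|_v)^{ord_P φ}`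

with a tame constant `C` (`exists_mahler_loc`).  This is exact with `C = 1` on the line.

* `abv_coeff_prod_le`, `abv_coeff_le_of_roots` : coefficients of a split polynomial in terms of
  its roots (any absolute value);
* `normLC`, `normLC_ne_zero`, `normLC_smul` (Galois equivariance);
* `exists_mahler_loc`.
-/
import Mathlib
import Fermat.Agent.MW.Ht.NormForm
import Fermat.Agent.MW.HtM.Tame
import Fermat.Agent.MW.HtM.TameQ
import Fermat.Agent.MW.Height.MorphismTame

set_option autoImplicit false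
set_option linter.unusedSectionVars false

noncomputable section

namespace Fermat.Agent.MW.Ht.MahlerLoc

open Polynomial IntermediateField AlgebraicCurve
open Fermat.Agent.Lib.FF Fermat.Agent.MW.Adj.Roots Fermat.Agent.MW.HtM
open Fermat.Agent.MW.Ht.NormForm

/-! ### Coefficients of a split polynomial in terms of its roots -/

section Coeff

variable {K : Type*} [Field K]

/-- Coefficients of `∏ (X - r)` are bounded by `κ^n · ∏ max(1, |r|)`. -/
theorem abv_coeff_prod_le (v : AbsoluteValue K ℝ) (s : Multiset K) (j : ℕ) :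
    v (((s.map fun r => X - C r).prod).coeff j)
      ≤ kap v ^ Multiset.card s * (s.map fun r => max 1 (v r)).prod := by
  induction s using Multiset.induction_on generalizing j with
  | empty =>
    simp only [Multiset.map_zero, Multiset.prod_zero, Multiset.card_zero, pow_zero, mul_one]
    rw [Polynomial.coeff_one]
    split_ifs
    · rw [map_one]
    · rw [map_zero]; exact zero_le_one
  | cons r s ih =>
    rw [Multiset.map_cons, Multiset.prod_cons, Multiset.map_cons, Multiset.prod_cons,
      Multiset.card_cons, pow_succ]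
    set Q := (s.map fun r => X - C r).prod with hQ
    set B := kap v ^ Multiset.card s * (s.map fun r => max 1 (v r)).prod with hB
    have hB0 : 0 ≤ B := by
      refine mul_nonneg (pow_nonneg (kap_pos v).le _) (Multiset.prod_nonneg ?_)
      intro a ha
      obtain ⟨r', _, rfl⟩ := Multiset.mem_map.mp ha
      exact le_trans zero_le_one (le_max_left _ _)
    have h1 : ((X - C r) * Q).coeff j = (X * Q).coeff j - r * Q.coeff j := by
      rw [sub_mul, Polynomial.coeff_sub, Polynomial.coeff_C_mul]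
    have h2 : v ((X * Q).coeff j) ≤ max 1 (v r) * B := by
      have hle : B ≤ max 1 (v r) * B := le_mul_of_one_le_left hB0 (le_max_left _ _)
      rcases j with _ | j
      · rw [Polynomial.coeff_X_mul_zero, map_zero]
        exact le_trans hB0 hle
      · rw [Polynomial.coeff_X_mul]
        exact (ih j).trans hle
    have h3 : v (r * Q.coeff j) ≤ max 1 (v r) * B := by
      rw [map_mul]
      exact mul_le_mul (le_max_right _ _) (ih j) (v.nonneg _) (le_trans zero_le_one (le_max_left _ _))
    rw [h1]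
    calc v ((X * Q).coeff j - r * Q.coeff j)
        ≤ kap v * max (v ((X * Q).coeff j)) (v (r * Q.coeff j)) := abv_sub_le v _ _
      _ ≤ kap v * (max 1 (v r) * B) :=
          mul_le_mul_of_nonneg_left (max_le h2 h3) (kap_pos v).le
      _ = kap v ^ Multiset.card s * kap v * (max 1 (v r) * (s.map fun r => max 1 (v r)).prod) := by
          rw [hB]; ring

/-- **Coefficients ≤ roots** for a split polynomial. -/
theorem abv_coeff_le_of_roots (v : AbsoluteValue K ℝ) (P : K[X]) (hP : P.Splits) (j : ℕ) :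
    v (P.coeff j)
      ≤ kap v ^ P.natDegree * v P.leadingCoeff * (P.roots.map fun r => max 1 (v r)).prod := by
  have h1 := hP.eq_prod_roots
  have h2 : Multiset.card P.roots = P.natDegree := Polynomial.splits_iff_card_roots.mp hP
  conv_lhs => rw [h1, Polynomial.coeff_C_mul, map_mul]
  have h3 := abv_coeff_prod_le v P.roots j
  rw [h2] at h3
  calc v P.leadingCoeff * v (((P.roots.map fun r => X - C r).prod).coeff j)
      ≤ v P.leadingCoeff * (kap v ^ P.natDegree * (P.roots.map fun r => max 1 (v r)).prod) :=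
        mul_le_mul_of_nonneg_left h3 (v.nonneg _)
    _ = _ := by ring

end Coeff

/-- `kap` is tame along a family of absolute values. -/
theorem tame_kap {K V : Type*} [Field K] (Ab : AbsFamily K V) :
    Tame fun v => kap (Ab.abv v) := by
  refine ⟨fun v => one_le_kap _, Ab.finite_arch.subset ?_⟩
  intro v hv
  by_contra hcon
  simp only [Set.mem_ofPred_eq, not_not] at hcon
  exact hv (kap_eq_one hcon)

/-! ### The leading coefficient of the norm polynomial -/

section NormLC

variable {K F : Type*} [Field K] [Field F] [Algebra K F] [IsAlgClosed K] [CharZero K] {x : F}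

open Classical in
/-- The leading coefficient of the norm polynomial of `φ ∈ O_t` (junk `0` outside `O_t`). -/
def normLC {t : F} (ht : Transcendental K t) (φ : F) : K :=
  if hφ : φ ∈ Ot (K := K) t then (normPolyT ht ⟨φ, hφ⟩).leadingCoeff else 0

theorem normLC_of_mem {t : F} (ht : Transcendental K t) {φ : F} (hφ : φ ∈ Ot (K := K) t) :
    normLC ht φ = (normPolyT ht ⟨φ, hφ⟩).leadingCoeff := by
  unfold normLC
  rw [dif_pos hφ]

theorem normLC_ne_zero (h : IsFF1 K F x) {t : F} (ht : Transcendental K t) {φ : F}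
    (hφ : φ ∈ Ot (K := K) t) (h0 : φ ≠ 0) : normLC ht φ ≠ 0 := by
  rw [normLC_of_mem ht hφ]
  exact Polynomial.leadingCoeff_ne_zero.mpr (normPolyT_ne_zero h ht ⟨φ, hφ⟩ h0)

/-- **Equivariance** of the leading norm coefficient for semilinear automorphisms fixing `t`. -/
theorem normLC_smul (h : IsFF1 K F x) {t : F} (ht : Transcendental K t)
    (g : SemilinearAut K F) (hg : g • t = t) {φ : F} (hφ : φ ∈ Ot (K := K) t) :
    normLC ht (g • φ) = SemilinearAut.baseAut g (normLC ht φ) := by
  rw [normLC_of_mem ht hφ, normLC_of_mem ht (smul_mem_Ot h ht g hg hφ)]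
  have h1 := normPolyT_smul h ht g hg ⟨φ, hφ⟩
  rw [h1, Polynomial.leadingCoeff_map_of_injective (RingEquiv.injective _)]
  rfl

end NormLC

/-! ### The local Mahler bound -/

section Mahler

variable {K F : Type*} [Field K] [Field F] [Algebra K F] [IsAlgClosed K] [CharZero K] {x : F}
  {V : Type*}

/-- **(B-loc), the local Mahler bound.**  For a linearly independent family `u` in `O_t` there is
a tame constant `C` with
`(max_i |aᵢ|_v)^m ≤ C_v · |c(φ)|_v · ∏_{P ∈ zeros of φ} max(1, |t(P)|_v)^{ord_P φ}`,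
`φ = ∑ aᵢ uᵢ`, `m = [F : K(t)]`, `c(φ) = normLC ht φ`. -/
theorem exists_mahler_loc (h : IsFF1 K F x) {t : F} (ht : Transcendental K t)
    (Ab : AbsFamily K V) {ι : Type*} [Fintype ι] (u : ι → F)
    (hmem : ∀ i, u i ∈ Ot (K := K) t) (hu : LinearIndependent K u) :
    ∃ C : V → ℝ, Tame C ∧ ∀ (v : V) (a : ι → K), a ≠ 0 → ∀ S : Finset (Place K F),
      (∀ P, P ∈ S ↔ 0 ≤ P.ord t ∧ P.ord (∑ i, a i • u i) ≠ 0) →
      (⨆ i, Ab.abv v (a i)) ^ Module.finrank K⟮t⟯ F
        ≤ C v * Ab.abv v (normLC ht (∑ i, a i • u i)) *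
          ∏ P ∈ S, max 1 (Ab.abv v (pval P t)) ^ (P.ord (∑ i, a i • u i)).toNat := by
  classical
  set m := Module.finrank K⟮t⟯ F with hm
  let u' : ι → Ot (K := K) t := fun i => ⟨u i, hmem i⟩
  obtain ⟨D, p, hp_hom, hp_zero, hp_eval⟩ := exists_norm_forms h ht u'
  have hu' : LinearIndependent K fun i => (u' i : F) := hu
  have hcoe : ∀ a : ι → K, ((∑ i, a i • u' i : Ot (K := K) t) : F) = ∑ i, a i • u i := by
    intro a
    push_cast
    rfl
  -- no common zero
  have h0 : ∀ y : ι → K, (∀ f ∈ (⊥ : Ideal (MvPolynomial ι K)), MvPolynomial.aeval y f = 0) →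
      (∀ j : Fin (D + 1), MvPolynomial.aeval y (p j) = 0) → y = 0 := by
    intro y _ hy
    refine eq_zero_of_normPolyT_eq_zero h ht u' hu' y ?_
    ext j
    rw [hp_eval, Polynomial.coeff_zero]
    by_cases hj : j ≤ D
    · have := hy ⟨j, Nat.lt_succ_of_le hj⟩
      rwa [MvPolynomial.aeval_eq_eval] at this
    · rw [hp_zero j (not_le.mp hj), map_zero]
  obtain ⟨C₁, hC₁, hb⟩ := Fermat.Agent.MW.Height.MorphismTame.exists_tame_bounds_of_no_zero Ab
    (⊥ : Ideal (MvPolynomial ι K))
    (fun f hf n => by rw [Ideal.mem_bot] at hf ⊢; rw [hf, map_zero])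
    (fun j : Fin (D + 1) => p j) (fun j => hp_hom j) K h0
  refine ⟨fun v => C₁ v * kap (Ab.abv v) ^ D, hC₁.mul ((tame_kap Ab).pow D), ?_⟩
  intro v a ha S hS
  have hb2 := (hb v a (fun f hf => by rw [Ideal.mem_bot] at hf; rw [hf, map_zero])).2 ha
  set φ' : Ot (K := K) t := ∑ i, a i • u' i with hφ'
  have hφ'coe : (φ' : F) = ∑ i, a i • u i := hcoe a
  have hφ'0 : (φ' : F) ≠ 0 := by
    intro h1
    apply ha
    rw [hφ'coe] at h1
    funext i
    exact (Fintype.linearIndependent_iff.mp hu) a h1 i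
  set Pφ := normPolyT ht φ' with hPφ
  have hdeg : Pφ.natDegree ≤ D := by
    rw [Polynomial.natDegree_le_iff_coeff_eq_zero]
    intro j hj
    rw [hPφ, hφ', hp_eval, hp_zero j hj, map_zero]
  have hmemφ : (∑ i, a i • u i) ∈ Ot (K := K) t := by rw [← hφ'coe]; exact φ'.2
  have hlc : normLC ht (∑ i, a i • u i) = Pφ.leadingCoeff := by
    rw [normLC_of_mem ht hmemφ]
    congr 2
    exact Subtype.ext hφ'coe.symm
  have hS' : ∀ P, P ∈ S ↔ 0 ≤ P.ord t ∧ P.ord (φ' : F) ≠ 0 := by
    intro P; rw [hφ'coe]; exact hS P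
  have hroots := prod_roots_normPolyT h ht φ' hφ'0 (fun r => max 1 (Ab.abv v r)) S hS'
  rw [hφ'coe] at hroots
  have hprod0 : 0 ≤ ∏ P ∈ S, max 1 (Ab.abv v (pval P t)) ^ (P.ord (∑ i, a i • u i)).toNat :=
    Finset.prod_nonneg fun P _ => pow_nonneg (le_trans zero_le_one (le_max_left _ _)) _
  have hcoeff : ∀ j : Fin (D + 1), Ab.abv v (MvPolynomial.eval a (p j))
      ≤ kap (Ab.abv v) ^ D * Ab.abv v (normLC ht (∑ i, a i • u i)) *
        ∏ P ∈ S, max 1 (Ab.abv v (pval P t)) ^ (P.ord (∑ i, a i • u i)).toNat := by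
    intro j
    rw [← hp_eval a j]
    have h1 := abv_coeff_le_of_roots (Ab.abv v) Pφ (IsAlgClosed.splits _) j
    rw [hroots, ← hlc] at h1
    refine h1.trans ?_
    refine mul_le_mul_of_nonneg_right (mul_le_mul_of_nonneg_right ?_ ((Ab.abv v).nonneg _)) hprod0
    exact pow_le_pow_right₀ (one_le_kap _) hdeg
  have hsup : (⨆ j : Fin (D + 1), Ab.abv v (MvPolynomial.eval a (p j)))
      ≤ kap (Ab.abv v) ^ D * Ab.abv v (normLC ht (∑ i, a i • u i)) *
        ∏ P ∈ S, max 1 (Ab.abv v (pval P t)) ^ (P.ord (∑ i, a i • u i)).toNat :=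
    ciSup_le hcoeff
  calc (⨆ i, Ab.abv v (a i)) ^ m
      ≤ C₁ v * ⨆ j : Fin (D + 1), Ab.abv v (MvPolynomial.eval a (p j)) := hb2
    _ ≤ C₁ v * (kap (Ab.abv v) ^ D * Ab.abv v (normLC ht (∑ i, a i • u i)) *
        ∏ P ∈ S, max 1 (Ab.abv v (pval P t)) ^ (P.ord (∑ i, a i • u i)).toNat) :=
        mul_le_mul_of_nonneg_left hsup (hC₁.nonneg v)
    _ = _ := by ring

end Mahler

end Fermat.Agent.MW.Ht.MahlerLoc
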