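/-
MW / heights — the term of `HG.Setting` from a local height datum `HtM.LocalHt` over
`Qb = AlgebraicClosure ℚ` (family of absolute values `AbsQb.absFamily`) and the arithmetic data:
a homomorphism `ρ : G_ℚ →* SemilinearAut Qb F` with base action `σ` (for the modular curve:
`arithmeticGalois`), a subgroup `U ≤ G_ℚ` and a finite set `Sg` of representatives of its left
cosets.

* `settingOf`     : the `HG.Setting` (`δ := L.δ`, `Γ := ρ.range`, `U := U.map ρ`,
                    `Sg := Sg.image ρ`);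
* `settingOf_mle`, `settingOf_lip` : the local estimates `MLe`, `Lip` of the setting, from `L`;
* unfolding lemmas `gU_eq`, `etaU_eq`, `hU_eq`, `mem_RatU_iff`, `uFix_iff`, `mem_Γ_iff`,
  `mem_U_iff`: the global objects as sums over `Sg ⊆ G_ℚ`.
-/
import Mathlib
import Fermat.Agent.MW.HG.Defs
import Fermat.Agent.MW.HtM.Interface
import Fermat.Agent.MW.Ht.SettingPf

set_option autoImplicit false

noncomputable section

namespace Fermat.Agent.MW.Ht.SettingInst

open AlgebraicCurve Fermat.Agent.MW Fermat.Agent.MW.HtM Fermat.Agent.MW.HQ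
open Fermat.Agent.MW.Ht.AbsQb

local notation "Qb" => AlgebraicClosure ℚ
local notation "GQ" => (AlgebraicClosure ℚ ≃ₐ[ℚ] AlgebraicClosure ℚ)

variable {F : Type*} [Field F] [Algebra Qb F] {pinf : Place Qb F} {t : F} {m : ℕ}

open Classical in
/-- **The global setting** attached to a local height datum and the arithmetic data. -/
def settingOf (L : LocalHt absFamily pinf t m) (ρ : GQ →* SemilinearAut Qb F)
    (hρ : ∀ (σ : GQ) (a : Qb), SemilinearAut.baseAut (ρ σ) a = σ a)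
    (hinf : ∀ σ : GQ, ρ σ • pinf = pinf) (htfix : ∀ σ : GQ, ρ σ • t = t) (hm : 0 < m)
    (htreg : HG.RegOff pinf t) (htpole : pinf.ord t = -(m : ℤ))
    (hres : ∀ (P : Place Qb F) (f : F), 0 ≤ P.ord f →
      ∃ c : Qb, P.adicValuation (f - algebraMap Qb F c) < 1)
    (hfib : ∀ τ : Qb, ∃ Z : Place Qb F →₀ ℕ,
      HG.IsZDiv pinf (t - algebraMap Qb F τ) Z ∧ deg Z = m)
    (U : Subgroup GQ) (Sg : Finset GQ) (hS : ∀ g : GQ, ∃! s, s ∈ Sg ∧ s⁻¹ * g ∈ U) :
    HG.Setting absFamily pinf t m where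
  δ := L.δ
  δ_symm := L.δ_symm
  δ_nonneg := L.δ_nonneg
  δ_le_one := L.δ_le_one
  δ_self := L.δ_self
  δ_pos := L.δ_pos
  δ_eq_one := L.δ_eq_one
  Γ := ρ.range
  U := U.map ρ
  Sg := Sg.image ρ
  U_le := map_le_range ρ U
  Sg_mem := image_mem_range ρ Sg
  inf_fixed := by
    rintro _ ⟨σ, rfl⟩
    exact hinf σ
  t_fixed := by
    rintro _ ⟨σ, rfl⟩
    exact htfix σ
  m_pos := hm
  t_reg := htreg
  t_pole := htpole
  resK := hres
  fib := hfib
  pf := fun a ha hfix => pf_of_transversal ρ hρ U Sg hS a ha hfix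

section Lemmas

variable (L : LocalHt absFamily pinf t m) (ρ : GQ →* SemilinearAut Qb F)
  (hρ : ∀ (σ : GQ) (a : Qb), SemilinearAut.baseAut (ρ σ) a = σ a)
  (hinf : ∀ σ : GQ, ρ σ • pinf = pinf) (htfix : ∀ σ : GQ, ρ σ • t = t) (hm : 0 < m)
  (htreg : HG.RegOff pinf t) (htpole : pinf.ord t = -(m : ℤ))
  (hres : ∀ (P : Place Qb F) (f : F), 0 ≤ P.ord f →
    ∃ c : Qb, P.adicValuation (f - algebraMap Qb F c) < 1)
  (hfib : ∀ τ : Qb, ∃ Z : Place Qb F →₀ ℕ,
    HG.IsZDiv pinf (t - algebraMap Qb F τ) Z ∧ deg Z = m)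
  (U : Subgroup GQ) (Sg : Finset GQ) (hS : ∀ g : GQ, ∃! s, s ∈ Sg ∧ s⁻¹ * g ∈ U)

@[simp] theorem settingOf_δ :
    (settingOf L ρ hρ hinf htfix hm htreg htpole hres hfib U Sg hS).δ = L.δ := rfl

@[simp] theorem settingOf_Γ :
    (settingOf L ρ hρ hinf htfix hm htreg htpole hres hfib U Sg hS).Γ = ρ.range := rfl

@[simp] theorem settingOf_U :
    (settingOf L ρ hρ hinf htfix hm htreg htpole hres hfib U Sg hS).U = U.map ρ := rfl

theorem mem_Γ_iff (g : SemilinearAut Qb F) :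
    g ∈ (settingOf L ρ hρ hinf htfix hm htreg htpole hres hfib U Sg hS).Γ ↔ ∃ σ : GQ, ρ σ = g :=
  Iff.rfl

theorem mem_U_iff (g : SemilinearAut Qb F) :
    g ∈ (settingOf L ρ hρ hinf htfix hm htreg htpole hres hfib U Sg hS).U ↔
      ∃ u ∈ U, ρ u = g := Iff.rfl

/-- **(M≤)** for the setting, from the field `mle` of the local datum. -/
theorem settingOf_mle :
    (settingOf L ρ hρ hinf htfix hm htreg htpole hres hfib U Sg hS).MLe := by
  intro ι _ f M h1 h2 k
  exact L.mle f M h1 h2 k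

/-- **(Lip)** for the setting, from the field `lip` of the local datum. -/
theorem settingOf_lip :
    (settingOf L ρ hρ hinf htfix hm htreg htpole hres hfib U Sg hS).Lip := by
  obtain ⟨C, hC, h⟩ := L.lip
  exact ⟨C, hC, fun v R hR τ Z hZ => h v R hR τ Z hZ.1 hZ.2⟩

/-- A sum over the image `Sg.image ρ` is a sum over `Sg`. -/
theorem sum_Sg (φ : SemilinearAut Qb F → ℝ) :
    ∑ s ∈ (settingOf L ρ hρ hinf htfix hm htreg htpole hres hfib U Sg hS).Sg, φ s
      = ∑ s ∈ Sg, φ (ρ s) := by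
  classical
  show ∑ s ∈ Sg.image ρ, φ s = _
  convert Finset.sum_image (f := φ) (s := Sg) (g := ρ)
    (fun x _ y _ h => injective_of_baseAut ρ hρ h) using 2

/-- The global pair function as a sum over `Sg ⊆ G_ℚ`. -/
theorem gU_eq (p q : Place Qb F) :
    (settingOf L ρ hρ hinf htfix hm htreg htpole hres hfib U Sg hS).gU p q
      = ∑ s ∈ Sg, ∑ᶠ v, -Real.log (L.δ v (ρ s • p) (ρ s • q)) := by
  unfold HG.Setting.gU
  rw [sum_Sg]
  rfl

/-- The global point height as a sum over `Sg ⊆ G_ℚ`. -/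
theorem etaU_eq (p : Place Qb F) :
    (settingOf L ρ hρ hinf htfix hm htreg htpole hres hfib U Sg hS).etaU p
      = ∑ s ∈ Sg, ∑ᶠ v, Real.log (max 1 (abv v (pval (ρ s • p) t))) / m := by
  unfold HG.Setting.etaU
  rw [sum_Sg]
  rfl

/-- The global height of a coefficient vector as a sum over `Sg ⊆ G_ℚ`. -/
theorem hU_eq {ι : Type*} (a : ι → Qb) :
    (settingOf L ρ hρ hinf htfix hm htreg htpole hres hfib U Sg hS).hU a
      = ∑ s ∈ Sg, ∑ᶠ v, Real.log (⨆ i, abv v (s (a i))) := by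
  unfold HG.Setting.hU
  rw [sum_Sg]
  refine Finset.sum_congr rfl fun s _ => finsum_congr fun v => ?_
  simp only [hρ]
  rfl

/-- The `U`-stable effective divisors of the setting. -/
theorem mem_RatU_iff (D : Place Qb F →₀ ℕ) :
    D ∈ (settingOf L ρ hρ hinf htfix hm htreg htpole hres hfib U Sg hS).RatU ↔
      D pinf = 0 ∧ ∀ u ∈ U, D.mapDomain (fun P => ρ u • P) = D := by
  rw [HG.Setting.mem_RatU]
  constructor
  · rintro ⟨h0, h⟩
    exact ⟨h0, fun u hu => h _ (Subgroup.mem_map_of_mem ρ hu)⟩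
  · rintro ⟨h0, h⟩
    refine ⟨h0, ?_⟩
    rintro _ ⟨u, hu, rfl⟩
    exact h u hu

/-- `U`-fixed coefficient vectors of the setting. -/
theorem uFix_iff {ι : Type*} (a : ι → Qb) :
    (settingOf L ρ hρ hinf htfix hm htreg htpole hres hfib U Sg hS).UFix a ↔
      ∀ u ∈ U, ∀ i, u (a i) = a i := by
  constructor
  · intro h u hu i
    have := h _ (Subgroup.mem_map_of_mem ρ hu) i
    rwa [hρ] at this
  · intro h
    rintro _ ⟨u, hu, rfl⟩ i
    rw [hρ]
    exact h u hu i

end Lemmas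

end Fermat.Agent.MW.Ht.SettingInst
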